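/-
MW / [H-M] (sub-architect helper1) — TAME CONSTANTS (Mathlib only).

Every constant of the local height theory is of the form `(kap v * Hgt Λ v * ρ) ^ e` for ONE
finite set `Λ` of constants and ONE exponent `e`, uniformly in the absolute value `v` (and in the
radius `ρ ≥ 1` of the bounded region).  `kap v` is the ultrametric constant (`1` for a
non-archimedean `v`, `2` otherwise) and `Hgt Λ v = ∏_{c ∈ Λ} max 1 (v c)`.

* `kap`, `abv_add_le`, `abv_sub_le`, `abv_sum_le`;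
* `Hgt`, `one_le_Hgt`, `Hgt_mono`, `abv_le_Hgt`, `Hgt_eq_one`;
* `tq Λ v ρ = kap v * Hgt Λ v * ρ`, `tq_pow_le`, `tq_pow_mul_le`;
* `exists_abv_eval_le` : a polynomial is tamely bounded on the polydisc of radius `ρ`.
-/
import Mathlib

set_option autoImplicit false

namespace Fermat.Agent.MW.HtM

open Finset

variable {K : Type*} [Field K]

/-- The ultrametric constant of an absolute value: `1` if non-archimedean, `2` otherwise. -/
noncomputable def kap (v : AbsoluteValue K ℝ) : ℝ := by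
  classical exact if IsNonarchimedean v then 1 else 2

theorem one_le_kap (v : AbsoluteValue K ℝ) : 1 ≤ kap v := by
  unfold kap; split_ifs <;> norm_num

theorem kap_pos (v : AbsoluteValue K ℝ) : 0 < kap v := lt_of_lt_of_le one_pos (one_le_kap v)

theorem kap_le_two (v : AbsoluteValue K ℝ) : kap v ≤ 2 := by
  unfold kap; split_ifs <;> norm_num

theorem kap_eq_one {v : AbsoluteValue K ℝ} (hv : IsNonarchimedean v) : kap v = 1 := by
  unfold kap; rw [if_pos hv]

/-- The ultrametric-type inequality valid for every absolute value. -/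
theorem abv_add_le (v : AbsoluteValue K ℝ) (a b : K) : v (a + b) ≤ kap v * max (v a) (v b) := by
  classical
  unfold kap
  split_ifs with h
  · rw [one_mul]; exact h a b
  · calc v (a + b) ≤ v a + v b := v.add_le a b
      _ ≤ max (v a) (v b) + max (v a) (v b) := add_le_add (le_max_left _ _) (le_max_right _ _)
      _ = 2 * max (v a) (v b) := by ring

theorem abv_sub_le (v : AbsoluteValue K ℝ) (a b : K) : v (a - b) ≤ kap v * max (v a) (v b) := by
  have := abv_add_le v a (-b)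
  rwa [← sub_eq_add_neg, v.map_neg] at this

/-- If `a + b` is large compared with `b`, then `a` is large. -/
theorem abv_le_of_add (v : AbsoluteValue K ℝ) {a b : K} (h : kap v * v b < v (a + b)) :
    v (a + b) ≤ kap v * v a := by
  have h1 := abv_add_le v a b
  rcases le_total (v a) (v b) with h2 | h2
  · rw [max_eq_right h2] at h1
    exact absurd h1 (not_le.mpr h)
  · rwa [max_eq_left h2] at h1

theorem abv_sum_le (v : AbsoluteValue K ℝ) {ι : Type*} (s : Finset ι) (c : ι → K) {B : ℝ}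
    (hB : 0 ≤ B) (h : ∀ i ∈ s, v (c i) ≤ B) : v (∑ i ∈ s, c i) ≤ kap v ^ s.card * B := by
  classical
  induction s using Finset.induction_on with
  | empty => simpa using hB
  | insert a s ha ih =>
    rw [Finset.sum_insert ha, Finset.card_insert_of_notMem ha, pow_succ]
    have h1 : v (c a) ≤ kap v ^ s.card * B :=
      (h a (Finset.mem_insert_self a s)).trans
        (le_mul_of_one_le_left hB (one_le_pow₀ (one_le_kap v)))
    have h2 := ih fun i hi => h i (Finset.mem_insert_of_mem hi)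
    calc v (c a + ∑ i ∈ s, c i) ≤ kap v * max (v (c a)) (v (∑ i ∈ s, c i)) := abv_add_le v _ _
      _ ≤ kap v * (kap v ^ s.card * B) := by
          exact mul_le_mul_of_nonneg_left (max_le h1 h2) (kap_pos v).le
      _ = kap v ^ s.card * kap v * B := by ring

/-- The size of a finite set of constants at `v`. -/
noncomputable def Hgt (Λ : Finset K) (v : AbsoluteValue K ℝ) : ℝ := ∏ c ∈ Λ, max 1 (v c)

theorem one_le_prod_max {ι : Type*} (s : Finset ι) (f : ι → ℝ) : 1 ≤ ∏ c ∈ s, max 1 (f c) := by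
  have := Finset.prod_le_prod (s := s) (f := fun _ => (1 : ℝ)) (g := fun c => max 1 (f c))
    (fun _ _ => zero_le_one) (fun c _ => le_max_left _ _)
  simpa using this

theorem one_le_Hgt (Λ : Finset K) (v : AbsoluteValue K ℝ) : 1 ≤ Hgt Λ v :=
  one_le_prod_max Λ fun c => v c

theorem Hgt_pos (Λ : Finset K) (v : AbsoluteValue K ℝ) : 0 < Hgt Λ v :=
  lt_of_lt_of_le one_pos (one_le_Hgt Λ v)

theorem Hgt_mono {Λ Λ' : Finset K} (h : Λ ⊆ Λ') (v : AbsoluteValue K ℝ) : Hgt Λ v ≤ Hgt Λ' v := by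
  classical
  unfold Hgt
  rw [← Finset.prod_sdiff h]
  exact le_mul_of_one_le_left
    (Finset.prod_nonneg fun c _ => le_trans zero_le_one (le_max_left _ _))
    (one_le_prod_max _ fun c => v c)

theorem abv_le_Hgt {Λ : Finset K} {c : K} (hc : c ∈ Λ) (v : AbsoluteValue K ℝ) :
    v c ≤ Hgt Λ v := by
  classical
  have h1 : Hgt {c} v ≤ Hgt Λ v := Hgt_mono (Finset.singleton_subset_iff.mpr hc) v
  have h2 : Hgt {c} v = max 1 (v c) := by simp [Hgt]
  exact (le_max_right 1 (v c)).trans (h2 ▸ h1)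

theorem Hgt_eq_one {Λ : Finset K} {v : AbsoluteValue K ℝ} (h : ∀ c ∈ Λ, v c ≤ 1) :
    Hgt Λ v = 1 := by
  unfold Hgt
  exact Finset.prod_eq_one fun c hc => max_eq_left (h c hc)

theorem Hgt_union_le [DecidableEq K] (Λ Λ' : Finset K) (v : AbsoluteValue K ℝ) :
    Hgt (Λ ∪ Λ') v ≤ Hgt Λ v * Hgt Λ' v := by
  unfold Hgt
  rw [← Finset.prod_union_inter]
  exact le_mul_of_one_le_right
    (Finset.prod_nonneg fun c _ => le_trans zero_le_one (le_max_left _ _))
    (one_le_prod_max _ fun c => v c)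

/-- The basic tame quantity. -/
noncomputable def tq (Λ : Finset K) (v : AbsoluteValue K ℝ) (ρ : ℝ) : ℝ := kap v * Hgt Λ v * ρ

theorem one_le_tq (Λ : Finset K) (v : AbsoluteValue K ℝ) {ρ : ℝ} (hρ : 1 ≤ ρ) : 1 ≤ tq Λ v ρ := by
  unfold tq
  have := mul_le_mul (one_le_kap v) (one_le_Hgt Λ v) zero_le_one (kap_pos v).le
  rw [one_mul] at this
  have h2 := mul_le_mul this hρ zero_le_one (le_trans zero_le_one this)
  rwa [one_mul] at h2

theorem tq_pos (Λ : Finset K) (v : AbsoluteValue K ℝ) {ρ : ℝ} (hρ : 1 ≤ ρ) : 0 < tq Λ v ρ :=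
  lt_of_lt_of_le one_pos (one_le_tq Λ v hρ)

theorem tq_mono {Λ Λ' : Finset K} (h : Λ ⊆ Λ') (v : AbsoluteValue K ℝ) {ρ : ℝ} (hρ : 1 ≤ ρ) :
    tq Λ v ρ ≤ tq Λ' v ρ := by
  unfold tq
  exact mul_le_mul_of_nonneg_right
    (mul_le_mul_of_nonneg_left (Hgt_mono h v) (kap_pos v).le) (le_trans zero_le_one hρ)

theorem kap_le_tq (Λ : Finset K) (v : AbsoluteValue K ℝ) {ρ : ℝ} (hρ : 1 ≤ ρ) :
    kap v ≤ tq Λ v ρ := by
  unfold tq
  have h1 : kap v ≤ kap v * Hgt Λ v := le_mul_of_one_le_right (kap_pos v).le (one_le_Hgt Λ v)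
  exact h1.trans (le_mul_of_one_le_right (le_trans (kap_pos v).le h1) hρ)

theorem rho_le_tq (Λ : Finset K) (v : AbsoluteValue K ℝ) {ρ : ℝ} (hρ : 1 ≤ ρ) :
    ρ ≤ tq Λ v ρ := by
  unfold tq
  have h1 : 1 ≤ kap v * Hgt Λ v := by
    have := mul_le_mul (one_le_kap v) (one_le_Hgt Λ v) zero_le_one (kap_pos v).le
    rwa [one_mul] at this
  exact le_mul_of_one_le_left (le_trans zero_le_one hρ) h1

theorem abv_le_tq {Λ : Finset K} {c : K} (hc : c ∈ Λ) (v : AbsoluteValue K ℝ) {ρ : ℝ}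
    (hρ : 1 ≤ ρ) : v c ≤ tq Λ v ρ := by
  unfold tq
  have h1 : v c ≤ kap v * Hgt Λ v :=
    (abv_le_Hgt hc v).trans (le_mul_of_one_le_left (Hgt_pos Λ v).le (one_le_kap v))
  exact h1.trans (le_mul_of_one_le_right (le_trans (v.nonneg c) h1) hρ)

/-- Monotonicity of tame bounds in `(Λ, e)`. -/
theorem tq_pow_le {Λ Λ' : Finset K} (h : Λ ⊆ Λ') {e e' : ℕ} (he : e ≤ e')
    (v : AbsoluteValue K ℝ) {ρ : ℝ} (hρ : 1 ≤ ρ) : tq Λ v ρ ^ e ≤ tq Λ' v ρ ^ e' :=
  (pow_le_pow_left₀ (tq_pos Λ v hρ).le (tq_mono h v hρ) e).trans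
    (pow_le_pow_right₀ (one_le_tq Λ' v hρ) he)

/-- Products of tame bounds are tame. -/
theorem tq_pow_mul_le [DecidableEq K] (Λ Λ' : Finset K) (e e' : ℕ) (v : AbsoluteValue K ℝ)
    {ρ : ℝ} (hρ : 1 ≤ ρ) : tq Λ v ρ ^ e * tq Λ' v ρ ^ e' ≤ tq (Λ ∪ Λ') v ρ ^ (e + e') := by
  rw [pow_add]
  exact mul_le_mul
    (pow_le_pow_left₀ (tq_pos Λ v hρ).le (tq_mono Finset.subset_union_left v hρ) e)
    (pow_le_pow_left₀ (tq_pos Λ' v hρ).le (tq_mono Finset.subset_union_right v hρ) e')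
    (pow_nonneg (tq_pos Λ' v hρ).le _) (pow_nonneg (tq_pos _ v hρ).le _)

theorem one_le_tq_pow (Λ : Finset K) (e : ℕ) (v : AbsoluteValue K ℝ) {ρ : ℝ} (hρ : 1 ≤ ρ) :
    1 ≤ tq Λ v ρ ^ e := one_le_pow₀ (one_le_tq Λ v hρ)

/-- A finite family of tame bounds has a common `(Λ, e)`. -/
theorem exists_common_tq {ι : Type*} [Finite ι] (Λ : ι → Finset K) (e : ι → ℕ) :
    ∃ (Λ₀ : Finset K) (e₀ : ℕ), ∀ (i : ι) (v : AbsoluteValue K ℝ) (ρ : ℝ), 1 ≤ ρ →
      tq (Λ i) v ρ ^ e i ≤ tq Λ₀ v ρ ^ e₀ := by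
  classical
  cases nonempty_fintype ι
  refine ⟨Finset.univ.biUnion Λ, Finset.univ.sup e, fun i v ρ hρ => ?_⟩
  exact tq_pow_le (Finset.subset_biUnion_of_mem Λ (Finset.mem_univ i))
    (Finset.le_sup (f := e) (Finset.mem_univ i)) v hρ

/-- **Polynomials are tamely bounded on polydiscs.** -/
theorem exists_abv_eval_le {σ : Type*} (p : MvPolynomial σ K) :
    ∃ (Λ : Finset K) (e : ℕ), ∀ (v : AbsoluteValue K ℝ) (ρ : ℝ) (x : σ → K), 1 ≤ ρ →
      (∀ i, v (x i) ≤ ρ) → v (MvPolynomial.eval x p) ≤ tq Λ v ρ ^ e := by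
  classical
  induction p using MvPolynomial.induction_on with
  | C a =>
    refine ⟨{a}, 1, fun v ρ x hρ _ => ?_⟩
    rw [MvPolynomial.eval_C, pow_one]
    exact abv_le_tq (Finset.mem_singleton_self a) v hρ
  | add p q hp hq =>
    obtain ⟨Λ, e, h⟩ := hp
    obtain ⟨Λ', e', h'⟩ := hq
    refine ⟨Λ ∪ Λ', 1 + (e + e'), fun v ρ x hρ hx => ?_⟩
    rw [map_add, pow_add, pow_one]
    have h1 : v (MvPolynomial.eval x p) ≤ tq (Λ ∪ Λ') v ρ ^ (e + e') :=
      (h v ρ x hρ hx).trans (tq_pow_le Finset.subset_union_left (Nat.le_add_right e e') v hρ)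
    have h2 : v (MvPolynomial.eval x q) ≤ tq (Λ ∪ Λ') v ρ ^ (e + e') :=
      (h' v ρ x hρ hx).trans (tq_pow_le Finset.subset_union_right (Nat.le_add_left e' e) v hρ)
    calc v (MvPolynomial.eval x p + MvPolynomial.eval x q)
        ≤ kap v * max (v (MvPolynomial.eval x p)) (v (MvPolynomial.eval x q)) := abv_add_le v _ _
      _ ≤ tq (Λ ∪ Λ') v ρ * tq (Λ ∪ Λ') v ρ ^ (e + e') :=
          mul_le_mul (kap_le_tq _ v hρ) (max_le h1 h2) (le_max_of_le_left (v.nonneg _))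
            (tq_pos _ v hρ).le
  | mul_X p i hp =>
    obtain ⟨Λ, e, h⟩ := hp
    refine ⟨Λ, e + 1, fun v ρ x hρ hx => ?_⟩
    rw [map_mul, MvPolynomial.eval_X, v.map_mul, pow_succ]
    exact mul_le_mul (h v ρ x hρ hx) ((hx i).trans (rho_le_tq Λ v hρ)) (v.nonneg _)
      (pow_nonneg (tq_pos Λ v hρ).le _)

end Fermat.Agent.MW.HtM
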