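/-
MW / [H-M] — the diagonal unit of a chart, by Nakayama (Mathlib only).

`A` a finitely generated `K`-algebra, `R : A →ₐ[K] K` a point, `z ∈ A` a function such that
`z - z(R)` spans `m_R / m_R²`.  Then there is `h ∈ A ⊗ A` with `h(R, R) = 1` such that
`h · (x ⊗ 1 - 1 ⊗ x) ∈ (z ⊗ 1 - 1 ⊗ z)` for every `x ∈ A`; the quotient can be chosen `K`-linearly
in `x`.  Evaluating the second tensor factor at a point `R'` gives the division step
`h(·, R') · (ψ - ψ(R')) = D_{R'}(ψ) · (z - z(R'))`.
-/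
import Mathlib

set_option autoImplicit false

open scoped TensorProduct

namespace Fermat.Agent.MW.HtM.Diag

variable {K A : Type*} [Field K] [CommRing A] [Algebra K A]

/-- The difference `x ⊗ 1 - 1 ⊗ x`. -/
noncomputable def dd (K : Type*) {A : Type*} [Field K] [CommRing A] [Algebra K A] (x : A) :
    A ⊗[K] A :=
  x ⊗ₜ[K] (1 : A) - (1 : A) ⊗ₜ[K] x

theorem dd_add (x y : A) : dd K (x + y) = dd K x + dd K y := by
  simp only [dd, TensorProduct.add_tmul, TensorProduct.tmul_add]; abel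

theorem dd_sub (x y : A) : dd K (x - y) = dd K x - dd K y := by
  simp only [dd, TensorProduct.sub_tmul, TensorProduct.tmul_sub]; abel

theorem dd_smul (c : K) (x : A) : dd K (c • x) = c • dd K x := by
  simp only [dd, smul_sub, TensorProduct.smul_tmul', TensorProduct.tmul_smul]

theorem dd_algebraMap (c : K) : dd K (algebraMap K A c) = 0 := by
  simp only [dd, Algebra.algebraMap_eq_smul_one, TensorProduct.smul_tmul', TensorProduct.tmul_smul,
    sub_self]

theorem dd_mul (a b : A) :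
    dd K (a * b) = a ⊗ₜ[K] (1 : A) * dd K b + (1 : A) ⊗ₜ[K] b * dd K a := by
  simp only [dd, mul_sub, Algebra.TensorProduct.tmul_mul_tmul, mul_one, one_mul, mul_comm b a]
  abel

theorem dd_mem_ideal (x : A) : dd K x ∈ KaehlerDifferential.ideal K A := by
  simp [dd, RingHom.mem_ker]

/-- Evaluation of `A ⊗ A` at a pair of points. -/
noncomputable def ev2 (P Q : A →ₐ[K] K) : A ⊗[K] A →ₐ[K] K :=
  Algebra.TensorProduct.lift P Q (fun _ _ => Commute.all _ _)

@[simp] theorem ev2_tmul (P Q : A →ₐ[K] K) (a b : A) : ev2 P Q (a ⊗ₜ[K] b) = P a * Q b := by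
  simp [ev2]

theorem ev2_dd (P Q : A →ₐ[K] K) (x : A) : ev2 P Q (dd K x) = P x - Q x := by
  simp [dd]

/-- Evaluation of the second tensor factor at a point: `a ⊗ b ↦ Q(b) • a`. -/
noncomputable def evR (Q : A →ₐ[K] K) : A ⊗[K] A →ₐ[K] A :=
  Algebra.TensorProduct.lift (AlgHom.id K A) ((Algebra.ofId K A).comp Q)
    (fun _ _ => Commute.all _ _)

@[simp] theorem evR_tmul (Q : A →ₐ[K] K) (a b : A) :
    evR Q (a ⊗ₜ[K] b) = a * algebraMap K A (Q b) := by
  simp [evR, Algebra.ofId_apply]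

theorem evR_dd (Q : A →ₐ[K] K) (x : A) : evR Q (dd K x) = x - algebraMap K A (Q x) := by
  simp [dd]

theorem apply_evR (P Q : A →ₐ[K] K) (t : A ⊗[K] A) : P (evR Q t) = ev2 P Q t := by
  induction t using TensorProduct.induction_on with
  | zero => simp
  | tmul a b => simp
  | add x y hx hy => simp [hx, hy]

/-- Key inclusion: if `z - z(R)` spans `m_R / m_R²`, the diagonal ideal is contained in
`(z ⊗ 1 - 1 ⊗ z) + 𝔐 · I_Δ`, `𝔐` the maximal ideal of the pair `(R, R)`. -/
theorem ideal_le_span_sup (R : A →ₐ[K] K) (z : A)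
    (hz : ∀ x : A, R x = 0 →
      ∃ c : K, x - c • (z - algebraMap K A (R z)) ∈ (RingHom.ker R.toRingHom) ^ 2) :
    KaehlerDifferential.ideal K A ≤
      Ideal.span {dd K z} ⊔ RingHom.ker (ev2 R R).toRingHom • KaehlerDifferential.ideal K A := by
  set J : Ideal (A ⊗[K] A) :=
    Ideal.span {dd K z} ⊔ RingHom.ker (ev2 R R).toRingHom • KaehlerDifferential.ideal K A with hJ
  -- products of two elements of `m_R`
  have hprod : ∀ y : A, y ∈ (RingHom.ker R.toRingHom) ^ 2 → dd K y ∈ J := by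
    intro y hy
    rw [pow_two] at hy
    refine Submodule.mul_induction_on hy ?_ ?_
    · intro a ha b hb
      rw [dd_mul]
      refine Ideal.mem_sup_right (add_mem ?_ ?_)
      · refine Submodule.smul_mem_smul ?_ (dd_mem_ideal b)
        rw [RingHom.mem_ker] at ha ⊢
        have ha' : R a = 0 := ha
        simp [ha']
      · refine Submodule.smul_mem_smul ?_ (dd_mem_ideal a)
        rw [RingHom.mem_ker] at hb ⊢
        have hb' : R b = 0 := hb
        simp [hb']
    · intro x y hx hy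
      rw [dd_add]
      exact add_mem hx hy
  have hall : ∀ x : A, dd K x ∈ J := by
    intro x
    obtain ⟨c, hc⟩ := hz (x - algebraMap K A (R x)) (by simp)
    have h1 := hprod _ hc
    have h2 : dd K x = dd K (x - algebraMap K A (R x) - c • (z - algebraMap K A (R z)))
        + c • dd K z := by
      simp only [dd_sub, dd_smul, dd_algebraMap, sub_zero, sub_add_cancel]
    rw [h2]
    refine add_mem h1 (Ideal.mem_sup_left ?_)
    rw [Algebra.smul_def]
    exact Ideal.mul_mem_left _ _ (Ideal.subset_span rfl)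
  rw [← KaehlerDifferential.span_range_eq_ideal, Ideal.span_le]
  rintro _ ⟨s, rfl⟩
  have h3 : (1 : A) ⊗ₜ[K] s - s ⊗ₜ[K] (1 : A) = - dd K s := by simp [dd]
  change (1 : A) ⊗ₜ[K] s - s ⊗ₜ[K] (1 : A) ∈ J
  rw [h3]
  exact neg_mem (hall s)

/-- **The diagonal unit.** -/
theorem exists_diag_unit [Algebra.FiniteType K A] (R : A →ₐ[K] K) (z : A)
    (hz : ∀ x : A, R x = 0 →
      ∃ c : K, x - c • (z - algebraMap K A (R z)) ∈ (RingHom.ker R.toRingHom) ^ 2) :
    ∃ h : A ⊗[K] A,
      Algebra.TensorProduct.lift R R (fun _ _ => Commute.all _ _) h = 1 ∧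
      ∀ x : A, ∃ c : A ⊗[K] A,
        h * (x ⊗ₜ[K] (1 : A) - (1 : A) ⊗ₜ[K] x) = c * (z ⊗ₜ[K] (1 : A) - (1 : A) ⊗ₜ[K] z) := by
  have hfg : (KaehlerDifferential.ideal K A).FG := KaehlerDifferential.ideal_fg K A
  obtain ⟨r, hr1, hr2⟩ := Submodule.exists_sub_one_mem_and_smul_le_of_fg_of_le_sup
    (I := RingHom.ker (ev2 R R).toRingHom) (N := Ideal.span {dd K z})
    (N' := KaehlerDifferential.ideal K A) (P := KaehlerDifferential.ideal K A)
    hfg le_rfl (ideal_le_span_sup R z hz)
  refine ⟨r, ?_, fun x => ?_⟩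
  · rw [RingHom.mem_ker] at hr1
    have : ev2 R R (r - 1) = 0 := hr1
    rw [map_sub, map_one, sub_eq_zero] at this
    exact this
  · have hx : r • dd K x ∈ (Ideal.span {dd K z} : Ideal (A ⊗[K] A)) :=
      hr2 (Submodule.smul_mem_pointwise_smul _ _ _ (dd_mem_ideal x))
    rw [Ideal.mem_span_singleton'] at hx
    obtain ⟨c, hc⟩ := hx
    exact ⟨c, by rw [← smul_eq_mul r]; exact hc.symm⟩

/-- The linear form of the diagonal unit: the quotient `c_x` can be chosen `K`-linearly. -/
theorem exists_diag_unit_linear [Algebra.FiniteType K A] (R : A →ₐ[K] K) (z : A)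
    (hz : ∀ x : A, R x = 0 →
      ∃ c : K, x - c • (z - algebraMap K A (R z)) ∈ (RingHom.ker R.toRingHom) ^ 2) :
    ∃ (h : A ⊗[K] A) (T : A →ₗ[K] A ⊗[K] A),
      ev2 R R h = 1 ∧ ∀ x : A, h * dd K x = T x * dd K z := by
  obtain ⟨h, h1, h2⟩ := exists_diag_unit R z hz
  choose c hc using h2
  let b := Module.Free.chooseBasis K A
  refine ⟨h, b.constr K (fun i => c (b i)), h1, fun x => ?_⟩
  -- both sides are linear in `x`
  have hlin : (LinearMap.mulLeft K h).comp
      ((TensorProduct.mk K A A).flip 1 - TensorProduct.mk K A A 1)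
      = (LinearMap.mulRight K (dd K z)).comp (b.constr K (fun i => c (b i))) := by
    refine b.ext fun i => ?_
    simp only [LinearMap.comp_apply, LinearMap.sub_apply, LinearMap.flip_apply,
      TensorProduct.mk_apply, LinearMap.mulLeft_apply, LinearMap.mulRight_apply,
      Module.Basis.constr_basis]
    exact hc (b i)
  have := congrArg (fun f => f x) hlin
  simp only [LinearMap.comp_apply, LinearMap.sub_apply, LinearMap.flip_apply,
    TensorProduct.mk_apply, LinearMap.mulLeft_apply, LinearMap.mulRight_apply] at this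
  exact this

/-- **Division step.** With chart data `(z, h, T)`, for every point `Q` and every `ψ`:
`h(·, Q) · (ψ - ψ(Q)) = D_Q(ψ) · (z - z(Q))` in `A`, where `D_Q ψ := (id ⊗ Q)(T ψ)`. -/
theorem division_step {z : A} {h : A ⊗[K] A} {T : A →ₗ[K] A ⊗[K] A}
    (hT : ∀ x : A, h * dd K x = T x * dd K z) (Q : A →ₐ[K] K) (ψ : A) :
    evR Q h * (ψ - algebraMap K A (Q ψ)) = evR Q (T ψ) * (z - algebraMap K A (Q z)) := by
  have := congrArg (evR Q) (hT ψ)
  simpa only [map_mul, evR_dd] using this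

/-- Division step at a zero `Q` of `ψ`, evaluated at a point `S`:
`h(S, Q) · ψ(S) = (D_Q ψ)(S) · (z(S) - z(Q))`. -/
theorem division_step_apply {z : A} {h : A ⊗[K] A} {T : A →ₗ[K] A ⊗[K] A}
    (hT : ∀ x : A, h * dd K x = T x * dd K z) (Q S : A →ₐ[K] K) {ψ : A} (hψ : Q ψ = 0) :
    ev2 S Q h * S ψ = S (evR Q (T ψ)) * (S z - Q z) := by
  have := congrArg S (division_step hT Q ψ)
  simpa only [map_mul, map_sub, apply_evR, hψ, map_zero, sub_zero, AlgHom.commutes,
    Algebra.algebraMap_self_apply] using this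

/-- Local injectivity of the chart coordinate: where `h(S, Q) ≠ 0`, `z(S) = z(Q)` forces
`S = Q`. -/
theorem eq_of_apply_z_eq {z : A} {h : A ⊗[K] A} {T : A →ₗ[K] A ⊗[K] A}
    (hT : ∀ x : A, h * dd K x = T x * dd K z) (Q S : A →ₐ[K] K) (hne : ev2 S Q h ≠ 0)
    (hz : S z = Q z) : S = Q := by
  ext x
  have := congrArg (ev2 S Q) (hT x)
  simp only [map_mul, ev2_dd, hz, sub_self, mul_zero] at this
  rcases mul_eq_zero.mp this with h0 | h0
  · exact absurd h0 hne
  · exact sub_eq_zero.mp h0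

end Fermat.Agent.MW.HtM.Diag
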