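/-
MW / [H-M] — tame constants and the boundedness / Lipschitz calculus on a bounded chart
(Mathlib only).

A *tame* constant is a function `C : V → ℝ` on the set of places with `1 ≤ C` and `C = 1` off a
finite set.  For a family of absolute values on `K` (finitely many non-ultrametric, every element
of `K` of absolute value `≤ 1` at almost all places), a `K`-algebra `A`, points `A →ₐ[K] K` and
regions `B v`, we show: if the generators of `A` are tamely bounded on `B`, then every element of
`A` (and of `A ⊗ A`) is tamely bounded and tamely Lipschitz on `B`.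
-/
import Mathlib
import Fermat.Agent.MW.HtM.Diag

set_option autoImplicit false

open scoped TensorProduct

namespace Fermat.Agent.MW.HtM

open Diag

/-- Tame constants: `≥ 1` everywhere, `= 1` off a finite set. -/
def Tame {V : Type*} (C : V → ℝ) : Prop := (∀ v, 1 ≤ C v) ∧ {v | C v ≠ 1}.Finite

namespace Tame

variable {V : Type*} {C D : V → ℝ}

theorem one : Tame (fun _ : V => (1 : ℝ)) := ⟨fun _ => le_rfl, by simp⟩

theorem pos (hC : Tame C) (v : V) : 0 < C v := lt_of_lt_of_le one_pos (hC.1 v)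

theorem nonneg (hC : Tame C) (v : V) : 0 ≤ C v := (hC.pos v).le

theorem mul (hC : Tame C) (hD : Tame D) : Tame (fun v => C v * D v) := by
  refine ⟨fun v => one_le_mul_of_one_le_of_one_le (hC.1 v) (hD.1 v),
    (hC.2.union hD.2).subset ?_⟩
  intro v hv
  by_contra hcon
  simp only [Set.mem_union, Set.mem_ofPred_eq, not_or, not_not] at hcon
  exact hv (by simp [hcon.1, hcon.2])

theorem pow (hC : Tame C) (n : ℕ) : Tame (fun v => C v ^ n) := by
  induction n with
  | zero => simpa using (one : Tame (fun _ : V => (1 : ℝ)))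
  | succ n ih => simpa [pow_succ] using ih.mul hC

theorem prod {ι : Type*} (s : Finset ι) (E : ι → V → ℝ) (h : ∀ i ∈ s, Tame (E i)) :
    Tame (fun v => ∏ i ∈ s, E i v) := by
  classical
  induction s using Finset.induction_on with
  | empty => simpa using (one : Tame (fun _ : V => (1 : ℝ)))
  | insert i s hi ih =>
    have h1 := h i (Finset.mem_insert_self i s)
    have h2 := ih fun j hj => h j (Finset.mem_insert_of_mem hj)
    simpa [Finset.prod_insert hi] using h1.mul h2

theorem le_prod {ι : Type*} (s : Finset ι) (E : ι → V → ℝ) (h : ∀ i ∈ s, Tame (E i))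
    {i : ι} (hi : i ∈ s) (v : V) : E i v ≤ ∏ j ∈ s, E j v := by
  classical
  rw [← Finset.mul_prod_erase s (fun j => E j v) hi]
  have h2 : Tame (fun v => ∏ j ∈ s.erase i, E j v) :=
    prod _ E fun j hj => h j (Finset.mem_of_mem_erase hj)
  exact le_mul_of_one_le_right ((h i hi).nonneg v) (h2.1 v)

theorem inv_le_one (hC : Tame C) (v : V) : (C v)⁻¹ ≤ 1 := inv_le_one_of_one_le₀ (hC.1 v)

end Tame

/-- A family of absolute values on `K`: finitely many are not ultrametric, and every element of
`K` has absolute value `≤ 1` at almost all of them. -/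
structure AbsFamily (K : Type*) [Field K] (V : Type*) where
  /-- the absolute values -/
  abv : V → AbsoluteValue K ℝ
  finite_arch : {v | ¬ IsNonarchimedean (abv v)}.Finite
  finite_gt_one : ∀ c : K, {v | 1 < abv v c}.Finite

namespace AbsFamily

variable {K : Type*} [Field K] {V : Type*} (F : AbsFamily K V)

open Classical in
/-- The constant `1` at ultrametric places and `max 1 n` at the others. -/
noncomputable def archN (n : ℕ) (v : V) : ℝ :=
  if IsNonarchimedean (F.abv v) then 1 else max 1 (n : ℝ)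

theorem tame_archN (n : ℕ) : Tame (F.archN n) := by
  refine ⟨fun v => ?_, F.finite_arch.subset ?_⟩
  · unfold archN; split_ifs
    · exact le_rfl
    · exact le_max_left _ _
  · intro v hv
    by_contra hcon
    simp only [Set.mem_ofPred_eq, not_not] at hcon
    exact hv (by simp [archN, hcon])

theorem archN_of_nonarch {v : V} (hv : IsNonarchimedean (F.abv v)) (n : ℕ) : F.archN n v = 1 := by
  simp [archN, hv]

theorem archN_of_arch {v : V} (hv : ¬ IsNonarchimedean (F.abv v)) (n : ℕ) :
    F.archN n v = max 1 (n : ℝ) := by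
  simp [archN, hv]

theorem abv_sum_le {ι : Type*} (v : V) (s : Finset ι) (f : ι → K) {M : ℝ} (hM : 0 ≤ M)
    (h : ∀ i ∈ s, F.abv v (f i) ≤ M) : F.abv v (∑ i ∈ s, f i) ≤ F.archN s.card v * M := by
  classical
  by_cases hv : IsNonarchimedean (F.abv v)
  · rw [F.archN_of_nonarch hv, one_mul]
    induction s using Finset.induction_on with
    | empty => simpa using hM
    | insert i s hi ih =>
      rw [Finset.sum_insert hi]
      refine (hv _ _).trans (max_le (h i (Finset.mem_insert_self i s)) ?_)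
      exact ih fun j hj => h j (Finset.mem_insert_of_mem hj)
  · rw [F.archN_of_arch hv]
    calc F.abv v (∑ i ∈ s, f i) ≤ ∑ i ∈ s, F.abv v (f i) := (F.abv v).sum_le _ _
      _ ≤ ∑ _i ∈ s, M := Finset.sum_le_sum h
      _ = s.card * M := by simp
      _ ≤ max 1 (s.card : ℝ) * M := by gcongr; exact le_max_right _ _

theorem abv_add_le (v : V) (a b : K) {M : ℝ} (ha : F.abv v a ≤ M) (hb : F.abv v b ≤ M) :
    F.abv v (a + b) ≤ F.archN 2 v * M := by
  classical
  have hM : 0 ≤ M := le_trans ((F.abv v).nonneg a) ha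
  have := F.abv_sum_le v (Finset.univ : Finset (Fin 2)) ![a, b] hM (by
    intro i _; fin_cases i <;> simpa)
  simpa [Fin.sum_univ_two] using this

theorem tame_max_one (c : K) : Tame (fun v => max 1 (F.abv v c)) := by
  refine ⟨fun v => le_max_left _ _, (F.finite_gt_one c).subset ?_⟩
  intro v hv
  by_contra hcon
  simp only [Set.mem_ofPred_eq, not_lt] at hcon
  exact hv (max_eq_left hcon)

/-- Lower bounds are stable under small perturbations (both kinds of places at once). -/
theorem le_abv_of_sub_lt (v : V) {κ : ℝ} (a b : K) (hb : κ⁻¹ ≤ F.abv v b)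
    (hab : F.abv v (a - b) < (κ * F.archN 2 v)⁻¹) : (κ * F.archN 2 v)⁻¹ ≤ F.abv v a := by
  by_cases hv : IsNonarchimedean (F.abv v)
  · rw [F.archN_of_nonarch hv, mul_one] at hab ⊢
    have h1 : F.abv v b ≤ max (F.abv v a) (F.abv v (b - a)) := by
      have := hv a (b - a)
      simpa using this
    have h2 : F.abv v (b - a) < κ⁻¹ := by rwa [(F.abv v).map_sub b a]
    rcases le_max_iff.mp h1 with h3 | h3
    · exact hb.trans h3
    · exact absurd (hb.trans h3) (not_le.mpr h2)
  · rw [F.archN_of_arch hv] at hab ⊢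
    have h2 : (max 1 ((2 : ℕ) : ℝ)) = 2 := by norm_num
    rw [h2] at hab ⊢
    have h1 : F.abv v b ≤ F.abv v a + F.abv v (a - b) := by
      have := (F.abv v).add_le a (b - a)
      rw [(F.abv v).map_sub b a] at this
      simpa using this
    have h3 : (κ * 2)⁻¹ = κ⁻¹ / 2 := by rw [mul_inv]; ring
    rw [h3] at hab ⊢
    linarith

end AbsFamily

section Bdd

variable {K A V : Type*} [Field K] [CommRing A] [Algebra K A]
variable (F : AbsFamily K V) (B : V → Set (A →ₐ[K] K))

/-- `a` is tamely bounded on the regions `B v`. -/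
def TBdd (a : A) : Prop :=
  ∃ C : V → ℝ, Tame C ∧ ∀ v, ∀ S ∈ B v, F.abv v (S a) ≤ C v

theorem TBdd.algebraMap (c : K) : TBdd F B (algebraMap K A c) :=
  ⟨_, F.tame_max_one c, fun v S _ => by simp⟩

variable {F B} in
theorem TBdd.add {a b : A} (ha : TBdd F B a) (hb : TBdd F B b) : TBdd F B (a + b) := by
  obtain ⟨C, hC, h1⟩ := ha
  obtain ⟨D, hD, h2⟩ := hb
  refine ⟨_, (F.tame_archN 2).mul (hC.mul hD), fun v S hS => ?_⟩
  rw [map_add]
  refine F.abv_add_le v _ _ ?_ ?_
  · exact (h1 v S hS).trans (le_mul_of_one_le_right (hC.nonneg v) (hD.1 v))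
  · exact (h2 v S hS).trans (le_mul_of_one_le_left (hD.nonneg v) (hC.1 v))

variable {F B} in
theorem TBdd.mul {a b : A} (ha : TBdd F B a) (hb : TBdd F B b) : TBdd F B (a * b) := by
  obtain ⟨C, hC, h1⟩ := ha
  obtain ⟨D, hD, h2⟩ := hb
  refine ⟨_, hC.mul hD, fun v S hS => ?_⟩
  rw [map_mul, (F.abv v).map_mul]
  exact mul_le_mul (h1 v S hS) (h2 v S hS) ((F.abv v).nonneg _) (hC.nonneg v)

/-- The subalgebra of tamely bounded elements. -/
def tbddSubalgebra : Subalgebra K A where
  carrier := {a | TBdd F B a}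
  mul_mem' ha hb := ha.mul hb
  add_mem' ha hb := ha.add hb
  algebraMap_mem' c := TBdd.algebraMap F B c

theorem tbdd_of_adjoin (s : Set A) (hs : Algebra.adjoin K s = ⊤) (h : ∀ x ∈ s, TBdd F B x)
    (a : A) : TBdd F B a := by
  have h1 : Algebra.adjoin K s ≤ tbddSubalgebra F B := Algebra.adjoin_le h
  rw [hs] at h1
  exact h1 Algebra.mem_top

/-- `t ∈ A ⊗ A` is tamely bounded on `B v × B v`. -/
def TBdd2 (t : A ⊗[K] A) : Prop :=
  ∃ C : V → ℝ, Tame C ∧ ∀ v, ∀ S ∈ B v, ∀ R ∈ B v, F.abv v (ev2 S R t) ≤ C v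

theorem tbdd2 (hB : ∀ a : A, TBdd F B a) (t : A ⊗[K] A) : TBdd2 F B t := by
  induction t using TensorProduct.induction_on with
  | zero => exact ⟨_, Tame.one, fun v S _ R _ => by simp⟩
  | tmul a b =>
    obtain ⟨C, hC, h1⟩ := hB a
    obtain ⟨D, hD, h2⟩ := hB b
    refine ⟨_, hC.mul hD, fun v S hS R hR => ?_⟩
    rw [ev2_tmul, (F.abv v).map_mul]
    exact mul_le_mul (h1 v S hS) (h2 v R hR) ((F.abv v).nonneg _) (hC.nonneg v)
  | add x y hx hy =>
    obtain ⟨C, hC, h1⟩ := hx
    obtain ⟨D, hD, h2⟩ := hy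
    refine ⟨_, (F.tame_archN 2).mul (hC.mul hD), fun v S hS R hR => ?_⟩
    rw [map_add]
    refine F.abv_add_le v _ _ ?_ ?_
    · exact (h1 v S hS R hR).trans (le_mul_of_one_le_right (hC.nonneg v) (hD.1 v))
    · exact (h2 v S hS R hR).trans (le_mul_of_one_le_left (hD.nonneg v) (hC.1 v))

variable {ι : Type*} (x : ι → A)

/-- Coordinate distance of two points at the place `v`. -/
noncomputable def cdist (v : V) (R S : A →ₐ[K] K) : ℝ :=
  ⨆ i, F.abv v (S (x i) - R (x i))

theorem cdist_nonneg (v : V) (R S : A →ₐ[K] K) : 0 ≤ cdist F x v R S :=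
  Real.iSup_nonneg fun _ => (F.abv v).nonneg _

theorem le_cdist [Finite ι] (v : V) (R S : A →ₐ[K] K) (i : ι) :
    F.abv v (S (x i) - R (x i)) ≤ cdist F x v R S :=
  Finite.le_ciSup (fun i => F.abv v (S (x i) - R (x i))) i

theorem cdist_comm (v : V) (R S : A →ₐ[K] K) : cdist F x v R S = cdist F x v S R := by
  unfold cdist
  congr 1
  funext i
  exact (F.abv v).map_sub _ _

theorem cdist_self (v : V) (S : A →ₐ[K] K) : cdist F x v S S = 0 := by
  simp [cdist]

/-- `a` is tamely Lipschitz on the regions `B v` with respect to the coordinates `x`. -/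
def TLip (a : A) : Prop :=
  ∃ C : V → ℝ, Tame C ∧ ∀ v, ∀ S ∈ B v, ∀ R ∈ B v,
    F.abv v (S a - R a) ≤ C v * cdist F x v R S

/-- The subalgebra of tamely bounded, tamely Lipschitz elements. -/
def tlipSubalgebra : Subalgebra K A where
  carrier := {a | TBdd F B a ∧ TLip F B x a}
  mul_mem' := by
    rintro a b ⟨ha, C, hC, h1⟩ ⟨hb, D, hD, h2⟩
    refine ⟨ha.mul hb, ?_⟩
    obtain ⟨Ca, hCa, h3⟩ := ha
    obtain ⟨Cb, hCb, h4⟩ := hb
    refine ⟨_, (F.tame_archN 2).mul ((hCa.mul hD).mul (hCb.mul hC)), fun v S hS R hR => ?_⟩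
    have e : S (a * b) - R (a * b) = S a * (S b - R b) + R b * (S a - R a) := by
      simp only [map_mul]; ring
    rw [e, mul_assoc]
    refine F.abv_add_le v _ _ ?_ ?_
    · rw [(F.abv v).map_mul]
      calc F.abv v (S a) * F.abv v (S b - R b)
          ≤ Ca v * (D v * cdist F x v R S) :=
            mul_le_mul (h3 v S hS) (h2 v S hS R hR) ((F.abv v).nonneg _) (hCa.nonneg v)
        _ = (Ca v * D v) * cdist F x v R S := by ring
        _ ≤ (Ca v * D v) * (Cb v * C v) * cdist F x v R S := by
            refine mul_le_mul_of_nonneg_right ?_ (cdist_nonneg F x v R S)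
            exact le_mul_of_one_le_right (mul_nonneg (hCa.nonneg v) (hD.nonneg v))
              ((hCb.mul hC).1 v)
    · rw [(F.abv v).map_mul]
      calc F.abv v (R b) * F.abv v (S a - R a)
          ≤ Cb v * (C v * cdist F x v R S) :=
            mul_le_mul (h4 v R hR) (h1 v S hS R hR) ((F.abv v).nonneg _) (hCb.nonneg v)
        _ = (Cb v * C v) * cdist F x v R S := by ring
        _ ≤ (Ca v * D v) * (Cb v * C v) * cdist F x v R S := by
            refine mul_le_mul_of_nonneg_right ?_ (cdist_nonneg F x v R S)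
            exact le_mul_of_one_le_left (mul_nonneg (hCb.nonneg v) (hC.nonneg v))
              ((hCa.mul hD).1 v)
  add_mem' := by
    rintro a b ⟨ha, C, hC, h1⟩ ⟨hb, D, hD, h2⟩
    refine ⟨ha.add hb, _, (F.tame_archN 2).mul (hC.mul hD), fun v S hS R hR => ?_⟩
    have e : S (a + b) - R (a + b) = (S a - R a) + (S b - R b) := by
      simp only [map_add]; ring
    rw [e, mul_assoc]
    refine F.abv_add_le v _ _ ?_ ?_
    · refine (h1 v S hS R hR).trans ?_
      refine mul_le_mul_of_nonneg_right ?_ (cdist_nonneg F x v R S)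
      exact le_mul_of_one_le_right (hC.nonneg v) (hD.1 v)
    · refine (h2 v S hS R hR).trans ?_
      refine mul_le_mul_of_nonneg_right ?_ (cdist_nonneg F x v R S)
      exact le_mul_of_one_le_left (hD.nonneg v) (hC.1 v)
  algebraMap_mem' c :=
    ⟨TBdd.algebraMap F B c, _, Tame.one, fun v S _ R _ => by
      simpa using cdist_nonneg F x v R S⟩

theorem tlip_of_adjoin [Finite ι] (hx : Algebra.adjoin K (Set.range x) = ⊤)
    (hB : ∀ a : A, TBdd F B a) (a : A) : TLip F B x a := by
  have h1 : Algebra.adjoin K (Set.range x) ≤ tlipSubalgebra F B x := by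
    refine Algebra.adjoin_le ?_
    rintro _ ⟨i, rfl⟩
    refine ⟨hB _, _, Tame.one, fun v S _ R _ => ?_⟩
    rw [one_mul]
    exact le_cdist F x v R S i
  rw [hx] at h1
  exact (h1 (Algebra.mem_top (x := a))).2

/-- `t ∈ A ⊗ A` is tamely Lipschitz in both variables. -/
def TLip2 (t : A ⊗[K] A) : Prop :=
  ∃ C : V → ℝ, Tame C ∧ ∀ v, ∀ S ∈ B v, ∀ R ∈ B v, ∀ S' ∈ B v, ∀ R' ∈ B v,
    F.abv v (ev2 S R t - ev2 S' R' t) ≤ C v * max (cdist F x v S' S) (cdist F x v R' R)

theorem tlip2 (hB : ∀ a : A, TBdd F B a) (hL : ∀ a : A, TLip F B x a) (t : A ⊗[K] A) :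
    TLip2 F B x t := by
  induction t using TensorProduct.induction_on with
  | zero =>
    refine ⟨_, Tame.one, fun v S _ R _ S' _ R' _ => ?_⟩
    simp only [map_zero, sub_self, one_mul]
    exact le_max_of_le_left (cdist_nonneg F x v S' S)
  | tmul a b =>
    obtain ⟨Ca, hCa, h3⟩ := hB a
    obtain ⟨Cb, hCb, h4⟩ := hB b
    obtain ⟨C, hC, h1⟩ := hL a
    obtain ⟨D, hD, h2⟩ := hL b
    refine ⟨_, (F.tame_archN 2).mul ((hCa.mul hD).mul (hCb.mul hC)),
      fun v S hS R hR S' hS' R' hR' => ?_⟩
    have e : ev2 S R (a ⊗ₜ[K] b) - ev2 S' R' (a ⊗ₜ[K] b)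
        = S a * (R b - R' b) + R' b * (S a - S' a) := by
      simp only [ev2_tmul]; ring
    set m := max (cdist F x v S' S) (cdist F x v R' R) with hm
    have hm0 : 0 ≤ m := le_max_of_le_left (cdist_nonneg F x v S' S)
    rw [e, mul_assoc]
    refine F.abv_add_le v _ _ ?_ ?_
    · rw [(F.abv v).map_mul]
      calc F.abv v (S a) * F.abv v (R b - R' b)
          ≤ Ca v * (D v * cdist F x v R' R) :=
            mul_le_mul (h3 v S hS) (h2 v R hR R' hR') ((F.abv v).nonneg _) (hCa.nonneg v)
        _ ≤ Ca v * (D v * m) := by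
            have := le_max_right (cdist F x v S' S) (cdist F x v R' R)
            have h5 := hCa.nonneg v
            have h6 := hD.nonneg v
            gcongr
        _ = (Ca v * D v) * m := by ring
        _ ≤ (Ca v * D v) * (Cb v * C v) * m := by
            refine mul_le_mul_of_nonneg_right ?_ hm0
            exact le_mul_of_one_le_right (mul_nonneg (hCa.nonneg v) (hD.nonneg v))
              ((hCb.mul hC).1 v)
    · rw [(F.abv v).map_mul]
      calc F.abv v (R' b) * F.abv v (S a - S' a)
          ≤ Cb v * (C v * cdist F x v S' S) :=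
            mul_le_mul (h4 v R' hR') (h1 v S hS S' hS') ((F.abv v).nonneg _) (hCb.nonneg v)
        _ ≤ Cb v * (C v * m) := by
            have := le_max_left (cdist F x v S' S) (cdist F x v R' R)
            have h5 := hCb.nonneg v
            have h6 := hC.nonneg v
            gcongr
        _ = (Cb v * C v) * m := by ring
        _ ≤ (Ca v * D v) * (Cb v * C v) * m := by
            refine mul_le_mul_of_nonneg_right ?_ hm0
            exact le_mul_of_one_le_left (mul_nonneg (hCb.nonneg v) (hC.nonneg v))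
              ((hCa.mul hD).1 v)
  | add s t hs ht =>
    obtain ⟨C, hC, h1⟩ := hs
    obtain ⟨D, hD, h2⟩ := ht
    refine ⟨_, (F.tame_archN 2).mul (hC.mul hD), fun v S hS R hR S' hS' R' hR' => ?_⟩
    have e : ev2 S R (s + t) - ev2 S' R' (s + t)
        = (ev2 S R s - ev2 S' R' s) + (ev2 S R t - ev2 S' R' t) := by
      simp only [map_add]; ring
    have hm0 : 0 ≤ max (cdist F x v S' S) (cdist F x v R' R) :=
      le_max_of_le_left (cdist_nonneg F x v S' S)
    rw [e, mul_assoc]
    refine F.abv_add_le v _ _ ?_ ?_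
    · refine (h1 v S hS R hR S' hS' R' hR').trans ?_
      refine mul_le_mul_of_nonneg_right ?_ hm0
      exact le_mul_of_one_le_right (hC.nonneg v) (hD.1 v)
    · refine (h2 v S hS R hR S' hS' R' hR').trans ?_
      refine mul_le_mul_of_nonneg_right ?_ hm0
      exact le_mul_of_one_le_left (hD.nonneg v) (hC.1 v)

end Bdd

end Fermat.Agent.MW.HtM
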