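/-
MW / [H-M] — the abstract fibre Lipschitz bound on one bounded chart (Mathlib only).

For a function `t` on the chart, a value `τ` and the fibre `Z` of `t` over `τ` (a multiset of
points, with multiplicity):  `∏_{S ∈ Z} cdist_v(S, R) ≤ C_v · |t(R) - τ|_v`.

Inputs: for finitely many Vandermonde combinations `y_j = ∑ λ_j^i x_i` of the coordinates, a
polynomial identity `Φ_j(R, τ) := ∑_k g_{j,k}(R) τ^k` with `Φ_j(R, t(R)) = 0` and
`Φ_j(R, τ) = κ_j ∏_{S ∈ Z} (y_j(R) - y_j(S))` (the norm of `t - τ` to `K(y_j)`, evaluated at `R`).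
-/
import Mathlib
import Fermat.Agent.MW.HtM.Tame

set_option autoImplicit false

namespace Fermat.Agent.MW.HtM

variable {K : Type*} {A : Type*} {V : Type*} [Field K] [CommRing A] [Algebra K A]

theorem AbsFamily.archN_mono (F : AbsFamily K V) {k d : ℕ} (h : k ≤ d) (v : V) :
    F.archN k v ≤ F.archN d v := by
  unfold AbsFamily.archN
  split_ifs
  · exact le_rfl
  · exact max_le_max le_rfl (by exact_mod_cast h)

/-- **Vandermonde.** The coordinates of a vector are tamely bounded by its values at `n`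
distinct nodes. -/
theorem vandermonde_bound (F : AbsFamily K V) {n : ℕ} (lam : Fin n → K)
    (hlam : Function.Injective lam) :
    ∃ C : V → ℝ, Tame C ∧ ∀ v (w : Fin n → K) (M : ℝ),
      (∀ j, F.abv v (∑ i : Fin n, lam j ^ (i : ℕ) * w i) ≤ M) → ∀ i, F.abv v (w i) ≤ C v * M := by
  classical
  set Vm := Matrix.vandermonde lam with hVm
  have hdet : Vm.det ≠ 0 := Matrix.det_vandermonde_ne_zero_iff.mpr hlam
  have hinv : Vm⁻¹ * Vm = 1 := Matrix.nonsing_inv_mul _ (isUnit_iff_ne_zero.mpr hdet)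
  refine ⟨fun v => F.archN n v * ∏ p : Fin n × Fin n, max 1 (F.abv v (Vm⁻¹ p.1 p.2)),
    (F.tame_archN n).mul (Tame.prod _ _ fun p _ => F.tame_max_one _), ?_⟩
  intro v w M hM i
  have hM0 : 0 ≤ M := le_trans ((F.abv v).nonneg _) (hM i)
  have hVw : ∀ j, Vm.mulVec w j = ∑ i : Fin n, lam j ^ (i : ℕ) * w i := fun j => by
    simp [Matrix.mulVec, dotProduct, hVm, Matrix.vandermonde_apply]
  have hw : w i = ∑ j, Vm⁻¹ i j * Vm.mulVec w j := by
    have : w = Vm⁻¹.mulVec (Vm.mulVec w) := by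
      rw [Matrix.mulVec_mulVec, hinv, Matrix.one_mulVec]
    conv_lhs => rw [this]
    simp [Matrix.mulVec, dotProduct]
  set P := ∏ p : Fin n × Fin n, max 1 (F.abv v (Vm⁻¹ p.1 p.2)) with hP
  have hP0 : 0 ≤ P := Finset.prod_nonneg fun p _ => le_trans zero_le_one (le_max_left _ _)
  rw [hw, mul_assoc]
  have hcard : (Finset.univ : Finset (Fin n)).card = n := by simp
  have := F.abv_sum_le v (Finset.univ : Finset (Fin n))
    (fun j => Vm⁻¹ i j * Vm.mulVec w j) (mul_nonneg hP0 hM0) (fun j _ => by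
      rw [(F.abv v).map_mul]
      refine mul_le_mul ?_ (by rw [hVw j]; exact hM j) ((F.abv v).nonneg _) hP0
      refine le_trans (le_max_right 1 _) ?_
      exact Tame.le_prod Finset.univ (fun (p : Fin n × Fin n) v => max 1 (F.abv v (Vm⁻¹ p.1 p.2)))
        (fun p _ => F.tame_max_one _) (Finset.mem_univ (i, j)) v)
  rwa [hcard] at this

/-- **A node good for all vectors of a multiset at once.** -/
theorem exists_good_node (F : AbsFamily K V) {n m : ℕ} {Nd : Type*} [Fintype Nd] (lam : Nd → K)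
    (hlam : Function.Injective lam) (hcard : m * (n - 1) < Fintype.card Nd) :
    ∃ C : V → ℝ, Tame C ∧ ∀ v (W : Multiset (Fin n → K)), W.card ≤ m →
      ∃ j : Nd, ∀ w ∈ W, ∀ i, F.abv v (w i) ≤ C v * F.abv v (∑ i : Fin n, lam j ^ (i : ℕ) * w i) := by
  classical
  choose Ce hCe hce using fun e : Fin n ↪ Nd =>
    vandermonde_bound F (lam ∘ e) (hlam.comp e.injective)
  refine ⟨fun v => ∏ e, Ce e v, Tame.prod _ _ (fun e _ => hCe e), ?_⟩
  intro v W hW
  by_contra hcon
  simp only [not_exists, not_forall, not_le] at hcon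
  choose f hfW i hi using hcon
  have ht : W.toFinset.card * (n - 1) < (Finset.univ : Finset Nd).card := by
    calc W.toFinset.card * (n - 1) ≤ m * (n - 1) :=
          Nat.mul_le_mul_right _ ((Multiset.toFinset_card_le W).trans hW)
      _ < (Finset.univ : Finset Nd).card := by rwa [Finset.card_univ]
  obtain ⟨w, -, hlt⟩ := Finset.exists_lt_card_fiber_of_mul_lt_card_of_maps_to (f := f)
    (fun j _ => Multiset.mem_toFinset.mpr (hfW j)) ht
  have hn : n ≤ (Finset.univ.filter fun j => f j = w).card := by omega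
  obtain ⟨s, hs, hsc⟩ := Finset.exists_subset_card_eq hn
  let e0 : Fin n ≃ s := (Finset.equivFinOfCardEq hsc).symm
  let e : Fin n ↪ Nd := ⟨fun k => (e0 k : Nd), fun a b h => e0.injective (Subtype.ext h)⟩
  have hew : ∀ k, f (e k) = w := fun k => (Finset.mem_filter.mp (hs (e0 k).2)).2
  -- the fibre is nonempty, hence `n ≥ 1`
  have hne : (Finset.univ.filter fun j => f j = w).Nonempty := by
    rw [← Finset.card_pos]; omega
  obtain ⟨j0, hj0⟩ := hne
  have i0 : Fin n := i j0
  obtain ⟨imax, -, himax⟩ := Finset.exists_max_image Finset.univ (fun i => F.abv v (w i))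
    ⟨i0, Finset.mem_univ _⟩
  obtain ⟨kmax, -, hkmax⟩ := Finset.exists_max_image Finset.univ
    (fun k : Fin n => F.abv v (∑ i : Fin n, lam (e k) ^ (i : ℕ) * w i)) ⟨i0, Finset.mem_univ _⟩
  set M := F.abv v (∑ i : Fin n, lam (e kmax) ^ (i : ℕ) * w i) with hM
  have h1 : F.abv v (w imax) ≤ Ce e v * M :=
    hce e v w M (fun k => hkmax k (Finset.mem_univ k)) imax
  have h2 : Ce e v * M ≤ (∏ e, Ce e v) * M :=
    mul_le_mul_of_nonneg_right
      (Tame.le_prod Finset.univ Ce (fun e _ => hCe e) (Finset.mem_univ e) v)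
      ((F.abv v).nonneg _)
  have h3 := hi (e kmax)
  rw [hew kmax] at h3
  have h4 : F.abv v (w (i (e kmax))) ≤ F.abv v (w imax) := himax _ (Finset.mem_univ _)
  linarith

/-- **The abstract fibre Lipschitz bound.** -/
theorem fibre_lip (F : AbsFamily K V) (B : V → Set (A →ₐ[K] K)) (hB : ∀ a : A, TBdd F B a)
    {n : ℕ} (x : Fin n → A) (t : A) {Nd : Type*} [Fintype Nd] (lam : Nd → K)
    (hlam : Function.Injective lam) (m d : ℕ) (hcard : m * (n - 1) < Fintype.card Nd)
    (g : Nd → Fin d → A) (κ : Nd → K) (hκ : ∀ j, κ j ≠ 0) (ρ : V → ℝ) (hρ : Tame ρ) :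
    ∃ C : V → ℝ, Tame C ∧ ∀ v, ∀ R ∈ B v, ∀ τ : K, F.abv v τ ≤ ρ v →
      ∀ Z : Multiset (A →ₐ[K] K), Z.card ≤ m →
      (∀ j, ∑ k, R (g j k) * R t ^ (k : ℕ) = 0) →
      (∀ j, ∑ k, R (g j k) * τ ^ (k : ℕ)
          = κ j * (Z.map fun S => R (∑ i : Fin n, lam j ^ (i : ℕ) • x i)
              - S (∑ i : Fin n, lam j ^ (i : ℕ) • x i)).prod) →
      (Z.map fun S => cdist F x v S R).prod ≤ C v * F.abv v (R t - τ) := by
  classical
  obtain ⟨Cn, hCn, hnode⟩ := exists_good_node F (n := n) (m := m) lam hlam hcard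
  obtain ⟨Ct, hCt, htb⟩ := hB t
  choose Cg hCg hgb using fun p : Nd × Fin d => hB (g p.1 p.2)
  set r : V → ℝ := fun v => ρ v * Ct v with hr
  have hrt : Tame r := hρ.mul hCt
  set Cκ : V → ℝ := fun v => ∏ j, max 1 (F.abv v (κ j)⁻¹) with hCκ
  have hCκt : Tame Cκ := Tame.prod _ _ fun j _ => F.tame_max_one _
  set G : V → ℝ := fun v => ∏ p, Cg p v with hG
  have hGt : Tame G := Tame.prod _ _ fun p _ => hCg p
  set E : V → ℝ := fun v => F.archN d v * (G v * (F.archN d v * r v ^ d)) with hE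
  have hEt : Tame E := (F.tame_archN d).mul (hGt.mul ((F.tame_archN d).mul (hrt.pow d)))
  refine ⟨fun v => Cn v ^ m * (Cκ v * E v), (hCn.pow m).mul (hCκt.mul hEt), ?_⟩
  intro v R hR τ hτ Z hZ h0 hfac
  -- the difference vectors
  set wS : (A →ₐ[K] K) → Fin n → K := fun S i => R (x i) - S (x i) with hwS
  obtain ⟨j, hj⟩ := hnode v (Z.map wS) (by rw [Multiset.card_map]; exact hZ)
  set y : A := ∑ i : Fin n, lam j ^ (i : ℕ) • x i with hy
  have hyw : ∀ S : A →ₐ[K] K, ∑ i : Fin n, lam j ^ (i : ℕ) * wS S i = R y - S y := by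
    intro S
    simp only [hwS, hy, map_sum, map_smul, smul_eq_mul, mul_sub, Finset.sum_sub_distrib]
  have hS : ∀ S ∈ Z, cdist F x v S R ≤ Cn v * F.abv v (R y - S y) := by
    intro S hSZ
    refine Real.iSup_le (fun i => ?_) (mul_nonneg (hCn.nonneg v) ((F.abv v).nonneg _))
    have := hj (wS S) (Multiset.mem_map_of_mem wS hSZ) i
    rwa [hyw S] at this
  -- product over the fibre
  have hprod1 : (Z.map fun S => cdist F x v S R).prod
      ≤ (Z.map fun S => Cn v * F.abv v (R y - S y)).prod :=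
    Multiset.prod_map_le_prod_map₀ _ _ (fun S _ => cdist_nonneg F x v S R) hS
  have hprod2 : (Z.map fun S => Cn v * F.abv v (R y - S y)).prod
      = Cn v ^ Multiset.card Z * F.abv v ((Z.map fun S => R y - S y).prod) := by
    rw [Multiset.prod_map_mul, map_multiset_prod, Multiset.map_map]
    simp only [Multiset.map_const', Multiset.prod_replicate]
    rfl
  have hCnpow : Cn v ^ Multiset.card Z ≤ Cn v ^ m := pow_le_pow_right₀ (hCn.1 v) hZ
  -- the polynomial identity
  set b := R t with hb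
  have hτ' : F.abv v τ ≤ r v := hτ.trans (le_mul_of_one_le_right (hρ.nonneg v) (hCt.1 v))
  have hb' : F.abv v b ≤ r v := (htb v R hR).trans (le_mul_of_one_le_left (hCt.nonneg v) (hρ.1 v))
  have hr1 : 1 ≤ r v := hrt.1 v
  have hr0 : 0 ≤ r v := hrt.nonneg v
  have hkey : κ j * (Z.map fun S => R y - S y).prod
      = ∑ k : Fin d, R (g j k) * (τ ^ (k : ℕ) - b ^ (k : ℕ)) := by
    rw [← hfac j]
    have := h0 j
    simp only [mul_sub, Finset.sum_sub_distrib]
    rw [this, sub_zero]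
  have hterm : ∀ k : Fin d, F.abv v (R (g j k) * (τ ^ (k : ℕ) - b ^ (k : ℕ)))
      ≤ G v * (F.archN d v * r v ^ d) * F.abv v (b - τ) := by
    intro k
    have h1 : τ ^ (k : ℕ) - b ^ (k : ℕ)
        = (∑ i ∈ Finset.range (k : ℕ), τ ^ i * b ^ ((k : ℕ) - 1 - i)) * (τ - b) :=
      (geom_sum₂_mul τ b k).symm
    have h2 : F.abv v (∑ i ∈ Finset.range (k : ℕ), τ ^ i * b ^ ((k : ℕ) - 1 - i))
        ≤ F.archN d v * r v ^ d := by
      have h3 := F.abv_sum_le v (Finset.range (k : ℕ))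
        (fun i => τ ^ i * b ^ ((k : ℕ) - 1 - i)) (pow_nonneg hr0 d) (fun i hi => by
          rw [Finset.mem_range] at hi
          rw [(F.abv v).map_mul, (F.abv v).map_pow, (F.abv v).map_pow]
          calc F.abv v τ ^ i * F.abv v b ^ ((k : ℕ) - 1 - i)
              ≤ r v ^ i * r v ^ ((k : ℕ) - 1 - i) :=
                mul_le_mul (pow_le_pow_left₀ ((F.abv v).nonneg _) hτ' _)
                  (pow_le_pow_left₀ ((F.abv v).nonneg _) hb' _)
                  (pow_nonneg ((F.abv v).nonneg _) _) (pow_nonneg hr0 _)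
            _ = r v ^ (i + ((k : ℕ) - 1 - i)) := (pow_add _ _ _).symm
            _ ≤ r v ^ d := pow_le_pow_right₀ hr1 (by have := k.2; omega))
      rw [Finset.card_range] at h3
      exact h3.trans (mul_le_mul_of_nonneg_right (F.archN_mono k.2.le v) (pow_nonneg hr0 d))
    rw [h1, (F.abv v).map_mul, (F.abv v).map_mul, (F.abv v).map_sub τ b, ← mul_assoc]
    refine mul_le_mul_of_nonneg_right ?_ ((F.abv v).nonneg _)
    refine mul_le_mul ?_ h2 ((F.abv v).nonneg _) (hGt.nonneg v)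
    exact (hgb (j, k) v R hR).trans
      (Tame.le_prod Finset.univ Cg (fun p _ => hCg p) (Finset.mem_univ (j, k)) v)
  have hsum : F.abv v (∑ k : Fin d, R (g j k) * (τ ^ (k : ℕ) - b ^ (k : ℕ)))
      ≤ E v * F.abv v (b - τ) := by
    have h3 := F.abv_sum_le v (Finset.univ : Finset (Fin d))
      (fun k => R (g j k) * (τ ^ (k : ℕ) - b ^ (k : ℕ)))
      (mul_nonneg (mul_nonneg (hGt.nonneg v)
        (mul_nonneg ((F.tame_archN d).nonneg v) (pow_nonneg hr0 d))) ((F.abv v).nonneg (b - τ)))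
      (fun k _ => hterm k)
    rw [Finset.card_univ, Fintype.card_fin, ← mul_assoc] at h3
    exact h3
  have hκj : F.abv v ((Z.map fun S => R y - S y).prod)
      ≤ Cκ v * (E v * F.abv v (b - τ)) := by
    have h1 : (Z.map fun S => R y - S y).prod
        = (κ j)⁻¹ * ∑ k : Fin d, R (g j k) * (τ ^ (k : ℕ) - b ^ (k : ℕ)) := by
      rw [← hkey, ← mul_assoc, inv_mul_cancel₀ (hκ j), one_mul]
    rw [h1, (F.abv v).map_mul]
    refine mul_le_mul ?_ hsum ((F.abv v).nonneg _) (hCκt.nonneg v)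
    refine le_trans (le_max_right 1 _) ?_
    exact Tame.le_prod Finset.univ (fun j v => max 1 (F.abv v (κ j)⁻¹))
      (fun j _ => F.tame_max_one _) (Finset.mem_univ j) v
  calc (Z.map fun S => cdist F x v S R).prod
      ≤ Cn v ^ Multiset.card Z * F.abv v ((Z.map fun S => R y - S y).prod) := by
        rw [← hprod2]; exact hprod1
    _ ≤ Cn v ^ m * (Cκ v * (E v * F.abv v (b - τ))) :=
        mul_le_mul hCnpow hκj ((F.abv v).nonneg _) (pow_nonneg (hCn.nonneg v) m)
    _ = Cn v ^ m * (Cκ v * E v) * F.abv v (b - τ) := by ring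

end Fermat.Agent.MW.HtM
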