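/-
MW / [H-M] (sub-architect helper1) — THE LOCAL VOCABULARY and the INTERFACE between the local
height theory (HT-M) and the global one (HT-Q / HT-glob).

* `pval P f` : the value of the function `f` at the place `P` (the constant `c` with
  `f - c ∈ 𝔪_P`; junk `0` if there is none, e.g. if `f` has a pole at `P`);
* `LocalDatum pinf t m` : a local distance `δ v R S` on the places of `F/K`, for EVERY absolute
  value `v` of `K`, with the two local estimates of the theory, with TAME constants
  (`(kap v * Hgt Λ v) ^ e`, see `Tame.lean`):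
    - `mle` : the uniform interpolation bound (M≤) for functions with poles only at `pinf`;
    - `lip` : the fibre Lipschitz bound for `t`.
  `t` is a function with poles only at `pinf`, of pole order `m` there.
-/
import Mathlib
import Fermat.Prelude.Def_AlgebraicCurve_DivisorClassGroup
import Fermat.Agent.MW.HtM.TameQ
import Fermat.Agent.MW.HQ.Defs

set_option autoImplicit false

namespace Fermat.Agent.MW.HtM

open AlgebraicCurve

variable {K F : Type*} [Field K] [Field F] [Algebra K F]

/-- **The value of `f` at the place `P`**: the constant `c` with `f - c ∈ 𝔪_P`, if there is one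
(it is unique); `0` otherwise. -/
noncomputable def pval (P : Place K F) (f : F) : K := by
  classical
  exact if h : ∃ c : K, P.adicValuation (f - algebraMap K F c) < 1 then h.choose else 0

theorem adicValuation_algebraMap (P : Place K F) {c : K} (hc : c ≠ 0) :
    P.adicValuation (algebraMap K F c) = 1 := by
  have h1 : IsUnit (algebraMap K P.toValuationSubring c) := (IsUnit.mk0 c hc).map _
  have h2 := (P.adicValuation_coe_eq_one_iff (algebraMap K P.toValuationSubring c)).mpr h1
  rwa [P.coe_algebraMap] at h2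

/-- Uniqueness of the value. -/
theorem pval_eq (P : Place K F) {f : F} {c : K} (h : P.adicValuation (f - algebraMap K F c) < 1) :
    pval P f = c := by
  classical
  have hex : ∃ c : K, P.adicValuation (f - algebraMap K F c) < 1 := ⟨c, h⟩
  unfold pval
  rw [dif_pos hex]
  by_contra hne
  have h1 := hex.choose_spec
  have h2 : P.adicValuation (algebraMap K F (hex.choose - c)) < 1 := by
    have h3 : algebraMap K F (hex.choose - c)
        = (f - algebraMap K F c) - (f - algebraMap K F hex.choose) := by
      rw [map_sub]; ring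
    rw [h3]
    exact lt_of_le_of_lt (Valuation.map_sub _ _ _) (max_lt h h1)
  rw [adicValuation_algebraMap P (sub_ne_zero.mpr hne)] at h2
  exact lt_irrefl _ h2

theorem pval_spec (P : Place K F) {f : F}
    (h : ∃ c : K, P.adicValuation (f - algebraMap K F c) < 1) :
    P.adicValuation (f - algebraMap K F (pval P f)) < 1 := by
  obtain ⟨c, hc⟩ := h
  rwa [pval_eq P hc]

@[simp] theorem pval_algebraMap (P : Place K F) (c : K) : pval P (algebraMap K F c) = c :=
  pval_eq P (by simp)

@[simp] theorem pval_zero (P : Place K F) : pval P (0 : F) = 0 := by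
  simpa using pval_algebraMap P (0 : K)

@[simp] theorem pval_one (P : Place K F) : pval P (1 : F) = 1 := by
  simpa using pval_algebraMap P (1 : K)

/-- **The interface HT-M ⟶ HT-glob.**  `pinf` is the base point, `t` a function with poles only
at `pinf`, of pole order `m` there.  All constants are tame: `(kap v * Hgt Λ v) ^ e`. -/
structure LocalDatum (pinf : Place K F) (t : F) (m : ℕ) where
  /-- the local distance at the absolute value `v` -/
  δ : AbsoluteValue K ℝ → Place K F → Place K F → ℝ
  δ_symm : ∀ v R S, δ v R S = δ v S R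
  δ_nonneg : ∀ v R S, 0 ≤ δ v R S
  δ_le_one : ∀ v R S, δ v R S ≤ 1
  δ_self : ∀ v R, R ≠ pinf → δ v R R = 0
  δ_pos : ∀ v R S, R ≠ pinf → S ≠ pinf → R ≠ S → 0 < δ v R S
  /-- `δ v R S = 1` for almost all `v` -/
  δ_eq_one : ∀ R S, R ≠ pinf → S ≠ pinf → R ≠ S → ∃ Λ : Finset K, (∀ c ∈ Λ, c ≠ 0) ∧
    ∀ v : AbsoluteValue K ℝ, IsNonarchimedean v → (∀ c ∈ Λ, v c = 1) → δ v R S = 1
  /-- **(M≤)**: the uniform interpolation bound.  `φ = ∑ a i • f i` with `f i` regular off `pinf`
  of pole order `≤ M` there; `D` an effective divisor `≤ div φ` off `pinf`. -/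
  mle : ∀ {ι : Type} [Fintype ι] (f : ι → F) (M : ℕ),
    (∀ i, ∀ P : Place K F, P ≠ pinf → 0 ≤ P.ord (f i)) → (∀ i, -(M : ℤ) ≤ pinf.ord (f i)) →
    ∀ k : ℕ, ∃ (Λ : Finset K) (e : ℕ), ∀ (v : AbsoluteValue K ℝ) (a : ι → K) (A : ℝ), 0 ≤ A →
      (∀ i, v (a i) ≤ A) → ∀ S : Place K F, S ≠ pinf → ∀ D : Place K F →₀ ℕ, HQ.deg D ≤ k →
      D pinf = 0 → (∀ R, (D R : ℤ) ≤ R.ord (∑ i, a i • f i)) →
      v (pval S (∑ i, a i • f i)) ^ m ≤
        (kap v * Hgt Λ v) ^ e * A ^ m * max 1 (v (pval S t)) ^ M *
          (D.prod fun R n => δ v R S ^ n) ^ m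
  /-- **(Lip)**: the fibre Lipschitz bound.  `Z` is the divisor of zeros of `t - τ`. -/
  lip : ∃ (Λ : Finset K) (e : ℕ), ∀ (v : AbsoluteValue K ℝ) (R : Place K F), R ≠ pinf →
    ∀ (τ : K) (Z : Place K F →₀ ℕ), Z pinf = 0 →
      (∀ P, P ≠ pinf → (Z P : ℤ) = P.ord (t - algebraMap K F τ)) →
      (Z.prod fun S n => δ v R S ^ n) * (max 1 (v (pval R t)) * max 1 (v τ)) ≤
        (kap v * Hgt Λ v) ^ e * v (pval R t - τ)

end Fermat.Agent.MW.HtM
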