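/-
MW / [H-M] — the chain bound: iterated division at the zeros close to a point (Mathlib only).

With chart data `(z, h, T)` (`h * dd x = T x * dd z`), `D_Q ψ := (id ⊗ Q)(T ψ)` and a chain of
zeros `Q₁, …, Q_k` of `ψ`:
  `∏ h(S, Q_j) · ψ(S) = (D_{Q_k} ⋯ D_{Q_1} ψ)(S) · ∏ (z(S) - z(Q_j))`,
and the iterated operators are tamely bounded on the bounded regions, uniformly in the
coefficient vector of `ψ` in any fixed finite family.
-/
import Mathlib
import Fermat.Agent.MW.HtM.Tame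

set_option autoImplicit false

open scoped TensorProduct

namespace Fermat.Agent.MW.HtM

open Diag

universe uA

variable {K : Type*} {A : Type uA} {V : Type*} [Field K] [CommRing A] [Algebra K A]

/-- The division operator at a point `Q`: `D_Q ψ = (id ⊗ Q)(T ψ)`. -/
noncomputable def Dq (T : A →ₗ[K] A ⊗[K] A) (Q : A →ₐ[K] K) : A →ₗ[K] A :=
  (evR Q).toLinearMap ∘ₗ T

theorem Dq_apply (T : A →ₗ[K] A ⊗[K] A) (Q : A →ₐ[K] K) (ψ : A) :
    Dq T Q ψ = evR Q (T ψ) := rfl

/-- Iterated division along a list of points. -/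
noncomputable def iterD (T : A →ₗ[K] A ⊗[K] A) (L : List (A →ₐ[K] K)) (ψ : A) : A :=
  L.foldl (fun φ Q => Dq T Q φ) ψ

@[simp] theorem iterD_nil (T : A →ₗ[K] A ⊗[K] A) (ψ : A) : iterD T [] ψ = ψ := rfl

@[simp] theorem iterD_cons (T : A →ₗ[K] A ⊗[K] A) (Q : A →ₐ[K] K) (L : List (A →ₐ[K] K))
    (ψ : A) : iterD T (Q :: L) ψ = iterD T L (Dq T Q ψ) := rfl

/-- `L` is a chain of zeros of `ψ` (with respect to the division operators of the chart). -/
def ChainZero (T : A →ₗ[K] A ⊗[K] A) : List (A →ₐ[K] K) → A → Prop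
  | [], _ => True
  | Q :: L, ψ => Q ψ = 0 ∧ ChainZero T L (Dq T Q ψ)

@[simp] theorem chainZero_nil (T : A →ₗ[K] A ⊗[K] A) (ψ : A) : ChainZero T [] ψ := trivial

theorem chainZero_cons (T : A →ₗ[K] A ⊗[K] A) (Q : A →ₐ[K] K) (L : List (A →ₐ[K] K))
    (ψ : A) : ChainZero T (Q :: L) ψ ↔ Q ψ = 0 ∧ ChainZero T L (Dq T Q ψ) := Iff.rfl

/-- The exact chain identity. -/
theorem chain_identity {z : A} {h : A ⊗[K] A} {T : A →ₗ[K] A ⊗[K] A}
    (hT : ∀ x : A, h * dd K x = T x * dd K z) (S : A →ₐ[K] K) :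
    ∀ (L : List (A →ₐ[K] K)) (ψ : A), ChainZero T L ψ →
      (L.map fun Q => ev2 S Q h).prod * S ψ
        = S (iterD T L ψ) * (L.map fun Q => S z - Q z).prod := by
  intro L
  induction L with
  | nil => intro ψ _; simp
  | cons Q L ih =>
    intro ψ hψ
    obtain ⟨h0, h1⟩ := hψ
    have h2 := division_step_apply hT Q S h0
    have h3 := ih (Dq T Q ψ) h1
    simp only [List.map_cons, List.prod_cons, iterD_cons]
    calc ev2 S Q h * (L.map fun Q => ev2 S Q h).prod * S ψ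
        = (L.map fun Q => ev2 S Q h).prod * (ev2 S Q h * S ψ) := by ring
      _ = ((L.map fun Q => ev2 S Q h).prod * S (Dq T Q ψ)) * (S z - Q z) := by
          rw [h2, Dq_apply]; ring
      _ = S (iterD T L (Dq T Q ψ)) * ((S z - Q z) * (L.map fun Q => S z - Q z).prod) := by
          rw [h3]; ring

/-- The iterated division operators are tamely bounded. -/
theorem iterD_bound (F : AbsFamily K V) (B : V → Set (A →ₐ[K] K)) (hB : ∀ a : A, TBdd F B a)
    (T : A →ₗ[K] A ⊗[K] A) (n : ℕ) :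
    ∀ {ι : Type uA} [Fintype ι] (u : ι → A), ∃ C : V → ℝ, Tame C ∧
      ∀ v (a : ι → K), ∀ S ∈ B v, ∀ L : List (A →ₐ[K] K), L.length = n →
        (∀ Q ∈ L, Q ∈ B v) →
        F.abv v (S (iterD T L (∑ i, a i • u i))) ≤ C v * ⨆ i, F.abv v (a i) := by
  induction n with
  | zero =>
    intro ι _ u
    choose Cu hCu hu using fun i => hB (u i)
    refine ⟨fun v => F.archN (Fintype.card ι) v * ∏ i, Cu i v,
      (F.tame_archN _).mul (Tame.prod _ _ fun i _ => hCu i), ?_⟩
    intro v a S hS L hL _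
    obtain rfl := List.length_eq_zero_iff.mp hL
    have hsup : 0 ≤ ⨆ i, F.abv v (a i) := Real.iSup_nonneg fun _ => (F.abv v).nonneg _
    have hprod : 0 ≤ ∏ i, Cu i v := Finset.prod_nonneg fun i _ => (hCu i).nonneg v
    simp only [iterD_nil, map_sum, map_smul, smul_eq_mul]
    rw [mul_assoc]
    have hcard : (Finset.univ : Finset ι).card = Fintype.card ι := Finset.card_univ
    rw [← hcard]
    refine F.abv_sum_le v Finset.univ _ (mul_nonneg hprod hsup) ?_
    intro i _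
    rw [(F.abv v).map_mul, mul_comm (∏ i, Cu i v)]
    refine mul_le_mul (Finite.le_ciSup (fun i => F.abv v (a i)) i) ?_ ((F.abv v).nonneg _) hsup
    exact (hu i v S hS).trans (Tame.le_prod _ _ (fun i _ => hCu i) (Finset.mem_univ i) v)
  | succ n ih =>
    intro ι _ u
    choose Sf hSf using fun i => TensorProduct.exists_finset (T (u i))
    let u' : (Σ i : ι, ↥(Sf i)) → A := fun x => x.2.1.1
    obtain ⟨C', hC', h'⟩ := ih u'
    choose Cq hCq hq using fun x : (Σ i : ι, ↥(Sf i)) => hB x.2.1.2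
    refine ⟨fun v => C' v * ∏ x, Cq x v, hC'.mul (Tame.prod _ _ fun x _ => hCq x), ?_⟩
    intro v a S hS L hL hLB
    match L, hL, hLB with
    | Q :: L', hL, hLB =>
      have hQ : Q ∈ B v := hLB Q (List.mem_cons_self)
      have hL' : L'.length = n := by simpa using hL
      have hLB' : ∀ Q' ∈ L', Q' ∈ B v := fun Q' hQ' => hLB Q' (List.mem_cons_of_mem _ hQ')
      have key : Dq T Q (∑ i, a i • u i)
          = ∑ x : (Σ i : ι, ↥(Sf i)), (a x.1 * Q x.2.1.2) • u' x := by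
        rw [Fintype.sum_sigma, map_sum]
        refine Finset.sum_congr rfl fun i _ => ?_
        rw [map_smul, Dq_apply, hSf i, map_sum, Finset.smul_sum,
          ← Finset.sum_coe_sort (Sf i)]
        refine Finset.sum_congr rfl fun p _ => ?_
        rw [evR_tmul, mul_smul, Algebra.smul_def (Q p.1.2) (u' ⟨i, p⟩), mul_comm]
      rw [iterD_cons, key]
      have h1 := h' v (fun x => a x.1 * Q x.2.1.2) S hS L' hL' hLB'
      have hsup : 0 ≤ ⨆ i, F.abv v (a i) := Real.iSup_nonneg fun _ => (F.abv v).nonneg _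
      have hprod : 0 ≤ ∏ x, Cq x v := Finset.prod_nonneg fun x _ => (hCq x).nonneg v
      have h2 : (⨆ x : (Σ i : ι, ↥(Sf i)), F.abv v (a x.1 * Q x.2.1.2))
          ≤ (∏ x, Cq x v) * ⨆ i, F.abv v (a i) := by
        refine Real.iSup_le (fun x => ?_) (mul_nonneg hprod hsup)
        rw [(F.abv v).map_mul, mul_comm (∏ x, Cq x v)]
        refine mul_le_mul (Finite.le_ciSup (fun i => F.abv v (a i)) x.1) ?_
          ((F.abv v).nonneg _) hsup
        exact (hq x v Q hQ).trans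
          (Tame.le_prod _ _ (fun x _ => hCq x) (Finset.mem_univ x) v)
      calc F.abv v (S (iterD T L' (∑ x : (Σ i : ι, ↥(Sf i)), (a x.1 * Q x.2.1.2) • u' x)))
          ≤ C' v * ⨆ x : (Σ i : ι, ↥(Sf i)), F.abv v (a x.1 * Q x.2.1.2) := h1
        _ ≤ C' v * ((∏ x, Cq x v) * ⨆ i, F.abv v (a i)) :=
            mul_le_mul_of_nonneg_left h2 (hC'.nonneg v)
        _ = C' v * (∏ x, Cq x v) * ⨆ i, F.abv v (a i) := by ring

/-- **The chain bound.** For chart data `(z, h, T)` and a fixed finite family `u`, the value of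
`ψ = ∑ aᵢ uᵢ` at `S` is controlled by the chain of zeros `L`:
`|∏ h(S, Q)| · |ψ(S)| ≤ C_v · max |aᵢ| · ∏ |z(S) - z(Q)|`. -/
theorem chain_bound (F : AbsFamily K V) (B : V → Set (A →ₐ[K] K)) (hB : ∀ a : A, TBdd F B a)
    {z : A} {h : A ⊗[K] A} {T : A →ₗ[K] A ⊗[K] A}
    (hT : ∀ x : A, h * dd K x = T x * dd K z) (n : ℕ) {ι : Type uA} [Fintype ι] (u : ι → A) :
    ∃ C : V → ℝ, Tame C ∧
      ∀ v (a : ι → K), ∀ S ∈ B v, ∀ L : List (A →ₐ[K] K), L.length = n →
        (∀ Q ∈ L, Q ∈ B v) → ChainZero T L (∑ i, a i • u i) →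
        (L.map fun Q => F.abv v (ev2 S Q h)).prod * F.abv v (S (∑ i, a i • u i))
          ≤ C v * (⨆ i, F.abv v (a i)) * (L.map fun Q => F.abv v (S z - Q z)).prod := by
  obtain ⟨C, hC, hb⟩ := iterD_bound F B hB T n u
  refine ⟨C, hC, fun v a S hS L hL hLB hch => ?_⟩
  have h1 := chain_identity hT S L _ hch
  have h2 := congrArg (F.abv v) h1
  rw [(F.abv v).map_mul, (F.abv v).map_mul, map_list_prod, map_list_prod, List.map_map,
    List.map_map] at h2
  have h3 : (L.map ((F.abv v) ∘ fun Q => ev2 S Q h)) = L.map fun Q => F.abv v (ev2 S Q h) := rfl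
  have h4 : (L.map ((F.abv v) ∘ fun Q => S z - Q z)) = L.map fun Q => F.abv v (S z - Q z) := rfl
  rw [h3, h4] at h2
  rw [h2]
  refine mul_le_mul_of_nonneg_right (hb v a S hS L hL hLB) ?_
  exact List.prod_nonneg fun r hr => by
    obtain ⟨Q, _, rfl⟩ := List.mem_map.mp hr
    exact (F.abv v).nonneg _

end Fermat.Agent.MW.HtM
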