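/-
MW / [H-M] — the abstract (M≤) on one bounded chart (Mathlib only).

`A` a `K`-algebra with finitely many chart data `(z_α, h_α, T_α)` and a partition of unity
`∑ g_α · h_α|_Δ = 1`, an abstract order function, coordinates `x` generating `A` and tamely
bounded on the regions `B v`.  Then for every finite family `u` and every `n` there is a tame
constant `C` with
  `|ψ(S)|_v ≤ C_v · max |aᵢ|_v · ∏_{Q ∈ L} cdist_v(Q, S)`
for `ψ = ∑ aᵢ uᵢ`, `S ∈ B v` and every multiset `L ⊆ B v` of at most `n` zeros of `ψ`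
(with multiplicity).
-/
import Mathlib
import Fermat.Agent.MW.HtM.ChainBound

set_option autoImplicit false

open scoped TensorProduct

namespace Fermat.Agent.MW.HtM

open Diag

universe uA

variable {K : Type*} {A : Type uA} {V : Type*} [Field K] [CommRing A] [Algebra K A]

/-- An abstract order function on `A` at the points `A →ₐ[K] K`. -/
structure OrdData (K : Type*) (A : Type*) [Field K] [CommRing A] [Algebra K A] where
  /-- order of vanishing -/
  ord : (A →ₐ[K] K) → A → ℕ∞
  ord_mul : ∀ R x y, ord R (x * y) = ord R x + ord R y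
  ord_eq_zero : ∀ R x, ord R x = 0 ↔ R x ≠ 0
  exists_unif : ∀ R, ∃ x, ord R x = 1

namespace OrdData

variable (O : OrdData K A)

theorem apply_eq_zero_of_ord_ne_zero {R : A →ₐ[K] K} {x : A} (h : O.ord R x ≠ 0) : R x = 0 := by
  by_contra hcon
  exact h ((O.ord_eq_zero R x).mpr hcon)

/-- The chart coordinate is a uniformiser wherever the diagonal unit does not vanish. -/
theorem ord_z_sub {z : A} {h : A ⊗[K] A} {T : A →ₗ[K] A ⊗[K] A}
    (hT : ∀ x : A, h * dd K x = T x * dd K z) (R : A →ₐ[K] K) (hne : ev2 R R h ≠ 0) :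
    O.ord R (z - algebraMap K A (R z)) = 1 := by
  obtain ⟨x, hx⟩ := O.exists_unif R
  have hRx : R x = 0 := O.apply_eq_zero_of_ord_ne_zero (by rw [hx]; exact one_ne_zero)
  have h1 := division_step hT R x
  rw [hRx, map_zero, sub_zero] at h1
  have h2 : O.ord R (evR R h) = 0 := by
    rw [O.ord_eq_zero, apply_evR]; exact hne
  have h3 := congrArg (O.ord R) h1
  rw [O.ord_mul, O.ord_mul, h2, hx, zero_add] at h3
  have h4 : O.ord R (z - algebraMap K A (R z)) ≠ 0 := by
    intro h0
    rw [O.ord_eq_zero] at h0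
    exact h0 (by simp)
  refine le_antisymm ?_ (Order.one_le_iff_ne_zero.mpr h4)
  rw [h3]
  exact le_add_self

/-- Zeros with multiplicity (in the sense of `ord`) form a chain of zeros for the division
operators of a chart, as long as the diagonal unit does not vanish on pairs of them. -/
theorem chainZero_of_ord [DecidableEq (A →ₐ[K] K)] {z : A} {h : A ⊗[K] A}
    {T : A →ₗ[K] A ⊗[K] A} (hT : ∀ x : A, h * dd K x = T x * dd K z) :
    ∀ (L : List (A →ₐ[K] K)) (ψ : A), (∀ Q ∈ L, ∀ Q' ∈ L, ev2 Q' Q h ≠ 0) →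
      (∀ Q, (L.count Q : ℕ∞) ≤ O.ord Q ψ) → ChainZero T L ψ := by
  intro L
  induction L with
  | nil => intro ψ _ _; trivial
  | cons R L ih =>
    intro ψ hne hcount
    have hRψ : R ψ = 0 := by
      refine O.apply_eq_zero_of_ord_ne_zero ?_
      have := hcount R
      rw [List.count_cons_self] at this
      intro h0
      rw [h0] at this
      simp at this
    refine ⟨hRψ, ih (Dq T R ψ)
      (fun Q hQ Q' hQ' => hne Q (List.mem_cons_of_mem _ hQ) Q' (List.mem_cons_of_mem _ hQ')) ?_⟩
    intro Q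
    by_cases hQL : Q ∈ L
    swap
    · rw [List.count_eq_zero_of_not_mem hQL]; simp
    have h1 := division_step hT R ψ
    rw [hRψ, map_zero, sub_zero] at h1
    have h3 := congrArg (O.ord Q) h1
    rw [O.ord_mul, O.ord_mul, ← Dq_apply] at h3
    by_cases hQR : Q = R
    · subst hQR
      have hQQ : ev2 Q Q h ≠ 0 := hne Q (List.mem_cons_self) Q (List.mem_cons_self)
      have h2 : O.ord Q (evR Q h) = 0 := by
        rw [O.ord_eq_zero, apply_evR]; exact hQQ
      rw [h2, zero_add, O.ord_z_sub hT Q hQQ] at h3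
      have h4 := hcount Q
      rw [List.count_cons_self, h3] at h4
      have h5 : ((L.count Q : ℕ) : ℕ∞) + 1 ≤ O.ord Q (Dq T Q ψ) + 1 := by
        exact_mod_cast h4
      exact (ENat.add_le_add_iff_right (by simp)).mp h5
    · have hz : Q z ≠ R z := fun hzz =>
        hQR (eq_of_apply_z_eq hT R Q
          (hne R (List.mem_cons_self) Q (List.mem_cons_of_mem _ hQL)) hzz)
      have h2 : O.ord Q (z - algebraMap K A (R z)) = 0 := by
        rw [O.ord_eq_zero]
        simpa [sub_eq_zero] using hz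
      rw [h2, add_zero] at h3
      have h4 := hcount Q
      rw [List.count_cons_of_ne (fun hh => hQR hh.symm)] at h4
      calc ((L.count Q : ℕ) : ℕ∞) ≤ O.ord Q ψ := h4
        _ ≤ O.ord Q (evR R h) + O.ord Q ψ := le_add_self
        _ = O.ord Q (Dq T R ψ) := h3

end OrdData

theorem apply_lmul' (S : A →ₐ[K] K) (t : A ⊗[K] A) :
    S (Algebra.TensorProduct.lmul' K t) = ev2 S S t := by
  induction t using TensorProduct.induction_on with
  | zero => simp
  | tmul a b => simp
  | add x y hx hy => simp [hx, hy]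

section Chart

variable (F : AbsFamily K V) (B : V → Set (A →ₐ[K] K))
variable {ι : Type*} [Fintype ι] (x : ι → A)
variable {𝔄 : Type*} [Fintype 𝔄] (z : 𝔄 → A) (h : 𝔄 → A ⊗[K] A)
  (T : 𝔄 → A →ₗ[K] A ⊗[K] A) (g : 𝔄 → A)

/-- Chart selection: at every point of the region some diagonal unit is tamely bounded below. -/
theorem exists_chart (hB : ∀ a : A, TBdd F B a)
    (hg : ∑ α, g α * Algebra.TensorProduct.lmul' K (h α) = 1) :
    ∃ κ : V → ℝ, Tame κ ∧ ∀ v, ∀ S ∈ B v, ∃ α, (κ v)⁻¹ ≤ F.abv v (ev2 S S (h α)) := by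
  classical
  choose Cg hCg hgb using fun α => hB (g α)
  refine ⟨fun v => F.archN (Fintype.card 𝔄) v * ∏ α, Cg α v,
    (F.tame_archN _).mul (Tame.prod _ _ fun α _ => hCg α), fun v S hS => ?_⟩
  have h1 : ∑ α, S (g α) * ev2 S S (h α) = 1 := by
    have := congrArg S hg
    simpa only [map_sum, map_mul, apply_lmul', map_one] using this
  have hne : (Finset.univ : Finset 𝔄).Nonempty := by
    by_contra hcon
    rw [Finset.not_nonempty_iff_eq_empty] at hcon
    rw [hcon, Finset.sum_empty] at h1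
    exact zero_ne_one h1
  obtain ⟨α, -, hα⟩ := Finset.exists_max_image Finset.univ
    (fun α => F.abv v (ev2 S S (h α))) hne
  refine ⟨α, ?_⟩
  set m := F.abv v (ev2 S S (h α)) with hm
  have hm0 : 0 ≤ m := (F.abv v).nonneg _
  have hP : 0 ≤ ∏ α, Cg α v := Finset.prod_nonneg fun α _ => (hCg α).nonneg v
  have h2 : F.abv v (∑ α, S (g α) * ev2 S S (h α))
      ≤ F.archN (Finset.univ : Finset 𝔄).card v * ((∏ α, Cg α v) * m) := by
    refine F.abv_sum_le v Finset.univ _ (mul_nonneg hP hm0) fun β _ => ?_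
    rw [(F.abv v).map_mul]
    refine mul_le_mul ?_ (hα β (Finset.mem_univ β)) ((F.abv v).nonneg _) hP
    exact (hgb β v S hS).trans (Tame.le_prod _ _ (fun α _ => hCg α) (Finset.mem_univ β) v)
  rw [h1, (F.abv v).map_one, Finset.card_univ, ← mul_assoc] at h2
  have hpos : 0 < F.archN (Fintype.card 𝔄) v * ∏ α, Cg α v :=
    mul_pos ((F.tame_archN _).pos v) (Finset.prod_pos fun α _ => (hCg α).pos v)
  rw [inv_le_iff_one_le_mul₀ hpos, mul_comm]
  exact h2

open Classical in
/-- **The abstract (M≤) on one bounded chart.** -/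
theorem chart_bound (hx : Algebra.adjoin K (Set.range x) = ⊤) (hxB : ∀ i, TBdd F B (x i))
    (hT : ∀ α (y : A), h α * dd K y = T α y * dd K (z α))
    (hg : ∑ α, g α * Algebra.TensorProduct.lmul' K (h α) = 1)
    (O : OrdData K A) (n : ℕ) {ι' : Type uA} [Fintype ι'] (u : ι' → A) :
    ∃ C : V → ℝ, Tame C ∧
      ∀ v (a : ι' → K), ∀ S ∈ B v, ∀ L : Multiset (A →ₐ[K] K), L.card ≤ n →
        (∀ Q ∈ L, Q ∈ B v) → (∀ Q, (L.count Q : ℕ∞) ≤ O.ord Q (∑ i, a i • u i)) →
        F.abv v (S (∑ i, a i • u i))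
          ≤ C v * (⨆ i, F.abv v (a i)) * (L.map fun Q => cdist F x v Q S).prod := by
  have hB : ∀ a : A, TBdd F B a := by
    refine tbdd_of_adjoin F B (Set.range x) hx ?_
    rintro _ ⟨i, rfl⟩
    exact hxB i
  have hLip : ∀ a : A, TLip F B x a := tlip_of_adjoin F B x hx hB
  -- constants
  obtain ⟨κ, hκ, hchart⟩ := exists_chart F B h g hB hg
  choose Λh hΛh hlip2 using fun α => tlip2 F B x hB hLip (h α)
  choose Λz hΛz hlipz using fun α => hLip (z α)
  choose Cc hCc hchain using fun (p : 𝔄 × Fin (n + 1)) =>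
    chain_bound F B hB (hT p.1) (p.2 : ℕ) u
  set θ : V → ℝ := fun v => κ v * F.archN 2 v with hθ
  have hθt : Tame θ := hκ.mul (F.tame_archN 2)
  set Λ : V → ℝ := fun v => ∏ α, Λh α v with hΛ
  have hΛt : Tame Λ := Tame.prod _ _ fun α _ => hΛh α
  set Λ' : V → ℝ := fun v => ∏ α, Λz α v with hΛ'
  have hΛ't : Tame Λ' := Tame.prod _ _ fun α _ => hΛz α
  set M : V → ℝ := fun v => θ v * Λ' v * (θ v * Λ v) with hM
  have hMt : Tame M := (hθt.mul hΛ't).mul (hθt.mul hΛt)
  set Cch : V → ℝ := fun v => ∏ p, Cc p v with hCch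
  have hCcht : Tame Cch := Tame.prod _ _ fun p _ => hCc p
  refine ⟨fun v => Cch v * M v ^ n, hCcht.mul (hMt.pow n), ?_⟩
  intro v a S hS L hLn hLB hLord
  set ψ : A := ∑ i, a i • u i with hψ
  set sup := ⨆ i, F.abv v (a i) with hsup
  have hsup0 : 0 ≤ sup := Real.iSup_nonneg fun _ => (F.abv v).nonneg _
  obtain ⟨α, hα⟩ := hchart v S hS
  -- the near radius
  set ε : ℝ := (θ v * Λ v)⁻¹ with hε
  have hθΛ : 0 < θ v * Λ v := mul_pos (hθt.pos v) (hΛt.pos v)
  have hε0 : 0 < ε := inv_pos.mpr hθΛ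
  -- lower bound for the diagonal unit near `S`
  have hnear : ∀ Q ∈ B v, ∀ Q' ∈ B v, cdist F x v Q S < ε → cdist F x v Q' S < ε →
      (θ v)⁻¹ ≤ F.abv v (ev2 Q' Q (h α)) := by
    intro Q hQ Q' hQ' hd hd'
    have h1 := hlip2 α v Q' hQ' Q hQ S hS S hS
    have h2 : Λh α v ≤ Λ v := Tame.le_prod _ _ (fun α _ => hΛh α) (Finset.mem_univ α) v
    have h3 : max (cdist F x v S Q') (cdist F x v S Q) < ε := by
      rw [cdist_comm F x v S Q', cdist_comm F x v S Q]
      exact max_lt hd' hd
    have h4 : F.abv v (ev2 Q' Q (h α) - ev2 S S (h α)) < (κ v * F.archN 2 v)⁻¹ := by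
      calc F.abv v (ev2 Q' Q (h α) - ev2 S S (h α))
          ≤ Λh α v * max (cdist F x v S Q') (cdist F x v S Q) := h1
        _ ≤ Λ v * max (cdist F x v S Q') (cdist F x v S Q) := by
            refine mul_le_mul_of_nonneg_right h2 ?_
            exact le_max_of_le_left (cdist_nonneg F x v S Q')
        _ < Λ v * ε := mul_lt_mul_of_pos_left h3 (hΛt.pos v)
        _ = (κ v * F.archN 2 v)⁻¹ := by
            rw [hε, mul_inv, ← mul_assoc, mul_comm (Λ v), mul_assoc,
              mul_inv_cancel₀ (hΛt.pos v).ne', mul_one]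
    exact F.le_abv_of_sub_lt v _ _ hα h4
  -- near / far split
  set Ln := L.filter (fun Q => cdist F x v Q S < ε) with hLn'
  set Lf := L.filter (fun Q => ¬ cdist F x v Q S < ε) with hLf'
  have hsplit : Ln + Lf = L := Multiset.filter_add_not _ L
  obtain ⟨ln, hln⟩ : ∃ ln : List (A →ₐ[K] K), (ln : Multiset (A →ₐ[K] K)) = Ln :=
    ⟨Ln.toList, Multiset.coe_toList Ln⟩
  have hmem_ln : ∀ Q ∈ ln, Q ∈ B v ∧ cdist F x v Q S < ε := by
    intro Q hQ
    have : Q ∈ Ln := by rw [← hln]; exact Multiset.mem_coe.mpr hQ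
    rw [hLn', Multiset.mem_filter] at this
    exact ⟨hLB Q this.1, this.2⟩
  have hlen : ln.length ≤ n := by
    have h1 : ln.length = Multiset.card Ln := by rw [← hln]; rfl
    rw [h1]
    exact (Multiset.card_le_card (Multiset.filter_le _ L)).trans hLn
  -- the chain of near zeros
  have hchainZ : ChainZero (T α) ln ψ := by
    refine O.chainZero_of_ord (hT α) ln ψ ?_ ?_
    · intro Q hQ Q' hQ'
      have h1 := hnear Q (hmem_ln Q hQ).1 Q' (hmem_ln Q' hQ').1 (hmem_ln Q hQ).2
        (hmem_ln Q' hQ').2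
      intro h0
      rw [h0, (F.abv v).map_zero] at h1
      exact absurd h1 (not_le.mpr (inv_pos.mpr (hθt.pos v)))
    · intro Q
      refine le_trans ?_ (hLord Q)
      have h1 : ln.count Q = Ln.count Q := by rw [← hln, Multiset.coe_count]
      rw [h1]
      exact_mod_cast Multiset.count_le_of_le Q (Multiset.filter_le _ L)
  have hcb := hchain (α, ⟨ln.length, Nat.lt_succ_of_le hlen⟩) v a S hS ln rfl
    (fun Q hQ => (hmem_ln Q hQ).1) hchainZ
  -- each near factor
  have hfac : ∀ Q ∈ ln, (θ v)⁻¹ ≤ F.abv v (ev2 S Q (h α)) := by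
    intro Q hQ
    refine hnear Q (hmem_ln Q hQ).1 S hS (hmem_ln Q hQ).2 ?_
    rw [cdist_self]; exact hε0
  have hzfac : ∀ Q ∈ ln, F.abv v (S (z α) - Q (z α)) ≤ Λ' v * cdist F x v Q S := by
    intro Q hQ
    refine (hlipz α v S hS Q (hmem_ln Q hQ).1).trans ?_
    refine mul_le_mul_of_nonneg_right ?_ (cdist_nonneg F x v Q S)
    exact Tame.le_prod _ _ (fun α _ => hΛz α) (Finset.mem_univ α) v
  -- product estimates over the near list
  have hprod_lower : ((θ v)⁻¹) ^ ln.length
      ≤ (ln.map fun Q => F.abv v (ev2 S Q (h α))).prod := by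
    have : ((θ v)⁻¹) ^ ln.length = (ln.map fun _ => (θ v)⁻¹).prod := by
      simp
    rw [this]
    refine List.prod_map_le_prod_map₀ _ _ ?_ ?_
    · intro Q _; exact inv_nonneg.mpr (hθt.nonneg v)
    · intro Q hQ; exact hfac Q hQ
  have hprod_upper : (ln.map fun Q => F.abv v (S (z α) - Q (z α))).prod
      ≤ (ln.map fun Q => Λ' v * cdist F x v Q S).prod := by
    refine List.prod_map_le_prod_map₀ _ _ ?_ ?_
    · intro Q _; exact (F.abv v).nonneg _
    · intro Q hQ; exact hzfac Q hQ
  have hCcle : Cc (α, ⟨ln.length, Nat.lt_succ_of_le hlen⟩) v ≤ Cch v :=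
    Tame.le_prod _ _ (fun p _ => hCc p) (Finset.mem_univ _) v
  have hθpos := hθt.pos v
  -- bound with the near zeros only
  have hstep1 : F.abv v (S ψ)
      ≤ Cch v * sup * (ln.map fun Q => M v * cdist F x v Q S).prod := by
    have h1 : ((θ v)⁻¹) ^ ln.length * F.abv v (S ψ)
        ≤ Cch v * sup * (ln.map fun Q => Λ' v * cdist F x v Q S).prod := by
      calc ((θ v)⁻¹) ^ ln.length * F.abv v (S ψ)
          ≤ (ln.map fun Q => F.abv v (ev2 S Q (h α))).prod * F.abv v (S ψ) :=
            mul_le_mul_of_nonneg_right hprod_lower ((F.abv v).nonneg _)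
        _ ≤ Cc (α, ⟨ln.length, Nat.lt_succ_of_le hlen⟩) v * sup
              * (ln.map fun Q => F.abv v (S (z α) - Q (z α))).prod := hcb
        _ ≤ Cch v * sup * (ln.map fun Q => Λ' v * cdist F x v Q S).prod := by
            refine mul_le_mul (mul_le_mul_of_nonneg_right hCcle hsup0) hprod_upper ?_
              (mul_nonneg (hCcht.nonneg v) hsup0)
            exact List.prod_nonneg fun r hr => by
              obtain ⟨Q, _, rfl⟩ := List.mem_map.mp hr
              exact (F.abv v).nonneg _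
    have h2 : (ln.map fun Q => M v * cdist F x v Q S).prod
        = (θ v) ^ ln.length * (ln.map fun Q => Λ' v * cdist F x v Q S).prod *
          (θ v * Λ v) ^ ln.length := by
      have : (fun Q => M v * cdist F x v Q S)
          = fun Q => (θ v * (θ v * Λ v)) * (Λ' v * cdist F x v Q S) := by
        funext Q; simp only [hM]; ring
      rw [this, List.prod_map_mul]
      simp only [List.map_const', List.prod_replicate, mul_pow]
      ring
    have h3 : (1 : ℝ) ≤ (θ v * Λ v) ^ ln.length := one_le_pow₀ ((hθt.mul hΛt).1 v)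
    have h4 : 0 ≤ (ln.map fun Q => Λ' v * cdist F x v Q S).prod :=
      List.prod_nonneg fun r hr => by
        obtain ⟨Q, _, rfl⟩ := List.mem_map.mp hr
        exact mul_nonneg (hΛ't.nonneg v) (cdist_nonneg F x v Q S)
    have h5 : F.abv v (S ψ)
        = (θ v) ^ ln.length * (((θ v)⁻¹) ^ ln.length * F.abv v (S ψ)) := by
      rw [← mul_assoc, ← mul_pow, mul_inv_cancel₀ hθpos.ne', one_pow, one_mul]
    rw [h5, h2]
    calc (θ v) ^ ln.length * (((θ v)⁻¹) ^ ln.length * F.abv v (S ψ))
        ≤ (θ v) ^ ln.length *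
            (Cch v * sup * (ln.map fun Q => Λ' v * cdist F x v Q S).prod) :=
          mul_le_mul_of_nonneg_left h1 (pow_nonneg hθpos.le _)
      _ = Cch v * sup * ((θ v) ^ ln.length *
            (ln.map fun Q => Λ' v * cdist F x v Q S).prod) := by ring
      _ ≤ Cch v * sup * ((θ v) ^ ln.length *
            (ln.map fun Q => Λ' v * cdist F x v Q S).prod * (θ v * Λ v) ^ ln.length) := by
          refine mul_le_mul_of_nonneg_left ?_ (mul_nonneg (hCcht.nonneg v) hsup0)
          exact le_mul_of_one_le_right (mul_nonneg (pow_nonneg hθpos.le _) h4) h3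
  -- the far zeros
  have hfar : (1 : ℝ) ≤ (Lf.map fun Q => M v * cdist F x v Q S).prod := by
    refine Multiset.one_le_prod ?_
    intro r hr
    obtain ⟨Q, hQ, rfl⟩ := Multiset.mem_map.mp hr
    rw [hLf', Multiset.mem_filter] at hQ
    have h1 : ε ≤ cdist F x v Q S := not_lt.mp hQ.2
    have h2 : 1 ≤ (θ v * Λ v) * cdist F x v Q S := by
      have := mul_le_mul_of_nonneg_left h1 hθΛ.le
      rwa [hε, mul_inv_cancel₀ hθΛ.ne'] at this
    refine h2.trans ?_
    refine mul_le_mul_of_nonneg_right ?_ (cdist_nonneg F x v Q S)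
    simp only [hM]
    exact le_mul_of_one_le_left hθΛ.le ((hθt.mul hΛ't).1 v)
  -- assemble
  have hnearprod : (ln.map fun Q => M v * cdist F x v Q S).prod
      = (Ln.map fun Q => M v * cdist F x v Q S).prod := by
    rw [← hln]; rfl
  have hall : (L.map fun Q => M v * cdist F x v Q S).prod
      = (Ln.map fun Q => M v * cdist F x v Q S).prod *
        (Lf.map fun Q => M v * cdist F x v Q S).prod := by
    rw [← hsplit, Multiset.map_add, Multiset.prod_add]
  have hnn : 0 ≤ (Ln.map fun Q => M v * cdist F x v Q S).prod :=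
    Multiset.prod_nonneg fun r hr => by
      obtain ⟨Q, _, rfl⟩ := Multiset.mem_map.mp hr
      exact mul_nonneg (hMt.nonneg v) (cdist_nonneg F x v Q S)
  have hstep2 : F.abv v (S ψ)
      ≤ Cch v * sup * (L.map fun Q => M v * cdist F x v Q S).prod := by
    rw [hall]
    refine hstep1.trans ?_
    rw [hnearprod]
    refine mul_le_mul_of_nonneg_left ?_ (mul_nonneg (hCcht.nonneg v) hsup0)
    exact le_mul_of_one_le_right hnn hfar
  have hpull : (L.map fun Q => M v * cdist F x v Q S).prod
      = M v ^ Multiset.card L * (L.map fun Q => cdist F x v Q S).prod := by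
    rw [Multiset.prod_map_mul]
    simp
  have hdn : 0 ≤ (L.map fun Q => cdist F x v Q S).prod :=
    Multiset.prod_nonneg fun r hr => by
      obtain ⟨Q, _, rfl⟩ := Multiset.mem_map.mp hr
      exact cdist_nonneg F x v Q S
  have hMpow : M v ^ Multiset.card L ≤ M v ^ n := pow_le_pow_right₀ (hMt.1 v) hLn
  calc F.abv v (S ψ)
      ≤ Cch v * sup * (L.map fun Q => M v * cdist F x v Q S).prod := hstep2
    _ = Cch v * sup * (M v ^ Multiset.card L * (L.map fun Q => cdist F x v Q S).prod) := by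
        rw [hpull]
    _ ≤ Cch v * sup * (M v ^ n * (L.map fun Q => cdist F x v Q S).prod) := by
        refine mul_le_mul_of_nonneg_left ?_ (mul_nonneg (hCcht.nonneg v) hsup0)
        exact mul_le_mul_of_nonneg_right hMpow hdn
    _ = Cch v * M v ^ n * sup * (L.map fun Q => cdist F x v Q S).prod := by ring

end Chart

end Fermat.Agent.MW.HtM
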