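/-
MW / [H-M] — existence of finitely many charts with a partition of unity (Mathlib only).

`K` algebraically closed, `A` a finitely generated `K`-algebra such that at every `K`-point `R`
some `z ∈ A` has `z - z(R)` spanning `m_R / m_R²`.  Then there are finitely many chart data
`(z_α, h_α, T_α)` and `g_α ∈ A` with `∑ g_α · h_α|_Δ = 1`.
-/
import Mathlib
import Fermat.Agent.MW.HtM.ChartBound

set_option autoImplicit false

open scoped TensorProduct

namespace Fermat.Agent.MW.HtM

open Diag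

variable {K A : Type*} [Field K] [CommRing A] [Algebra K A]

/-- Over an algebraically closed field, every maximal ideal of a finitely generated algebra is the
kernel of a `K`-point (Zariski's lemma). -/
theorem exists_point_of_isMaximal [IsAlgClosed K] [Algebra.FiniteType K A] (m : Ideal A)
    [hm : m.IsMaximal] : ∃ R : A →ₐ[K] K, RingHom.ker R.toRingHom = m := by
  letI : Field (A ⧸ m) := Ideal.Quotient.field m
  haveI : Algebra.FiniteType K (A ⧸ m) :=
    Algebra.FiniteType.of_surjective (Ideal.Quotient.mkₐ K m) (Ideal.Quotient.mkₐ_surjective K m)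
  haveI : Module.Finite K (A ⧸ m) := finite_of_finite_type_of_isJacobsonRing K (A ⧸ m)
  haveI : Algebra.IsIntegral K (A ⧸ m) := Algebra.IsIntegral.of_finite K (A ⧸ m)
  have hbij : Function.Bijective (algebraMap K (A ⧸ m)) :=
    IsAlgClosed.algebraMap_bijective_of_isIntegral
  let e : K ≃ₐ[K] (A ⧸ m) := AlgEquiv.ofBijective (Algebra.ofId K (A ⧸ m)) hbij
  refine ⟨(e.symm : (A ⧸ m) →ₐ[K] K).comp (Ideal.Quotient.mkₐ K m), ?_⟩
  ext x
  rw [RingHom.mem_ker]
  change e.symm (Ideal.Quotient.mk m x) = 0 ↔ x ∈ m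
  rw [map_eq_zero_iff _ e.symm.injective, Ideal.Quotient.eq_zero_iff_mem]

/-- **Charts with a partition of unity exist.** -/
theorem exists_charts [IsAlgClosed K] [Algebra.FiniteType K A]
    (hz : ∀ R : A →ₐ[K] K, ∃ z : A, ∀ x : A, R x = 0 →
      ∃ c : K, x - c • (z - algebraMap K A (R z)) ∈ (RingHom.ker R.toRingHom) ^ 2) :
    ∃ (m : ℕ) (z : Fin m → A) (h : Fin m → A ⊗[K] A) (T : Fin m → A →ₗ[K] A ⊗[K] A)
      (g : Fin m → A),
      (∀ α (y : A), h α * dd K y = T α y * dd K (z α)) ∧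
        ∑ α, g α * Algebra.TensorProduct.lmul' K (h α) = 1 := by
  classical
  let 𝒮 : Set A := {s | ∃ (z : A) (h : A ⊗[K] A) (T : A →ₗ[K] A ⊗[K] A),
    (∀ y, h * dd K y = T y * dd K z) ∧ Algebra.TensorProduct.lmul' K h = s}
  have htop : Ideal.span 𝒮 = ⊤ := by
    by_contra hne
    obtain ⟨m, hm, hle⟩ := Ideal.exists_le_maximal _ hne
    obtain ⟨R, hR⟩ := exists_point_of_isMaximal (K := K) m
    obtain ⟨z, hz'⟩ := hz R
    obtain ⟨h, T, h1, hT⟩ := exists_diag_unit_linear R z hz'
    have hmem : Algebra.TensorProduct.lmul' K h ∈ m :=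
      hle (Ideal.subset_span ⟨z, h, T, hT, rfl⟩)
    rw [← hR, RingHom.mem_ker] at hmem
    have h2 : R (Algebra.TensorProduct.lmul' K h) = ev2 R R h := apply_lmul' R h
    have h3 : R (Algebra.TensorProduct.lmul' K h) = 0 := hmem
    rw [h2, h1] at h3
    exact one_ne_zero h3
  have h1 : (1 : A) ∈ Submodule.span A 𝒮 := by
    have : (1 : A) ∈ Ideal.span 𝒮 := by rw [htop]; trivial
    exact this
  rw [Submodule.mem_span_set'] at h1
  obtain ⟨m, f, s, hfs⟩ := h1
  choose z h T hT hs using fun i => (s i).2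
  refine ⟨m, z, h, T, f, hT, ?_⟩
  rw [← hfs]
  refine Finset.sum_congr rfl fun i _ => ?_
  rw [hs i, smul_eq_mul]

end Fermat.Agent.MW.HtM
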