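/-
MW / [H-M] — the packaged abstract (M≤) on one bounded chart, and integrality ⟹ boundedness
(Mathlib only).

`chart_bound_main`: `K` algebraically closed, `A` generated by finitely many coordinates `x`
tamely bounded on the regions `B v`, an order function `O` on `A` with the two "smoothness"
properties `h4`, `h5`.  Then every finite family `u` in `A` satisfies the uniform bound
  `|ψ(S)|_v ≤ C_v · max |aᵢ|_v · ∏_{Q ∈ L} cdist_v(Q, S)`,  `ψ = ∑ aᵢ uᵢ`,
for all multisets `L ⊆ B v` of at most `n` zeros of `ψ` counted with multiplicity.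
-/
import Mathlib
import Fermat.Agent.MW.HtM.Charts

set_option autoImplicit false

open scoped TensorProduct

namespace Fermat.Agent.MW.HtM

open Diag

universe uA

variable {K : Type*} {A : Type uA} {V : Type*} [Field K] [CommRing A] [Algebra K A]

/-- The cotangent hypothesis of the charts from an order function: a uniformiser exists
(`O.exists_unif`), every function vanishing at `R` is a constant multiple of a uniformiser up to
order two (`h5`), and functions vanishing to order two lie in `m_R²` up to a unit at `R`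
(`h4`). -/
theorem hz_of_ord (O : OrdData K A)
    (h4 : ∀ (R : A →ₐ[K] K) (y : A), 2 ≤ O.ord R y →
      ∃ w : A, R w ≠ 0 ∧ w * y ∈ (RingHom.ker R.toRingHom) ^ 2)
    (h5 : ∀ (R : A →ₐ[K] K) (y z : A), O.ord R z = 1 → R y = 0 →
      ∃ c : K, 2 ≤ O.ord R (y - c • z)) :
    ∀ R : A →ₐ[K] K, ∃ z : A, ∀ y : A, R y = 0 →
      ∃ c : K, y - c • (z - algebraMap K A (R z)) ∈ (RingHom.ker R.toRingHom) ^ 2 := by
  intro R
  obtain ⟨z, hz⟩ := O.exists_unif R
  have hRz : R z = 0 := O.apply_eq_zero_of_ord_ne_zero (by rw [hz]; exact one_ne_zero)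
  refine ⟨z, fun y hy => ?_⟩
  obtain ⟨c, hc⟩ := h5 R y z hz hy
  refine ⟨c, ?_⟩
  rw [hRz, map_zero, sub_zero]
  set y' := y - c • z with hy'
  obtain ⟨w, hw, hwy⟩ := h4 R y' hc
  have hRy' : R y' = 0 := by simp [hy', hy, hRz]
  -- `(w - w(R)) * y' ∈ m²`
  have h1 : (w - algebraMap K A (R w)) * y' ∈ (RingHom.ker R.toRingHom) ^ 2 := by
    rw [pow_two]
    refine Ideal.mul_mem_mul ?_ ?_
    · rw [RingHom.mem_ker]; change R (w - algebraMap K A (R w)) = 0; simp
    · rw [RingHom.mem_ker]; exact hRy'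
  have h2 : algebraMap K A (R w) * y' ∈ (RingHom.ker R.toRingHom) ^ 2 := by
    have : algebraMap K A (R w) * y' = w * y' - (w - algebraMap K A (R w)) * y' := by ring
    rw [this]
    exact sub_mem hwy h1
  have h3 : y' = algebraMap K A (R w)⁻¹ * (algebraMap K A (R w) * y') := by
    rw [← mul_assoc, ← map_mul, inv_mul_cancel₀ hw, map_one, one_mul]
  rw [h3]
  exact Ideal.mul_mem_left _ _ h2

/-- **The packaged abstract (M≤) on one bounded chart.** -/
theorem chart_bound_main [IsAlgClosed K] (F : AbsFamily K V) (B : V → Set (A →ₐ[K] K))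
    {ι : Type*} [Fintype ι] (x : ι → A) (hx : Algebra.adjoin K (Set.range x) = ⊤)
    (hxB : ∀ i, TBdd F B (x i)) (O : OrdData K A)
    (h4 : ∀ (R : A →ₐ[K] K) (y : A), 2 ≤ O.ord R y →
      ∃ w : A, R w ≠ 0 ∧ w * y ∈ (RingHom.ker R.toRingHom) ^ 2)
    (h5 : ∀ (R : A →ₐ[K] K) (y z : A), O.ord R z = 1 → R y = 0 →
      ∃ c : K, 2 ≤ O.ord R (y - c • z))
    (n : ℕ) {ι' : Type uA} [Fintype ι'] (u : ι' → A) :
    ∃ C : V → ℝ, Tame C ∧
      ∀ v (a : ι' → K), ∀ S ∈ B v, ∀ L : Multiset (A →ₐ[K] K), L.card ≤ n →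
        (∀ Q ∈ L, Q ∈ B v) →
        (∀ Q, ((by classical exact L.count Q : ℕ) : ℕ∞) ≤ O.ord Q (∑ i, a i • u i)) →
        F.abv v (S (∑ i, a i • u i))
          ≤ C v * (⨆ i, F.abv v (a i)) * (L.map fun Q => cdist F x v Q S).prod := by
  classical
  have : Algebra.FiniteType K A := by
    refine ⟨⟨Finset.univ.image x, ?_⟩⟩
    rw [Finset.coe_image, Finset.coe_univ, Set.image_univ]
    exact hx
  obtain ⟨m, z, h, T, g, hT, hg⟩ := exists_charts (K := K) (A := A) (hz_of_ord O h4 h5)
  obtain ⟨C, hC, hb⟩ := chart_bound F B x z h T g hx hxB hT hg O n u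
  refine ⟨C, hC, fun v a S hS L hLn hLB hLord => hb v a S hS L hLn hLB ?_⟩
  intro Q
  convert hLord Q

/-- **Integrality gives boundedness.** If every element of a subalgebra `A₀` is tamely bounded
on the regions, so is every element of `A` integral over `A₀`. -/
theorem TBdd.of_isIntegral (F : AbsFamily K V) (B : V → Set (A →ₐ[K] K)) (A₀ : Subalgebra K A)
    (h₀ : ∀ b ∈ A₀, TBdd F B b) {a : A} (ha : IsIntegral A₀ a) : TBdd F B a := by
  classical
  obtain ⟨p, hp, hpa⟩ := ha
  set n := p.natDegree with hn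
  choose Cc hCc hc using fun j : Fin n => h₀ (p.coeff j) (p.coeff j).2
  refine ⟨fun v => F.archN n v * ∏ j, Cc j v,
    (F.tame_archN n).mul (Tame.prod _ _ fun j _ => hCc j), fun v S hS => ?_⟩
  set α := S a with hα
  have hP : 0 ≤ ∏ j, Cc j v := Finset.prod_nonneg fun j _ => (hCc j).nonneg v
  have hC1 : 1 ≤ F.archN n v * ∏ j, Cc j v :=
    ((F.tame_archN n).mul (Tame.prod _ _ fun j _ => hCc j)).1 v
  by_cases hα1 : F.abv v α ≤ 1
  · exact hα1.trans hC1
  rw [not_le] at hα1
  -- the equation `α ^ n = - ∑_{j < n} S(c_j) α ^ j`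
  have heq : α ^ n + ∑ j : Fin n, S (p.coeff j : A) * α ^ (j : ℕ) = 0 := by
    have h1 : S (Polynomial.aeval a p) = 0 := by
      have : Polynomial.aeval a p = 0 := by
        rw [Polynomial.aeval_def]; exact hpa
      rw [this, map_zero]
    rw [Polynomial.aeval_eq_sum_range, Finset.sum_range_succ, map_add, map_sum] at h1
    have h2 : p.coeff n = 1 := hp.coeff_natDegree
    rw [h2, one_smul, map_pow, ← Fin.sum_univ_eq_sum_range (fun j => S (p.coeff j • a ^ j)) n,
      add_comm] at h1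
    rw [← h1]
    congr 1
    refine Finset.sum_congr rfl fun j _ => ?_
    rw [Algebra.smul_def, map_mul, map_pow]
    rfl
  have hn0 : n ≠ 0 := by
    intro h0
    have : IsEmpty (Fin n) := by rw [h0]; infer_instance
    rw [h0, pow_zero, Finset.univ_eq_empty, Finset.sum_empty, add_zero] at heq
    exact one_ne_zero heq
  have hαpos : 0 < F.abv v α := lt_trans one_pos hα1
  have hbound : F.abv v α ^ n ≤ (F.archN n v * ∏ j, Cc j v) * F.abv v α ^ (n - 1) := by
    have h1 : α ^ n = - ∑ j : Fin n, S (p.coeff j : A) * α ^ (j : ℕ) :=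
      eq_neg_of_add_eq_zero_left heq
    have h2 : F.abv v (∑ j : Fin n, S (p.coeff j : A) * α ^ (j : ℕ))
        ≤ F.archN (Finset.univ : Finset (Fin n)).card v *
          ((∏ j, Cc j v) * F.abv v α ^ (n - 1)) := by
      refine F.abv_sum_le v Finset.univ _ (mul_nonneg hP (pow_nonneg hαpos.le _)) fun j _ => ?_
      rw [(F.abv v).map_mul, (F.abv v).map_pow]
      refine mul_le_mul ?_ ?_ (pow_nonneg hαpos.le _) hP
      · exact (hc j v S hS).trans (Tame.le_prod _ _ (fun j _ => hCc j) (Finset.mem_univ j) v)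
      · exact pow_le_pow_right₀ hα1.le (by have := j.2; omega)
    rw [← (F.abv v).map_pow, h1, (F.abv v).map_neg]
    rw [Finset.card_univ, Fintype.card_fin, ← mul_assoc] at h2
    exact h2
  have hpow : F.abv v α ^ n = F.abv v α * F.abv v α ^ (n - 1) := by
    rw [← pow_succ', Nat.sub_add_cancel (Nat.pos_of_ne_zero hn0)]
  rw [hpow] at hbound
  exact le_of_mul_le_mul_right hbound (pow_pos hαpos _)

end Fermat.Agent.MW.HtM
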