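/-
MW / [H-M] — the FUNCTION-FIELD INSTANCE of the abstract chart theory (`chart_bound_main`).

`F/K` a function field of one variable over an algebraically closed field, `t ∈ F`
transcendental.  The chart ring of `t` is `Rg K t := integralClosure K[t] F`, the ring of
functions regular at every place at which `t` is regular (`mem_Rg_iff`).

* `finiteType`, `exists_generators` : `Rg K t` is a finitely generated `K`-algebra;
* `ptEquiv` : the `K`-points of `Rg K t` are the places at which `t` is regular, the point of a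
  place being its value map (`val_sub_lt_one`, `apply_eq_zero_iff`);
* `ordData` : the order function of the points (`ordData_ord`), with the smoothness properties
  `h4`, `h5` of `chart_bound_main`;
* `tbdd` : every element of `Rg K t` is tamely bounded on the regions `{|t|_v ≤ ρ_v}`;
* `chart_bound_rg` : the abstract (M≤) for the chart ring, all hypotheses discharged.
-/
import Mathlib
import Fermat.Agent.Lib.FF.IntP
import Fermat.Agent.Lib.FF.RRLocal
import Fermat.Agent.MW.HtM.ChartMain

set_option autoImplicit false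
set_option linter.style.haveILetI false

noncomputable section

namespace Fermat.Agent.MW.HtM.RegRing

open AlgebraicCurve IntermediateField IsDedekindDomain WithZero
open Fermat.Agent.Lib.FF Fermat.Agent.Lib.FF.IntP Fermat.Agent.S24

universe uK uF

variable {K : Type uK} {F : Type uF} [Field K] [Field F] [Algebra K F]

/-- The chart ring of `t`: the integral closure of `K[t]` in `F`. -/
abbrev Rg (K : Type*) {F : Type*} [Field K] [Field F] [Algebra K F] (t : F) : Type _ :=
  ↥(integralClosure (Algebra.adjoin K {t}) F)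

section Basic

variable [IsAlgClosed K] (t : F) (ht : Transcendental K t) [FiniteDimensional K⟮t⟯ F]

include ht in
/-- The chart ring consists of the functions regular wherever `t` is. -/
theorem mem_Rg_iff (f : F) :
    f ∈ integralClosure (Algebra.adjoin K {t}) F ↔
      ∀ v : Place K F, 0 ≤ v.ord t → 0 ≤ v.ord f :=
  IntP.mem_integralClosure_iff t ht f

include ht in
/-- **(Br1)** The chart ring is a finitely generated `K`-algebra. -/
theorem finiteType : Algebra.FiniteType K (Rg K t) := by
  haveI := IntP.finite_integralClosure t ht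
  haveI : Algebra.FiniteType K (Algebra.adjoin K {t}) := by
    rw [← Subalgebra.fg_iff_finiteType]
    have := Subalgebra.fg_adjoin_finset (R := K) ({t} : Finset F)
    simpa using this
  exact Algebra.FiniteType.trans (S := Algebra.adjoin K {t}) inferInstance inferInstance

end Basic

section Points

variable (t : F)

/-- A point of the chart ring is surjective. -/
theorem surjective (R : Rg K t →ₐ[K] K) : Function.Surjective R := fun c =>
  ⟨algebraMap K _ c, R.commutes c⟩

/-- The maximal ideal of a point. -/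
def maxOf (R : Rg K t →ₐ[K] K) : MaximalSpectrum (Rg K t) :=
  ⟨RingHom.ker R.toRingHom, RingHom.ker_isMaximal_of_surjective R.toRingHom (surjective t R)⟩

theorem mem_maxOf (R : Rg K t →ₐ[K] K) (c : Rg K t) : c ∈ (maxOf t R).asIdeal ↔ R c = 0 :=
  Iff.rfl

/-- A point is determined by its kernel. -/
theorem eq_of_ker_eq {R R' : Rg K t →ₐ[K] K}
    (h : RingHom.ker R.toRingHom = RingHom.ker R'.toRingHom) : R = R' := by
  apply AlgHom.ext
  intro s
  have h1 : s - algebraMap K _ (R s) ∈ RingHom.ker R.toRingHom := by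
    rw [RingHom.mem_ker]
    change R (s - algebraMap K _ (R s)) = 0
    rw [map_sub, AlgHom.commutes, Algebra.algebraMap_self_apply, sub_self]
  rw [h, RingHom.mem_ker] at h1
  have h2 : R' (s - algebraMap K _ (R s)) = 0 := h1
  rw [map_sub, AlgHom.commutes, Algebra.algebraMap_self_apply, sub_eq_zero] at h2
  exact h2.symm

theorem maxOf_injective : Function.Injective (maxOf (K := K) t) := fun _ _ h =>
  eq_of_ker_eq t (congrArg MaximalSpectrum.asIdeal h)

variable [IsAlgClosed K] (ht : Transcendental K t) [FiniteDimensional K⟮t⟯ F]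

include ht in
theorem maxOf_surjective : Function.Surjective (maxOf (K := K) t) := by
  intro M
  haveI := finiteType t ht
  haveI := M.isMaximal
  obtain ⟨R, hR⟩ := exists_point_of_isMaximal (K := K) M.asIdeal
  exact ⟨R, MaximalSpectrum.ext hR⟩

/-- **(Br3)** The `K`-points of the chart ring of `t` are the places at which `t` is regular. -/
def ptEquiv : (Rg K t →ₐ[K] K) ≃ {v : Place K F // 0 ≤ v.ord t} :=
  (Equiv.ofBijective (maxOf t) ⟨maxOf_injective t, maxOf_surjective t ht⟩).trans (maxEquiv t ht)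

/-- A function of the chart ring vanishes at a point iff it has positive order at its place. -/
theorem apply_eq_zero_iff (R : Rg K t →ₐ[K] K) (c : Rg K t) :
    R c = 0 ↔ (0 < (ptEquiv t ht R).1.ord (c : F) ∨ c = 0) :=
  mem_asIdeal_iff t ht (maxOf t R) c

/-- Functions of the chart ring are regular at the place of every point. -/
theorem ord_nonneg (R : Rg K t →ₐ[K] K) (c : Rg K t) : 0 ≤ (ptEquiv t ht R).1.ord (c : F) :=
  (mem_Rg_iff t ht (c : F)).1 c.2 _ (ptEquiv t ht R).2

/-- **The point of a place is its value map**: `c - c(R)` lies in the maximal ideal of the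
place of `R` (the shape of `pval_eq`). -/
theorem val_sub_lt_one (R : Rg K t →ₐ[K] K) (c : Rg K t) :
    (ptEquiv t ht R).1.adicValuation ((c : F) - algebraMap K F (R c)) < 1 := by
  have h0 : R (c - algebraMap K _ (R c)) = 0 := by
    rw [map_sub, AlgHom.commutes, Algebra.algebraMap_self_apply, sub_self]
  rcases (apply_eq_zero_iff t ht R _).1 h0 with h | h
  · have hne : ((c - algebraMap K (Rg K t) (R c) : Rg K t) : F) ≠ 0 := by
      intro h'
      rw [h', Place.ord_zero] at h
      exact lt_irrefl _ h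
    have h2 := (ptEquiv t ht R).1.adicValuation_eq_exp_neg_ord hne
    have h3 : ((c - algebraMap K (Rg K t) (R c) : Rg K t) : F)
        = (c : F) - algebraMap K F (R c) := rfl
    rw [← h3, h2, ← exp_zero, exp_lt_exp]
    omega
  · have h3 : (c : F) - algebraMap K F (R c) = 0 :=
      congrArg (fun s : Rg K t => (s : F)) h
    rw [h3, map_zero]
    exact zero_lt_one

/-- Powers of the maximal ideal of a point are cut out by the order at its place. -/
theorem mem_ker_pow_iff (R : Rg K t →ₐ[K] K) {c : Rg K t} (hc : c ≠ 0) (n : ℕ) :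
    c ∈ (RingHom.ker R.toRingHom) ^ n ↔ (n : ℤ) ≤ (ptEquiv t ht R).1.ord (c : F) := by
  haveI := isDedekindDomain t ht
  haveI := isFractionRing (K := K) t
  set P : Primes K t :=
    (HeightOneSpectrum.equivMaximalSpectrum (not_isField t ht)).symm (maxOf t R) with hP
  have hPI : P.asIdeal = RingHom.ker R.toRingHom := rfl
  have hcF : (c : F) ≠ 0 := fun h => hc (Subtype.ext h)
  have h1 : P.valuation F (c : F) = exp (-(ptEquiv t ht R).1.ord (c : F)) :=
    valuation_eq_exp_neg_ord (algebraMap_mem_range t) P hcF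
  have h2 : P.valuation F (c : F) = P.intValuation c := P.valuation_of_algebraMap c
  rw [← hPI, ← P.intValuation_le_pow_iff_mem, ← h2, h1, exp_le_exp]
  omega

end Points

section Ord

variable [IsAlgClosed K] (t : F) (ht : Transcendental K t) [FiniteDimensional K⟮t⟯ F]

open scoped Classical in
/-- The order of a function of the chart ring at a point (`⊤` for the zero function). -/
def ordAt (R : Rg K t →ₐ[K] K) (y : Rg K t) : ℕ∞ :=
  if y = 0 then ⊤ else (((ptEquiv t ht R).1.ord (y : F)).toNat : ℕ∞)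

theorem ordAt_zero (R : Rg K t →ₐ[K] K) : ordAt t ht R 0 = ⊤ := by
  simp [ordAt]

theorem ordAt_of_ne (R : Rg K t →ₐ[K] K) {y : Rg K t} (hy : y ≠ 0) :
    ordAt t ht R y = (((ptEquiv t ht R).1.ord (y : F)).toNat : ℕ∞) := by
  simp [ordAt, hy]

theorem natCast_le_ordAt_iff (R : Rg K t →ₐ[K] K) {y : Rg K t} (hy : y ≠ 0) (n : ℕ) :
    (n : ℕ∞) ≤ ordAt t ht R y ↔ (n : ℤ) ≤ (ptEquiv t ht R).1.ord (y : F) := by
  rw [ordAt_of_ne t ht R hy, Nat.cast_le]
  have := ord_nonneg t ht R y
  omega

theorem ordAt_mul (R : Rg K t →ₐ[K] K) (x y : Rg K t) :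
    ordAt t ht R (x * y) = ordAt t ht R x + ordAt t ht R y := by
  by_cases hx : x = 0
  · rw [hx, zero_mul, ordAt_zero, top_add]
  by_cases hy : y = 0
  · rw [hy, mul_zero, ordAt_zero, add_top]
  have hxF : (x : F) ≠ 0 := fun h => hx (Subtype.ext h)
  have hyF : (y : F) ≠ 0 := fun h => hy (Subtype.ext h)
  rw [ordAt_of_ne t ht R (mul_ne_zero hx hy), ordAt_of_ne t ht R hx, ordAt_of_ne t ht R hy,
    ← Nat.cast_add, Nat.cast_inj]
  have h1 : ((x * y : Rg K t) : F) = (x : F) * (y : F) := rfl
  rw [h1, (ptEquiv t ht R).1.ord_mul hxF hyF]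
  have := ord_nonneg t ht R x
  have := ord_nonneg t ht R y
  omega

theorem ordAt_eq_zero_iff (R : Rg K t →ₐ[K] K) (x : Rg K t) :
    ordAt t ht R x = 0 ↔ R x ≠ 0 := by
  by_cases hx : x = 0
  · simp [hx, ordAt_zero]
  rw [ordAt_of_ne t ht R hx, Ne, apply_eq_zero_iff t ht R x]
  have := ord_nonneg t ht R x
  constructor
  · intro h
    have h' : ((ptEquiv t ht R).1.ord (x : F)).toNat = 0 := by exact_mod_cast h
    rintro (h1 | h1)
    · omega
    · exact hx h1
  · intro h
    have h1 : ¬ 0 < (ptEquiv t ht R).1.ord (x : F) := fun h2 => h (Or.inl h2)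
    have h' : ((ptEquiv t ht R).1.ord (x : F)).toNat = 0 := by omega
    exact_mod_cast h'

theorem exists_ordAt_eq_one (R : Rg K t →ₐ[K] K) : ∃ x : Rg K t, ordAt t ht R x = 1 := by
  haveI := isDedekindDomain t ht
  set P : Primes K t :=
    (HeightOneSpectrum.equivMaximalSpectrum (not_isField t ht)).symm (maxOf t R) with hP
  have hPI : P.asIdeal = RingHom.ker R.toRingHom := rfl
  haveI : (RingHom.ker R.toRingHom).IsPrime := hPI ▸ P.isPrime
  have hne : RingHom.ker R.toRingHom ≠ ⊥ := hPI ▸ P.ne_bot
  have hlt := Ideal.pow_succ_lt_pow hne 1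
  obtain ⟨y, hy1, hy2⟩ := SetLike.exists_of_lt hlt
  have hy0 : y ≠ 0 := fun h => hy2 (h ▸ zero_mem _)
  refine ⟨y, ?_⟩
  rw [mem_ker_pow_iff t ht R hy0] at hy1 hy2
  rw [ordAt_of_ne t ht R hy0]
  have h' : ((ptEquiv t ht R).1.ord (y : F)).toNat = 1 := by
    push_cast at hy1 hy2
    omega
  exact_mod_cast h'

/-- **(Br3)** The order data of the chart ring. -/
def ordData : OrdData K (Rg K t) where
  ord := ordAt t ht
  ord_mul := ordAt_mul t ht
  ord_eq_zero := ordAt_eq_zero_iff t ht
  exists_unif := exists_ordAt_eq_one t ht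

@[simp] theorem ordData_ord (R : Rg K t →ₐ[K] K) (y : Rg K t) :
    (ordData t ht).ord R y = ordAt t ht R y := rfl

/-- **(Br4)** Functions vanishing to order two at a point lie in the square of its maximal
ideal. -/
theorem h4 (R : Rg K t →ₐ[K] K) (y : Rg K t) (h : 2 ≤ (ordData t ht).ord R y) :
    ∃ w : Rg K t, R w ≠ 0 ∧ w * y ∈ (RingHom.ker R.toRingHom) ^ 2 := by
  refine ⟨1, by rw [map_one]; exact one_ne_zero, ?_⟩
  rw [one_mul]
  by_cases hy : y = 0
  · rw [hy]; exact zero_mem _
  rw [mem_ker_pow_iff t ht R hy]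
  have h' : ((2 : ℕ) : ℕ∞) ≤ ordAt t ht R y := by exact_mod_cast h
  exact (natCast_le_ordAt_iff t ht R hy 2).1 h'

/-- **(Br5)** Modulo a constant multiple of a uniformiser, a function vanishing at a point
vanishes to order two. -/
theorem h5 (R : Rg K t →ₐ[K] K) (y z : Rg K t) (hz : (ordData t ht).ord R z = 1)
    (hy : R y = 0) : ∃ c : K, 2 ≤ (ordData t ht).ord R (y - c • z) := by
  haveI : Algebra.IsAlgebraic K⟮t⟯ F := Algebra.IsAlgebraic.of_finite _ _
  set v := (ptEquiv t ht R).1 with hv
  have hres : RR.ResK v := fun a => residueTrivial t v a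
  rw [ordData_ord] at hz
  have hz0 : z ≠ 0 := by
    rintro rfl
    rw [ordAt_zero] at hz
    exact ENat.top_ne_one hz
  have hzF : (z : F) ≠ 0 := fun h => hz0 (Subtype.ext h)
  rw [ordAt_of_ne t ht R hz0] at hz
  have hz1 : v.ord (z : F) = 1 := by
    have h' : (v.ord (z : F)).toNat = 1 := by exact_mod_cast hz
    omega
  have hzval : v.adicValuation (z : F) = exp (-1 : ℤ) := by
    rw [v.adicValuation_eq_exp_neg_ord hzF, hz1]
  have hyval : v.adicValuation (y : F) ≤ exp (-1 : ℤ) := by
    rw [v.adicValuation_le_exp_iff]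
    rcases (apply_eq_zero_iff t ht R y).1 hy with h | h
    · right
      have : 0 < v.ord (y : F) := h
      omega
    · left
      exact congrArg (fun s : Rg K t => (s : F)) h
  obtain ⟨c, hc⟩ := RR.exists_const_sub v hres hzval hyval
  refine ⟨c, ?_⟩
  rw [ordData_ord]
  by_cases hw : y - c • z = 0
  · rw [hw, ordAt_zero]; exact le_top
  have hwF : ((y - c • z : Rg K t) : F) = (y : F) - c • (z : F) := rfl
  rw [← hwF, v.adicValuation_le_exp_iff] at hc
  have h2 : ((2 : ℕ) : ℕ∞) ≤ ordAt t ht R (y - c • z) := by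
    rw [natCast_le_ordAt_iff t ht R hw]
    rcases hc with hc | hc
    · exact absurd (Subtype.ext hc) hw
    · have h3 : -(-1 - 1 : ℤ) ≤ v.ord ((y - c • z : Rg K t) : F) := hc
      have h4 : (2 : ℤ) ≤ v.ord ((y - c • z : Rg K t) : F) := by omega
      exact_mod_cast h4
  exact_mod_cast h2

end Ord

section Bdd

variable (t : F)

/-- Every function of the chart ring is integral over `K[t]` (inside the chart ring). -/
theorem isIntegral_adjoin_xInt (a : Rg K t) : IsIntegral (Algebra.adjoin K {xInt K t}) a := by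
  have hmem : ∀ c : Algebra.adjoin K {t},
      algebraMap (Algebra.adjoin K {t}) (Rg K t) c ∈ Algebra.adjoin K {xInt K t} := by
    rintro ⟨c, hc⟩
    induction hc using Algebra.adjoin_induction with
    | mem y hy =>
      rw [Set.mem_singleton_iff] at hy
      subst hy
      exact Algebra.subset_adjoin (Set.mem_singleton _)
    | algebraMap r => exact Subalgebra.algebraMap_mem _ r
    | add y z hy hz ihy ihz => exact add_mem ihy ihz
    | mul y z hy hz ihy ihz => exact mul_mem ihy ihz
  let ψ : Algebra.adjoin K {t} →+* Algebra.adjoin K {xInt K t} :=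
    (algebraMap (Algebra.adjoin K {t}) (Rg K t)).codRestrict _ hmem
  obtain ⟨p, hp, hpa⟩ := a.2
  refine ⟨p.map ψ, hp.map ψ, ?_⟩
  rw [Polynomial.eval₂_map]
  apply Subtype.ext
  have h1 := Polynomial.hom_eval₂ p
    ((algebraMap (Algebra.adjoin K {xInt K t}) (Rg K t)).comp ψ)
    (integralClosure (Algebra.adjoin K {t}) F).val.toRingHom a
  have h2 : ((integralClosure (Algebra.adjoin K {t}) F).val.toRingHom).comp
      ((algebraMap (Algebra.adjoin K {xInt K t}) (Rg K t)).comp ψ)
      = algebraMap (Algebra.adjoin K {t}) F := rfl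
  rw [h2] at h1
  exact h1.trans hpa

variable {V : Type*} (Fm : AbsFamily K V)

/-- The region `|t|_v ≤ ρ_v` of the chart. -/
def region (ρ : V → ℝ) (v : V) : Set (Rg K t →ₐ[K] K) := {S | Fm.abv v (S (xInt K t)) ≤ ρ v}

theorem mem_region {ρ : V → ℝ} {v : V} {S : Rg K t →ₐ[K] K} :
    S ∈ region t Fm ρ v ↔ Fm.abv v (S (xInt K t)) ≤ ρ v := Iff.rfl

variable [IsAlgClosed K] (ht : Transcendental K t) [FiniteDimensional K⟮t⟯ F]

omit [IsAlgClosed K] [FiniteDimensional K⟮t⟯ F] in
/-- **(Br2)** Every function of the chart ring is tamely bounded on the regions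
`{|t|_v ≤ ρ_v}`. -/
theorem tbdd {ρ : V → ℝ} (hρ : Tame ρ) (a : Rg K t) : TBdd Fm (region t Fm ρ) a := by
  have ht0 : TBdd Fm (region t Fm ρ) (xInt K t) := ⟨ρ, hρ, fun v S hS => hS⟩
  have hle : Algebra.adjoin K {xInt K t} ≤ tbddSubalgebra Fm (region t Fm ρ) :=
    Algebra.adjoin_le (by rintro _ rfl; exact ht0)
  exact TBdd.of_isIntegral Fm _ (Algebra.adjoin K {xInt K t}) (fun b hb => hle hb)
    (isIntegral_adjoin_xInt t a)

include ht in
/-- **(Br1)** Finitely many generators of the chart ring. -/
theorem exists_generators :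
    ∃ (n : ℕ) (x : Fin n → Rg K t), Algebra.adjoin K (Set.range x) = ⊤ := by
  haveI := finiteType t ht
  obtain ⟨s, hs⟩ := (Algebra.FiniteType.out : (⊤ : Subalgebra K (Rg K t)).FG)
  refine ⟨s.card, fun i => (s.equivFin.symm i : Rg K t), ?_⟩
  have hr : Set.range (fun i => ((s.equivFin.symm i : s) : Rg K t)) = (s : Set (Rg K t)) := by
    ext y
    constructor
    · rintro ⟨i, rfl⟩
      exact (s.equivFin.symm i).2
    · intro hy
      exact ⟨s.equivFin ⟨y, hy⟩, by simp⟩
  rw [hr, hs]

/-- **The abstract (M≤) on the chart of `t`**, all hypotheses of `chart_bound_main`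
discharged: for generators `x` of the chart ring, a tame radius `ρ` and a finite family `u`,
  `|ψ(S)|_v ≤ C_v · max |aᵢ|_v · ∏_{Q ∈ L} cdist_v(Q, S)`,  `ψ = ∑ aᵢ uᵢ`,
for all points `S` and all multisets `L` of at most `n` zeros of `ψ` (with multiplicity) in the
region `{|t|_v ≤ ρ_v}`. -/
theorem chart_bound_rg {ρ : V → ℝ} (hρ : Tame ρ) {ι : Type*} [Fintype ι] (x : ι → Rg K t)
    (hx : Algebra.adjoin K (Set.range x) = ⊤) (n : ℕ) {ι' : Type uF} [Fintype ι']
    (u : ι' → Rg K t) :
    ∃ C : V → ℝ, Tame C ∧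
      ∀ v (a : ι' → K), ∀ S ∈ region t Fm ρ v, ∀ L : Multiset (Rg K t →ₐ[K] K), L.card ≤ n →
        (∀ Q ∈ L, Q ∈ region t Fm ρ v) →
        (∀ Q, ((by classical exact L.count Q : ℕ) : ℕ∞) ≤ ordAt t ht Q (∑ i, a i • u i)) →
        Fm.abv v (S (∑ i, a i • u i))
          ≤ C v * (⨆ i, Fm.abv v (a i)) * (L.map fun Q => cdist Fm x v Q S).prod :=
  chart_bound_main Fm (region t Fm ρ) x hx (fun i => tbdd t Fm hρ (x i)) (ordData t ht)
    (h4 t ht) (h5 t ht) n u

end Bdd

end Fermat.Agent.MW.HtM.RegRing
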