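/-
MW / [H-M] (sub-architect helper1) — THE INTERFACE HT-M ⟶ HT-Q / HT-glob, in the vocabulary of
`Tame.lean` (helper33): a family of absolute values `Ab : AbsFamily K V` and tame constants
`C : V → ℝ` (`Tame C`: `1 ≤ C v` everywhere, `C v = 1` off a finite set).

`LocalHt Ab pinf t m` : a local distance `δ v R S` on the places of `F/K` for every `v : V`, with
the two local estimates of the theory:
  * `mle` : the uniform interpolation bound (M≤) for functions with poles only at `pinf`;
  * `lip` : the fibre Lipschitz bound for `t`.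
`t` is a function with poles only at `pinf`, of pole order `m` there; `pval P f` (`Local.lean`)
is the value of `f` at the place `P`.

(This supersedes the structure `LocalDatum` of `Local.lean`, which states the same with explicit
constants `(kap v * Hgt Λ v) ^ e`.)
-/
import Mathlib
import Fermat.Prelude.Def_AlgebraicCurve_DivisorClassGroup
import Fermat.Agent.MW.HtM.Tame
import Fermat.Agent.MW.HtM.Local

set_option autoImplicit false

namespace Fermat.Agent.MW.HtM

open AlgebraicCurve

variable {K F V : Type*} [Field K] [Field F] [Algebra K F]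

/-- **The interface HT-M ⟶ HT-glob.**  `pinf` is the base point, `t` a function with poles only
at `pinf`, of pole order `m` there.  All constants are tame. -/
structure LocalHt (Ab : AbsFamily K V) (pinf : Place K F) (t : F) (m : ℕ) where
  /-- the local distance at the place `v` -/
  δ : V → Place K F → Place K F → ℝ
  δ_symm : ∀ v R S, δ v R S = δ v S R
  δ_nonneg : ∀ v R S, 0 ≤ δ v R S
  δ_le_one : ∀ v R S, δ v R S ≤ 1
  δ_self : ∀ v R, R ≠ pinf → δ v R R = 0
  δ_pos : ∀ v R S, R ≠ pinf → S ≠ pinf → R ≠ S → 0 < δ v R S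
  /-- `δ v R S = 1` for almost all `v` -/
  δ_eq_one : ∀ R S, R ≠ pinf → S ≠ pinf → R ≠ S → {v | δ v R S ≠ 1}.Finite
  /-- **(M≤)**: the uniform interpolation bound.  `φ = ∑ a i • f i` with `f i` regular off `pinf`
  of pole order `≤ M` there; `D` an effective divisor `≤ div φ` off `pinf`, of degree `≤ k`. -/
  mle : ∀ {ι : Type} [Fintype ι] (f : ι → F) (M : ℕ),
    (∀ i, ∀ P : Place K F, P ≠ pinf → 0 ≤ P.ord (f i)) → (∀ i, -(M : ℤ) ≤ pinf.ord (f i)) →
    ∀ k : ℕ, ∃ C : V → ℝ, Tame C ∧ ∀ (v : V) (a : ι → K) (A : ℝ), 0 ≤ A →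
      (∀ i, Ab.abv v (a i) ≤ A) → ∀ S : Place K F, S ≠ pinf → ∀ D : Place K F →₀ ℕ,
      HQ.deg D ≤ k → D pinf = 0 → (∀ R, R ≠ pinf → (D R : ℤ) ≤ R.ord (∑ i, a i • f i)) →
      Ab.abv v (pval S (∑ i, a i • f i)) ^ m ≤
        C v * A ^ m * max 1 (Ab.abv v (pval S t)) ^ M * (D.prod fun R n => δ v R S ^ n) ^ m
  /-- **(Lip)**: the fibre Lipschitz bound.  `Z` is the divisor of zeros of `t - τ`. -/
  lip : ∃ C : V → ℝ, Tame C ∧ ∀ (v : V) (R : Place K F), R ≠ pinf →
    ∀ (τ : K) (Z : Place K F →₀ ℕ), Z pinf = 0 →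
      (∀ P, P ≠ pinf → (Z P : ℤ) = P.ord (t - algebraMap K F τ)) →
      (Z.prod fun S n => δ v R S ^ n) * (max 1 (Ab.abv v (pval R t)) * max 1 (Ab.abv v τ)) ≤
        C v * Ab.abv v (pval R t - τ)

end Fermat.Agent.MW.HtM
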