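/-
MW / [H-M] (helper1) — the value map `pval P` of a place with residue field `K` is a `K`-algebra
homomorphism on the valuation ring.

* `pval_spec` : `f - pval P f ∈ 𝔪_P` for `f` regular at `P`;
* `pval_add`, `pval_mul`, `pval_neg`, `pval_sub`, `pval_smul`, `pval_sum`, `pval_pow`,
  `pval_prod`, `pval_inv`;
* `pval_eq_zero_iff` (`↔ f ∈ 𝔪_P`), `pval_eq_zero_iff_ord` (`↔ 0 < ord_P f`),
  `pval_of_notMem` (junk value `0` at a pole);
* `pvalHom`, `pvalAlgHom` : the value map as `K`-algebra homomorphisms (on the valuation ring, on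
  a subalgebra of functions regular at `P`).
-/
import Mathlib
import Fermat.Agent.MW.HtM.Local
import Fermat.Agent.Lib.FF.RRLocal

set_option autoImplicit false

namespace Fermat.Agent.MW.HtM

open AlgebraicCurve Fermat.Agent.Lib.FF

variable {K F : Type*} [Field K] [Field F] [Algebra K F] (P : Place K F)

theorem adicValuation_lt_one_iff (a : P.toValuationSubring) :
    P.adicValuation (a : F) < 1 ↔ a ∈ IsLocalRing.maximalIdeal P.toValuationSubring := by
  rw [IsLocalRing.mem_maximalIdeal, mem_nonunits_iff, ← P.adicValuation_coe_eq_one_iff]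
  have h1 : P.adicValuation (a : F) ≤ 1 := P.adicValuation_le_one_of_mem a.2
  exact ⟨fun h => ne_of_lt h, fun h => lt_of_le_of_ne h1 h⟩

theorem mem_of_adicValuation_lt_one {f : F} (h : P.adicValuation f < 1) :
    f ∈ P.toValuationSubring := RR.mem_of_val_le_one P h.le

/-- `f - f(P) ∈ 𝔪_P` for `f` regular at `P`. -/
theorem pval_spec_of_mem (hres : RR.ResK P) {f : F} (hf : f ∈ P.toValuationSubring) :
    P.adicValuation (f - algebraMap K F (pval P f)) < 1 := by
  obtain ⟨c, hc⟩ := hres ⟨f, hf⟩
  refine pval_spec P ⟨c, ?_⟩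
  have := (adicValuation_lt_one_iff P _).mpr hc
  simpa using this

/-- At a pole the value is the junk value `0`. -/
theorem pval_of_notMem {f : F} (hf : f ∉ P.toValuationSubring) : pval P f = 0 := by
  classical
  unfold pval
  rw [dif_neg]
  rintro ⟨c, hc⟩
  apply hf
  have h1 := mem_of_adicValuation_lt_one P hc
  have h2 : f = (f - algebraMap K F c) + algebraMap K F c := by ring
  rw [h2]
  exact add_mem h1 (P.algebraMap_mem' c)

variable {P}

theorem pval_add (hres : RR.ResK P) {f g : F} (hf : f ∈ P.toValuationSubring)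
    (hg : g ∈ P.toValuationSubring) : pval P (f + g) = pval P f + pval P g := by
  refine pval_eq P ?_
  have h : f + g - algebraMap K F (pval P f + pval P g)
      = (f - algebraMap K F (pval P f)) + (g - algebraMap K F (pval P g)) := by
    rw [map_add]; ring
  rw [h]
  exact lt_of_le_of_lt (Valuation.map_add _ _ _)
    (max_lt (pval_spec_of_mem P hres hf) (pval_spec_of_mem P hres hg))

theorem pval_mul (hres : RR.ResK P) {f g : F} (hf : f ∈ P.toValuationSubring)
    (hg : g ∈ P.toValuationSubring) : pval P (f * g) = pval P f * pval P g := by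
  refine pval_eq P ?_
  have h : f * g - algebraMap K F (pval P f * pval P g)
      = (f - algebraMap K F (pval P f)) * g
        + algebraMap K F (pval P f) * (g - algebraMap K F (pval P g)) := by
    rw [map_mul]; ring
  rw [h]
  refine lt_of_le_of_lt (Valuation.map_add _ _ _) (max_lt ?_ ?_)
  · rw [map_mul]
    exact mul_lt_one_of_lt_of_le (pval_spec_of_mem P hres hf) (P.adicValuation_le_one_of_mem hg)
  · rw [map_mul]
    calc P.adicValuation (algebraMap K F (pval P f)) *
          P.adicValuation (g - algebraMap K F (pval P g))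
        ≤ 1 * P.adicValuation (g - algebraMap K F (pval P g)) :=
          mul_le_mul_left (P.adicValuation_algebraMap_le_one _) _
      _ < 1 := by rw [one_mul]; exact pval_spec_of_mem P hres hg

theorem pval_smul (hres : RR.ResK P) (c : K) {f : F} (hf : f ∈ P.toValuationSubring) :
    pval P (c • f) = c * pval P f := by
  rw [Algebra.smul_def, pval_mul hres (P.algebraMap_mem' c) hf, pval_algebraMap]

theorem pval_neg (hres : RR.ResK P) {f : F} (hf : f ∈ P.toValuationSubring) :
    pval P (-f) = -pval P f := by
  have h := pval_smul hres (-1 : K) hf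
  simpa using h

theorem pval_sub (hres : RR.ResK P) {f g : F} (hf : f ∈ P.toValuationSubring)
    (hg : g ∈ P.toValuationSubring) : pval P (f - g) = pval P f - pval P g := by
  rw [sub_eq_add_neg, pval_add hres hf (neg_mem hg), pval_neg hres hg, sub_eq_add_neg]

theorem pval_sum (hres : RR.ResK P) {ι : Type*} (s : Finset ι) (f : ι → F)
    (hf : ∀ i ∈ s, f i ∈ P.toValuationSubring) :
    pval P (∑ i ∈ s, f i) = ∑ i ∈ s, pval P (f i) := by
  classical
  induction s using Finset.induction_on with
  | empty => simp
  | insert a s ha ih =>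
    rw [Finset.sum_insert ha, Finset.sum_insert ha,
      pval_add hres (hf a (Finset.mem_insert_self a s))
        (sum_mem fun i hi => hf i (Finset.mem_insert_of_mem hi)),
      ih fun i hi => hf i (Finset.mem_insert_of_mem hi)]

theorem pval_prod (hres : RR.ResK P) {ι : Type*} (s : Finset ι) (f : ι → F)
    (hf : ∀ i ∈ s, f i ∈ P.toValuationSubring) :
    pval P (∏ i ∈ s, f i) = ∏ i ∈ s, pval P (f i) := by
  classical
  induction s using Finset.induction_on with
  | empty => simp
  | insert a s ha ih =>
    rw [Finset.prod_insert ha, Finset.prod_insert ha,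
      pval_mul hres (hf a (Finset.mem_insert_self a s))
        (prod_mem fun i hi => hf i (Finset.mem_insert_of_mem hi)),
      ih fun i hi => hf i (Finset.mem_insert_of_mem hi)]

theorem pval_pow (hres : RR.ResK P) {f : F} (hf : f ∈ P.toValuationSubring) (n : ℕ) :
    pval P (f ^ n) = pval P f ^ n := by
  induction n with
  | zero => simp
  | succ n ih => rw [pow_succ, pow_succ, pval_mul hres (pow_mem hf n) hf, ih]

/-- The value vanishes exactly on the maximal ideal. -/
theorem pval_eq_zero_iff (hres : RR.ResK P) {f : F} (hf : f ∈ P.toValuationSubring) :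
    pval P f = 0 ↔ P.adicValuation f < 1 := by
  constructor
  · intro h
    have := pval_spec_of_mem P hres hf
    rwa [h, map_zero, sub_zero] at this
  · intro h
    exact pval_eq P (by simpa using h)

theorem pval_eq_zero_iff_ord (hres : RR.ResK P) {f : F} (hf0 : f ≠ 0) (hf : 0 ≤ P.ord f) :
    pval P f = 0 ↔ 0 < P.ord f := by
  rw [pval_eq_zero_iff hres (Fermat.Agent.S24.mem_of_ord_nonneg P hf),
    P.adicValuation_eq_exp_neg_ord hf0, ← WithZero.exp_zero, WithZero.exp_lt_exp]
  omega

theorem pval_eq_zero_of_ord_pos {f : F} (hf : 0 < P.ord f) : pval P f = 0 := by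
  have hf0 : f ≠ 0 := by rintro rfl; simp at hf
  refine pval_eq P ?_
  rw [map_zero, sub_zero, P.adicValuation_eq_exp_neg_ord hf0, ← WithZero.exp_zero,
    WithZero.exp_lt_exp]
  omega

theorem pval_ne_zero_of_ord_eq_zero (hres : RR.ResK P) {f : F} (hf0 : f ≠ 0)
    (hf : P.ord f = 0) : pval P f ≠ 0 := by
  intro h
  have := (pval_eq_zero_iff_ord hres hf0 hf.ge).mp h
  omega

theorem pval_inv (hres : RR.ResK P) {f : F} (hf : f ∈ P.toValuationSubring)
    (h0 : pval P f ≠ 0) : pval P f⁻¹ = (pval P f)⁻¹ := by
  have hval : P.adicValuation f = 1 := by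
    have h1 := P.adicValuation_le_one_of_mem hf
    refine le_antisymm h1 (not_lt.mp fun h => h0 ((pval_eq_zero_iff hres hf).mpr h))
  have hf0 : f ≠ 0 := by rintro rfl; simp at hval
  have hinv : f⁻¹ ∈ P.toValuationSubring :=
    RR.mem_of_val_le_one P (by rw [map_inv₀, hval, inv_one])
  have h1 := pval_mul hres hf hinv
  rw [mul_inv_cancel₀ hf0, pval_one] at h1
  exact eq_inv_of_mul_eq_one_right h1.symm

variable (P)

/-- The value map as a `K`-algebra homomorphism on the valuation ring. -/
noncomputable def pvalHom (hres : RR.ResK P) : P.toValuationSubring →ₐ[K] K where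
  toFun a := pval P (a : F)
  map_one' := pval_one P
  map_mul' a b := pval_mul hres a.2 b.2
  map_zero' := pval_zero P
  map_add' a b := pval_add hres a.2 b.2
  commutes' c := pval_algebraMap P c

@[simp] theorem pvalHom_apply (hres : RR.ResK P) (a : P.toValuationSubring) :
    pvalHom P hres a = pval P (a : F) := rfl

/-- The value map on a subalgebra of functions regular at `P`. -/
noncomputable def pvalAlgHom (hres : RR.ResK P) (A : Subalgebra K F)
    (hA : ∀ a ∈ A, a ∈ P.toValuationSubring) : A →ₐ[K] K where
  toFun a := pval P (a : F)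
  map_one' := pval_one P
  map_mul' a b := pval_mul hres (hA _ a.2) (hA _ b.2)
  map_zero' := pval_zero P
  map_add' a b := pval_add hres (hA _ a.2) (hA _ b.2)
  commutes' c := pval_algebraMap P c

@[simp] theorem pvalAlgHom_apply (hres : RR.ResK P) (A : Subalgebra K F)
    (hA : ∀ a ∈ A, a ∈ P.toValuationSubring) (a : A) :
    pvalAlgHom P hres A hA a = pval P (a : F) := rfl

end Fermat.Agent.MW.HtM
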