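/-
MW / [H-M] (helper1) — THE TWO-CHART ASSEMBLY, DEFINITIONS: the local distance `dlt` and the
literal chart statements (`ChartBound0/1`, `FibLip0/1`, `Cmp`, `Sep0/1`) from which
`TwoChart.lean` builds the interface `LocalHt`.

`t` has its only pole at `pinf`.  Chart 0 = functions regular off `pinf`, with coordinates `x₀`
(containing `t`), bounded region `|t|_v ≤ ρ_v`; chart 1 = functions regular off the zeros of `t`,
with coordinates `x₁` (containing `t⁻¹`), bounded region `|t|_v ≥ ρ_v⁻¹`; `ρ_v = Ab.archN 2 v`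
(`1` at ultrametric places, `2` at the others).

`dlt v R S` := `min 1 (pdist x₀ v R S)` if both points lie in the region of chart 0, else
`min 1 (pdist x₁ v R S)` if both lie in the region of chart 1, else `1`.

The assembly (`TwoChart.lean`): from the chart bounds `ChartBound0/1` (M≤ on each chart), the
fibre Lipschitz bounds `FibLip0/1`, the comparison `Cmp` of the two coordinate distances on the
overlap and the separation statements `Sep0/1`, the structure `LocalHt Ab pinf t m`.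
-/
import Mathlib
import Fermat.Agent.MW.HtM.Interface
import Fermat.Agent.MW.HtM.PVal

set_option autoImplicit false

namespace Fermat.Agent.MW.HtM.TwoChart

open AlgebraicCurve Fermat.Agent.Lib.FF

variable {K F V : Type*} [Field K] [Field F] [Algebra K F]

/-! ### Finsupp bookkeeping -/

section Fs

variable {P : Type*}

theorem deg_filter_le (p : P → Prop) [DecidablePred p] (D : P →₀ ℕ) :
    HQ.deg (D.filter p) ≤ HQ.deg D := by
  have h := HQ.deg_add (D.filter p) (D.filter fun a => ¬ p a)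
  rw [Finsupp.filter_pos_add_filter_neg] at h
  omega

theorem deg_nsmul (m : ℕ) (D : P →₀ ℕ) : HQ.deg (m • D) = m * HQ.deg D := by
  induction m with
  | zero => simp
  | succ n ih => rw [succ_nsmul, HQ.deg_add, ih]; ring

theorem deg_eq_sum (D : P →₀ ℕ) : HQ.deg D = ∑ Q ∈ D.support, D Q := rfl

/-- Comparison of two products over an effective divisor. -/
theorem prod_pow_le (E : P →₀ ℕ) (g h : P → ℝ) {c : ℝ}
    (hg : ∀ Q ∈ E.support, 0 ≤ g Q) (hgh : ∀ Q ∈ E.support, g Q ≤ c * h Q) :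
    (E.prod fun Q n => g Q ^ n) ≤ c ^ HQ.deg E * E.prod fun Q n => h Q ^ n := by
  unfold Finsupp.prod
  rw [deg_eq_sum, ← Finset.prod_pow_eq_pow_sum, ← Finset.prod_mul_distrib]
  refine Finset.prod_le_prod (fun Q hQ => pow_nonneg (hg Q hQ) _) fun Q hQ => ?_
  rw [← mul_pow]
  exact pow_le_pow_left₀ (hg Q hQ) (hgh Q hQ) _

theorem prod_pow_nonneg (E : P →₀ ℕ) (g : P → ℝ) (hg : ∀ Q ∈ E.support, 0 ≤ g Q) :
    0 ≤ E.prod fun Q n => g Q ^ n :=
  Finset.prod_nonneg fun Q hQ => pow_nonneg (hg Q hQ) _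

theorem prod_nsmul (m : ℕ) (hm : 0 < m) (E : P →₀ ℕ) (g : P → ℝ) :
    ((m • E).prod fun Q n => g Q ^ n) = (E.prod fun Q n => g Q ^ n) ^ m := by
  classical
  have hs : (m • E).support ⊆ E.support := Finsupp.support_smul
  rw [Finsupp.prod_of_support_subset _ hs _ (fun _ _ => pow_zero _)]
  unfold Finsupp.prod
  rw [← Finset.prod_pow]
  refine Finset.prod_congr rfl fun Q _ => ?_
  rw [Finsupp.smul_apply, smul_eq_mul, mul_comm, pow_mul]

end Fs

/-! ### Regions, coordinate distances, the two-chart distance -/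

variable (Ab : AbsFamily K V) (t : F)

/-- The radius of the bounded regions: `1` at ultrametric places, `2` at the others. -/
noncomputable def rho (v : V) : ℝ := Ab.archN 2 v

theorem tame_rho : Tame (rho Ab) := Ab.tame_archN 2

theorem one_le_rho (v : V) : 1 ≤ rho Ab v := (tame_rho Ab).1 v

theorem rho_pos (v : V) : 0 < rho Ab v := lt_of_lt_of_le one_pos (one_le_rho Ab v)

theorem rho_inv_le_one (v : V) : (rho Ab v)⁻¹ ≤ 1 := inv_le_one_of_one_le₀ (one_le_rho Ab v)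

theorem rho_inv_le_rho (v : V) : (rho Ab v)⁻¹ ≤ rho Ab v :=
  (rho_inv_le_one Ab v).trans (one_le_rho Ab v)

/-- `|a + b| ≤ ρ · max |a| |b|`. -/
theorem abv_add_le_rho (v : V) (a b : K) :
    Ab.abv v (a + b) ≤ rho Ab v * max (Ab.abv v a) (Ab.abv v b) :=
  Ab.abv_add_le v a b (le_max_left _ _) (le_max_right _ _)

/-- **The far lemma.** If `ρ |β| < |α|` then `|α| ≤ ρ |α - β|`. -/
theorem far_lemma (v : V) {α β : K} (h : rho Ab v * Ab.abv v β < Ab.abv v α) :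
    Ab.abv v α ≤ rho Ab v * Ab.abv v (α - β) := by
  have h1 := abv_add_le_rho Ab v (α - β) β
  rw [sub_add_cancel] at h1
  rcases le_total (Ab.abv v (α - β)) (Ab.abv v β) with h2 | h2
  · rw [max_eq_right h2] at h1
    exact absurd h1 (not_le.mpr h)
  · rwa [max_eq_left h2] at h1

/-- The size of `t` at a point. -/
noncomputable def tabs (v : V) (S : Place K F) : ℝ := Ab.abv v (pval S t)

theorem tabs_nonneg (v : V) (S : Place K F) : 0 ≤ tabs Ab t v S := (Ab.abv v).nonneg _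

/-- The coordinate distance of two places with respect to a finite family of functions. -/
noncomputable def pdist {n : ℕ} (x : Fin n → F) (v : V) (R S : Place K F) : ℝ :=
  ⨆ i, Ab.abv v (pval S (x i) - pval R (x i))

theorem pdist_nonneg {n : ℕ} (x : Fin n → F) (v : V) (R S : Place K F) :
    0 ≤ pdist Ab x v R S := Real.iSup_nonneg fun _ => (Ab.abv v).nonneg _

theorem le_pdist {n : ℕ} (x : Fin n → F) (v : V) (R S : Place K F) (i : Fin n) :
    Ab.abv v (pval S (x i) - pval R (x i)) ≤ pdist Ab x v R S :=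
  Finite.le_ciSup (fun i => Ab.abv v (pval S (x i) - pval R (x i))) i

theorem pdist_comm {n : ℕ} (x : Fin n → F) (v : V) (R S : Place K F) :
    pdist Ab x v R S = pdist Ab x v S R := by
  unfold pdist
  congr 1
  funext i
  exact (Ab.abv v).map_sub _ _

theorem pdist_self {n : ℕ} (x : Fin n → F) (v : V) (S : Place K F) : pdist Ab x v S S = 0 := by
  simp [pdist]

open Classical in
/-- **The two-chart distance.** -/
noncomputable def dlt {n₀ n₁ : ℕ} (x₀ : Fin n₀ → F) (x₁ : Fin n₁ → F) (v : V)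
    (R S : Place K F) : ℝ :=
  if tabs Ab t v R ≤ rho Ab v ∧ tabs Ab t v S ≤ rho Ab v then min 1 (pdist Ab x₀ v R S)
  else if (rho Ab v)⁻¹ ≤ tabs Ab t v R ∧ (rho Ab v)⁻¹ ≤ tabs Ab t v S then
    min 1 (pdist Ab x₁ v R S)
  else 1

section dlt

variable {n₀ n₁ : ℕ} (x₀ : Fin n₀ → F) (x₁ : Fin n₁ → F) (v : V) (R S : Place K F)

theorem dlt_of_both0 (h : tabs Ab t v R ≤ rho Ab v ∧ tabs Ab t v S ≤ rho Ab v) :
    dlt Ab t x₀ x₁ v R S = min 1 (pdist Ab x₀ v R S) := by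
  unfold dlt; rw [if_pos h]

theorem dlt_of_both1 (h0 : ¬ (tabs Ab t v R ≤ rho Ab v ∧ tabs Ab t v S ≤ rho Ab v))
    (h : (rho Ab v)⁻¹ ≤ tabs Ab t v R ∧ (rho Ab v)⁻¹ ≤ tabs Ab t v S) :
    dlt Ab t x₀ x₁ v R S = min 1 (pdist Ab x₁ v R S) := by
  unfold dlt; rw [if_neg h0, if_pos h]

theorem dlt_of_neither (h0 : ¬ (tabs Ab t v R ≤ rho Ab v ∧ tabs Ab t v S ≤ rho Ab v))
    (h1 : ¬ ((rho Ab v)⁻¹ ≤ tabs Ab t v R ∧ (rho Ab v)⁻¹ ≤ tabs Ab t v S)) :
    dlt Ab t x₀ x₁ v R S = 1 := by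
  unfold dlt; rw [if_neg h0, if_neg h1]

theorem dlt_nonneg : 0 ≤ dlt Ab t x₀ x₁ v R S := by
  unfold dlt
  split_ifs
  · exact le_min zero_le_one (pdist_nonneg Ab x₀ v R S)
  · exact le_min zero_le_one (pdist_nonneg Ab x₁ v R S)
  · exact zero_le_one

theorem dlt_le_one : dlt Ab t x₀ x₁ v R S ≤ 1 := by
  unfold dlt
  split_ifs
  · exact min_le_left _ _
  · exact min_le_left _ _
  · exact le_rfl

theorem dlt_symm : dlt Ab t x₀ x₁ v R S = dlt Ab t x₀ x₁ v S R := by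
  by_cases h0 : tabs Ab t v R ≤ rho Ab v ∧ tabs Ab t v S ≤ rho Ab v
  · rw [dlt_of_both0 Ab t x₀ x₁ v R S h0, dlt_of_both0 Ab t x₀ x₁ v S R h0.symm, pdist_comm]
  · by_cases h1 : (rho Ab v)⁻¹ ≤ tabs Ab t v R ∧ (rho Ab v)⁻¹ ≤ tabs Ab t v S
    · rw [dlt_of_both1 Ab t x₀ x₁ v R S h0 h1,
        dlt_of_both1 Ab t x₀ x₁ v S R (fun h => h0 h.symm) h1.symm, pdist_comm]
    · rw [dlt_of_neither Ab t x₀ x₁ v R S h0 h1,
        dlt_of_neither Ab t x₀ x₁ v S R (fun h => h0 h.symm) (fun h => h1 h.symm)]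

theorem dlt_self : dlt Ab t x₀ x₁ v R R = 0 := by
  unfold dlt
  rw [pdist_self, pdist_self]
  split_ifs with h0 h1
  · simp
  · simp
  · exfalso
    rw [and_self] at h0 h1
    exact h1 ((rho_inv_le_rho Ab v).trans (not_le.mp h0).le)

end dlt


/-! ### The chart statements (targets of the function-field bridging) -/

section Targets

variable (pinf : Place K F) {n₀ n₁ : ℕ} (x₀ : Fin n₀ → F) (x₁ : Fin n₁ → F)

/-- **(M≤) on chart 0** (functions regular off `pinf`, region `|t|_v ≤ ρ_v`). -/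
def ChartBound0 : Prop :=
  ∀ {ι : Type} [Fintype ι] (u : ι → F), (∀ i, ∀ P : Place K F, P ≠ pinf → 0 ≤ P.ord (u i)) →
    ∀ n : ℕ, ∃ C : V → ℝ, Tame C ∧ ∀ (v : V) (a : ι → K) (A : ℝ), 0 ≤ A →
      (∀ i, Ab.abv v (a i) ≤ A) → ∀ S : Place K F, S ≠ pinf → tabs Ab t v S ≤ rho Ab v →
      ∀ D : Place K F →₀ ℕ, HQ.deg D ≤ n →
      (∀ Q ∈ D.support, Q ≠ pinf ∧ tabs Ab t v Q ≤ rho Ab v) →
      (∀ Q ∈ D.support, (D Q : ℤ) ≤ Q.ord (∑ i, a i • u i)) →
      Ab.abv v (pval S (∑ i, a i • u i)) ≤ C v * A * D.prod fun Q k => pdist Ab x₀ v Q S ^ k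

/-- **(M≤) on chart 1** (functions regular off the zeros of `t`, region `|t|_v ≥ ρ_v⁻¹`). -/
def ChartBound1 : Prop :=
  ∀ {ι : Type} [Fintype ι] (u : ι → F), (∀ i, ∀ P : Place K F, P.ord t ≤ 0 → 0 ≤ P.ord (u i)) →
    ∀ n : ℕ, ∃ C : V → ℝ, Tame C ∧ ∀ (v : V) (a : ι → K) (A : ℝ), 0 ≤ A →
      (∀ i, Ab.abv v (a i) ≤ A) → ∀ S : Place K F, S ≠ pinf →
      (rho Ab v)⁻¹ ≤ tabs Ab t v S → ∀ D : Place K F →₀ ℕ, HQ.deg D ≤ n →
      (∀ Q ∈ D.support, Q ≠ pinf ∧ (rho Ab v)⁻¹ ≤ tabs Ab t v Q) →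
      (∀ Q ∈ D.support, (D Q : ℤ) ≤ Q.ord (∑ i, a i • u i)) →
      Ab.abv v (pval S (∑ i, a i • u i)) ≤ C v * A * D.prod fun Q k => pdist Ab x₁ v Q S ^ k

/-- **Fibre Lipschitz bound on chart 0.** -/
def FibLip0 : Prop :=
  ∃ C : V → ℝ, Tame C ∧ ∀ (v : V) (R : Place K F), R ≠ pinf → tabs Ab t v R ≤ rho Ab v →
    ∀ τ : K, Ab.abv v τ ≤ rho Ab v → ∀ Z : Place K F →₀ ℕ, Z pinf = 0 →
    (∀ P, P ≠ pinf → (Z P : ℤ) = P.ord (t - algebraMap K F τ)) →
    (Z.prod fun S k => pdist Ab x₀ v S R ^ k) ≤ C v * Ab.abv v (pval R t - τ)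

/-- **Fibre Lipschitz bound on chart 1** (for the function `t⁻¹`). -/
def FibLip1 : Prop :=
  ∃ C : V → ℝ, Tame C ∧ ∀ (v : V) (R : Place K F), R ≠ pinf →
    (rho Ab v)⁻¹ ≤ tabs Ab t v R → ∀ τ : K, (rho Ab v)⁻¹ ≤ Ab.abv v τ →
    ∀ Z : Place K F →₀ ℕ, Z pinf = 0 →
    (∀ P, P ≠ pinf → (Z P : ℤ) = P.ord (t - algebraMap K F τ)) →
    (Z.prod fun S k => pdist Ab x₁ v S R ^ k) ≤ C v * Ab.abv v ((pval R t)⁻¹ - τ⁻¹)

/-- **Comparison of the two coordinate distances on the overlap.** -/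
def Cmp : Prop :=
  ∃ C : V → ℝ, Tame C ∧ ∀ (v : V) (R S : Place K F), R ≠ pinf → S ≠ pinf →
    (rho Ab v)⁻¹ ≤ tabs Ab t v R → tabs Ab t v R ≤ rho Ab v →
    (rho Ab v)⁻¹ ≤ tabs Ab t v S → tabs Ab t v S ≤ rho Ab v →
    pdist Ab x₁ v R S ≤ C v * pdist Ab x₀ v R S

/-- **Separation on chart 0**: the coordinates `x₀` separate the places off `pinf`. -/
def Sep0 : Prop :=
  ∀ R S : Place K F, R ≠ pinf → S ≠ pinf → R ≠ S → ∃ i, pval R (x₀ i) ≠ pval S (x₀ i)

/-- **Separation on chart 1**: the coordinates `x₁` separate the places off `pinf` at which `t`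
is a unit. -/
def Sep1 : Prop :=
  ∀ R S : Place K F, R ≠ pinf → S ≠ pinf → R.ord t = 0 → S.ord t = 0 → R ≠ S →
    ∃ i, pval R (x₁ i) ≠ pval S (x₁ i)

end Targets

end Fermat.Agent.MW.HtM.TwoChart
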