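/-
MW / [H-M] — THE LOCAL DETERMINANT BOUND WITH A FIXED DIVISOR `B` (local half of (HadK) / (HadR),
HT-Q ruling #2 item 3), derived from the interpolation bound (M≤) alone by cofactor induction.
(The case `B = 0` is also in `DetBound.lean` (helper67) and `Hadamard.lean` (helper77); this file
is self-contained and lives in its own namespace.)

Setting: `F/K` a function field, `pinf` the base place, `t` a function with poles only at `pinf`
(of order `m`), `δ v R S` a local distance, `Ab : AbsFamily K V`.  `MLe Ab pinf t m δ` is the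
(M≤) property — literally the field `mle` of `HtM.LocalHt`.

* `HasVal P f`, `pval_add`, `pval_smul`, `pval_sum` : the value map `pval P` is `K`-linear on the
  functions that have a value at `P` (no hypothesis on the residue field);
* `det_le_of_mle` : for `f : Fin n → F` regular off `pinf`, with pole orders `≤ M` at `pinf`, all
  vanishing on a fixed effective divisor `B` (off `pinf`):
    `|det (f i (P j))|_v ^ m ≤ C v * (∏_j max 1 |t(P j)|_v) ^ M * (∏_{i < j} δ v (P j) (P i)) ^ m
        * (∏_j ∏_{b ∈ B} δ v b (P j) ^ B(b)) ^ m`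
  for all `v` and all points `P j ≠ pinf` outside the support of `B`, with ONE tame constant `C`;
* `det_le` : the same for `L : LocalHt Ab pinf t m` (distances `L.δ v (P i) (P j)`, `i < j`),
  under `RR.ResK` off `pinf`;  `det_le_zero` : the case `B = 0`.
-/
import Mathlib
import Fermat.Prelude.Def_AlgebraicCurve_Repartitions
import Fermat.Agent.MW.HtM.Interface
import Fermat.Agent.MW.HtM.PVal

set_option autoImplicit false

namespace Fermat.Agent.MW.HtM.DetBoundB

open AlgebraicCurve

variable {K F V : Type*} [Field K] [Field F] [Algebra K F]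

/-! ### Values of functions at a place -/

/-- `f` has a value at `P`: a constant `c` with `f - c ∈ 𝔪_P`. -/
def HasVal (P : Place K F) (f : F) : Prop :=
  ∃ c : K, P.adicValuation (f - algebraMap K F c) < 1

theorem HasVal.lt {P : Place K F} {f : F} (h : HasVal P f) :
    P.adicValuation (f - algebraMap K F (pval P f)) < 1 :=
  pval_spec P h

theorem hasVal_algebraMap (P : Place K F) (c : K) : HasVal P (algebraMap K F c) :=
  ⟨c, by simp⟩

theorem hasVal_zero (P : Place K F) : HasVal P (0 : F) := by
  simpa using hasVal_algebraMap P (0 : K)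

theorem add_lt {P : Place K F} {f g : F} (hf : HasVal P f) (hg : HasVal P g) :
    P.adicValuation (f + g - algebraMap K F (pval P f + pval P g)) < 1 := by
  have e : f + g - algebraMap K F (pval P f + pval P g)
      = (f - algebraMap K F (pval P f)) + (g - algebraMap K F (pval P g)) := by
    rw [map_add]; ring
  rw [e]
  exact lt_of_le_of_lt (Valuation.map_add _ _ _) (max_lt hf.lt hg.lt)

theorem HasVal.add {P : Place K F} {f g : F} (hf : HasVal P f) (hg : HasVal P g) :
    HasVal P (f + g) := ⟨_, add_lt hf hg⟩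

theorem pval_add {P : Place K F} {f g : F} (hf : HasVal P f) (hg : HasVal P g) :
    pval P (f + g) = pval P f + pval P g := pval_eq P (add_lt hf hg)

theorem smul_lt {P : Place K F} {f : F} (a : K) (hf : HasVal P f) :
    P.adicValuation (a • f - algebraMap K F (a * pval P f)) < 1 := by
  have e : a • f - algebraMap K F (a * pval P f)
      = algebraMap K F a * (f - algebraMap K F (pval P f)) := by
    rw [map_mul, Algebra.smul_def]; ring
  rw [e, map_mul]
  exact lt_of_le_of_lt (mul_le_of_le_one_left' (P.adicValuation_algebraMap_le_one a)) hf.lt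

theorem HasVal.smul {P : Place K F} {f : F} (a : K) (hf : HasVal P f) : HasVal P (a • f) :=
  ⟨_, smul_lt a hf⟩

theorem pval_smul {P : Place K F} {f : F} (a : K) (hf : HasVal P f) :
    pval P (a • f) = a * pval P f := pval_eq P (smul_lt a hf)

theorem hasVal_sum_and {P : Place K F} {ι : Type*} (s : Finset ι) (a : ι → K) (f : ι → F)
    (hf : ∀ i ∈ s, HasVal P (f i)) :
    HasVal P (∑ i ∈ s, a i • f i) ∧
      pval P (∑ i ∈ s, a i • f i) = ∑ i ∈ s, a i * pval P (f i) := by
  classical
  induction s using Finset.induction_on with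
  | empty => exact ⟨by simpa using hasVal_zero P, by simp⟩
  | insert j s hj ih =>
    obtain ⟨h1, h2⟩ := ih fun i hi => hf i (Finset.mem_insert_of_mem hi)
    have h3 : HasVal P (a j • f j) := (hf j (Finset.mem_insert_self j s)).smul (a j)
    rw [Finset.sum_insert hj, Finset.sum_insert hj]
    refine ⟨h3.add h1, ?_⟩
    rw [pval_add h3 h1, h2, pval_smul (a j) (hf j (Finset.mem_insert_self j s))]

theorem hasVal_sum {P : Place K F} {ι : Type*} (s : Finset ι) (a : ι → K) (f : ι → F)
    (hf : ∀ i ∈ s, HasVal P (f i)) : HasVal P (∑ i ∈ s, a i • f i) :=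
  (hasVal_sum_and s a f hf).1

theorem pval_sum {P : Place K F} {ι : Type*} (s : Finset ι) (a : ι → K) (f : ι → F)
    (hf : ∀ i ∈ s, HasVal P (f i)) :
    pval P (∑ i ∈ s, a i • f i) = ∑ i ∈ s, a i * pval P (f i) :=
  (hasVal_sum_and s a f hf).2

/-- A nonzero function with value `0` at `P` vanishes at `P`. -/
theorem one_le_ord_of_pval_eq_zero {P : Place K F} {f : F} (h : HasVal P f)
    (h0 : pval P f = 0) (hf : f ≠ 0) : 1 ≤ P.ord f := by
  have h1 := h.lt
  rw [h0, map_zero, sub_zero] at h1
  have h2 : WithZero.log (P.adicValuation f) < 0 := by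
    rw [WithZero.log_lt_iff_lt_exp (P.adicValuation_ne_zero hf), WithZero.exp_zero]
    exact h1
  unfold Place.ord
  omega

/-- Over a place with residue field `K`, every regular function has a value. -/
theorem hasVal_of_resK {P : Place K F} (hres : Fermat.Agent.Lib.FF.RR.ResK P) {f : F}
    (hf : 0 ≤ P.ord f) : HasVal P f :=
  ⟨pval P f, pval_spec_of_mem P hres (Fermat.Agent.S24.mem_of_ord_nonneg P hf)⟩

/-- A linear combination of functions vanishing to order `≥ b` vanishes to order `≥ b`. -/
theorem le_ord_sum {P : Place K F} {ι : Type*} (s : Finset ι) (a : ι → K) (f : ι → F) (b : ℤ)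
    (hf : ∀ i ∈ s, f i = 0 ∨ b ≤ P.ord (f i)) (hne : ∑ i ∈ s, a i • f i ≠ 0) :
    b ≤ P.ord (∑ i ∈ s, a i • f i) := by
  have h1 : P.adicValuation (∑ i ∈ s, a i • f i) ≤ WithZero.exp (-b) := by
    refine Valuation.map_sum_le _ fun i hi => ?_
    have h2 : P.adicValuation (f i) ≤ WithZero.exp (-b) :=
      P.adicValuation_le_exp_iff.mpr (by simpa using hf i hi)
    rw [Algebra.smul_def, map_mul]
    exact (mul_le_of_le_one_left' (P.adicValuation_algebraMap_le_one (a i))).trans h2
  simpa using (P.adicValuation_le_exp_iff.mp h1).resolve_left hne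

/-! ### The (M≤) property -/

/-- **The (M≤) property** of a local distance `δ` (= the field `mle` of `HtM.LocalHt`): the
uniform interpolation bound for functions with poles only at `pinf` (`φ = ∑ a i • f i`, `D` an
effective divisor `≤ div φ` off `pinf`, of degree `≤ k`). -/
def MLe (Ab : AbsFamily K V) (pinf : Place K F) (t : F) (m : ℕ)
    (δ : V → Place K F → Place K F → ℝ) : Prop :=
  ∀ {ι : Type} [Fintype ι] (f : ι → F) (M : ℕ),
    (∀ i, ∀ P : Place K F, P ≠ pinf → 0 ≤ P.ord (f i)) → (∀ i, -(M : ℤ) ≤ pinf.ord (f i)) →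
    ∀ k : ℕ, ∃ C : V → ℝ, Tame C ∧ ∀ (v : V) (a : ι → K) (A : ℝ), 0 ≤ A →
      (∀ i, Ab.abv v (a i) ≤ A) → ∀ S : Place K F, S ≠ pinf → ∀ D : Place K F →₀ ℕ,
      HQ.deg D ≤ k → D pinf = 0 → (∀ R, R ≠ pinf → (D R : ℤ) ≤ R.ord (∑ i, a i • f i)) →
      Ab.abv v (pval S (∑ i, a i • f i)) ^ m ≤
        C v * A ^ m * max 1 (Ab.abv v (pval S t)) ^ M * (D.prod fun R n => δ v R S ^ n) ^ m

theorem mLe_of_localHt {Ab : AbsFamily K V} {pinf : Place K F} {t : F} {m : ℕ}
    (L : LocalHt Ab pinf t m) : MLe Ab pinf t m L.δ :=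
  fun f M h1 h2 k => L.mle f M h1 h2 k

/-! ### Linear algebra: cofactor expansion along the first column -/

/-- Cofactor expansion along the first column with an arbitrary column vector `c` is the
determinant of the matrix with its first column replaced by `c`. -/
theorem sum_cofactor_eq_det_updateCol {R : Type*} [CommRing R] {n : ℕ}
    (A : Matrix (Fin (n + 1)) (Fin (n + 1)) R) (c : Fin (n + 1) → R) :
    ∑ i : Fin (n + 1), ((-1) ^ (i : ℕ) * (A.submatrix i.succAbove Fin.succ).det) * c i
      = (A.updateCol 0 c).det := by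
  rw [Matrix.det_succ_column_zero]
  refine Finset.sum_congr rfl fun i _ => ?_
  have h1 : (A.updateCol 0 c).submatrix i.succAbove Fin.succ
      = A.submatrix i.succAbove Fin.succ := by
    ext a b
    simp
  rw [h1, Matrix.updateCol_self]
  ring

/-! ### Divisors of distinct points -/

theorem deg_sum_single {P : Type*} {ι : Type*} (s : Finset ι) (Q : ι → P) :
    HQ.deg (∑ j ∈ s, Finsupp.single (Q j) 1) = s.card := by
  classical
  induction s using Finset.induction_on with
  | empty => simp
  | insert j s hj ih =>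
    rw [Finset.sum_insert hj, HQ.deg_add, ih, Finset.card_insert_of_notMem hj]
    have : HQ.deg (Finsupp.single (Q j) 1) = 1 := by
      simp [HQ.deg, Finsupp.sum_single_index]
    omega

theorem sum_single_apply {P : Type*} {ι : Type*} [DecidableEq P] (s : Finset ι) (Q : ι → P)
    (R : P) :
    (∑ j ∈ s, Finsupp.single (Q j) (1 : ℕ)) R = ∑ j ∈ s, if Q j = R then 1 else 0 := by
  rw [Finsupp.finsetSum_apply]
  refine Finset.sum_congr rfl fun j _ => ?_
  rw [Finsupp.single_apply]

theorem prod_pow_nonneg {P : Type*} (B : P →₀ ℕ) (d : P → ℝ) (hd : ∀ b, 0 ≤ d b) :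
    0 ≤ B.prod fun b k => d b ^ k :=
  Finset.prod_nonneg fun b _ => pow_nonneg (hd b) _

/-! ### The determinant bound -/

/-- **The local determinant bound.**  From (M≤) alone: for `f : Fin n → F` regular off `pinf` with
pole orders `≤ M` at `pinf`, all vanishing on the effective divisor `B`, the determinant of the
values of the `f i` at `n` points `P j ≠ pinf` off the support of `B` is bounded by the product of
the local sizes of the points, of their mutual distances and of their distances to `B`, with one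
tame constant. -/
theorem det_le_of_mle {Ab : AbsFamily K V} {pinf : Place K F} {t : F} {m : ℕ}
    {δ : V → Place K F → Place K F → ℝ}
    (hmle : MLe Ab pinf t m δ) (hδ0 : ∀ v R S, 0 ≤ δ v R S)
    (hval : ∀ P : Place K F, P ≠ pinf → ∀ f : F, 0 ≤ P.ord f → HasVal P f)
    (B : Place K F →₀ ℕ) (hB : B pinf = 0) (M : ℕ) :
    ∀ (n : ℕ) (f : Fin n → F), (∀ i, ∀ P : Place K F, P ≠ pinf → 0 ≤ P.ord (f i)) →
      (∀ i, -(M : ℤ) ≤ pinf.ord (f i)) →
      (∀ i, ∀ P : Place K F, P ≠ pinf → (B P : ℤ) ≤ P.ord (f i)) →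
      ∃ C : V → ℝ, Tame C ∧ ∀ (v : V) (P : Fin n → Place K F),
        (∀ j, P j ≠ pinf) → (∀ j, P j ∉ B.support) →
        Ab.abv v (Matrix.det (Matrix.of fun i j => pval (P j) (f i))) ^ m ≤
          C v * (∏ j, max 1 (Ab.abv v (pval (P j) t))) ^ M *
            (∏ i, ∏ j ∈ Finset.Ioi i, δ v (P j) (P i)) ^ m *
            (∏ j, B.prod fun b k => δ v b (P j) ^ k) ^ m := by
  classical
  intro n
  induction n with
  | zero =>
    intro f _ _ _
    refine ⟨fun _ => 1, Tame.one, fun v P _ _ => ?_⟩
    simp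
  | succ n ih =>
    intro f hf hfM hfB
    -- the minors
    choose Cs hCs hs using fun i : Fin (n + 1) =>
      ih (fun i' => f (i.succAbove i')) (fun i' => hf _) (fun i' => hfM _) (fun i' => hfB _)
    obtain ⟨C', hC', h'⟩ := hmle f M hf hfM (n + HQ.deg B)
    have hCprod : Tame fun v => ∏ i, Cs i v := Tame.prod _ _ fun i _ => hCs i
    refine ⟨fun v => C' v * ∏ i, Cs i v, hC'.mul hCprod, fun v P hP hPB => ?_⟩
    have hC'1 : 1 ≤ C' v := hC'.1 v
    have hCp1 : 1 ≤ ∏ i, Cs i v := hCprod.1 v
    set A : Matrix (Fin (n + 1)) (Fin (n + 1)) K := Matrix.of fun i j => pval (P j) (f i)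
      with hA
    set X : ℝ := ∏ j, max 1 (Ab.abv v (pval (P j) t)) with hX
    set Y : ℝ := ∏ i, ∏ j ∈ Finset.Ioi i, δ v (P j) (P i) with hY
    set W : ℝ := ∏ j, B.prod fun b k => δ v b (P j) ^ k with hW
    have hX1 : 1 ≤ X := one_le_prod_max _ _
    have hY0 : 0 ≤ Y :=
      Finset.prod_nonneg fun i _ => Finset.prod_nonneg fun j _ => hδ0 v _ _
    have hW0 : 0 ≤ W :=
      Finset.prod_nonneg fun j _ => prod_pow_nonneg B _ fun b => hδ0 v b _
    have hC1 : 1 ≤ C' v * ∏ i, Cs i v := one_le_mul_of_one_le_of_one_le hC'1 hCp1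
    have hXM1 : 1 ≤ X ^ M := one_le_pow₀ hX1
    -- the trivial case: the determinant vanishes
    have hzero : A.det = 0 →
        Ab.abv v A.det ^ m ≤ (C' v * ∏ i, Cs i v) * X ^ M * Y ^ m * W ^ m := by
      intro h0
      rw [h0, map_zero]
      rcases Nat.eq_zero_or_pos m with hm | hm
      · rw [hm, pow_zero, pow_zero, pow_zero, mul_one, mul_one]
        exact one_le_mul_of_one_le_of_one_le hC1 hXM1
      · rw [zero_pow hm.ne']
        exact mul_nonneg (mul_nonneg
          (mul_nonneg (le_trans zero_le_one hC1) (le_trans zero_le_one hXM1))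
          (pow_nonneg hY0 m)) (pow_nonneg hW0 m)
    by_cases hinj : Function.Injective P
    swap
    · -- two equal points: two equal columns
      apply hzero
      obtain ⟨j₁, j₂, h12, hne⟩ := Function.not_injective_iff.mp hinj
      refine Matrix.det_zero_of_column_eq hne fun k => ?_
      simp [hA, h12]
    -- the coefficients: signed minors
    set a : Fin (n + 1) → K := fun i => (-1) ^ (i : ℕ) * (A.submatrix i.succAbove Fin.succ).det
      with ha
    set φ : F := ∑ i, a i • f i with hφ
    have hvalf : ∀ (S : Place K F), S ≠ pinf → ∀ i ∈ (Finset.univ : Finset (Fin (n + 1))),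
        HasVal S (f i) := fun S hS i _ => hval S hS (f i) (hf i S hS)
    -- the value of `φ` at a point is a determinant
    have hφval : ∀ S : Place K F, S ≠ pinf →
        pval S φ = (A.updateCol 0 fun i => pval S (f i)).det := by
      intro S hS
      rw [hφ, pval_sum _ a f (hvalf S hS), ← sum_cofactor_eq_det_updateCol]
    have hφ0 : pval (P 0) φ = A.det := by
      rw [hφval (P 0) (hP 0)]
      congr 1
      ext i j
      rw [Matrix.updateCol_apply]
      split_ifs with h
      · rw [h]; rfl
      · rfl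
    have hφsucc : ∀ j : Fin n, pval (P j.succ) φ = 0 := by
      intro j
      rw [hφval (P j.succ) (hP _)]
      refine Matrix.det_zero_of_column_eq (Fin.succ_ne_zero j).symm fun k => ?_
      rw [Matrix.updateCol_self, Matrix.updateCol_ne (Fin.succ_ne_zero j)]
      rfl
    by_cases hφz : φ = 0
    · apply hzero
      rw [← hφ0, hφz, pval_zero]
    -- the divisor of the points `P 1, …, P n`, plus `B`
    set D : Place K F →₀ ℕ := (∑ j : Fin n, Finsupp.single (P j.succ) 1) + B with hD
    have hDdeg : HQ.deg D ≤ n + HQ.deg B := by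
      rw [hD, HQ.deg_add, deg_sum_single]; simp
    have hDinf : D pinf = 0 := by
      rw [hD, Finsupp.add_apply, sum_single_apply, hB, add_zero]
      exact Finset.sum_eq_zero fun j _ => if_neg (hP j.succ)
    have hDord : ∀ R : Place K F, R ≠ pinf → (D R : ℤ) ≤ R.ord φ := by
      intro R hR
      have hφR : HasVal R φ := hasVal_sum _ a f (hvalf R hR)
      by_cases hex : ∃ j : Fin n, P j.succ = R
      · obtain ⟨j₀, rfl⟩ := hex
        have h1 : (∑ j : Fin n, Finsupp.single (P j.succ) (1 : ℕ)) (P j₀.succ) = 1 := by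
          rw [sum_single_apply]
          have : ∀ j : Fin n, (if P j.succ = P j₀.succ then (1 : ℕ) else 0)
              = if j = j₀ then 1 else 0 := by
            intro j
            by_cases hjj : j = j₀
            · simp [hjj]
            · have : P j.succ ≠ P j₀.succ := fun h =>
                hjj (Fin.succ_injective _ (hinj h))
              simp [hjj, this]
          simp [this]
        have h2 : B (P j₀.succ) = 0 := Finsupp.notMem_support_iff.mp (hPB _)
        rw [hD, Finsupp.add_apply, h1, h2, add_zero]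
        exact_mod_cast one_le_ord_of_pval_eq_zero hφR (hφsucc j₀) hφz
      · have h1 : (∑ j : Fin n, Finsupp.single (P j.succ) (1 : ℕ)) R = 0 := by
          rw [sum_single_apply]
          exact Finset.sum_eq_zero fun j _ => if_neg fun h => hex ⟨j, h⟩
        rw [hD, Finsupp.add_apply, h1, zero_add]
        refine le_ord_sum _ a f _ (fun i _ => Or.inr (hfB i R hR)) hφz
    have hDprod : (D.prod fun R k => δ v R (P 0) ^ k)
        = (∏ j : Fin n, δ v (P j.succ) (P 0)) * B.prod fun b k => δ v b (P 0) ^ k := by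
      rw [hD, Finsupp.prod_add_index' (fun _ => pow_zero _) (fun _ _ _ => pow_add _ _ _),
        ← Finsupp.prod_finsetSum_index (fun _ => pow_zero _) (fun _ _ _ => pow_add _ _ _)]
      congr 1
      refine Finset.prod_congr rfl fun j _ => ?_
      exact (Finsupp.prod_single_index (h := fun R k => δ v R (P 0) ^ k) (pow_zero _)).trans
        (pow_one _)
    -- the size of the coefficients
    obtain ⟨i₀, -, hi₀⟩ := Finset.exists_mem_eq_sup' (Finset.univ_nonempty (α := Fin (n + 1)))
      (fun i => Ab.abv v (a i))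
    set Ab' : ℝ := Finset.univ.sup' Finset.univ_nonempty (fun i => Ab.abv v (a i)) with hAb
    have hAb0 : 0 ≤ Ab' := by rw [hi₀]; exact (Ab.abv v).nonneg _
    have hAble : ∀ i, Ab.abv v (a i) ≤ Ab' := fun i =>
      Finset.le_sup' (fun i => Ab.abv v (a i)) (Finset.mem_univ i)
    -- (M≤)
    have hmain := h' v a Ab' hAb0 hAble (P 0) (hP 0) D hDdeg hDinf hDord
    rw [← hφ, hφ0, hDprod] at hmain
    -- the induction hypothesis for the largest minor
    have hminor := hs i₀ v (fun j => P j.succ) (fun j => hP _) (fun j => hPB _)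
    have hai₀ : Ab.abv v (a i₀) = Ab.abv v ((A.submatrix i₀.succAbove Fin.succ).det) := by
      rw [ha]
      simp only [map_mul, map_pow, map_neg_eq_map, map_one, one_pow, one_mul]
    have hsub : A.submatrix i₀.succAbove Fin.succ
        = Matrix.of fun i j => pval (P (Fin.succ j)) (f (i₀.succAbove i)) := by
      ext i j; rfl
    rw [← hsub, ← hai₀, ← hi₀] at hminor
    -- splitting the products
    set X' : ℝ := ∏ j : Fin n, max 1 (Ab.abv v (pval (P j.succ) t)) with hX'
    set Y' : ℝ := ∏ i : Fin n, ∏ j ∈ Finset.Ioi i, δ v (P j.succ) (P i.succ) with hY'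
    set W' : ℝ := ∏ j : Fin n, B.prod fun b k => δ v b (P j.succ) ^ k with hW'
    set Z : ℝ := ∏ j : Fin n, δ v (P j.succ) (P 0) with hZ
    set W₀ : ℝ := B.prod fun b k => δ v b (P 0) ^ k with hW₀
    set mx : ℝ := max 1 (Ab.abv v (pval (P 0) t)) with hmx
    have hXs : X = mx * X' := by
      rw [hX, Fin.prod_univ_succ]
    have hYs : Y = Z * Y' := by
      rw [hY, Fin.prod_univ_succ, Fin.Ioi_zero_eq_map, Finset.prod_map]
      congr 1
      refine Finset.prod_congr rfl fun i _ => ?_
      rw [Fin.Ioi_succ, Finset.prod_map]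
      rfl
    have hWs : W = W₀ * W' := by
      rw [hW, Fin.prod_univ_succ]
    have hX'0 : 0 ≤ X' := le_trans zero_le_one (one_le_prod_max _ _)
    have hY'0 : 0 ≤ Y' :=
      Finset.prod_nonneg fun i _ => Finset.prod_nonneg fun j _ => hδ0 v _ _
    have hW'0 : 0 ≤ W' :=
      Finset.prod_nonneg fun j _ => prod_pow_nonneg B _ fun b => hδ0 v b _
    have hZ0 : 0 ≤ Z := Finset.prod_nonneg fun j _ => hδ0 v _ _
    have hW₀0 : 0 ≤ W₀ := prod_pow_nonneg B _ fun b => hδ0 v b _
    have hmx0 : 0 ≤ mx := le_trans zero_le_one (le_max_left _ _)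
    -- the constants
    have hc2 : Cs i₀ v ≤ ∏ i, Cs i v :=
      Tame.le_prod _ _ (fun i _ => hCs i) (Finset.mem_univ i₀) v
    have hC'0 : 0 ≤ C' v := le_trans zero_le_one hC'1
    calc Ab.abv v A.det ^ m
        ≤ C' v * Ab' ^ m * mx ^ M * (Z * W₀) ^ m := hmain
      _ ≤ C' v * ((∏ i, Cs i v) * X' ^ M * Y' ^ m * W' ^ m) * mx ^ M * (Z * W₀) ^ m := by
          have h1 : Ab' ^ m ≤ (∏ i, Cs i v) * X' ^ M * Y' ^ m * W' ^ m := by
            refine hminor.trans ?_
            exact mul_le_mul_of_nonneg_right (mul_le_mul_of_nonneg_right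
              (mul_le_mul_of_nonneg_right hc2 (pow_nonneg hX'0 M)) (pow_nonneg hY'0 m))
              (pow_nonneg hW'0 m)
          exact mul_le_mul_of_nonneg_right (mul_le_mul_of_nonneg_right
            (mul_le_mul_of_nonneg_left h1 hC'0) (pow_nonneg hmx0 M))
            (pow_nonneg (mul_nonneg hZ0 hW₀0) m)
      _ = (C' v * ∏ i, Cs i v) * X ^ M * Y ^ m * W ^ m := by
          rw [hXs, hYs, hWs, mul_pow, mul_pow, mul_pow, mul_pow]
          ring

/-- **The local determinant bound for a `LocalHt`** (local half of (HadK) / (HadR)): `f i` regular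
off `pinf`, of pole order `≤ M` at `pinf`, vanishing on the effective divisor `B`; points
`P j ≠ pinf` off the support of `B`. -/
theorem det_le {Ab : AbsFamily K V} {pinf : Place K F}
    {t : F} {m : ℕ} (L : LocalHt Ab pinf t m)
    (hres : ∀ P : Place K F, P ≠ pinf → Fermat.Agent.Lib.FF.RR.ResK P)
    (B : Place K F →₀ ℕ) (hB : B pinf = 0) (M n : ℕ) (f : Fin n → F)
    (hf : ∀ i, ∀ P : Place K F, P ≠ pinf → 0 ≤ P.ord (f i))
    (hfM : ∀ i, -(M : ℤ) ≤ pinf.ord (f i))
    (hfB : ∀ i, ∀ P : Place K F, P ≠ pinf → (B P : ℤ) ≤ P.ord (f i)) :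
    ∃ C : V → ℝ, Tame C ∧ ∀ (v : V) (P : Fin n → Place K F),
      (∀ j, P j ≠ pinf) → (∀ j, P j ∉ B.support) →
      Ab.abv v (Matrix.det (Matrix.of fun i j => pval (P j) (f i))) ^ m ≤
        C v * (∏ j, max 1 (Ab.abv v (pval (P j) t))) ^ M *
          (∏ i, ∏ j ∈ Finset.Ioi i, L.δ v (P i) (P j)) ^ m *
          (∏ j, B.prod fun b k => L.δ v b (P j) ^ k) ^ m := by
  obtain ⟨C, hC, h⟩ := det_le_of_mle (mLe_of_localHt L) L.δ_nonneg
    (fun P hP f hf => hasVal_of_resK (hres P hP) hf) B hB M n f hf hfM hfB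
  refine ⟨C, hC, fun v P hP hPB => ?_⟩
  have := h v P hP hPB
  simpa only [L.δ_symm v (P _) (P _)] using this

/-- The determinant bound without the divisor `B`. -/
theorem det_le_zero {Ab : AbsFamily K V} {pinf : Place K F}
    {t : F} {m : ℕ} (L : LocalHt Ab pinf t m)
    (hres : ∀ P : Place K F, P ≠ pinf → Fermat.Agent.Lib.FF.RR.ResK P)
    (M n : ℕ) (f : Fin n → F)
    (hf : ∀ i, ∀ P : Place K F, P ≠ pinf → 0 ≤ P.ord (f i))
    (hfM : ∀ i, -(M : ℤ) ≤ pinf.ord (f i)) :
    ∃ C : V → ℝ, Tame C ∧ ∀ (v : V) (P : Fin n → Place K F), (∀ j, P j ≠ pinf) →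
      Ab.abv v (Matrix.det (Matrix.of fun i j => pval (P j) (f i))) ^ m ≤
        C v * (∏ j, max 1 (Ab.abv v (pval (P j) t))) ^ M *
          (∏ i, ∏ j ∈ Finset.Ioi i, L.δ v (P i) (P j)) ^ m := by
  obtain ⟨C, hC, h⟩ := det_le L hres 0 (by simp) M n f hf hfM
    (fun i P hP => by simpa using hf i P hP)
  refine ⟨C, hC, fun v P hP => ?_⟩
  have := h v P hP (fun j => by simp)
  simpa using this

end Fermat.Agent.MW.HtM.DetBoundB
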