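/-
MW / [H-M] — the abstract (M≤) on the chart of `t`, in the language of PLACES and `pval`
(the targets (H0)/(H1) of the two-chart assembly).

`chart_bound_places`: for generators `x` of the chart ring `Rg K t`, a tame radius `ρ` and a
finite family `u` of functions regular wherever `t` is,
  `|ψ(S)|_v ≤ C_v · A · ∏_Q d_v(Q, S) ^ (D Q)`,   `ψ = ∑ aᵢ uᵢ`, `|aᵢ|_v ≤ A`,
for all places `S` and all effective divisors `D ≤ div ψ` of degree `≤ n` supported in the
region `{|t|_v ≤ ρ_v}` of the chart, `d_v(Q, S) = max_i |xᵢ(S) - xᵢ(Q)|_v`.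
-/
import Mathlib
import Fermat.Agent.MW.HtM.RegRing
import Fermat.Agent.MW.HtM.PVal
import Fermat.Agent.S24.Transfer
import Fermat.Agent.MW.HQ.Defs

set_option autoImplicit false
set_option linter.style.haveILetI false

noncomputable section

namespace Fermat.Agent.MW.HtM.RegRing

open AlgebraicCurve IntermediateField
open Fermat.Agent.Lib.FF Fermat.Agent.Lib.FF.IntP Fermat.Agent.S24

universe uK uF

variable {K : Type uK} {F : Type uF} [Field K] [Field F] [Algebra K F]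
variable [IsAlgClosed K] (t : F) (ht : Transcendental K t) [FiniteDimensional K⟮t⟯ F]

/-- The point of a place at which `t` is regular. -/
def ptOf (P : Place K F) (hP : 0 ≤ P.ord t) : Rg K t →ₐ[K] K := (ptEquiv t ht).symm ⟨P, hP⟩

@[simp] theorem ptEquiv_ptOf (P : Place K F) (hP : 0 ≤ P.ord t) :
    (ptEquiv t ht (ptOf t ht P hP)).1 = P := by
  simp [ptOf]

@[simp] theorem ptOf_ptEquiv (R : Rg K t →ₐ[K] K) :
    ptOf t ht (ptEquiv t ht R).1 (ptEquiv t ht R).2 = R := by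
  simp [ptOf]

/-- A point of the chart ring is the value map of its place. -/
theorem apply_eq_pval (R : Rg K t →ₐ[K] K) (c : Rg K t) :
    R c = pval (ptEquiv t ht R).1 (c : F) :=
  (pval_eq _ (val_sub_lt_one t ht R c)).symm

/-- The point of a place is its value map. -/
theorem ptOf_apply (P : Place K F) (hP : 0 ≤ P.ord t) (c : Rg K t) :
    ptOf t ht P hP c = pval P (c : F) := by
  rw [apply_eq_pval t ht, ptEquiv_ptOf]

omit [IsAlgClosed K] [FiniteDimensional K⟮t⟯ F] in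
theorem coe_sum_smul {ι : Type*} (s : Finset ι) (a : ι → K) (u : ι → Rg K t) :
    ((∑ i ∈ s, a i • u i : Rg K t) : F) = ∑ i ∈ s, a i • (u i : F) := by
  classical
  induction s using Finset.induction_on with
  | empty => simp
  | insert i s hi ih =>
    rw [Finset.sum_insert hi, Finset.sum_insert hi, ← ih]
    rfl

include ht in
/-- **(H0)/(H1), general form: the abstract (M≤) on the chart of `t` in terms of places.** -/
theorem chart_bound_places {V : Type*} (Fm : AbsFamily K V) {ρ : V → ℝ} (hρ : Tame ρ)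
    {n₀ : ℕ} (x : Fin n₀ → Rg K t) (hx : Algebra.adjoin K (Set.range x) = ⊤)
    (n : ℕ) {ι : Type*} [Fintype ι] (u : ι → F)
    (hu : ∀ i, ∀ P : Place K F, 0 ≤ P.ord t → 0 ≤ P.ord (u i)) :
    ∃ C : V → ℝ, Tame C ∧ ∀ (v : V) (a : ι → K) (A : ℝ), 0 ≤ A → (∀ i, Fm.abv v (a i) ≤ A) →
      ∀ S : Place K F, 0 ≤ S.ord t → Fm.abv v (pval S t) ≤ ρ v →
      ∀ D : Place K F →₀ ℕ, HQ.deg D ≤ n →
        (∀ Q ∈ D.support, 0 ≤ Q.ord t ∧ Fm.abv v (pval Q t) ≤ ρ v) →
        (∀ Q ∈ D.support, (D Q : ℤ) ≤ Q.ord (∑ i, a i • u i)) →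
        Fm.abv v (pval S (∑ i, a i • u i))
          ≤ C v * A * D.prod fun Q k =>
              (⨆ i, Fm.abv v (pval S (x i : F) - pval Q (x i : F))) ^ k := by
  classical
  -- reindex the family by a type in the universe of `F`
  let eι : ULift.{uF} (Fin (Fintype.card ι)) ≃ ι := Equiv.ulift.trans (Fintype.equivFin ι).symm
  let u' : ULift.{uF} (Fin (Fintype.card ι)) → Rg K t := fun j =>
    ⟨u (eι j), (mem_Rg_iff t ht _).2 (hu (eι j))⟩
  obtain ⟨C, hC, hb⟩ := chart_bound_rg t Fm ht hρ x hx n u'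
  refine ⟨C, hC, ?_⟩
  intro v a A hA0 hA S hS hSρ D hdeg hDsupp hDord
  set S' : Rg K t →ₐ[K] K := ptOf t ht S hS with hS'
  set a' : ULift.{uF} (Fin (Fintype.card ι)) → K := fun j => a (eι j) with ha'
  set ψ' : Rg K t := ∑ j, a' j • u' j with hψ'
  have hψ : (ψ' : F) = ∑ i, a i • u i := by
    rw [hψ', coe_sum_smul]
    exact Equiv.sum_comp eι (fun i => a i • u i)
  -- the multiset of points of `D`
  let g : Place K F → (Rg K t →ₐ[K] K) := fun Q =>
    if h : 0 ≤ Q.ord t then ptOf t ht Q h else S'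
  have hg : ∀ Q ∈ D.support, ∀ h : 0 ≤ Q.ord t, g Q = ptOf t ht Q h := by
    intro Q _ h
    simp only [g, dif_pos h]
  set L : Multiset (Rg K t →ₐ[K] K) := (Finsupp.toMultiset D).map g with hL
  have hSreg : S' ∈ region t Fm ρ v := by
    rw [mem_region, hS', ptOf_apply]
    exact hSρ
  have hcard : L.card ≤ n := by
    rw [hL, Multiset.card_map, Finsupp.card_toMultiset]
    exact hdeg
  have hLreg : ∀ Q' ∈ L, Q' ∈ region t Fm ρ v := by
    intro Q' hQ'
    rw [hL, Multiset.mem_map] at hQ'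
    obtain ⟨Q, hQ, rfl⟩ := hQ'
    rw [Finsupp.mem_toMultiset] at hQ
    obtain ⟨h1, h2⟩ := hDsupp Q hQ
    rw [hg Q hQ h1, mem_region, ptOf_apply]
    exact h2
  have hcount : ∀ R : Rg K t →ₐ[K] K, ((L.count R : ℕ) : ℕ∞) ≤ ordAt t ht R ψ' := by
    intro R
    by_cases h0 : ψ' = 0
    · rw [h0, ordAt_zero]; exact le_top
    rw [natCast_le_ordAt_iff t ht R h0, hψ]
    set P := (ptEquiv t ht R).1 with hP
    have hcnt : L.count R = D P := by
      rw [hL, Finsupp.toMultiset_map, Finsupp.count_toMultiset, Finsupp.mapDomain,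
        Finsupp.sum_apply, Finsupp.sum]
      have hcongr : ∀ Q ∈ D.support, (Finsupp.single (g Q) (D Q)) R
          = if Q = P then D Q else 0 := by
        intro Q hQ
        obtain ⟨h1, -⟩ := hDsupp Q hQ
        rw [Finsupp.single_apply, hg Q hQ h1]
        by_cases hQP : Q = P
        · rw [if_pos hQP, if_pos]
          subst hQP
          exact ptOf_ptEquiv t ht R
        · rw [if_neg hQP, if_neg]
          intro h
          apply hQP
          rw [hP, ← h, ptEquiv_ptOf]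
      rw [Finset.sum_congr rfl hcongr, Finset.sum_ite_eq' D.support P]
      split_ifs with hPs
      · rfl
      · exact (Finsupp.notMem_support_iff.mp hPs).symm
    rw [hcnt]
    by_cases hPs : P ∈ D.support
    · exact hDord P hPs
    · rw [Finsupp.notMem_support_iff.mp hPs, Nat.cast_zero, ← hψ]
      exact ord_nonneg t ht R ψ'
  have hmain := hb v a' S' hSreg L hcard hLreg (fun R => by convert hcount R)
  have hval : S' ψ' = pval S (∑ i, a i • u i) := by
    rw [hS', ptOf_apply, hψ]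
  rw [hval] at hmain
  have hsup : (⨆ j, Fm.abv v (a' j)) ≤ A := Real.iSup_le (fun j => hA _) hA0
  have hprod : (L.map fun Q' => cdist Fm x v Q' S').prod
      = D.prod fun Q k => (⨆ i, Fm.abv v (pval S (x i : F) - pval Q (x i : F))) ^ k := by
    rw [hL, Multiset.map_map, Finsupp.toMultiset_map, Finsupp.prod_toMultiset,
      Finsupp.prod_mapDomain_index (fun _ => pow_zero _) (fun _ _ _ => pow_add _ _ _)]
    refine Finsupp.prod_congr fun Q hQ => ?_
    obtain ⟨h1, -⟩ := hDsupp Q hQ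
    congr 1
    simp only [Function.comp_apply, cdist]
    rw [hg Q hQ h1]
    congr 1
    funext i
    rw [hS', ptOf_apply, ptOf_apply]
  rw [hprod] at hmain
  refine hmain.trans ?_
  have hnn : 0 ≤ D.prod fun Q k =>
      (⨆ i, Fm.abv v (pval S (x i : F) - pval Q (x i : F))) ^ k := by
    refine Finset.prod_nonneg fun Q _ => pow_nonneg ?_ _
    exact Real.iSup_nonneg fun _ => (Fm.abv v).nonneg _
  exact mul_le_mul_of_nonneg_right (mul_le_mul_of_nonneg_left hsup (hC.nonneg v)) hnn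

include ht in
/-- **(H0)**: the abstract (M≤) on the chart off `pinf` (`t` has its only pole at `pinf`), for
families regular off `pinf`, points `S, Q ≠ pinf` in the region `|t|_v ≤ ρ_v`. -/
theorem chart_bound_H0 {V : Type*} (Fm : AbsFamily K V) {ρ : V → ℝ} (hρ : Tame ρ)
    (pinf : Place K F) (hpinf : ∀ P : Place K F, 0 ≤ P.ord t ↔ P ≠ pinf)
    {n₀ : ℕ} (x : Fin n₀ → Rg K t) (hx : Algebra.adjoin K (Set.range x) = ⊤)
    (n : ℕ) {ι : Type*} [Fintype ι] (u : ι → F)
    (hu : ∀ i, ∀ P : Place K F, P ≠ pinf → 0 ≤ P.ord (u i)) :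
    ∃ C : V → ℝ, Tame C ∧ ∀ (v : V) (a : ι → K) (A : ℝ), 0 ≤ A → (∀ i, Fm.abv v (a i) ≤ A) →
      ∀ S : Place K F, S ≠ pinf → Fm.abv v (pval S t) ≤ ρ v →
      ∀ D : Place K F →₀ ℕ, HQ.deg D ≤ n →
        (∀ Q ∈ D.support, Q ≠ pinf ∧ Fm.abv v (pval Q t) ≤ ρ v) →
        (∀ Q ∈ D.support, (D Q : ℤ) ≤ Q.ord (∑ i, a i • u i)) →
        Fm.abv v (pval S (∑ i, a i • u i))
          ≤ C v * A * D.prod fun Q k =>
              (⨆ i, Fm.abv v (pval S (x i : F) - pval Q (x i : F))) ^ k := by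
  obtain ⟨C, hC, hb⟩ := chart_bound_places t ht Fm hρ x hx n u
    (fun i P hP => hu i P ((hpinf P).1 hP))
  refine ⟨C, hC, fun v a A hA0 hA S hS hSρ D hdeg hDsupp hDord => ?_⟩
  exact hb v a A hA0 hA S ((hpinf S).2 hS) hSρ D hdeg
    (fun Q hQ => ⟨(hpinf Q).2 (hDsupp Q hQ).1, (hDsupp Q hQ).2⟩) hDord

include ht in
/-- **(H1)**: the abstract (M≤) on the chart off the zeros of `t` (`t` has its only pole at
`pinf`), for families regular off the zeros of `t`, points `S, Q ≠ pinf` in the region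
`ρ_v⁻¹ ≤ |t|_v`; `x` generates the chart ring of `t⁻¹`. -/
theorem chart_bound_H1 {V : Type*} (Fm : AbsFamily K V) {ρ : V → ℝ} (hρ : Tame ρ)
    (pinf : Place K F) (hpinf : ∀ P : Place K F, 0 ≤ P.ord t ↔ P ≠ pinf)
    {n₁ : ℕ} (x : Fin n₁ → Rg K t⁻¹) (hx : Algebra.adjoin K (Set.range x) = ⊤)
    (n : ℕ) {ι : Type*} [Fintype ι] (u : ι → F)
    (hu : ∀ i, ∀ P : Place K F, P.ord t ≤ 0 → 0 ≤ P.ord (u i)) :
    ∃ C : V → ℝ, Tame C ∧ ∀ (v : V) (a : ι → K) (A : ℝ), 0 ≤ A → (∀ i, Fm.abv v (a i) ≤ A) →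
      ∀ S : Place K F, S ≠ pinf → (ρ v)⁻¹ ≤ Fm.abv v (pval S t) →
      ∀ D : Place K F →₀ ℕ, HQ.deg D ≤ n →
        (∀ Q ∈ D.support, Q ≠ pinf ∧ (ρ v)⁻¹ ≤ Fm.abv v (pval Q t)) →
        (∀ Q ∈ D.support, (D Q : ℤ) ≤ Q.ord (∑ i, a i • u i)) →
        Fm.abv v (pval S (∑ i, a i • u i))
          ≤ C v * A * D.prod fun Q k =>
              (⨆ i, Fm.abv v (pval S (x i : F) - pval Q (x i : F))) ^ k := by
  haveI : Algebra.IsAlgebraic K⟮t⟯ F := Algebra.IsAlgebraic.of_finite _ _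
  haveI : FiniteDimensional K⟮t⁻¹⟯ F := Transfer.finiteDimensional_inv (K := K) t
  have ht' : Transcendental K t⁻¹ := Transfer.transcendental_inv ht
  obtain ⟨C, hC, hb⟩ := chart_bound_places t⁻¹ ht' Fm hρ x hx n u
    (fun i P hP => hu i P (by rw [P.ord_inv] at hP; omega))
  refine ⟨C, hC, fun v a A hA0 hA S hS hSρ D hdeg hDsupp hDord => ?_⟩
  -- a point of the region is not a zero of `t`, and `t⁻¹` takes the inverse value there
  have key : ∀ Q : Place K F, Q ≠ pinf → (ρ v)⁻¹ ≤ Fm.abv v (pval Q t) →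
      0 ≤ Q.ord t⁻¹ ∧ Fm.abv v (pval Q t⁻¹) ≤ ρ v := by
    intro Q hQ hQρ
    have hρpos : 0 < (ρ v)⁻¹ := inv_pos.mpr (hρ.pos v)
    have hne : pval Q t ≠ 0 := by
      intro h0
      rw [h0, map_zero] at hQρ
      exact absurd hQρ (not_le.mpr hρpos)
    have h1 : 0 ≤ Q.ord t := (hpinf Q).2 hQ
    have h2 : ¬ 0 < Q.ord t := fun h => hne (pval_eq_zero_of_ord_pos h)
    refine ⟨by rw [Q.ord_inv]; omega, ?_⟩
    have hres : RR.ResK Q := fun b => residueTrivial t Q b
    rw [pval_inv hres (mem_of_ord_nonneg Q h1) hne, map_inv₀]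
    exact inv_le_of_inv_le₀ (hρ.pos v) hQρ
  exact hb v a A hA0 hA S (key S hS hSρ).1 (key S hS hSρ).2 D hdeg
    (fun Q hQ => key Q (hDsupp Q hQ).1 (hDsupp Q hQ).2) hDord

end Fermat.Agent.MW.HtM.RegRing
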