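/-
MW / [H-M] — the two chart targets `ChartBound0`, `ChartBound1` of the two-chart assembly
(`TwoChartDefs.lean`), for ANY finite generating families of the chart rings `Rg K t` (functions
regular off `pinf`) and `Rg K t⁻¹` (functions regular off the zeros of `t`).
-/
import Mathlib
import Fermat.Agent.MW.HtM.RegRingPl
import Fermat.Agent.MW.HtM.TwoChartDefs

set_option autoImplicit false
set_option linter.style.haveILetI false

noncomputable section

namespace Fermat.Agent.MW.HtM.RegRing

open AlgebraicCurve IntermediateField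
open Fermat.Agent.Lib.FF Fermat.Agent.Lib.FF.IntP Fermat.Agent.S24

universe uK uF

variable {K : Type uK} {F : Type uF} [Field K] [Field F] [Algebra K F]
variable [IsAlgClosed K] (t : F) (ht : Transcendental K t) [FiniteDimensional K⟮t⟯ F]

include ht in
/-- A finite generating family of the chart ring containing `t`. -/
theorem exists_generators_self :
    ∃ (n : ℕ) (x : Fin n → Rg K t), Algebra.adjoin K (Set.range x) = ⊤ ∧ ∃ i, x i = xInt K t := by
  obtain ⟨n, x, hx⟩ := exists_generators t ht
  refine ⟨n + 1, Fin.cons (xInt K t) x, ?_, 0, rfl⟩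
  rw [eq_top_iff, ← hx]
  refine Algebra.adjoin_mono ?_
  rintro _ ⟨i, rfl⟩
  exact ⟨i.succ, by simp⟩

omit [IsAlgClosed K] [FiniteDimensional K⟮t⟯ F] in
/-- If `t` has its only pole at `pinf`, the places at which `t` is regular are the places
`≠ pinf`. -/
theorem ord_nonneg_iff_ne {pinf : Place K F} (ht_reg : ∀ P : Place K F, P ≠ pinf → 0 ≤ P.ord t)
    (ht_inf : pinf.ord t < 0) (P : Place K F) : 0 ≤ P.ord t ↔ P ≠ pinf := by
  refine ⟨fun h hP => ?_, ht_reg P⟩
  rw [hP] at h
  omega

variable {V : Type*} (Ab : AbsFamily K V)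

include ht in
/-- **`ChartBound0`**: (M≤) on the chart off `pinf`, for any finite generating family of the
chart ring of `t`. -/
theorem chartBound0 {pinf : Place K F} (ht_reg : ∀ P : Place K F, P ≠ pinf → 0 ≤ P.ord t)
    (ht_inf : pinf.ord t < 0) {n₀ : ℕ} (x : Fin n₀ → Rg K t)
    (hx : Algebra.adjoin K (Set.range x) = ⊤) :
    TwoChart.ChartBound0 Ab t pinf (fun i => (x i : F)) := by
  intro ι _ u hu n
  exact chart_bound_H0 t ht Ab (TwoChart.tame_rho Ab) pinf (ord_nonneg_iff_ne t ht_reg ht_inf)
    x hx n u hu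

include ht in
/-- **`ChartBound1`**: (M≤) on the chart off the zeros of `t`, for any finite generating family
of the chart ring of `t⁻¹`. -/
theorem chartBound1 {pinf : Place K F} (ht_reg : ∀ P : Place K F, P ≠ pinf → 0 ≤ P.ord t)
    (ht_inf : pinf.ord t < 0) {n₁ : ℕ} (x : Fin n₁ → Rg K t⁻¹)
    (hx : Algebra.adjoin K (Set.range x) = ⊤) :
    TwoChart.ChartBound1 Ab t pinf (fun i => (x i : F)) := by
  intro ι _ u hu n
  exact chart_bound_H1 t ht Ab (TwoChart.tame_rho Ab) pinf (ord_nonneg_iff_ne t ht_reg ht_inf)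
    x hx n u hu

end Fermat.Agent.MW.HtM.RegRing
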