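/-
MW / [H-M] — comparison of the two chart distances on the overlap (Mathlib only).

On the overlap `(ρ v)⁻¹ ≤ |t|_v` of a bounded chart, a quotient `a / t ^ k` (a generator of the
chart at infinity, `a` in the chart ring) is tamely Lipschitz for the chart distance:
  `|a(S)/t(S)^k - a(R)/t(R)^k|_v ≤ C_v · cdist_v(R, S)`.
-/
import Mathlib
import Fermat.Agent.MW.HtM.Tame

set_option autoImplicit false

namespace Fermat.Agent.MW.HtM

variable {K : Type*} {A : Type*} {V : Type*} [Field K] [CommRing A] [Algebra K A]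

/-- One quotient `b / t ^ k`. -/
theorem cmp_bound_one (F : AbsFamily K V) (B : V → Set (A →ₐ[K] K)) {ι₀ : Type*} [Finite ι₀]
    (x₀ : ι₀ → A) (hx₀ : Algebra.adjoin K (Set.range x₀) = ⊤) (hB : ∀ a : A, TBdd F B a)
    (t : A) (ρ : V → ℝ) (hρ : Tame ρ) (b : A) (k : ℕ) :
    ∃ C : V → ℝ, Tame C ∧ ∀ v, ∀ R ∈ B v, ∀ S ∈ B v,
      (ρ v)⁻¹ ≤ F.abv v (R t) → (ρ v)⁻¹ ≤ F.abv v (S t) →
      F.abv v (S b / S t ^ k - R b / R t ^ k) ≤ C v * cdist F x₀ v R S := by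
  have hLip : ∀ a : A, TLip F B x₀ a := tlip_of_adjoin F B x₀ hx₀ hB
  obtain ⟨Cb, hCb, hlb⟩ := hLip b
  obtain ⟨Cw, hCw, hlw⟩ := hLip (t ^ k)
  obtain ⟨Db, hDb, hbb⟩ := hB b
  obtain ⟨Dw, hDw, hbw⟩ := hB (t ^ k)
  set P : V → ℝ := fun v => (Cb v * Dw v) * (Db v * Cw v) with hP
  have hPt : Tame P := (hCb.mul hDw).mul (hDb.mul hCw)
  refine ⟨fun v => F.archN 2 v * P v * (ρ v ^ k * ρ v ^ k),
    ((F.tame_archN 2).mul hPt).mul ((hρ.pow k).mul (hρ.pow k)), ?_⟩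
  intro v R hR S hS hRt hSt
  set d := cdist F x₀ v R S with hd
  have hd0 : 0 ≤ d := cdist_nonneg F x₀ v R S
  have hρpos : 0 < ρ v := hρ.pos v
  have hRt0 : 0 < F.abv v (R t) := lt_of_lt_of_le (inv_pos.mpr hρpos) hRt
  have hSt0 : 0 < F.abv v (S t) := lt_of_lt_of_le (inv_pos.mpr hρpos) hSt
  have hRne : R t ≠ 0 := fun h => by rw [h, (F.abv v).map_zero] at hRt0; exact lt_irrefl _ hRt0
  have hSne : S t ≠ 0 := fun h => by rw [h, (F.abv v).map_zero] at hSt0; exact lt_irrefl _ hSt0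
  have hRw : R (t ^ k) = R t ^ k := map_pow R t k
  have hSw : S (t ^ k) = S t ^ k := map_pow S t k
  -- the identity
  have hid : S b / S t ^ k - R b / R t ^ k
      = ((S b - R b) * R (t ^ k) + (- R b) * (S (t ^ k) - R (t ^ k))) * ((S t ^ k)⁻¹ * (R t ^ k)⁻¹) := by
    rw [hRw, hSw]
    field_simp
    ring
  -- numerator
  have hnum : F.abv v ((S b - R b) * R (t ^ k) + (- R b) * (S (t ^ k) - R (t ^ k)))
      ≤ F.archN 2 v * (P v * d) := by
    refine F.abv_add_le v _ _ ?_ ?_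
    · rw [(F.abv v).map_mul]
      calc F.abv v (S b - R b) * F.abv v (R (t ^ k))
          ≤ (Cb v * d) * Dw v :=
            mul_le_mul (hlb v S hS R hR) (hbw v R hR) ((F.abv v).nonneg _)
              (mul_nonneg (hCb.nonneg v) hd0)
        _ = (Cb v * Dw v) * d := by ring
        _ ≤ (Cb v * Dw v) * (Db v * Cw v) * d := by
            refine mul_le_mul_of_nonneg_right ?_ hd0
            exact le_mul_of_one_le_right (mul_nonneg (hCb.nonneg v) (hDw.nonneg v))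
              ((hDb.mul hCw).1 v)
    · rw [(F.abv v).map_mul, (F.abv v).map_neg]
      calc F.abv v (R b) * F.abv v (S (t ^ k) - R (t ^ k))
          ≤ Db v * (Cw v * d) :=
            mul_le_mul (hbb v R hR) (hlw v S hS R hR) ((F.abv v).nonneg _) (hDb.nonneg v)
        _ = (Db v * Cw v) * d := by ring
        _ ≤ (Cb v * Dw v) * (Db v * Cw v) * d := by
            refine mul_le_mul_of_nonneg_right ?_ hd0
            exact le_mul_of_one_le_left (mul_nonneg (hDb.nonneg v) (hCw.nonneg v))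
              ((hCb.mul hDw).1 v)
  -- denominators
  have hden : ∀ Q : A →ₐ[K] K, (ρ v)⁻¹ ≤ F.abv v (Q t) → F.abv v ((Q t ^ k)⁻¹) ≤ ρ v ^ k := by
    intro Q hQ
    rw [map_inv₀, (F.abv v).map_pow]
    have h1 : (ρ v)⁻¹ ^ k ≤ F.abv v (Q t) ^ k :=
      pow_le_pow_left₀ (inv_nonneg.mpr hρpos.le) hQ k
    have h2 : 0 < (ρ v)⁻¹ ^ k := pow_pos (inv_pos.mpr hρpos) k
    calc (F.abv v (Q t) ^ k)⁻¹ ≤ ((ρ v)⁻¹ ^ k)⁻¹ := inv_anti₀ h2 h1
      _ = ρ v ^ k := by rw [inv_pow, inv_inv]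
  rw [hid, (F.abv v).map_mul, (F.abv v).map_mul]
  have hnum0 : 0 ≤ F.archN 2 v * (P v * d) :=
    mul_nonneg ((F.tame_archN 2).nonneg v) (mul_nonneg (hPt.nonneg v) hd0)
  calc F.abv v ((S b - R b) * R (t ^ k) + (- R b) * (S (t ^ k) - R (t ^ k)))
        * (F.abv v ((S t ^ k)⁻¹) * F.abv v ((R t ^ k)⁻¹))
      ≤ (F.archN 2 v * (P v * d)) * (ρ v ^ k * ρ v ^ k) :=
        mul_le_mul hnum
          (mul_le_mul (hden S hSt) (hden R hRt) ((F.abv v).nonneg _) (pow_nonneg hρpos.le k))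
          (mul_nonneg ((F.abv v).nonneg _) ((F.abv v).nonneg _)) hnum0
    _ = F.archN 2 v * P v * (ρ v ^ k * ρ v ^ k) * d := by ring

/-- **(Cmp), abstract form**: finitely many quotients `a i / t ^ k i` at once. -/
theorem cmp_bound (F : AbsFamily K V) (B : V → Set (A →ₐ[K] K)) {ι₀ : Type*} [Finite ι₀]
    (x₀ : ι₀ → A) (hx₀ : Algebra.adjoin K (Set.range x₀) = ⊤) (hB : ∀ a : A, TBdd F B a)
    (t : A) (ρ : V → ℝ) (hρ : Tame ρ) {ι₁ : Type*} [Fintype ι₁] (a : ι₁ → A) (k : ι₁ → ℕ) :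
    ∃ C : V → ℝ, Tame C ∧ ∀ v, ∀ R ∈ B v, ∀ S ∈ B v,
      (ρ v)⁻¹ ≤ F.abv v (R t) → (ρ v)⁻¹ ≤ F.abv v (S t) →
      ∀ i, F.abv v (S (a i) / S t ^ k i - R (a i) / R t ^ k i) ≤ C v * cdist F x₀ v R S := by
  choose C hC h using fun i => cmp_bound_one F B x₀ hx₀ hB t ρ hρ (a i) (k i)
  refine ⟨fun v => ∏ i, C i v, Tame.prod _ _ fun i _ => hC i, fun v R hR S hS hRt hSt i => ?_⟩
  refine (h i v R hR S hS hRt hSt).trans ?_
  exact mul_le_mul_of_nonneg_right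
    (Tame.le_prod Finset.univ C (fun i _ => hC i) (Finset.mem_univ i) v)
    (cdist_nonneg F x₀ v R S)

end Fermat.Agent.MW.HtM
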