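/-
MW / [H-M] — (Cmp) in `pval` form: comparison of the two chart distances on the overlap
`(ρ v)⁻¹ ≤ |t|_v ≤ ρ v`, for the chart ring `Rg K t` of helper92's `RegRing`.

* `ptOf t ht P hP` : the point of the chart `Rg K t` of a place `P` at which `t` is regular,
  with `ptOf_apply : ptOf t ht P hP c = pval P (c : F)`;
* `exists_pow_mul_mem` : a function regular off the zeros of `t` becomes an element of
  `Rg K t` after multiplication by a power of `t`;
* `cmp_pval` : for generators `x₀` of `Rg K t` and a finite family `x₁` of functions regular off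
  the zeros of `t`:  `|x₁ i (S) - x₁ i (R)|_v ≤ C_v · sup_j |x₀ j (S) - x₀ j (R)|_v` on the overlap;
* `cmp_pval_inv` : the same with the roles of `t` and `t⁻¹` exchanged.
-/
import Mathlib
import Fermat.Agent.MW.HtM.RegRing
import Fermat.Agent.MW.HtM.PVal
import Fermat.Agent.MW.HtM.Cmp

set_option autoImplicit false
set_option linter.style.haveILetI false

noncomputable section

namespace Fermat.Agent.MW.HtM.CmpPVal

open AlgebraicCurve IntermediateField
open Fermat.Agent.Lib.FF Fermat.Agent.Lib.FF.IntP Fermat.Agent.S24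
open Fermat.Agent.MW.HtM.RegRing

universe uK uF

variable {K : Type uK} {F : Type uF} [Field K] [Field F] [Algebra K F]

theorem t_ne_zero (t : F) (ht : Transcendental K t) : t ≠ 0 := by
  rintro rfl
  exact ht isAlgebraic_zero

/-- Every place of `F` has residue field `K`. -/
theorem resK [IsAlgClosed K] (t : F) [FiniteDimensional K⟮t⟯ F] (P : Place K F) :
    RR.ResK P := by
  haveI : Algebra.IsAlgebraic K⟮t⟯ F := Algebra.IsAlgebraic.of_finite _ _
  exact fun a => residueTrivial t P a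

variable [IsAlgClosed K] (t : F) (ht : Transcendental K t) [FiniteDimensional K⟮t⟯ F]

/-- The point of the chart `Rg K t` attached to a place at which `t` is regular. -/
def ptOf (P : Place K F) (hP : 0 ≤ P.ord t) : Rg K t →ₐ[K] K :=
  (ptEquiv t ht).symm ⟨P, hP⟩

theorem ptEquiv_ptOf (P : Place K F) (hP : 0 ≤ P.ord t) :
    (ptEquiv t ht (ptOf t ht P hP)).1 = P := by
  unfold ptOf
  rw [Equiv.apply_symm_apply]

/-- The point of a place is its value map. -/
theorem ptOf_apply (P : Place K F) (hP : 0 ≤ P.ord t) (c : Rg K t) :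
    ptOf t ht P hP c = pval P (c : F) := by
  have h := val_sub_lt_one t ht (ptOf t ht P hP) c
  rw [ptEquiv_ptOf t ht P hP] at h
  exact (pval_eq P h).symm

theorem ptOf_xInt (P : Place K F) (hP : 0 ≤ P.ord t) :
    ptOf t ht P hP (xInt K t) = pval P t :=
  ptOf_apply t ht P hP (xInt K t)

/-- Every point of the chart is the point of a place. -/
theorem exists_ptOf_eq (R : Rg K t →ₐ[K] K) :
    ∃ (P : Place K F) (hP : 0 ≤ P.ord t), ptOf t ht P hP = R := by
  refine ⟨(ptEquiv t ht R).1, (ptEquiv t ht R).2, ?_⟩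
  unfold ptOf
  rw [Subtype.coe_eta, Equiv.symm_apply_apply]

theorem ptOf_injective {P Q : Place K F} (hP : 0 ≤ P.ord t) (hQ : 0 ≤ Q.ord t)
    (h : ptOf t ht P hP = ptOf t ht Q hQ) : P = Q := by
  have h1 := (ptEquiv t ht).symm.injective h
  exact congrArg Subtype.val h1

include ht in
/-- **Clearing the poles at the zeros of `t`**: a function regular off the zeros of `t`
becomes regular wherever `t` is after multiplication by a power of `t`. -/
theorem exists_pow_mul_mem (f : F) (hf : ∀ P : Place K F, P.ord t ≤ 0 → 0 ≤ P.ord f) :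
    ∃ k : ℕ, f * t ^ k ∈ integralClosure (Algebra.adjoin K {t}) F := by
  by_cases hf0 : f = 0
  · exact ⟨0, by rw [hf0, zero_mul]; exact zero_mem _⟩
  obtain ⟨hfin, -⟩ := CharP.zerosOf_finite_sum t ht
  have ht0 : t ≠ 0 := t_ne_zero t ht
  refine ⟨∑ v ∈ hfin.toFinset, (-(v.ord f)).toNat, ?_⟩
  rw [mem_Rg_iff t ht]
  intro v hv
  set k := ∑ v ∈ hfin.toFinset, (-(v.ord f)).toNat with hk
  have hord : v.ord (f * t ^ k) = v.ord f + (k : ℤ) * v.ord t := by
    rw [v.ord_mul hf0 (pow_ne_zero k ht0), ← zpow_natCast, v.ord_zpow]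
  rw [hord]
  rcases hv.lt_or_eq with h | h
  · -- a zero of `t`
    have hmem : v ∈ hfin.toFinset := hfin.mem_toFinset.mpr h
    have h1 : (-(v.ord f)).toNat ≤ k :=
      Finset.single_le_sum (f := fun w : Place K F => (-(w.ord f)).toNat)
        (fun _ _ => Nat.zero_le _) hmem
    have h2 : -(v.ord f) ≤ ((-(v.ord f)).toNat : ℤ) := Int.self_le_toNat _
    have h3 : ((-(v.ord f)).toNat : ℤ) ≤ (k : ℤ) := by exact_mod_cast h1
    have h4 : (k : ℤ) * 1 ≤ (k : ℤ) * v.ord t :=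
      mul_le_mul_of_nonneg_left (by omega) (by positivity)
    omega
  · rw [← h, mul_zero, add_zero]
    exact hf v (by omega)

omit [IsAlgClosed K] in
/-- A non-zero value forces order zero. -/
theorem ord_eq_zero_of_pval_ne_zero (P : Place K F) {f : F} (h : pval P f ≠ 0) :
    P.ord f = 0 := by
  have hmem : f ∈ P.toValuationSubring := by
    by_contra hn
    exact h (pval_of_notMem P hn)
  have h0 : 0 ≤ P.ord f := ord_nonneg_of_mem P hmem
  by_contra hne
  exact h (pval_eq_zero_of_ord_pos (lt_of_le_of_ne h0 (Ne.symm hne)))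

variable {V : Type*} (Fm : AbsFamily K V)

omit [IsAlgClosed K] [FiniteDimensional K⟮t⟯ F] in
/-- On the overlap `(ρ v)⁻¹ ≤ |t(P)|_v` the function `t` is a unit at `P`. -/
theorem ord_eq_zero_of_le {ρ : V → ℝ} (hρ : Tame ρ) {v : V} {P : Place K F}
    (h : (ρ v)⁻¹ ≤ Fm.abv v (pval P t)) : P.ord t = 0 := by
  refine ord_eq_zero_of_pval_ne_zero P ?_
  intro h0
  rw [h0, (Fm.abv v).map_zero] at h
  exact absurd h (not_le.mpr (inv_pos.mpr (hρ.pos v)))

include ht in
/-- **(Cmp), `pval` form.**  For generators `x₀` of the chart ring `Rg K t` and a finite family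
`x₁` of functions regular off the zeros of `t` (e.g. generators of the chart ring of `t⁻¹`),
on the overlap `(ρ v)⁻¹ ≤ |t|_v ≤ ρ v` the `x₁`-distance is tamely bounded by the
`x₀`-distance. -/
theorem cmp_pval {ρ : V → ℝ} (hρ : Tame ρ) {ι₀ : Type*} [Finite ι₀] (x₀ : ι₀ → Rg K t)
    (hx₀ : Algebra.adjoin K (Set.range x₀) = ⊤) {ι₁ : Type*} [Fintype ι₁] (x₁ : ι₁ → F)
    (hx₁ : ∀ i, ∀ P : Place K F, P.ord t ≤ 0 → 0 ≤ P.ord (x₁ i)) :
    ∃ C : V → ℝ, Tame C ∧ ∀ v, ∀ R S : Place K F,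
      (ρ v)⁻¹ ≤ Fm.abv v (pval R t) → Fm.abv v (pval R t) ≤ ρ v →
      (ρ v)⁻¹ ≤ Fm.abv v (pval S t) → Fm.abv v (pval S t) ≤ ρ v →
      ∀ i, Fm.abv v (pval S (x₁ i) - pval R (x₁ i)) ≤
        C v * ⨆ j, Fm.abv v (pval S (x₀ j : F) - pval R (x₀ j : F)) := by
  choose k hk using fun i => exists_pow_mul_mem t ht (x₁ i) (hx₁ i)
  set a : ι₁ → Rg K t := fun i => ⟨x₁ i * t ^ k i, hk i⟩ with ha
  obtain ⟨C, hC, h⟩ := cmp_bound Fm (region t Fm ρ) x₀ hx₀ (fun b => tbdd t Fm hρ b)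
    (xInt K t) ρ hρ a k
  refine ⟨C, hC, ?_⟩
  intro v R S hR1 hR2 hS1 hS2 i
  have hρpos : 0 < ρ v := hρ.pos v
  have hR : 0 ≤ R.ord t := (ord_eq_zero_of_le t Fm hρ hR1).ge
  have hS : 0 ≤ S.ord t := (ord_eq_zero_of_le t Fm hρ hS1).ge
  have key := h v (ptOf t ht R hR) (by rw [mem_region, ptOf_xInt]; exact hR2)
    (ptOf t ht S hS) (by rw [mem_region, ptOf_xInt]; exact hS2)
    (by rw [ptOf_xInt]; exact hR1) (by rw [ptOf_xInt]; exact hS1) i
  -- values of `x₁ i`
  have hval : ∀ (P : Place K F) (hP : 0 ≤ P.ord t), (ρ v)⁻¹ ≤ Fm.abv v (pval P t) →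
      ptOf t ht P hP (a i) / ptOf t ht P hP (xInt K t) ^ k i = pval P (x₁ i) := by
    intro P hP hP1
    have hres : RR.ResK P := resK t P
    have hordt : P.ord t = 0 := ord_eq_zero_of_le t Fm hρ hP1
    have hPt0 : pval P t ≠ 0 := by
      intro h0
      rw [h0, (Fm.abv v).map_zero] at hP1
      exact absurd hP1 (not_le.mpr (inv_pos.mpr hρpos))
    have htmem : t ∈ P.toValuationSubring := mem_of_ord_nonneg P hP
    have hxmem : x₁ i ∈ P.toValuationSubring := mem_of_ord_nonneg P (hx₁ i P hordt.le)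
    rw [ptOf_xInt, ptOf_apply]
    have h1 : ((a i : Rg K t) : F) = x₁ i * t ^ k i := rfl
    rw [h1, pval_mul hres hxmem (pow_mem htmem _), pval_pow hres htmem]
    field_simp
  rw [hval R hR hR1, hval S hS hS1] at key
  have hcd : cdist Fm x₀ v (ptOf t ht R hR) (ptOf t ht S hS)
      = ⨆ j, Fm.abv v (pval S (x₀ j : F) - pval R (x₀ j : F)) := by
    unfold cdist
    congr 1
    funext j
    rw [ptOf_apply, ptOf_apply]
  rw [hcd] at key
  exact key

include ht in
/-- **(Cmp), `pval` form, the other direction**: for generators `x₁` of the chart ring of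
`t⁻¹` and a finite family `x₀` of functions regular off the poles of `t`, on the overlap
`(ρ v)⁻¹ ≤ |t|_v ≤ ρ v` the `x₀`-distance is tamely bounded by the `x₁`-distance. -/
theorem cmp_pval_inv {ρ : V → ℝ} (hρ : Tame ρ) {ι₁ : Type*} [Finite ι₁] (x₁ : ι₁ → Rg K t⁻¹)
    (hx₁ : Algebra.adjoin K (Set.range x₁) = ⊤) {ι₀ : Type*} [Fintype ι₀] (x₀ : ι₀ → F)
    (hx₀ : ∀ i, ∀ P : Place K F, 0 ≤ P.ord t → 0 ≤ P.ord (x₀ i)) :
    ∃ C : V → ℝ, Tame C ∧ ∀ v, ∀ R S : Place K F,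
      (ρ v)⁻¹ ≤ Fm.abv v (pval R t) → Fm.abv v (pval R t) ≤ ρ v →
      (ρ v)⁻¹ ≤ Fm.abv v (pval S t) → Fm.abv v (pval S t) ≤ ρ v →
      ∀ i, Fm.abv v (pval S (x₀ i) - pval R (x₀ i)) ≤
        C v * ⨆ j, Fm.abv v (pval S (x₁ j : F) - pval R (x₁ j : F)) := by
  have ht' : Transcendental K t⁻¹ := transcendental_inv ht
  haveI : FiniteDimensional K⟮t⁻¹⟯ F := finiteDimensional_adjoin_congr (adjoin_inv_eq t).symm
  obtain ⟨C, hC, h⟩ := cmp_pval t⁻¹ ht' Fm hρ x₁ hx₁ x₀
    (fun i P hP => hx₀ i P (by rw [Place.ord_inv] at hP; omega))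
  refine ⟨C, hC, ?_⟩
  intro v R S hR1 hR2 hS1 hS2 i
  have hρpos : 0 < ρ v := hρ.pos v
  have hinv : ∀ P : Place K F, (ρ v)⁻¹ ≤ Fm.abv v (pval P t) → Fm.abv v (pval P t) ≤ ρ v →
      (ρ v)⁻¹ ≤ Fm.abv v (pval P t⁻¹) ∧ Fm.abv v (pval P t⁻¹) ≤ ρ v := by
    intro P hP1 hP2
    have hres : RR.ResK P := resK t P
    have hordt : P.ord t = 0 := ord_eq_zero_of_le t Fm hρ hP1
    have hpos : 0 < Fm.abv v (pval P t) := lt_of_lt_of_le (inv_pos.mpr hρpos) hP1
    have hPt0 : pval P t ≠ 0 := fun h0 => by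
      rw [h0, (Fm.abv v).map_zero] at hpos
      exact lt_irrefl _ hpos
    have htmem : t ∈ P.toValuationSubring := mem_of_ord_nonneg P hordt.ge
    rw [pval_inv hres htmem hPt0, map_inv₀]
    refine ⟨inv_anti₀ hpos hP2, ?_⟩
    calc (Fm.abv v (pval P t))⁻¹ ≤ ((ρ v)⁻¹)⁻¹ := inv_anti₀ (inv_pos.mpr hρpos) hP1
      _ = ρ v := inv_inv _
  exact h v R S (hinv R hR1 hR2).1 (hinv R hR1 hR2).2 (hinv S hS1 hS2).1 (hinv S hS1 hS2).2 i

/-- The `pval`-distance of two places is the chart distance of their points. -/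
theorem cdist_ptOf {ι₀ : Type*} (x₀ : ι₀ → Rg K t) (v : V) (R S : Place K F)
    (hR : 0 ≤ R.ord t) (hS : 0 ≤ S.ord t) :
    cdist Fm x₀ v (ptOf t ht R hR) (ptOf t ht S hS)
      = ⨆ j, Fm.abv v (pval S (x₀ j : F) - pval R (x₀ j : F)) := by
  unfold cdist
  congr 1
  funext j
  rw [ptOf_apply, ptOf_apply]

include ht in
/-- **(Sep)**: generators of the chart ring separate the places at which `t` is regular. -/
theorem sep_pval {ι₀ : Type*} (x₀ : ι₀ → Rg K t)
    (hx₀ : Algebra.adjoin K (Set.range x₀) = ⊤) (R S : Place K F)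
    (hR : 0 ≤ R.ord t) (hS : 0 ≤ S.ord t)
    (h : ∀ j, pval R (x₀ j : F) = pval S (x₀ j : F)) : R = S := by
  refine ptOf_injective t ht hR hS ?_
  refine AlgHom.ext_of_adjoin_eq_top hx₀ ?_
  rintro _ ⟨j, rfl⟩
  rw [ptOf_apply, ptOf_apply]
  exact h j

include ht in
/-- **(Sep)**, distance form: distinct places have positive chart distance. -/
theorem sep_dist_pos {ι₀ : Type*} [Finite ι₀] (x₀ : ι₀ → Rg K t)
    (hx₀ : Algebra.adjoin K (Set.range x₀) = ⊤) (v : V) (R S : Place K F)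
    (hR : 0 ≤ R.ord t) (hS : 0 ≤ S.ord t) (hne : R ≠ S) :
    0 < ⨆ j, Fm.abv v (pval S (x₀ j : F) - pval R (x₀ j : F)) := by
  by_contra hcon
  refine hne (sep_pval t ht x₀ hx₀ R S hR hS fun j => ?_)
  have h1 : Fm.abv v (pval S (x₀ j : F) - pval R (x₀ j : F))
      ≤ ⨆ j, Fm.abv v (pval S (x₀ j : F) - pval R (x₀ j : F)) :=
    Finite.le_ciSup (fun j => Fm.abv v (pval S (x₀ j : F) - pval R (x₀ j : F))) j
  have h2 : Fm.abv v (pval S (x₀ j : F) - pval R (x₀ j : F)) = 0 :=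
    le_antisymm (h1.trans (not_lt.mp hcon)) ((Fm.abv v).nonneg _)
  have h3 := (Fm.abv v).eq_zero.mp h2
  exact (sub_eq_zero.mp h3).symm

include ht in
/-- **(Sep)**, all places at once: the chart distance of two distinct places is `≥ 1` for
almost all `v`. -/
theorem sep_dist_finite {ι₀ : Type*} [Finite ι₀] (x₀ : ι₀ → Rg K t)
    (hx₀ : Algebra.adjoin K (Set.range x₀) = ⊤) (R S : Place K F)
    (hR : 0 ≤ R.ord t) (hS : 0 ≤ S.ord t) (hne : R ≠ S) :
    {v | ⨆ j, Fm.abv v (pval S (x₀ j : F) - pval R (x₀ j : F)) < 1}.Finite := by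
  have hex : ∃ j, pval S (x₀ j : F) - pval R (x₀ j : F) ≠ 0 := by
    by_contra hcon
    refine hne (sep_pval t ht x₀ hx₀ R S hR hS fun j => ?_)
    by_contra hj
    exact hcon ⟨j, fun h0 => hj (sub_eq_zero.mp h0).symm⟩
  obtain ⟨j, hj⟩ := hex
  refine (Fm.finite_gt_one (pval S (x₀ j : F) - pval R (x₀ j : F))⁻¹).subset ?_
  intro v hv
  have h1 : Fm.abv v (pval S (x₀ j : F) - pval R (x₀ j : F))
      ≤ ⨆ j, Fm.abv v (pval S (x₀ j : F) - pval R (x₀ j : F)) :=
    Finite.le_ciSup (fun j => Fm.abv v (pval S (x₀ j : F) - pval R (x₀ j : F))) j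
  have h2 : Fm.abv v (pval S (x₀ j : F) - pval R (x₀ j : F)) < 1 := lt_of_le_of_lt h1 hv
  have h3 : 0 < Fm.abv v (pval S (x₀ j : F) - pval R (x₀ j : F)) := (Fm.abv v).pos hj
  show 1 < Fm.abv v (pval S (x₀ j : F) - pval R (x₀ j : F))⁻¹
  rw [map_inv₀]
  exact (one_lt_inv₀ h3).mpr h2

end Fermat.Agent.MW.HtM.CmpPVal
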