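/-
MW / [H-M] — the literal target `TwoChart.Cmp` of `TwoChartDefs.lean` as a THEOREM, for any
generators `x₀` of the chart ring `Rg K t` and any finite family `x₁` in the chart ring of `t⁻¹`
(the binder shapes of `RegRing.chartBound0/1` and `SepRg.sep0/1`).
-/
import Mathlib
import Fermat.Agent.MW.HtM.CmpPVal
import Fermat.Agent.MW.HtM.TwoChartDefs

set_option autoImplicit false
set_option linter.style.haveILetI false

namespace Fermat.Agent.MW.HtM.CmpRg

open AlgebraicCurve IntermediateField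
open Fermat.Agent.Lib.FF Fermat.Agent.Lib.FF.IntP Fermat.Agent.S24
open Fermat.Agent.MW.HtM.RegRing

universe uK uF

variable {K : Type uK} {F : Type uF} [Field K] [Field F] [Algebra K F]
variable [IsAlgClosed K] (t : F) (ht : Transcendental K t) [FiniteDimensional K⟮t⟯ F]
variable {V : Type*} (Ab : AbsFamily K V)

include ht in
/-- **`TwoChart.Cmp` is a theorem**: on the overlap the `x₁`-distance is tamely bounded by the
`x₀`-distance (`x₀` generators of `Rg K t`, `x₁` any finite family of `Rg K t⁻¹`). -/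
theorem cmp (pinf : Place K F) {n₀ : ℕ} (x₀ : Fin n₀ → Rg K t)
    (hx₀ : Algebra.adjoin K (Set.range x₀) = ⊤) {n₁ : ℕ} (x₁ : Fin n₁ → Rg K t⁻¹) :
    TwoChart.Cmp Ab t pinf (fun i => (x₀ i : F)) (fun i => (x₁ i : F)) := by
  have ht' : Transcendental K t⁻¹ := transcendental_inv ht
  haveI : FiniteDimensional K⟮t⁻¹⟯ F := finiteDimensional_adjoin_congr (adjoin_inv_eq t).symm
  obtain ⟨C, hC, h⟩ := CmpPVal.cmp_pval t ht Ab (TwoChart.tame_rho Ab) x₀ hx₀
    (fun i => (x₁ i : F)) (fun i P hP =>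
      (mem_Rg_iff t⁻¹ ht' (x₁ i : F)).1 (x₁ i).2 P (by rw [Place.ord_inv]; omega))
  refine ⟨C, hC, ?_⟩
  intro v R S _ _ hR1 hR2 hS1 hS2
  refine Real.iSup_le (fun i => ?_)
    (mul_nonneg (hC.nonneg v) (TwoChart.pdist_nonneg Ab _ v R S))
  exact h v R S hR1 hR2 hS1 hS2 i

include ht in
/-- The reverse comparison: on the overlap the `x₀`-distance is tamely bounded by the
`x₁`-distance (`x₁` generators of `Rg K t⁻¹`, `x₀` any finite family of `Rg K t`). -/
theorem cmp_inv {n₁ : ℕ} (x₁ : Fin n₁ → Rg K t⁻¹)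
    (hx₁ : Algebra.adjoin K (Set.range x₁) = ⊤) {n₀ : ℕ} (x₀ : Fin n₀ → Rg K t) :
    ∃ C : V → ℝ, Tame C ∧ ∀ (v : V) (R S : Place K F),
      (TwoChart.rho Ab v)⁻¹ ≤ TwoChart.tabs Ab t v R → TwoChart.tabs Ab t v R ≤ TwoChart.rho Ab v →
      (TwoChart.rho Ab v)⁻¹ ≤ TwoChart.tabs Ab t v S → TwoChart.tabs Ab t v S ≤ TwoChart.rho Ab v →
      TwoChart.pdist Ab (fun i => (x₀ i : F)) v R S
        ≤ C v * TwoChart.pdist Ab (fun i => (x₁ i : F)) v R S := by
  obtain ⟨C, hC, h⟩ := CmpPVal.cmp_pval_inv t ht Ab (TwoChart.tame_rho Ab) x₁ hx₁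
    (fun i => (x₀ i : F)) (fun i P hP => (mem_Rg_iff t ht (x₀ i : F)).1 (x₀ i).2 P hP)
  refine ⟨C, hC, ?_⟩
  intro v R S hR1 hR2 hS1 hS2
  refine Real.iSup_le (fun i => ?_)
    (mul_nonneg (hC.nonneg v) (TwoChart.pdist_nonneg Ab _ v R S))
  exact h v R S hR1 hR2 hS1 hS2 i

end Fermat.Agent.MW.HtM.CmpRg
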