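/-
MW / [H-M] — (Sep): the coordinates of a chart separate its places.

For generators `x` of the chart ring `Rg K t` (the functions regular wherever `t` is), two places
at which `t` is regular and at which all `x i` take the same values are equal
(`places_eq_of_pval_eq`).  Consequences, in the literal shapes of `TwoChartDefs.lean`:
`sep0` (`TwoChart.Sep0`, chart of `t`) and `sep1` (`TwoChart.Sep1`, chart of `t⁻¹`), and the
distance forms `pdist_eq_zero_iff`, `pdist_pos`.
-/
import Mathlib
import Fermat.Agent.MW.HtM.RegRingPl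
import Fermat.Agent.MW.HtM.TwoChartDefs

set_option autoImplicit false
set_option linter.style.haveILetI false

noncomputable section

namespace Fermat.Agent.MW.HtM.SepRg

open AlgebraicCurve IntermediateField
open Fermat.Agent.Lib.FF Fermat.Agent.S24 Fermat.Agent.MW.HtM.RegRing

universe uK uF

variable {K : Type uK} {F : Type uF} [Field K] [Field F] [Algebra K F]

section Abstract

variable {A : Type*} [CommRing A] [Algebra K A]

/-- Two points of a `K`-algebra which agree on a generating family are equal. -/
theorem point_eq_of_generators {ι : Type*} (x : ι → A)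
    (hx : Algebra.adjoin K (Set.range x) = ⊤) {R S : A →ₐ[K] K}
    (h : ∀ i, R (x i) = S (x i)) : R = S := by
  apply AlgHom.ext_of_adjoin_eq_top hx
  rintro _ ⟨i, rfl⟩
  exact h i

/-- The coordinate distance of two distinct points is positive at every place. -/
theorem cdist_pos_of_ne {V : Type*} (Fm : AbsFamily K V) {ι : Type*} [Finite ι] (x : ι → A)
    (hx : Algebra.adjoin K (Set.range x) = ⊤) (v : V) {R S : A →ₐ[K] K} (h : R ≠ S) :
    0 < cdist Fm x v R S := by
  by_contra hcon
  have h0 : cdist Fm x v R S = 0 := le_antisymm (not_lt.mp hcon) (cdist_nonneg Fm x v R S)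
  apply h
  refine point_eq_of_generators x hx fun i => ?_
  have h1 := le_cdist Fm x v R S i
  rw [h0] at h1
  have h2 := le_antisymm h1 ((Fm.abv v).nonneg _)
  have h3 := (Fm.abv v).eq_zero.1 h2
  exact (sub_eq_zero.1 h3).symm

end Abstract

variable [IsAlgClosed K] (t : F) (ht : Transcendental K t) [FiniteDimensional K⟮t⟯ F]

include ht in
/-- **(Sep), place form.** Generators of the chart ring of `t` separate the places at which `t`
is regular. -/
theorem places_eq_of_pval_eq {ι : Type*} (x : ι → Rg K t)
    (hx : Algebra.adjoin K (Set.range x) = ⊤) {R S : Place K F} (hR : 0 ≤ R.ord t)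
    (hS : 0 ≤ S.ord t) (h : ∀ i, pval R (x i : F) = pval S (x i : F)) : R = S := by
  have h1 : ptOf t ht R hR = ptOf t ht S hS := by
    refine point_eq_of_generators x hx fun i => ?_
    rw [ptOf_apply, ptOf_apply]
    exact h i
  have h2 := ptEquiv_ptOf t ht R hR
  rw [h1, ptEquiv_ptOf] at h2
  exact h2.symm

include ht in
/-- **(Sep), contrapositive.** -/
theorem exists_pval_ne {ι : Type*} (x : ι → Rg K t)
    (hx : Algebra.adjoin K (Set.range x) = ⊤) {R S : Place K F} (hR : 0 ≤ R.ord t)
    (hS : 0 ≤ S.ord t) (h : R ≠ S) : ∃ i, pval R (x i : F) ≠ pval S (x i : F) := by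
  by_contra hcon
  push Not at hcon
  exact h (places_eq_of_pval_eq t ht x hx hR hS hcon)

include ht in
/-- **`Sep0` of the two-chart assembly**: `t` regular exactly off `pinf`, `x` generators of the
chart ring of `t`. -/
theorem sep0 (pinf : Place K F) (hpinf : ∀ P : Place K F, 0 ≤ P.ord t ↔ P ≠ pinf)
    {n₀ : ℕ} (x : Fin n₀ → Rg K t) (hx : Algebra.adjoin K (Set.range x) = ⊤) :
    TwoChart.Sep0 pinf (fun i => (x i : F)) := by
  intro R S hR hS hne
  exact exists_pval_ne t ht x hx ((hpinf R).2 hR) ((hpinf S).2 hS) hne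

include ht in
/-- **`Sep1` of the two-chart assembly**: `x` generators of the chart ring of `t⁻¹`. -/
theorem sep1 (pinf : Place K F) {n₁ : ℕ} (x : Fin n₁ → Rg K t⁻¹)
    (hx : Algebra.adjoin K (Set.range x) = ⊤) :
    TwoChart.Sep1 t pinf (fun i => (x i : F)) := by
  haveI : Algebra.IsAlgebraic K⟮t⟯ F := Algebra.IsAlgebraic.of_finite _ _
  haveI : FiniteDimensional K⟮t⁻¹⟯ F := Transfer.finiteDimensional_inv (K := K) t
  have ht' : Transcendental K t⁻¹ := Transfer.transcendental_inv ht
  intro R S _ _ hR0 hS0 hne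
  exact exists_pval_ne t⁻¹ ht' x hx (by rw [R.ord_inv]; omega) (by rw [S.ord_inv]; omega) hne

include ht in
/-- The coordinate distance of the two-chart assembly vanishes only on the diagonal. -/
theorem pdist_eq_zero_iff {V : Type*} (Ab : AbsFamily K V) {n : ℕ} (x : Fin n → Rg K t)
    (hx : Algebra.adjoin K (Set.range x) = ⊤) (v : V) {R S : Place K F} (hR : 0 ≤ R.ord t)
    (hS : 0 ≤ S.ord t) : TwoChart.pdist Ab (fun i => (x i : F)) v R S = 0 ↔ R = S := by
  constructor
  · intro h0
    refine places_eq_of_pval_eq t ht x hx hR hS fun i => ?_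
    have h1 := TwoChart.le_pdist Ab (fun i => (x i : F)) v R S i
    rw [h0] at h1
    have h2 := le_antisymm h1 ((Ab.abv v).nonneg _)
    exact (sub_eq_zero.1 ((Ab.abv v).eq_zero.1 h2)).symm
  · rintro rfl
    exact TwoChart.pdist_self Ab _ v R

include ht in
/-- The coordinate distance of two distinct places of a chart is positive at every `v`. -/
theorem pdist_pos {V : Type*} (Ab : AbsFamily K V) {n : ℕ} (x : Fin n → Rg K t)
    (hx : Algebra.adjoin K (Set.range x) = ⊤) (v : V) {R S : Place K F} (hR : 0 ≤ R.ord t)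
    (hS : 0 ≤ S.ord t) (h : R ≠ S) : 0 < TwoChart.pdist Ab (fun i => (x i : F)) v R S :=
  lt_of_le_of_ne (TwoChart.pdist_nonneg Ab _ v R S)
    (fun h0 => h ((pdist_eq_zero_iff t ht Ab x hx v hR hS).1 h0.symm))

end Fermat.Agent.MW.HtM.SepRg
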