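/-
MW / [H-M] (helper1) — THE LOCAL HEIGHT DATUM OF A FUNCTION FIELD, NO HYPOTHESIS LEFT.

`K` algebraically closed, `F/K` a function field in one variable, `t ∈ F` with its only pole at
`pinf`, of order `m > 0`, and `Ab` any family of absolute values of `K`.

* `IsCoords t x₀ x₁` : `x₀` is a finite generating family of the chart ring `Rg K t` (functions
  regular off `pinf`) containing `t`, and `x₁` one of `Rg K t⁻¹` containing `t⁻¹`;
* `exists_coords`    : such coordinates exist;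
* `localHtFF`        : for such coordinates, the structure `LocalHt Ab pinf t m` with
  `δ = TwoChart.dlt Ab t x₀ x₁` (`localHtFF_δ`);
* `exists_localHt`   : `Nonempty (LocalHt Ab pinf t m)`.

The seven chart statements of `TwoChartDefs.lean` are: `RegRing.chartBound0/1` (helper92 on
helper33's engine), `CmpRg.cmp` (helper33), `SepRg.sep0/1` (helper5), `Adj.FibLipFinal.fibLip0/1`
(helper74, helper81, helper57, helper87).
-/
import Mathlib
import Fermat.Agent.MW.HtM.TwoChartHt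
import Fermat.Agent.MW.HtM.ChartBoundRg
import Fermat.Agent.MW.HtM.CmpRg
import Fermat.Agent.MW.HtM.SepRg
import Fermat.Agent.MW.Adj.FibLipFinal

set_option autoImplicit false
set_option linter.style.haveILetI false

noncomputable section

namespace Fermat.Agent.MW.HtM.LocalHtFF

open AlgebraicCurve IntermediateField
open Fermat.Agent.Lib.FF Fermat.Agent.S24 Fermat.Agent.MW.HtM.RegRing

universe uK uF

variable {K : Type uK} {F : Type uF} [Field K] [Field F] [Algebra K F]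

/-- `x₀`, `x₁` are coordinates of the two charts of `t`: generators of the chart rings `Rg K t`,
`Rg K t⁻¹`, containing `t`, resp. `t⁻¹`. -/
def IsCoords (t : F) {n₀ n₁ : ℕ} (x₀ : Fin n₀ → F) (x₁ : Fin n₁ → F) : Prop :=
  ∃ (y₀ : Fin n₀ → Rg K t) (y₁ : Fin n₁ → Rg K t⁻¹),
    Algebra.adjoin K (Set.range y₀) = ⊤ ∧ Algebra.adjoin K (Set.range y₁) = ⊤ ∧
    (x₀ = fun i => (y₀ i : F)) ∧ (x₁ = fun i => (y₁ i : F)) ∧
    (∃ i, x₀ i = t) ∧ (∃ i, x₁ i = t⁻¹)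

variable [IsAlgClosed K] (t : F) (ht : Transcendental K t) [FiniteDimensional K⟮t⟯ F]

include ht in
/-- Coordinates exist. -/
theorem exists_coords :
    ∃ (n₀ n₁ : ℕ) (x₀ : Fin n₀ → F) (x₁ : Fin n₁ → F), IsCoords (K := K) t x₀ x₁ := by
  haveI : Algebra.IsAlgebraic K⟮t⟯ F := Algebra.IsAlgebraic.of_finite _ _
  haveI : FiniteDimensional K⟮t⁻¹⟯ F := Transfer.finiteDimensional_inv (K := K) t
  have ht' : Transcendental K t⁻¹ := Transfer.transcendental_inv ht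
  obtain ⟨n₀, y₀, h₀, i₀, hi₀⟩ := exists_generators_self t ht
  obtain ⟨n₁, y₁, h₁, i₁, hi₁⟩ := exists_generators_self t⁻¹ ht'
  refine ⟨n₀, n₁, fun i => (y₀ i : F), fun i => (y₁ i : F), y₀, y₁, h₀, h₁, rfl, rfl,
    ⟨i₀, ?_⟩, ⟨i₁, ?_⟩⟩
  · show ((y₀ i₀ : Rg K t) : F) = t
    rw [hi₀]; rfl
  · show ((y₁ i₁ : Rg K t⁻¹) : F) = t⁻¹
    rw [hi₁]; rfl

variable {t} {V : Type*} (Ab : AbsFamily K V) {pinf : Place K F} {n₀ n₁ : ℕ}
  {x₀ : Fin n₀ → F} {x₁ : Fin n₁ → F}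

omit [IsAlgClosed K] in
theorem IsCoords.mem0 (hc : IsCoords (K := K) t x₀ x₁) : ∃ i, x₀ i = t := by
  obtain ⟨y₀, y₁, h₀, h₁, -, -, h, -⟩ := hc
  exact h

omit [IsAlgClosed K] in
theorem IsCoords.mem1 (hc : IsCoords (K := K) t x₀ x₁) : ∃ i, x₁ i = t⁻¹ := by
  obtain ⟨y₀, y₁, h₀, h₁, -, -, -, h⟩ := hc
  exact h

include ht in
theorem IsCoords.chartBound0 (hc : IsCoords (K := K) t x₀ x₁)
    (ht_reg : ∀ P : Place K F, P ≠ pinf → 0 ≤ P.ord t) (ht_inf : pinf.ord t < 0) :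
    TwoChart.ChartBound0 Ab t pinf x₀ := by
  obtain ⟨y₀, y₁, h₀, h₁, rfl, rfl, -, -⟩ := hc
  exact RegRing.chartBound0 t ht Ab ht_reg ht_inf y₀ h₀

include ht in
theorem IsCoords.chartBound1 (hc : IsCoords (K := K) t x₀ x₁)
    (ht_reg : ∀ P : Place K F, P ≠ pinf → 0 ≤ P.ord t) (ht_inf : pinf.ord t < 0) :
    TwoChart.ChartBound1 Ab t pinf x₁ := by
  obtain ⟨y₀, y₁, h₀, h₁, rfl, rfl, -, -⟩ := hc
  exact RegRing.chartBound1 t ht Ab ht_reg ht_inf y₁ h₁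

include ht in
theorem IsCoords.cmp (hc : IsCoords (K := K) t x₀ x₁) (pinf : Place K F) :
    TwoChart.Cmp Ab t pinf x₀ x₁ := by
  obtain ⟨y₀, y₁, h₀, h₁, rfl, rfl, -, -⟩ := hc
  exact CmpRg.cmp t ht Ab pinf y₀ h₀ y₁

include ht in
theorem IsCoords.sep0 (hc : IsCoords (K := K) t x₀ x₁)
    (ht_reg : ∀ P : Place K F, P ≠ pinf → 0 ≤ P.ord t) (ht_inf : pinf.ord t < 0) :
    TwoChart.Sep0 pinf x₀ := by
  obtain ⟨y₀, y₁, h₀, h₁, rfl, rfl, -, -⟩ := hc
  exact SepRg.sep0 t ht pinf (ord_nonneg_iff_ne t ht_reg ht_inf) y₀ h₀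

include ht in
theorem IsCoords.sep1 (hc : IsCoords (K := K) t x₀ x₁) (pinf : Place K F) :
    TwoChart.Sep1 t pinf x₁ := by
  obtain ⟨y₀, y₁, h₀, h₁, rfl, rfl, -, -⟩ := hc
  exact SepRg.sep1 t ht pinf y₁ h₁

include ht in
theorem IsCoords.fibLip0 (hc : IsCoords (K := K) t x₀ x₁)
    (ht_reg : ∀ P : Place K F, P ≠ pinf → 0 ≤ P.ord t) (ht_inf : pinf.ord t < 0) :
    TwoChart.FibLip0 Ab t pinf x₀ := by
  obtain ⟨y₀, y₁, h₀, h₁, rfl, rfl, -, -⟩ := hc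
  exact Fermat.Agent.MW.Adj.FibLipFinal.fibLip0 Ab t ht pinf ht_reg ht_inf _ fun i => (y₀ i).2

include ht in
theorem IsCoords.fibLip1 (hc : IsCoords (K := K) t x₀ x₁)
    (ht_reg : ∀ P : Place K F, P ≠ pinf → 0 ≤ P.ord t) (ht_inf : pinf.ord t < 0) :
    TwoChart.FibLip1 Ab t pinf x₁ := by
  haveI : Algebra.IsAlgebraic K⟮t⟯ F := Algebra.IsAlgebraic.of_finite _ _
  haveI : FiniteDimensional K⟮t⁻¹⟯ F := Transfer.finiteDimensional_inv (K := K) t
  have ht' : Transcendental K t⁻¹ := Transfer.transcendental_inv ht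
  obtain ⟨y₀, y₁, h₀, h₁, rfl, rfl, -, -⟩ := hc
  exact Fermat.Agent.MW.Adj.FibLipFinal.fibLip1 Ab t ht' pinf ht_reg ht_inf _ fun i => (y₁ i).2

theorem ord_neg_of_eq {m : ℕ} (hm : 0 < m) (ht_inf : pinf.ord t = -(m : ℤ)) :
    pinf.ord t < 0 := by
  rw [ht_inf]
  omega

/-- **The local height datum of a function field**: for coordinates `x₀`, `x₁` of the two charts
of `t`, the structure `LocalHt Ab pinf t m` with `δ = TwoChart.dlt Ab t x₀ x₁`. -/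
def localHtFF (ht : Transcendental K t) (hc : IsCoords (K := K) t x₀ x₁) {m : ℕ} (hm : 0 < m)
    (ht_reg : ∀ P : Place K F, P ≠ pinf → 0 ≤ P.ord t) (ht_inf : pinf.ord t = -(m : ℤ)) :
    LocalHt Ab pinf t m :=
  TwoChart.localHt Ab t pinf x₀ x₁ (fun P => CmpPVal.resK t P) hm ht_reg ht_inf
    hc.mem0 hc.mem1
    (hc.chartBound0 ht Ab ht_reg (ord_neg_of_eq hm ht_inf))
    (hc.chartBound1 ht Ab ht_reg (ord_neg_of_eq hm ht_inf))
    (hc.fibLip0 ht Ab ht_reg (ord_neg_of_eq hm ht_inf))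
    (hc.fibLip1 ht Ab ht_reg (ord_neg_of_eq hm ht_inf))
    (hc.cmp ht Ab pinf)
    (hc.sep0 ht ht_reg (ord_neg_of_eq hm ht_inf))
    (hc.sep1 ht pinf)

@[simp] theorem localHtFF_δ (ht : Transcendental K t) (hc : IsCoords (K := K) t x₀ x₁) {m : ℕ}
    (hm : 0 < m) (ht_reg : ∀ P : Place K F, P ≠ pinf → 0 ≤ P.ord t)
    (ht_inf : pinf.ord t = -(m : ℤ)) :
    (localHtFF Ab ht hc hm ht_reg ht_inf).δ = TwoChart.dlt Ab t x₀ x₁ := rfl

include ht in
/-- **Existence of the local height datum.** -/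
theorem exists_localHt (pinf : Place K F) {m : ℕ} (hm : 0 < m)
    (ht_reg : ∀ P : Place K F, P ≠ pinf → 0 ≤ P.ord t) (ht_inf : pinf.ord t = -(m : ℤ)) :
    Nonempty (LocalHt Ab pinf t m) := by
  obtain ⟨n₀, n₁, x₀, x₁, hc⟩ := exists_coords (K := K) t ht
  exact ⟨localHtFF Ab ht hc hm ht_reg ht_inf⟩

end Fermat.Agent.MW.HtM.LocalHtFF
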