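/-
MW / [H-M] — `ram` (the diagonal fibre bound `HG.Setting.RamLe`) FOR THE LOCAL HEIGHT DATUM OF A
FUNCTION FIELD (`LocalHtFF.localHtFF`), from the two chart statements `RamFib0`, `RamFib1`.

* `ramLe_of_coords` : for coordinates `IsCoords t x₀ x₁`, the literal `ram` statement for
  `δ = TwoChart.dlt Ab t x₀ x₁`;
* `setting_ramLe_of_coords` : `𝒮.RamLe` for every global setting whose local distance is the
  distance of `localHtFF`.
-/
import Mathlib
import Fermat.Agent.MW.HtM.TwoChartRam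
import Fermat.Agent.MW.HtM.LocalHtFF

set_option autoImplicit false
set_option linter.style.haveILetI false

namespace Fermat.Agent.MW.HtM.RamFF

open AlgebraicCurve IntermediateField
open Fermat.Agent.Lib.FF Fermat.Agent.MW.HtM.TwoChart Fermat.Agent.MW.HtM.TwoChartRam
  Fermat.Agent.MW.HtM.LocalHtFF

universe uK uF

variable {K : Type uK} {F : Type uF} [Field K] [Field F] [Algebra K F] [IsAlgClosed K]
  {t : F} [FiniteDimensional K⟮t⟯ F] {V : Type*} (Ab : AbsFamily K V) {pinf : Place K F}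
  {n₀ n₁ : ℕ} {x₀ : Fin n₀ → F} {x₁ : Fin n₁ → F} {m : ℕ}

/-- **`ram` for the two-chart distance of a function field**, from the chart statements
`RamFib0`, `RamFib1`. -/
theorem ramLe_of_coords (ht : Transcendental K t) (hc : IsCoords (K := K) t x₀ x₁) (hm : 0 < m)
    (ht_reg : ∀ P : Place K F, P ≠ pinf → 0 ≤ P.ord t) (ht_inf : pinf.ord t = -(m : ℤ))
    (r0 : RamFib0 Ab t pinf x₀) (r1 : RamFib1 Ab t pinf x₁ m) :
    ∃ C : V → ℝ, Tame C ∧ ∀ (v : V) (R : Place K F), R ≠ pinf →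
      R.ord (t - algebraMap K F (pval R t)) = 1 →
      ∀ Z 𝔯 : Place K F →₀ ℕ, Z pinf = 0 →
      (∀ P, P ≠ pinf → (Z P : ℤ) = P.ord (t - algebraMap K F (pval R t))) →
      𝔯 pinf = 0 →
      (∀ P : Place K F, P ≠ pinf → (𝔯 P : ℤ) = P.ord (t - algebraMap K F (pval P t)) - 1) →
      ((Z.erase R).prod fun S n => dlt Ab t x₀ x₁ v R S ^ n) ^ m *
          max 1 (Ab.abv v (pval R t)) ^ (m - 1) ≤
        C v * (𝔯.prod fun r n => dlt Ab t x₀ x₁ v R r ^ n) ^ m :=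
  ramLe_dlt (fun P => CmpPVal.resK t P) hm ht_reg ht_inf hc.mem0 hc.mem1
    (hc.chartBound0 ht Ab ht_reg (ord_neg_of_eq hm ht_inf))
    (hc.chartBound1 ht Ab ht_reg (ord_neg_of_eq hm ht_inf))
    (hc.cmp ht Ab pinf) r0 r1

/-- **`RamLe` for a global setting over the local height datum of a function field.** -/
theorem setting_ramLe_of_coords (ht : Transcendental K t) (hc : IsCoords (K := K) t x₀ x₁)
    (𝒮 : HG.Setting Ab pinf t m)
    (h𝒮 : 𝒮.δ = (localHtFF Ab ht hc 𝒮.m_pos 𝒮.t_reg 𝒮.t_pole).δ)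
    (r0 : RamFib0 Ab t pinf x₀) (r1 : RamFib1 Ab t pinf x₁ m) : 𝒮.RamLe :=
  setting_ramLe 𝒮 (fun v R S => by rw [h𝒮, localHtFF_δ]) (fun P => CmpPVal.resK t P)
    hc.mem0 hc.mem1
    (hc.chartBound0 ht Ab 𝒮.t_reg (ord_neg_of_eq 𝒮.m_pos 𝒮.t_pole))
    (hc.chartBound1 ht Ab 𝒮.t_reg (ord_neg_of_eq 𝒮.m_pos 𝒮.t_pole))
    (hc.cmp ht Ab pinf) r0 r1

end Fermat.Agent.MW.HtM.RamFF
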