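/-
MW / [H-M] (b) — the fibre Lipschitz bounds `FibLip0`, `FibLip1` of `TwoChartDefs` for the chart
rings `Rg K t`, `Rg K t⁻¹`, from the chart statement `FibreNorm.fibre_lip_rg`.

* `fibLip_pl` : the chart `lip` of a transcendental `s` in place / `pval` form, the fibre being
  given as a divisor `Z` with `Z P = max (ord_P (s - τ)) 0`;
* `fibLip0`, `fibLip1` : the literal targets `TwoChart.FibLip0`, `TwoChart.FibLip1`, for ANY
  finite generating families of the two chart rings.
-/
import Mathlib
import Fermat.Agent.MW.HtM.FibreNorm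
import Fermat.Agent.MW.HtM.TwoChartDefs

set_option autoImplicit false
set_option linter.style.haveILetI false
set_option linter.unusedSectionVars false

noncomputable section

namespace Fermat.Agent.MW.HtM.FibLipRg

open AlgebraicCurve IntermediateField
open Fermat.Agent.Lib.FF Fermat.Agent.Lib.FF.IntP Fermat.Agent.S24
open Fermat.Agent.MW.HtM.RegRing Fermat.Agent.MW.HtM.FibreNorm Fermat.Agent.MW.HtM.TwoChart

universe uK uF

variable {K : Type uK} {F : Type uF} [Field K] [Field F] [Algebra K F]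

/-! ### Orders of `f - c` -/

section Ord

/-- At a pole of `f`, `f - c` has the same order as `f`. -/
theorem ord_sub_const_of_neg (P : Place K F) {f : F} (hf : P.ord f < 0) (c : K) :
    P.ord (f - algebraMap K F c) = P.ord f := by
  rcases eq_or_ne c 0 with rfl | hc
  · rw [map_zero, sub_zero]
  have hf0 : f ≠ 0 := by rintro rfl; simp at hf
  have hc0 : algebraMap K F c ≠ 0 := by simpa using hc
  have hfc : f - algebraMap K F c ≠ 0 := by
    intro h
    rw [sub_eq_zero.mp h, ord_algebraMap] at hf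
    exact lt_irrefl _ hf
  have h1 := ord_sub_ge P hf0 hc0 hfc
  rw [ord_algebraMap] at h1
  have h2 := ord_add_ge P hfc hc0 (by rwa [sub_add_cancel])
  rw [sub_add_cancel, ord_algebraMap] at h2
  rcases le_total (P.ord (f - algebraMap K F c)) 0 with h3 | h3
  · rw [min_eq_left h3] at h2
    rw [min_eq_left hf.le] at h1
    omega
  · rw [min_eq_right h3] at h2
    omega

/-- `ord (t⁻¹ - τ⁻¹) = ord (t - τ) - ord t`. -/
theorem ord_inv_sub_inv (P : Place K F) {t : F} (ht0 : t ≠ 0) {τ : K} (hτ : τ ≠ 0)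
    (hne : t - algebraMap K F τ ≠ 0) :
    P.ord (t⁻¹ - algebraMap K F τ⁻¹) = P.ord (t - algebraMap K F τ) - P.ord t := by
  have hτF : algebraMap K F τ ≠ 0 := by simpa using hτ
  have h1 : t⁻¹ - algebraMap K F τ⁻¹
      = -((t - algebraMap K F τ) * (t⁻¹ * algebraMap K F τ⁻¹)) := by
    rw [map_inv₀]
    field_simp
    ring
  rw [h1, FibreNorm.ord_neg', P.ord_mul hne (mul_ne_zero (inv_ne_zero ht0) (by simpa using hτ)),
    P.ord_mul (inv_ne_zero ht0) (by simpa using hτ), P.ord_inv, ord_algebraMap]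
  ring

/-- The positive parts of the orders of `t⁻¹ - τ⁻¹` and `t - τ` agree (`τ ≠ 0`). -/
theorem max_ord_inv_sub_inv (P : Place K F) {t : F} (ht : Transcendental K t) {τ : K}
    (hτ : τ ≠ 0) :
    max (P.ord (t⁻¹ - algebraMap K F τ⁻¹)) 0 = max (P.ord (t - algebraMap K F τ)) 0 := by
  have ht0 : t ≠ 0 := by
    rintro rfl
    exact ht isAlgebraic_zero
  have hne := sub_const_ne_zero t ht τ
  have hA := ord_inv_sub_inv P ht0 hτ hne
  rcases lt_trichotomy (P.ord t) 0 with h | h | h
  · have hB := ord_sub_const_of_neg P h τ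
    rw [hA, hB, sub_self, max_self, max_eq_right h.le]
  · rw [hA, h, sub_zero]
  · have h' : P.ord t⁻¹ < 0 := by rw [P.ord_inv]; omega
    have hB := ord_sub_const_of_neg P h' τ⁻¹
    rw [hB, P.ord_inv] at hA
    have h0 : P.ord (t - algebraMap K F τ) = 0 := by omega
    rw [hB, P.ord_inv, h0, max_self]
    exact max_eq_right (by omega)

end Ord

variable [IsAlgClosed K] [CharZero K]

/-! ### The chart `lip` in place form -/

section Chart

variable (s : F) (hs : Transcendental K s) [FiniteDimensional K⟮s⟯ F]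

/-- The point of a place is its value map. -/
theorem pval_plc (R : Rg K s →ₐ[K] K) (c : Rg K s) : pval (plc s hs R) (c : F) = R c :=
  pval_eq _ (RegRing.val_sub_lt_one s hs R c)

theorem cdist_eq_pdist {V : Type*} (Fm : AbsFamily K V) {n : ℕ} (x : Fin n → Rg K s) (v : V)
    (S R : Rg K s →ₐ[K] K) :
    cdist Fm x v S R = pdist Fm (fun i => (x i : F)) v (plc s hs S) (plc s hs R) := by
  unfold cdist pdist
  simp only [pval_plc]

/-- Products over the fibre multiset of points = `Finsupp.prod` over the fibre divisor. -/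
theorem prod_fibre_eq (τ : K) (Z : Place K F →₀ ℕ)
    (hZ : ∀ P, (Z P : ℤ) = max (P.ord (s - algebraMap K F τ)) 0) {M : Type*} [CommMonoid M]
    (g : Place K F → M) :
    ((fibre s hs τ).map fun S => g (plc s hs S)).prod = Z.prod fun P k => g P ^ k := by
  rw [prod_map_fibre]
  have h1 : ∀ R : Rg K s →ₐ[K] K, mult s hs τ R = Z (plc s hs R) := by
    intro R
    have h2 := natCast_mult s hs τ R
    have h3 := hZ (plc s hs R)
    have h4 := FibreNorm.ord_sub_nonneg s hs R τ
    rw [max_eq_left h4] at h3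
    exact_mod_cast h2.trans h3.symm
  have h2 : ∏ R ∈ fibrePts s hs τ, g (plc s hs R) ^ mult s hs τ R
      = ∏ R ∈ fibrePts s hs τ, (fun P => g P ^ Z P) (plc s hs R) :=
    Finset.prod_congr rfl fun R _ => by rw [h1]
  rw [h2, prod_fibrePts s hs τ (fun P => g P ^ Z P)]
  have hsupp : Z.support = fibreSet s hs τ := by
    ext P
    rw [Finsupp.mem_support_iff, mem_fibreSet]
    have h3 := hZ P
    constructor
    · intro hne
      by_contra hle
      rw [max_eq_right (not_lt.mp hle)] at h3
      exact hne (by exact_mod_cast h3)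
    · intro hpos hzero
      rw [max_eq_left hpos.le, hzero] at h3
      simp at h3
      omega
  rw [Finsupp.prod, hsupp]

include hs in
/-- **The chart `lip` in place form**: for any finite generating family of the chart ring of
`s`, the fibre of `τ` being given as a divisor `Z` with `Z P = max (ord_P (s - τ)) 0`. -/
theorem fibLip_pl {V : Type*} (Fm : AbsFamily K V) {n : ℕ} (x : Fin n → Rg K s)
    (hx : Algebra.adjoin K (Set.range x) = ⊤) :
    ∃ C : V → ℝ, Tame C ∧ ∀ (v : V) (R : Place K F), 0 ≤ R.ord s →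
      Fm.abv v (pval R s) ≤ rho Fm v → ∀ τ : K, Fm.abv v τ ≤ rho Fm v →
      ∀ Z : Place K F →₀ ℕ, (∀ P, (Z P : ℤ) = max (P.ord (s - algebraMap K F τ)) 0) →
      (Z.prod fun S k => pdist Fm (fun i => (x i : F)) v S R ^ k)
        ≤ C v * Fm.abv v (pval R s - τ) := by
  obtain ⟨C, hC, hlip⟩ := fibre_lip_rg s hs Fm (tame_rho Fm) x hx
  refine ⟨C, hC, fun v R hR hRt τ hτ Z hZ => ?_⟩
  obtain ⟨R', rfl⟩ := exists_plc_eq s hs R hR
  have hval : pval (plc s hs R') s = R' (xInt K s) := pval_plc s hs R' (xInt K s)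
  have hreg : R' ∈ region s Fm (rho Fm) v := by
    rw [mem_region, ← hval]
    exact hRt
  have h1 := hlip v R' hreg τ hτ
  rw [hval]
  refine le_of_eq_of_le ?_ h1
  rw [← prod_fibre_eq s hs τ Z hZ
    (fun P => pdist Fm (fun i => (x i : F)) v P (plc s hs R'))]
  congr 1
  refine Multiset.map_congr rfl fun S _ => ?_
  exact (cdist_eq_pdist s hs Fm x v S R').symm

end Chart

/-! ### The two literal targets -/

section Targets

variable (t : F) (ht : Transcendental K t) [FiniteDimensional K⟮t⟯ F]
variable {V : Type*} (Ab : AbsFamily K V)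

include ht in
/-- **`FibLip0`**: the fibre Lipschitz bound on the chart off `pinf`, for any finite generating
family of the chart ring of `t`. -/
theorem fibLip0 {pinf : Place K F} (ht_reg : ∀ P : Place K F, P ≠ pinf → 0 ≤ P.ord t)
    (ht_inf : pinf.ord t < 0) {n₀ : ℕ} (x : Fin n₀ → Rg K t)
    (hx : Algebra.adjoin K (Set.range x) = ⊤) :
    TwoChart.FibLip0 Ab t pinf (fun i => (x i : F)) := by
  obtain ⟨C, hC, hlip⟩ := fibLip_pl t ht Ab x hx
  refine ⟨C, hC, fun v R hR hRt τ hτ Z hZinf hZ => ?_⟩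
  refine hlip v R (ht_reg R hR) hRt τ hτ Z fun P => ?_
  by_cases hP : P = pinf
  · subst hP
    rw [hZinf, ord_sub_const_of_neg P ht_inf τ, max_eq_right ht_inf.le]
    rfl
  · rw [hZ P hP]
    have h1 : 0 ≤ P.ord (t - algebraMap K F τ) := by
      rw [← hZ P hP]
      exact Int.natCast_nonneg _
    rw [max_eq_left h1]

include ht in
/-- **`FibLip1`**: the fibre Lipschitz bound on the chart off the zeros of `t`, for any finite
generating family of the chart ring of `t⁻¹`. -/
theorem fibLip1 {pinf : Place K F} (ht_reg : ∀ P : Place K F, P ≠ pinf → 0 ≤ P.ord t)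
    (ht_inf : pinf.ord t < 0) {n₁ : ℕ} (x : Fin n₁ → Rg K t⁻¹)
    (hx : Algebra.adjoin K (Set.range x) = ⊤) :
    TwoChart.FibLip1 Ab t pinf (fun i => (x i : F)) := by
  haveI := Transfer.finiteDimensional_inv (K := K) t
  haveI : Algebra.IsAlgebraic K⟮t⟯ F := Algebra.IsAlgebraic.of_finite _ _
  obtain ⟨C, hC, hlip⟩ := fibLip_pl t⁻¹ (Transfer.transcendental_inv ht) Ab x hx
  refine ⟨C, hC, fun v R hR hRt τ hτ Z hZinf hZ => ?_⟩
  have hrho := rho_pos Ab v
  have hτ0 : τ ≠ 0 := by
    rintro rfl
    rw [map_zero] at hτ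
    exact absurd hτ (not_le.mpr (inv_pos.mpr hrho))
  have hpv0 : pval R t ≠ 0 := by
    intro h0
    unfold tabs at hRt
    rw [h0, map_zero] at hRt
    exact absurd hRt (not_le.mpr (inv_pos.mpr hrho))
  have hres : RR.ResK R := fun a => residueTrivial t R a
  have hRt0 : 0 ≤ R.ord t := ht_reg R hR
  have hRord : R.ord t = 0 := by
    by_contra hne
    exact hpv0 (pval_eq_zero_of_ord_pos (by omega))
  have hpinv : pval R t⁻¹ = (pval R t)⁻¹ := pval_inv hres (mem_of_ord_nonneg R hRt0) hpv0
  have h1 := hlip v R (by rw [R.ord_inv]; omega) (by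
    rw [hpinv, map_inv₀]
    exact inv_le_of_inv_le₀ hrho hRt) τ⁻¹ (by
    rw [map_inv₀]
    exact inv_le_of_inv_le₀ hrho hτ) Z (fun P => by
    rw [max_ord_inv_sub_inv P ht hτ0]
    by_cases hP : P = pinf
    · subst hP
      rw [hZinf, ord_sub_const_of_neg P ht_inf τ, max_eq_right ht_inf.le]
      rfl
    · rw [hZ P hP]
      have h1 : 0 ≤ P.ord (t - algebraMap K F τ) := by
        rw [← hZ P hP]
        exact Int.natCast_nonneg _
      rw [max_eq_left h1])
  rw [hpinv] at h1
  exact h1

end Targets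

end Fermat.Agent.MW.HtM.FibLipRg
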