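/-
MW / [H-M] — the polynomial side of the fibre Lipschitz bound (Mathlib only).

For `y, t` in the chart ring `A` and a two-variable polynomial `G ∈ K[Y][T]` (here
`Polynomial (Polynomial K)`: outer variable `T`, coefficients in `K[Y]`) such that
  (i)  `G(y, t) = 0` in `A`                                   (Cayley–Hamilton for `t` over `K[y]`),
  (ii) for every `τ` the polynomial `G(Y, τ) ∈ K[Y]` is nonzero and the multiplicity of `c` as a
       root equals the number of points `S` of the fibre `Z τ` with `y(S) = c`   (norm formula),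
the evaluated identities needed by `fibre_lip` hold with a constant `κ ≠ 0` independent of `τ`.
-/
import Mathlib
import Fermat.Agent.MW.HtM.FibreLip

set_option autoImplicit false

open Polynomial

namespace Fermat.Agent.MW.HtM

variable {K : Type*} {A : Type*} {V : Type*} [Field K] [CommRing A] [Algebra K A]

/-- Evaluating the outer variable of `G` at the constant `τ` and then the inner one at `s`. -/
theorem eval_eval_C (G : Polynomial (Polynomial K)) {d : ℕ} (hd : G.natDegree < d) (τ s : K) :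
    (G.eval (C τ)).eval s = ∑ k : Fin d, (G.coeff k).eval s * τ ^ (k : ℕ) := by
  rw [eval_eq_sum_range' hd, eval_finsetSum, Fin.sum_univ_eq_sum_range
    (fun k => (G.coeff k).eval s * τ ^ k) d]
  refine Finset.sum_congr rfl fun k _ => ?_
  rw [eval_mul, eval_pow, eval_C]

/-- The `Y^m`-coefficient of `G(Y, τ)` is a polynomial in `τ`. -/
theorem exists_coeff_poly (G : Polynomial (Polynomial K)) (m : ℕ) :
    ∃ q : K[X], ∀ τ : K, q.eval τ = (G.eval (C τ)).coeff m := by
  refine ⟨∑ k ∈ Finset.range (G.natDegree + 1), C ((G.coeff k).coeff m) * X ^ k, fun τ => ?_⟩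
  rw [eval_finsetSum, eval_eq_sum_range, finsetSum_coeff]
  refine Finset.sum_congr rfl fun k _ => ?_
  rw [eval_mul, eval_C, eval_pow, eval_X, ← C_pow, coeff_mul_C]

/-- **The fibre data from the polynomial.** -/
theorem fibre_data_of_poly [IsAlgClosed K] [DecidableEq K] (y t : A) (G : Polynomial (Polynomial K)) (m : ℕ)
    (Z : K → Multiset (A →ₐ[K] K)) (hZ : ∀ τ, Multiset.card (Z τ) = m)
    (h1 : (G.map (Polynomial.aeval y).toRingHom).eval t = 0)
    (h2 : ∀ τ : K, G.eval (C τ) ≠ 0)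
    (h3 : ∀ (τ c : K), (G.eval (C τ)).rootMultiplicity c
      = Multiset.count c ((Z τ).map fun S => S y))
    (d : ℕ) (hd : G.natDegree < d) :
    ∃ κ : K, κ ≠ 0 ∧
      (∀ R : A →ₐ[K] K, ∑ k : Fin d, R (Polynomial.aeval y (G.coeff k)) * R t ^ (k : ℕ) = 0) ∧
      ∀ (τ : K) (R : A →ₐ[K] K), ∑ k : Fin d, R (Polynomial.aeval y (G.coeff k)) * τ ^ (k : ℕ)
        = κ * ((Z τ).map fun S => R y - S y).prod := by
  have hRa : ∀ (R : A →ₐ[K] K) (p : K[X]), R (Polynomial.aeval y p) = p.eval (R y) := by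
    intro R p
    rw [← Polynomial.aeval_algHom_apply, Polynomial.coe_aeval_eq_eval]
  have hroots : ∀ τ, (G.eval (C τ)).roots = (Z τ).map fun S => S y := by
    intro τ
    refine Multiset.ext.mpr fun c => ?_
    rw [count_roots, h3]
  have hsplit : ∀ τ, (G.eval (C τ)).Splits := fun τ => IsAlgClosed.splits _
  have hdeg : ∀ τ, (G.eval (C τ)).natDegree = m := by
    intro τ
    rw [(hsplit τ).natDegree_eq_card_roots, hroots, Multiset.card_map, hZ]
  obtain ⟨q, hq⟩ := exists_coeff_poly G m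
  have hq' : ∀ τ, q.eval τ = (G.eval (C τ)).leadingCoeff := by
    intro τ
    rw [hq, ← hdeg τ, coeff_natDegree]
  have hq0 : ∀ τ, q.eval τ ≠ 0 := by
    intro τ
    rw [hq']
    exact leadingCoeff_ne_zero.mpr (h2 τ)
  have hqdeg : q.degree = 0 := by
    by_contra hne
    obtain ⟨x, hx⟩ := IsAlgClosed.exists_root q hne
    exact hq0 x hx
  have hqC : q = C (q.coeff 0) := eq_C_of_degree_eq_zero hqdeg
  have hκ : ∀ τ, (G.eval (C τ)).leadingCoeff = q.coeff 0 := by
    intro τ
    rw [← hq', hqC, eval_C, coeff_C_zero]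
  refine ⟨q.coeff 0, ?_, ?_, ?_⟩
  · have := hq0 0
    rwa [hqC, eval_C] at this
  · intro R
    have h4 := congrArg R h1
    rw [eval_map, eval₂_eq_sum_range' _ hd, map_sum, map_zero] at h4
    rw [Fin.sum_univ_eq_sum_range
      (fun k => R (Polynomial.aeval y (G.coeff k)) * R t ^ k) d, ← h4]
    refine Finset.sum_congr rfl fun k _ => ?_
    rw [map_mul, map_pow]
    rfl
  · intro τ R
    have h5 := (hsplit τ).eval_eq_prod_roots (R y)
    rw [hκ τ, hroots τ, Multiset.map_map] at h5
    simp only [Function.comp_def] at h5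
    rw [← h5, eval_eval_C G hd τ (R y)]
    refine Finset.sum_congr rfl fun k _ => ?_
    rw [hRa]

/-- **The chart `lip` from the polynomial data at the Vandermonde nodes.** -/
theorem fibre_lip_of_poly [IsAlgClosed K] [DecidableEq K] (F : AbsFamily K V) (B : V → Set (A →ₐ[K] K))
    (hB : ∀ a : A, TBdd F B a) {n : ℕ} (x : Fin n → A) (t : A) {Nd : Type*} [Fintype Nd]
    (lam : Nd → K) (hlam : Function.Injective lam) (m : ℕ)
    (hcard : m * (n - 1) < Fintype.card Nd) (ρ : V → ℝ) (hρ : Tame ρ)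
    (Z : K → Multiset (A →ₐ[K] K)) (hZ : ∀ τ, Multiset.card (Z τ) = m)
    (G : Nd → Polynomial (Polynomial K))
    (h1 : ∀ j, ((G j).map (Polynomial.aeval (∑ i : Fin n, lam j ^ (i : ℕ) • x i)).toRingHom).eval t
      = 0)
    (h2 : ∀ j (τ : K), (G j).eval (C τ) ≠ 0)
    (h3 : ∀ j (τ c : K), ((G j).eval (C τ)).rootMultiplicity c
      = Multiset.count c ((Z τ).map fun S => S (∑ i : Fin n, lam j ^ (i : ℕ) • x i))) :
    ∃ C : V → ℝ, Tame C ∧ ∀ v, ∀ R ∈ B v, ∀ τ : K, F.abv v τ ≤ ρ v →
      ((Z τ).map fun S => cdist F x v S R).prod ≤ C v * F.abv v (R t - τ) := by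
  classical
  set d : ℕ := (Finset.univ.sup fun j => (G j).natDegree) + 1 with hd
  have hdj : ∀ j, (G j).natDegree < d := fun j =>
    Nat.lt_succ_of_le (Finset.le_sup (f := fun j => (G j).natDegree) (Finset.mem_univ j))
  choose κ hκ hzero hfac using fun j =>
    fibre_data_of_poly (∑ i : Fin n, lam j ^ (i : ℕ) • x i) t (G j) m Z hZ (h1 j) (h2 j) (h3 j)
      d (hdj j)
  obtain ⟨C, hC, hlip⟩ := fibre_lip F B hB x t lam hlam m d hcard
    (fun j k => Polynomial.aeval (∑ i : Fin n, lam j ^ (i : ℕ) • x i) ((G j).coeff k)) κ hκ ρ hρ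
  refine ⟨C, hC, fun v R hR τ hτ => ?_⟩
  exact hlip v R hR τ hτ (Z τ) (hZ τ).le (fun j => hzero j R) (fun j => hfac j τ R)

end Fermat.Agent.MW.HtM
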