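/-
MW / [H-M] — brick (e): the abstract ramification bound (RamPt≤) on one bounded chart
(Mathlib only, on top of `FibreLip` and `ChartMain`).

For a function `t` on the chart and a point `R`, let `Z (R t)` be the fibre of `t` through `R`
(a multiset of points, with multiplicity).  Then

  `∏_{S ∈ Z (R t) - R} cdist_v(S, R) ≤ C_v · ∏_{Q ∈ L} cdist_v(Q, R)`

for every multiset `L` of ramification points (`L.count Q + 1 ≤` the multiplicity of `Q` in its
fibre) inside the region.

Inputs: for finitely many Vandermonde combinations `y_j = ∑ λ_j^i x_i` of the coordinates, a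
bivariate polynomial `P_j(T, Y)` with `P_j(τ, c) = κ_j ∏_{S ∈ Z τ} (c - y_j(S))` for all `τ, c`
(the characteristic polynomial of `y_j` over `K[t]`, i.e. the norm of `t - τ` to `K(y_j)`).
With `ψ_j := ∂_Y P_j (t, y_j)`:
  * `R ψ_j = κ_j ∏_{S ∈ Z (R t) - R} (y_j(R) - y_j(S))`           (`apply_deriv_eq`);
  * `ord_Q ψ_j ≥ e_Q - 1`, from the fibre formula at the ONE value `τ₀ = t(Q)`  (`le_ord_deriv`)
    — no theory of the different is needed;
  * `chart_bound_main` for the fixed functions `ψ_j`.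
-/
import Mathlib
import Fermat.Agent.MW.HtM.FibrePoly
import Fermat.Agent.MW.HtM.ChartMain

set_option autoImplicit false

namespace Fermat.Agent.MW.HtM.RamLip

open Polynomial

universe uA

variable {K : Type*} {A : Type uA} {V : Type*} [Field K] [CommRing A] [Algebra K A]

/-- A point applied to a bivariate evaluation. -/
theorem apply_aevalAeval (R : A →ₐ[K] K) (t y : A) (P : K[X][X]) :
    R (aevalAeval t y P) = P.evalEval (R t) (R y) := by
  have h : R.comp (aevalAeval t y) = aevalAeval (R t) (R y) := by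
    refine (aevalAevalEquiv K K).symm.injective ?_
    simp [aevalAevalEquiv]
  rw [← coe_aevalAeval_eq_evalEval, ← h]
  rfl

/-- Specialising the inner variable: `D(t, y) ≡ D(τ₀, y)` modulo `t - τ₀`. -/
theorem exists_aevalAeval_eq (t y : A) (τ₀ : K) (D : K[X][X]) :
    ∃ c : A, aevalAeval t y D
      = aeval y (D.map (evalRingHom τ₀)) + (t - algebraMap K A τ₀) * c := by
  induction D using Polynomial.induction_on' with
  | add p q hp hq =>
    obtain ⟨c₁, h₁⟩ := hp
    obtain ⟨c₂, h₂⟩ := hq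
    refine ⟨c₁ + c₂, ?_⟩
    rw [map_add, h₁, h₂, Polynomial.map_add, map_add]
    ring
  | monomial n d =>
    have hroot : (d - C (d.eval τ₀)).IsRoot τ₀ := by simp [IsRoot]
    have hq := (mul_divByMonic_eq_iff_isRoot (p := d - C (d.eval τ₀)) (a := τ₀)).2 hroot
    set q := (d - C (d.eval τ₀)) /ₘ (X - C τ₀) with hqdef
    have hd : d = C (d.eval τ₀) + (X - C τ₀) * q := by rw [hq]; ring
    refine ⟨aeval t q * y ^ n, ?_⟩
    have h1 : aevalAeval t y (monomial n d) = aeval t d * y ^ n := by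
      rw [← C_mul_X_pow_eq_monomial, map_mul, map_pow, aevalAeval_C, aevalAeval_Y]
    have h2 : aeval y ((monomial n d).map (evalRingHom τ₀))
        = algebraMap K A (d.eval τ₀) * y ^ n := by
      rw [map_monomial, ← C_mul_X_pow_eq_monomial, map_mul, map_pow, aeval_C, aeval_X]
      rfl
    have h3 : aeval t d = algebraMap K A (d.eval τ₀) + (t - algebraMap K A τ₀) * aeval t q := by
      conv_lhs => rw [hd]
      simp [aeval_C]
    rw [h1, h2, h3]
    ring

section Formula

variable [Infinite K]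

/-- The fibre formula as a polynomial identity. -/
theorem map_eq_of_evalEval (P : K[X][X]) (κ : K) (y : A) (τ : K)
    (Z : Multiset (A →ₐ[K] K))
    (hP : ∀ c : K, P.evalEval τ c = κ * (Z.map fun S => c - S y).prod) :
    P.map (evalRingHom τ) = C κ * (Z.map fun S : A →ₐ[K] K => X - C (S y)).prod := by
  refine Polynomial.funext fun c => ?_
  rw [map_evalRingHom_eval, hP c, eval_mul, eval_C, eval_multiset_prod, Multiset.map_map]
  congr 2
  refine Multiset.map_congr rfl fun S _ => ?_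
  simp

open Classical in
/-- **Values of the derivative**: at a point `R` of the fibre `Z`,
`∂_Y P (t, y)` takes the value `κ ∏_{S ∈ Z - R} (y(R) - y(S))`. -/
theorem apply_deriv_eq (P : K[X][X]) (κ : K) (t y : A) (R : A →ₐ[K] K)
    (Z : Multiset (A →ₐ[K] K)) (hR : R ∈ Z)
    (hP : ∀ c : K, P.evalEval (R t) c = κ * (Z.map fun S => c - S y).prod) :
    R (aevalAeval t y (derivative P))
      = κ * ((Z.erase R).map fun S => R y - S y).prod := by
  have hp := map_eq_of_evalEval P κ y (R t) Z hP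
  rw [apply_aevalAeval, ← map_evalRingHom_eval, ← derivative_map, hp]
  have hZ : Z = R ::ₘ Z.erase R := (Multiset.cons_erase hR).symm
  set q : K[X] := ((Z.erase R).map fun S : A →ₐ[K] K => X - C (S y)).prod with hq
  have hprod : (Z.map fun S : A →ₐ[K] K => X - C (S y)).prod = (X - C (R y)) * q := by
    conv_lhs => rw [hZ]
    rw [Multiset.map_cons, Multiset.prod_cons]
  rw [hprod, derivative_mul, derivative_C, zero_mul, zero_add, derivative_mul, derivative_sub,
    derivative_X, derivative_C, sub_zero, one_mul, eval_mul, eval_C, eval_add, eval_mul,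
    eval_sub, eval_X, eval_C, sub_self, zero_mul, add_zero, hq, eval_multiset_prod,
    Multiset.map_map]
  congr 2
  refine Multiset.map_congr rfl fun S _ => ?_
  simp

end Formula

section Ord

variable (O : OrdData K A)

theorem ord_one (R : A →ₐ[K] K) : O.ord R 1 = 0 := by
  rw [O.ord_eq_zero, map_one]; exact one_ne_zero

theorem ord_pow (R : A →ₐ[K] K) (a : A) (n : ℕ) : O.ord R (a ^ n) = n • O.ord R a := by
  induction n with
  | zero => rw [pow_zero, zero_smul, ord_one]
  | succ n ih => rw [pow_succ, O.ord_mul, ih, succ_nsmul]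

theorem one_le_ord {R : A →ₐ[K] K} {a : A} (h : R a = 0) : 1 ≤ O.ord R a := by
  rw [Order.one_le_iff_pos, pos_iff_ne_zero]
  intro h0
  exact (O.ord_eq_zero R a).1 h0 h

theorem le_ord_pow_mul {R : A →ₐ[K] K} {a : A} (h : R a = 0) (n : ℕ) (w : A) :
    (n : ℕ∞) ≤ O.ord R (a ^ n * w) := by
  rw [O.ord_mul, ord_pow]
  have h1 : (n : ℕ∞) ≤ n • O.ord R a := by
    calc (n : ℕ∞) = n • (1 : ℕ∞) := by simp
      _ ≤ n • O.ord R a := nsmul_le_nsmul_right (one_le_ord O h) n
  exact h1.trans le_self_add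

variable [Infinite K]

open Classical in
/-- **Order of the derivative at a ramification point**: if `Q` has multiplicity `≥ e + 1` in
its fibre `Z` (and `t - t(Q)` vanishes to order `≥ e` at `Q`), then `∂_Y P (t, y)` vanishes to
order `≥ e` at `Q`.  Only the fibre formula at the value `t(Q)` is used. -/
theorem le_ord_deriv
    (hadd : ∀ (R : A →ₐ[K] K) (a b : A) (n : ℕ), (n : ℕ∞) ≤ O.ord R a → (n : ℕ∞) ≤ O.ord R b →
      (n : ℕ∞) ≤ O.ord R (a + b))
    (P : K[X][X]) (κ : K) (t y : A) (Q : A →ₐ[K] K) (Z : Multiset (A →ₐ[K] K))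
    (hP : ∀ c : K, P.evalEval (Q t) c = κ * (Z.map fun S => c - S y).prod)
    (e : ℕ) (he : e + 1 ≤ Z.count Q)
    (hord : (e : ℕ∞) ≤ O.ord Q (t - algebraMap K A (Q t))) :
    (e : ℕ∞) ≤ O.ord Q (aevalAeval t y (derivative P)) := by
  have hp := map_eq_of_evalEval P κ y (Q t) Z hP
  -- split off `e + 1` copies of `Q`
  have hle : Multiset.replicate (e + 1) Q ≤ Z := Multiset.le_count_iff_replicate_le.1 he
  obtain ⟨Z', hZ'⟩ := Multiset.le_iff_exists_add.1 hle
  set a : K := Q y with ha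
  set r : K[X] := C κ * (Z'.map fun S : A →ₐ[K] K => X - C (S y)).prod with hr
  have hp' : P.map (evalRingHom (Q t)) = (X - C a) ^ (e + 1) * r := by
    rw [hp, hZ', Multiset.map_add, Multiset.prod_add, Multiset.map_replicate,
      Multiset.prod_replicate, hr]
    ring
  -- the derivative
  have hder : derivative (P.map (evalRingHom (Q t)))
      = (X - C a) ^ e * (C ((e + 1 : ℕ) : K) * r + (X - C a) * derivative r) := by
    rw [hp', derivative_mul, derivative_X_sub_C_pow]
    simp only [Nat.add_sub_cancel]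
    ring
  obtain ⟨c, hc⟩ := exists_aevalAeval_eq t y (Q t) (derivative P)
  rw [hc, ← derivative_map, hder, map_mul, map_pow, map_sub, aeval_X, aeval_C]
  refine hadd Q _ _ e ?_ ?_
  · refine le_ord_pow_mul O ?_ e _
    rw [map_sub, ha]
    simp
  · rw [O.ord_mul]
    exact hord.trans le_self_add

end Ord

/-- **The abstract ramification bound (RamPt≤) on one bounded chart.** -/
theorem ram_lip [IsAlgClosed K] (F : AbsFamily K V) (B : V → Set (A →ₐ[K] K))
    {n : ℕ} (x : Fin n → A) (hx : Algebra.adjoin K (Set.range x) = ⊤)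
    (hxB : ∀ i, TBdd F B (x i)) (O : OrdData K A)
    (h4 : ∀ (R : A →ₐ[K] K) (y : A), 2 ≤ O.ord R y →
      ∃ w : A, R w ≠ 0 ∧ w * y ∈ (RingHom.ker R.toRingHom) ^ 2)
    (h5 : ∀ (R : A →ₐ[K] K) (y z : A), O.ord R z = 1 → R y = 0 →
      ∃ c : K, 2 ≤ O.ord R (y - c • z))
    (hadd : ∀ (R : A →ₐ[K] K) (a b : A) (k : ℕ), (k : ℕ∞) ≤ O.ord R a → (k : ℕ∞) ≤ O.ord R b →
      (k : ℕ∞) ≤ O.ord R (a + b))
    (t : A) {Nd : Type*} [Fintype Nd] (lam : Nd → K) (hlam : Function.Injective lam)
    (m : ℕ) (hcard : m * (n - 1) < Fintype.card Nd)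
    (P : Nd → K[X][X]) (κ : Nd → K) (hκ : ∀ j, κ j ≠ 0)
    (Z : K → Multiset (A →ₐ[K] K)) (hZcard : ∀ τ, Multiset.card (Z τ) ≤ m + 1)
    (hmem : ∀ R : A →ₐ[K] K, R ∈ Z (R t))
    (hP : ∀ j (τ c : K), (P j).evalEval τ c
      = κ j * ((Z τ).map fun S => c - S (∑ i : Fin n, lam j ^ (i : ℕ) • x i)).prod)
    (he : ∀ Q : A →ₐ[K] K, ((by classical exact (Z (Q t)).count Q : ℕ) : ℕ∞)
      ≤ O.ord Q (t - algebraMap K A (Q t)))
    (n' : ℕ) :
    ∃ C : V → ℝ, Tame C ∧ ∀ v, ∀ R ∈ B v, ∀ L : Multiset (A →ₐ[K] K), L.card ≤ n' →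
      (∀ Q ∈ L, Q ∈ B v) →
      (∀ Q ∈ L, (by classical exact L.count Q + 1 ≤ (Z (Q t)).count Q)) →
      ((by classical exact (Z (R t)).erase R : Multiset (A →ₐ[K] K)).map
          fun S => cdist F x v S R).prod
        ≤ C v * (L.map fun Q => cdist F x v Q R).prod := by
  classical
  have hKinf : Infinite K := IsAlgClosed.instInfinite
  obtain ⟨Cn, hCn, hnode⟩ := exists_good_node F (n := n) (m := m) lam hlam hcard
  set ψ : Nd → A := fun j =>
    aevalAeval t (∑ i : Fin n, lam j ^ (i : ℕ) • x i) (derivative (P j)) with hψ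
  choose Cψ hCψ hbψ using fun j : Nd =>
    chart_bound_main F B x hx hxB O h4 h5 n' (fun _ : PUnit.{uA + 1} => ψ j)
  set Cκ : V → ℝ := fun v => ∏ j, max 1 (F.abv v (κ j)⁻¹) with hCκ
  have hCκt : Tame Cκ := Tame.prod _ _ fun j _ => F.tame_max_one _
  set Cp : V → ℝ := fun v => ∏ j, Cψ j v with hCp
  have hCpt : Tame Cp := Tame.prod _ _ fun j _ => hCψ j
  refine ⟨fun v => Cn v ^ m * (Cκ v * Cp v), (hCn.pow m).mul (hCκt.mul hCpt), ?_⟩
  intro v R hR L hLn hLB hLe
  set Z' : Multiset (A →ₐ[K] K) := (Z (R t)).erase R with hZ'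
  have hZ'card : Multiset.card Z' ≤ m := by
    rw [hZ', Multiset.card_erase_of_mem (hmem R), Nat.pred_eq_sub_one]
    have := hZcard (R t)
    omega
  -- the good node
  set wS : (A →ₐ[K] K) → Fin n → K := fun S i => R (x i) - S (x i) with hwS
  obtain ⟨j, hj⟩ := hnode v (Z'.map wS) (by rw [Multiset.card_map]; exact hZ'card)
  set y : A := ∑ i : Fin n, lam j ^ (i : ℕ) • x i with hy
  have hyw : ∀ S : A →ₐ[K] K, ∑ i : Fin n, lam j ^ (i : ℕ) * wS S i = R y - S y := by
    intro S
    simp only [hwS, hy, map_sum, map_smul, smul_eq_mul, mul_sub, Finset.sum_sub_distrib]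
  have hS : ∀ S ∈ Z', cdist F x v S R ≤ Cn v * F.abv v (R y - S y) := by
    intro S hSZ
    refine Real.iSup_le (fun i => ?_) (mul_nonneg (hCn.nonneg v) ((F.abv v).nonneg _))
    have := hj (wS S) (Multiset.mem_map_of_mem wS hSZ) i
    rwa [hyw S] at this
  have hprod1 : (Z'.map fun S => cdist F x v S R).prod
      ≤ (Z'.map fun S => Cn v * F.abv v (R y - S y)).prod :=
    Multiset.prod_map_le_prod_map₀ _ _ (fun S _ => cdist_nonneg F x v S R) hS
  have hprod2 : (Z'.map fun S => Cn v * F.abv v (R y - S y)).prod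
      = Cn v ^ Multiset.card Z' * F.abv v ((Z'.map fun S => R y - S y).prod) := by
    rw [Multiset.prod_map_mul, map_multiset_prod, Multiset.map_map]
    simp only [Multiset.map_const', Multiset.prod_replicate]
    rfl
  have hCnpow : Cn v ^ Multiset.card Z' ≤ Cn v ^ m := pow_le_pow_right₀ (hCn.1 v) hZ'card
  -- the value of `ψ j` at `R`
  have hval : R (ψ j) = κ j * (Z'.map fun S => R y - S y).prod :=
    apply_deriv_eq (P j) (κ j) t y R (Z (R t)) (hmem R) (fun c => hP j (R t) c)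
  -- the chart bound for `ψ j`
  have hsum : ∀ a : PUnit.{uA + 1} → K, ∑ i, a i • ψ j = a PUnit.unit • ψ j := by
    intro a
    simp
  have hordψ : ∀ Q : A →ₐ[K] K, ((L.count Q : ℕ) : ℕ∞)
      ≤ O.ord Q (∑ i : PUnit.{uA + 1}, (fun _ => (1 : K)) i • ψ j) := by
    intro Q
    rw [hsum, one_smul]
    by_cases hQ : Q ∈ L
    · refine le_ord_deriv O hadd (P j) (κ j) t y Q (Z (Q t)) (fun c => hP j (Q t) c)
        (L.count Q) (hLe Q hQ) ?_
      refine le_trans ?_ (he Q)
      have := hLe Q hQ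
      exact_mod_cast (Nat.le_succ _).trans this
    · rw [Multiset.count_eq_zero_of_notMem hQ]
      exact bot_le
  have hb := hbψ j v (fun _ => (1 : K)) R hR L hLn hLB (fun Q => by convert hordψ Q)
  rw [hsum, one_smul] at hb
  have hsup : (⨆ _ : PUnit.{uA + 1}, F.abv v (1 : K)) = 1 := by
    rw [ciSup_const, map_one]
  rw [hsup, mul_one] at hb
  -- assemble
  have hLnn : 0 ≤ (L.map fun Q => cdist F x v Q R).prod :=
    Multiset.prod_nonneg fun a ha => by
      obtain ⟨Q, -, rfl⟩ := Multiset.mem_map.1 ha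
      exact cdist_nonneg F x v Q R
  have hκj : F.abv v ((Z'.map fun S => R y - S y).prod)
      ≤ Cκ v * (Cp v * (L.map fun Q => cdist F x v Q R).prod) := by
    have h1 : (Z'.map fun S => R y - S y).prod = (κ j)⁻¹ * R (ψ j) := by
      rw [hval, ← mul_assoc, inv_mul_cancel₀ (hκ j), one_mul]
    rw [h1, (F.abv v).map_mul]
    refine mul_le_mul ?_ ?_ ((F.abv v).nonneg _) (hCκt.nonneg v)
    · refine le_trans (le_max_right 1 _) ?_
      exact Tame.le_prod Finset.univ (fun j v => max 1 (F.abv v (κ j)⁻¹))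
        (fun j _ => F.tame_max_one _) (Finset.mem_univ j) v
    · refine hb.trans (mul_le_mul_of_nonneg_right ?_ hLnn)
      exact Tame.le_prod Finset.univ Cψ (fun j _ => hCψ j) (Finset.mem_univ j) v
  calc (Z'.map fun S => cdist F x v S R).prod
      ≤ Cn v ^ Multiset.card Z' * F.abv v ((Z'.map fun S => R y - S y).prod) := by
        rw [← hprod2]; exact hprod1
    _ ≤ Cn v ^ m * (Cκ v * (Cp v * (L.map fun Q => cdist F x v Q R).prod)) :=
        mul_le_mul hCnpow hκj ((F.abv v).nonneg _) (pow_nonneg (hCn.nonneg v) m)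
    _ = Cn v ^ m * (Cκ v * Cp v) * (L.map fun Q => cdist F x v Q R).prod := by ring

/-! ### The same from the polynomial data of `FibrePoly` (`G ∈ K[Y][T]`, root multiplicities) -/

/-- The fibre formula as a polynomial identity, with a constant `κ ≠ 0` independent of `τ`, from
the root multiplicities of `G(Y, τ)` (the hypotheses `h2`, `h3` of `fibre_data_of_poly`). -/
theorem exists_kappa [IsAlgClosed K] [DecidableEq K] (y : A) (G : Polynomial (Polynomial K))
    (m : ℕ) (Z : K → Multiset (A →ₐ[K] K)) (hZ : ∀ τ, Multiset.card (Z τ) = m)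
    (h2 : ∀ τ : K, G.eval (C τ) ≠ 0)
    (h3 : ∀ (τ c : K), (G.eval (C τ)).rootMultiplicity c
      = Multiset.count c ((Z τ).map fun S => S y)) :
    ∃ κ : K, κ ≠ 0 ∧ ∀ τ : K,
      G.eval (C τ) = C κ * ((Z τ).map fun S : A →ₐ[K] K => X - C (S y)).prod := by
  have hroots : ∀ τ, (G.eval (C τ)).roots = (Z τ).map fun S => S y := by
    intro τ
    refine Multiset.ext.mpr fun c => ?_
    rw [count_roots, h3]
  have hsplit : ∀ τ, (G.eval (C τ)).Splits := fun τ => IsAlgClosed.splits _
  have hdeg : ∀ τ, (G.eval (C τ)).natDegree = m := by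
    intro τ
    rw [(hsplit τ).natDegree_eq_card_roots, hroots, Multiset.card_map, hZ]
  obtain ⟨q, hq⟩ := exists_coeff_poly G m
  have hq' : ∀ τ, q.eval τ = (G.eval (C τ)).leadingCoeff := by
    intro τ
    rw [hq, ← hdeg τ, coeff_natDegree]
  have hq0 : ∀ τ, q.eval τ ≠ 0 := by
    intro τ
    rw [hq']
    exact leadingCoeff_ne_zero.mpr (h2 τ)
  have hqdeg : q.degree = 0 := by
    by_contra hne
    obtain ⟨x, hx⟩ := IsAlgClosed.exists_root q hne
    exact hq0 x hx
  have hqC : q = C (q.coeff 0) := eq_C_of_degree_eq_zero hqdeg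
  have hκ : ∀ τ, (G.eval (C τ)).leadingCoeff = q.coeff 0 := by
    intro τ
    rw [← hq', hqC, eval_C, coeff_C_zero]
  refine ⟨q.coeff 0, ?_, fun τ => ?_⟩
  · have := hq0 0
    rwa [hqC, eval_C] at this
  · have h5 := (hsplit τ).eq_prod_roots
    rw [hκ τ, hroots τ, Multiset.map_map] at h5
    exact h5

/-- Evaluation of the swapped polynomial. -/
theorem evalEval_swap (G : Polynomial (Polynomial K)) (τ c : K) :
    (Bivariate.swap G).evalEval τ c = (G.eval (C τ)).eval c := by
  have h := Bivariate.aevalAeval_swap (R := K) (A := K) τ c G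
  rw [coe_aevalAeval_eq_evalEval, coe_aevalAeval_eq_evalEval] at h
  exact h

/-- **(RamPt≤) on one bounded chart, from the polynomial data of `fibre_lip_of_poly`**
(`G j ∈ K[Y][T]` with the root multiplicities of `G j (Y, τ)` given by the fibre `Z τ`). -/
theorem ram_lip_of_poly [IsAlgClosed K] [DecidableEq K] (F : AbsFamily K V)
    (B : V → Set (A →ₐ[K] K))
    {n : ℕ} (x : Fin n → A) (hx : Algebra.adjoin K (Set.range x) = ⊤)
    (hxB : ∀ i, TBdd F B (x i)) (O : OrdData K A)
    (h4 : ∀ (R : A →ₐ[K] K) (y : A), 2 ≤ O.ord R y →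
      ∃ w : A, R w ≠ 0 ∧ w * y ∈ (RingHom.ker R.toRingHom) ^ 2)
    (h5 : ∀ (R : A →ₐ[K] K) (y z : A), O.ord R z = 1 → R y = 0 →
      ∃ c : K, 2 ≤ O.ord R (y - c • z))
    (hadd : ∀ (R : A →ₐ[K] K) (a b : A) (k : ℕ), (k : ℕ∞) ≤ O.ord R a → (k : ℕ∞) ≤ O.ord R b →
      (k : ℕ∞) ≤ O.ord R (a + b))
    (t : A) {Nd : Type*} [Fintype Nd] (lam : Nd → K) (hlam : Function.Injective lam)
    (m : ℕ) (hcard : m * (n - 1) < Fintype.card Nd)
    (Z : K → Multiset (A →ₐ[K] K)) (hZ : ∀ τ, Multiset.card (Z τ) = m)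
    (hmem : ∀ R : A →ₐ[K] K, R ∈ Z (R t))
    (he : ∀ Q : A →ₐ[K] K, ((by classical exact (Z (Q t)).count Q : ℕ) : ℕ∞)
      ≤ O.ord Q (t - algebraMap K A (Q t)))
    (G : Nd → Polynomial (Polynomial K))
    (h2 : ∀ j (τ : K), (G j).eval (C τ) ≠ 0)
    (h3 : ∀ j (τ c : K), ((G j).eval (C τ)).rootMultiplicity c
      = Multiset.count c ((Z τ).map fun S => S (∑ i : Fin n, lam j ^ (i : ℕ) • x i)))
    (n' : ℕ) :
    ∃ C : V → ℝ, Tame C ∧ ∀ v, ∀ R ∈ B v, ∀ L : Multiset (A →ₐ[K] K), L.card ≤ n' →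
      (∀ Q ∈ L, Q ∈ B v) →
      (∀ Q ∈ L, (by classical exact L.count Q + 1 ≤ (Z (Q t)).count Q)) →
      ((by classical exact (Z (R t)).erase R : Multiset (A →ₐ[K] K)).map
          fun S => cdist F x v S R).prod
        ≤ C v * (L.map fun Q => cdist F x v Q R).prod := by
  classical
  choose κ hκ hfac using fun j =>
    exists_kappa (∑ i : Fin n, lam j ^ (i : ℕ) • x i) (G j) m Z hZ (h2 j) (h3 j)
  refine ram_lip F B x hx hxB O h4 h5 hadd t lam hlam m hcard (fun j => Bivariate.swap (G j)) κ hκ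
    Z (fun τ => (hZ τ).le.trans (Nat.le_succ m)) hmem ?_ (fun Q => by convert he Q) n'
  intro j τ c
  rw [evalEval_swap, hfac j τ, eval_mul, eval_C, eval_multiset_prod, Multiset.map_map]
  congr 2
  refine Multiset.map_congr rfl fun S _ => ?_
  simp only [Function.comp_apply, eval_sub, eval_X, eval_C]

end Fermat.Agent.MW.HtM.RamLip
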