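/-
MW / [H-M] — brick (e), the chart ring instance: (RamPt≤) on helper92's chart ring
`Rg K t = integralClosure K[t] F` (points = places at which `t` is regular).

* `ordAt_add` : `ord_R (a + b) ≥ min` for `RegRing.ordAt` (the hypothesis `hadd` of `RamLip`);
* `mem_fibre`, `count_le_ordAt` : the hypotheses `hmem`, `he` of `RamLip.ram_lip_of_poly` for ANY
  fibre family `Z` whose multiplicities are the orders of `t - τ` (`hZ`);
* `ram_lip_rg` : `RamLip.ram_lip_of_poly` on the chart ring, regions `{|t|_v ≤ ρ_v}`; the only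
  remaining inputs are those of `fibre_lip_of_poly` (the fibres `Z`, the polynomials `G j` with
  their root multiplicities).
-/
import Mathlib
import Fermat.Agent.MW.HtM.RegRing
import Fermat.Agent.MW.HtM.RamLip

set_option autoImplicit false

namespace Fermat.Agent.MW.HtM.RamRg

open AlgebraicCurve IntermediateField Polynomial
open Fermat.Agent.Lib.FF Fermat.Agent.Lib.FF.IntP Fermat.Agent.S24
open Fermat.Agent.MW.HtM.RegRing

universe uK uF

variable {K : Type uK} {F : Type uF} [Field K] [Field F] [Algebra K F]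
variable [IsAlgClosed K] (t : F) (ht : Transcendental K t) [FiniteDimensional K⟮t⟯ F]

/-- `ord_R (a + b) ≥ min (ord_R a) (ord_R b)` on the chart ring. -/
theorem ordAt_add (R : Rg K t →ₐ[K] K) (a b : Rg K t) (k : ℕ)
    (ha : (k : ℕ∞) ≤ ordAt t ht R a) (hb : (k : ℕ∞) ≤ ordAt t ht R b) :
    (k : ℕ∞) ≤ ordAt t ht R (a + b) := by
  by_cases hab : a + b = 0
  · rw [hab, ordAt_zero]; exact le_top
  by_cases ha0 : a = 0
  · rwa [ha0, zero_add]
  by_cases hb0 : b = 0
  · rwa [hb0, add_zero]
  rw [natCast_le_ordAt_iff t ht R hab]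
  rw [natCast_le_ordAt_iff t ht R ha0] at ha
  rw [natCast_le_ordAt_iff t ht R hb0] at hb
  have haF : (a : F) ≠ 0 := fun h => ha0 (Subtype.ext h)
  have hbF : (b : F) ≠ 0 := fun h => hb0 (Subtype.ext h)
  have habF : (a : F) + (b : F) ≠ 0 := fun h => hab (Subtype.ext h)
  have h := ord_add_ge (ptEquiv t ht R).1 haF hbF habF
  exact (le_min ha hb).trans h

/-- `t - t(S)` vanishes at `S`. -/
theorem one_le_ordAt_sub (S : Rg K t →ₐ[K] K) :
    1 ≤ ordAt t ht S (xInt K t - algebraMap K (Rg K t) (S (xInt K t))) := by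
  have h0 : S (xInt K t - algebraMap K (Rg K t) (S (xInt K t))) = 0 := by
    rw [map_sub, AlgHom.commutes, Algebra.algebraMap_self_apply, sub_self]
  exact RamLip.one_le_ord (ordData t ht) h0

section Fibre

variable (Z : K → Multiset (Rg K t →ₐ[K] K))

open Classical in
/-- Every point lies in its fibre. -/
theorem mem_fibre
    (hZ : ∀ (τ : K) (S : Rg K t →ₐ[K] K), ((Z τ).count S : ℕ∞)
      = if S (xInt K t) = τ then ordAt t ht S (xInt K t - algebraMap K (Rg K t) τ) else 0)
    (S : Rg K t →ₐ[K] K) : S ∈ Z (S (xInt K t)) := by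
  rw [← Multiset.count_pos]
  have h := hZ (S (xInt K t)) S
  rw [if_pos rfl] at h
  have h1 := one_le_ordAt_sub t ht S
  rw [← h] at h1
  exact_mod_cast h1

open Classical in
/-- The multiplicity in the fibre is the order of `t - t(S)`. -/
theorem count_le_ordAt
    (hZ : ∀ (τ : K) (S : Rg K t →ₐ[K] K), ((Z τ).count S : ℕ∞)
      = if S (xInt K t) = τ then ordAt t ht S (xInt K t - algebraMap K (Rg K t) τ) else 0)
    (S : Rg K t →ₐ[K] K) :
    ((Z (S (xInt K t))).count S : ℕ∞)
      ≤ (ordData t ht).ord S (xInt K t - algebraMap K (Rg K t) (S (xInt K t))) := by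
  have h := hZ (S (xInt K t)) S
  rw [if_pos rfl] at h
  rw [h]
  rfl

end Fibre

/-- **(RamPt≤) on the chart ring of `t`**: for generators `x` of the chart ring, Vandermonde
nodes `lam`, the `t`-fibres `Z` (with multiplicity) and the polynomials `G j ∈ K[Y][T]` of
`fibre_lip_of_poly`:
  `∏_{S ∈ Z (t R) - R} cdist_v(S, R) ≤ C_v · ∏_{Q ∈ L} cdist_v(Q, R)`
for every point `R` of the region `{|t|_v ≤ ρ_v}` and every multiset `L` of ramification points
in the region (multiplicity of `Q` in `L` at most `e_Q - 1`). -/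
theorem ram_lip_rg [DecidableEq K] {V : Type*} (Fm : AbsFamily K V) {ρ : V → ℝ} (hρ : Tame ρ)
    {n : ℕ} (x : Fin n → Rg K t) (hx : Algebra.adjoin K (Set.range x) = ⊤)
    {Nd : Type*} [Fintype Nd] (lam : Nd → K) (hlam : Function.Injective lam)
    (m : ℕ) (hcard : m * (n - 1) < Fintype.card Nd)
    (Z : K → Multiset (Rg K t →ₐ[K] K)) (hZcard : ∀ τ, Multiset.card (Z τ) = m)
    (hZ : ∀ (τ : K) (S : Rg K t →ₐ[K] K), ((by classical exact (Z τ).count S : ℕ) : ℕ∞)
      = if S (xInt K t) = τ then ordAt t ht S (xInt K t - algebraMap K (Rg K t) τ) else 0)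
    (G : Nd → Polynomial (Polynomial K))
    (h2 : ∀ j (τ : K), (G j).eval (C τ) ≠ 0)
    (h3 : ∀ j (τ c : K), ((G j).eval (C τ)).rootMultiplicity c
      = Multiset.count c ((Z τ).map fun S => S (∑ i : Fin n, lam j ^ (i : ℕ) • x i)))
    (n' : ℕ) :
    ∃ C : V → ℝ, Tame C ∧ ∀ v, ∀ R ∈ region t Fm ρ v, ∀ L : Multiset (Rg K t →ₐ[K] K),
      L.card ≤ n' → (∀ Q ∈ L, Q ∈ region t Fm ρ v) →
      (∀ Q ∈ L, (by classical exact L.count Q + 1 ≤ (Z (Q (xInt K t))).count Q)) →
      ((by classical exact (Z (R (xInt K t))).erase R : Multiset (Rg K t →ₐ[K] K)).map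
          fun S => cdist Fm x v S R).prod
        ≤ C v * (L.map fun Q => cdist Fm x v Q R).prod := by
  classical
  exact RamLip.ram_lip_of_poly Fm (region t Fm ρ) x hx (fun i => tbdd t Fm hρ (x i))
    (ordData t ht) (h4 t ht) (h5 t ht) (ordAt_add t ht) (xInt K t) lam hlam m hcard Z hZcard
    (mem_fibre t ht Z (fun τ S => by convert hZ τ S))
    (fun Q => by
      have := count_le_ordAt t ht Z (fun τ S => by convert hZ τ S) Q
      convert this)
    G h2 h3 n'

end Fermat.Agent.MW.HtM.RamRg
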