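/-
MW / [H-M] — brick (e), the fibre instance: (RamPt≤) on the chart ring `Rg K t` with NO
hypothesis left.

* `fib t ht τ` : the fibre of `t` over `τ` as a multiset of points of the chart ring, counted
  with multiplicity (`card_fib`, `mem_fib`, `count_fib`, `norm_fib`), from the fibre formula
  `Adj.exists_fibre_count`;
* `chp_evalEval` : the characteristic polynomial of `y` over `K[t]` evaluated at `t = τ`, `Y = c`
  is `∏_{S ∈ fib τ} (c - y(S))`;
* `ram_rg` : for generators `x` of the chart ring,
    `∏_{S ∈ fib (t R) - R} cdist_v(S, R) ≤ C_v · ∏_{Q ∈ L} cdist_v(Q, R)`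
  for every point `R` of the region `{|t|_v ≤ ρ_v}` and every multiset `L` of points of the region
  of bounded cardinality in which `Q` has multiplicity at most `ord_Q (t - t(Q)) - 1`.
-/
import Mathlib
import Fermat.Agent.MW.HtM.RamRg
import Fermat.Agent.MW.Adj.Fibre
import Fermat.Agent.MW.Adj.LipRg

set_option autoImplicit false
set_option linter.style.haveILetI false

noncomputable section

namespace Fermat.Agent.MW.HtM.RamFib

open AlgebraicCurve IntermediateField Polynomial
open Fermat.Agent.Lib.FF Fermat.Agent.Lib.FF.IntP Fermat.Agent.S24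
open Fermat.Agent.MW.HtM.RegRing Fermat.Agent.MW.Adj Fermat.Agent.MW.Adj.LipRg

universe uK uF

variable {K : Type uK} {F : Type uF} [Field K] [Field F] [Algebra K F]
variable [IsAlgClosed K] (t : F) (ht : Transcendental K t) [FiniteDimensional K⟮t⟯ F]

omit [IsAlgClosed K] [FiniteDimensional K⟮t⟯ F] in
include ht in
/-- `t - τ` is not the zero function. -/
theorem xInt_sub_ne_zero (τ : K) : xInt K t - algebraMap K (Rg K t) τ ≠ 0 := by
  intro h0
  have h1 : t - algebraMap K F τ = 0 :=
    congrArg (fun s : Rg K t => (s : F)) h0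
  exact ht (sub_eq_zero.1 h1 ▸ isAlgebraic_algebraMap τ)

open Classical in
/-- The fibre formula on the chart ring, multiplicities as orders. -/
theorem exists_fib (τ : K) :
    letI := polyAlg t ht
    ∃ Z : Multiset (Rg K t →ₐ[K] K),
      Multiset.card Z = Module.finrank K[X] (Rg K t) ∧
      (∀ S, S ∈ Z ↔ S (xInt K t) = τ) ∧
      (∀ S, S (xInt K t) = τ →
        (Z.count S : ℕ∞) = ordAt t ht S (xInt K t - algebraMap K (Rg K t) τ)) ∧
      ∀ y : Rg K t, (Algebra.norm K[X] y).eval τ = (Z.map fun S => S y).prod := by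
  letI := polyAlg t ht
  haveI := polyAlg_isScalarTower t ht
  haveI := polyAlg_finite t ht
  haveI := polyAlg_free t ht
  haveI := isDedekindDomain t ht
  have hX : algebraMap K[X] (Rg K t) X = xInt K t := polyAlg_X t ht
  obtain ⟨Z, hcard, -, hmem, hexact, hnorm⟩ := exists_fibre_count (A := Rg K t) τ
  have hc0 := xInt_sub_ne_zero t ht τ
  have hcX : algebraMap K[X] (Rg K t) (X - C τ) = xInt K t - algebraMap K (Rg K t) τ := by
    rw [map_sub, hX]
    congr 1
    exact polyAlg_C t ht τ
  refine ⟨Z, hcard, fun S => by rw [hmem, hX], fun S hS => ?_, hnorm⟩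
  have hSZ : S ∈ Z := (hmem S).2 (by rw [hX]; exact hS)
  obtain ⟨h1, h2⟩ := hexact S hSZ
  rw [hcX, mem_ker_pow_iff t ht S hc0] at h1 h2
  rw [ordAt_of_ne t ht S hc0]
  generalize (ptEquiv t ht S).1.ord
      ((xInt K t - algebraMap K (Rg K t) τ : Rg K t) : F) = o at h1 h2 ⊢
  have h3 : o.toNat = Z.count S := by
    push_cast at h2
    omega
  rw [h3]

/-- The fibre of `t` over `τ`, as a multiset of points of the chart ring counted with
multiplicity. -/
def fib (τ : K) : Multiset (Rg K t →ₐ[K] K) := (exists_fib t ht τ).choose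

/-- The degree of `t`: the rank of the chart ring over `K[t]`. -/
def deg : ℕ :=
  letI := polyAlg t ht
  Module.finrank K[X] (Rg K t)

theorem card_fib (τ : K) : Multiset.card (fib t ht τ) = deg t ht :=
  (exists_fib t ht τ).choose_spec.1

theorem mem_fib (τ : K) (S : Rg K t →ₐ[K] K) : S ∈ fib t ht τ ↔ S (xInt K t) = τ :=
  (exists_fib t ht τ).choose_spec.2.1 S

open Classical in
theorem count_fib (τ : K) (S : Rg K t →ₐ[K] K) :
    ((fib t ht τ).count S : ℕ∞)
      = if S (xInt K t) = τ then ordAt t ht S (xInt K t - algebraMap K (Rg K t) τ) else 0 := by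
  split_ifs with h
  · exact (exists_fib t ht τ).choose_spec.2.2.1 S h
  · have h1 : S ∉ fib t ht τ := fun hS => h ((mem_fib t ht τ S).1 hS)
    rw [Multiset.count_eq_zero_of_notMem h1]
    rfl

theorem norm_fib (τ : K) (y : Rg K t) :
    letI := polyAlg t ht
    (Algebra.norm K[X] y).eval τ = ((fib t ht τ).map fun S => S y).prod :=
  (exists_fib t ht τ).choose_spec.2.2.2 y

/-- The characteristic polynomial of `y` over `K[t]` at `t = τ`, `Y = c`. -/
theorem chp_evalEval (y : Rg K t) (τ c : K) :
    letI := polyAlg t ht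
    haveI := polyAlg_finite t ht
    haveI := polyAlg_free t ht
    (Lip.chp (K := K) y).evalEval τ c = ((fib t ht τ).map fun S => c - S y).prod := by
  letI := polyAlg t ht
  haveI := polyAlg_isScalarTower t ht
  haveI := polyAlg_finite t ht
  haveI := polyAlg_free t ht
  have h1 : (Lip.chp (K := K) y).evalEval τ c = Lip.evTwo (Lip.chp (K := K) y) c τ := by
    rw [Lip.evTwo_eq]
  rw [h1, ← Lip.norm_sub_eval, norm_fib t ht τ]
  congr 1
  refine Multiset.map_congr rfl fun S _ => ?_
  rw [map_sub]
  congr 1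
  have h2 : algebraMap K[X] (Rg K t) (C c) = algebraMap K (Rg K t) c := polyAlg_C t ht c
  rw [h2, AlgHom.commutes]
  rfl

/-- **(RamPt≤) on the chart ring of `t`, no hypothesis left**: for generators `x` of the chart
ring,
  `∏_{S ∈ fib (t R) - R} cdist_v(S, R) ≤ C_v · ∏_{Q ∈ L} cdist_v(Q, R)`
for every point `R` of the region `{|t|_v ≤ ρ_v}` and every multiset `L` (of cardinality `≤ n'`)
of points of the region in which `Q` has multiplicity at most `ord_Q (t - t(Q)) - 1`. -/
theorem ram_rg {V : Type*} (Fm : AbsFamily K V) {ρ : V → ℝ} (hρ : Tame ρ)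
    {n : ℕ} (x : Fin n → Rg K t) (hx : Algebra.adjoin K (Set.range x) = ⊤) (n' : ℕ) :
    ∃ C : V → ℝ, Tame C ∧ ∀ v, ∀ R ∈ region t Fm ρ v, ∀ L : Multiset (Rg K t →ₐ[K] K),
      L.card ≤ n' → (∀ Q ∈ L, Q ∈ region t Fm ρ v) →
      (∀ Q ∈ L, (((by classical exact L.count Q : ℕ) + 1 : ℕ) : ℕ∞)
        ≤ ordAt t ht Q (xInt K t - algebraMap K (Rg K t) (Q (xInt K t)))) →
      ((by classical exact (fib t ht (R (xInt K t))).erase R : Multiset (Rg K t →ₐ[K] K)).map
          fun S => cdist Fm x v S R).prod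
        ≤ C v * (L.map fun Q => cdist Fm x v Q R).prod := by
  classical
  letI := polyAlg t ht
  haveI := polyAlg_isScalarTower t ht
  haveI := polyAlg_finite t ht
  haveI := polyAlg_free t ht
  haveI : Infinite K := IsAlgClosed.instInfinite
  set N : ℕ := deg t ht * (n - 1) + 1 with hN
  let lam : Fin N → K := fun j => Infinite.natEmbedding K (j : ℕ)
  have hlam : Function.Injective lam := fun a b h =>
    Fin.ext ((Infinite.natEmbedding K).injective h)
  have hZ : ∀ (τ : K) (S : Rg K t →ₐ[K] K), ((fib t ht τ).count S : ℕ∞)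
      = if S (xInt K t) = τ then ordAt t ht S (xInt K t - algebraMap K (Rg K t) τ) else 0 :=
    fun τ S => by convert count_fib t ht τ S
  obtain ⟨Cc, hCc, hmain⟩ := RamLip.ram_lip Fm (region t Fm ρ) x hx
    (fun i => tbdd t Fm hρ (x i)) (ordData t ht) (h4 t ht) (h5 t ht) (RamRg.ordAt_add t ht)
    (xInt K t) lam hlam (deg t ht) (by rw [Fintype.card_fin, hN]; exact Nat.lt_succ_self _)
    (fun j => Lip.chp (K := K) (∑ i : Fin n, lam j ^ (i : ℕ) • x i)) (fun _ => 1)
    (fun _ => one_ne_zero) (fib t ht) (fun τ => by rw [card_fib]; exact Nat.le_succ _)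
    (RamRg.mem_fibre t ht (fib t ht) (fun τ S => by convert hZ τ S))
    (fun j τ c => by rw [one_mul]; exact chp_evalEval t ht _ τ c)
    (fun Q => by
      have := RamRg.count_le_ordAt t ht (fib t ht) (fun τ S => by convert hZ τ S) Q
      convert this)
    n'
  refine ⟨Cc, hCc, fun v R hR L hL hLB hLe => ?_⟩
  have key := hmain v R hR L hL hLB (fun Q hQ => by
    have h1 := hLe Q hQ
    have h2 := hZ (Q (xInt K t)) Q
    rw [if_pos rfl] at h2
    rw [← h2] at h1
    have h3 : L.count Q + 1 ≤ (fib t ht (Q (xInt K t))).count Q := by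
      convert (Nat.cast_le (α := ℕ∞)).1 (by convert h1)
    convert h3)
  convert key

end Fermat.Agent.MW.HtM.RamFib
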