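/-
MW / [H-M] — brick (e), FUNCTION form of (RamPt≤) on the chart ring `Rg K t`.

For the Vandermonde nodes `y_j = ∑ λ_j^i x_i` of a finite family `x` of the chart ring and
`D_j := ∂_Y χ_{y_j}(t, y_j)` (`χ_y ∈ K[t][Y]` the characteristic polynomial of `y` over `K[t]`):

* `ord_node` : `D_j` vanishes to order `≥ e - 1` at every point `Q` at which `t - t(Q)` vanishes
  to order `≥ e`;
* `ram_fn_rg` : for every point `R` there is a node `j` with
    `∏_{S ∈ fib (t R) - R} cdist_v(S, R) ≤ C_v · |D_j(R)|_v`,   `C` tame.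
-/
import Mathlib
import Fermat.Agent.MW.HtM.RamFib

set_option autoImplicit false
set_option linter.style.haveILetI false

noncomputable section

namespace Fermat.Agent.MW.HtM.RamFn

open AlgebraicCurve IntermediateField Polynomial
open Fermat.Agent.Lib.FF Fermat.Agent.Lib.FF.IntP Fermat.Agent.S24
open Fermat.Agent.MW.HtM.RegRing Fermat.Agent.MW.Adj Fermat.Agent.MW.Adj.LipRg
open Fermat.Agent.MW.HtM.RamFib

universe uK uF

variable {K : Type uK} {F : Type uF} [Field K] [Field F] [Algebra K F]
variable [IsAlgClosed K] (t : F) (ht : Transcendental K t) [FiniteDimensional K⟮t⟯ F]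

/-- The different function of `y`: `∂_Y χ_y (t, y)`, `χ_y` the characteristic polynomial of `y`
over `K[t]`. -/
def dfn (y : Rg K t) : Rg K t :=
  letI := polyAlg t ht
  haveI := polyAlg_finite t ht
  haveI := polyAlg_free t ht
  aevalAeval (xInt K t) y (derivative (Lip.chp (K := K) y))

open Classical in
/-- The value of the different function at a point: `∏_{S ∈ fib (t R) - R} (y(R) - y(S))`. -/
theorem apply_dfn (y : Rg K t) (R : Rg K t →ₐ[K] K) :
    R (dfn t ht y) = (((fib t ht (R (xInt K t))).erase R).map fun S => R y - S y).prod := by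
  letI := polyAlg t ht
  haveI := polyAlg_finite t ht
  haveI := polyAlg_free t ht
  haveI : Infinite K := IsAlgClosed.instInfinite
  have h := RamLip.apply_deriv_eq (Lip.chp (K := K) y) 1 (xInt K t) y R
    (fib t ht (R (xInt K t))) ((mem_fib t ht _ R).2 rfl)
    (fun c => by rw [one_mul]; exact chp_evalEval t ht y _ c)
  rw [one_mul] at h
  exact h

/-- The different function vanishes to order `≥ e - 1` where `t - t(Q)` vanishes to order
`≥ e`. -/
theorem le_ordAt_dfn (y : Rg K t) (Q : Rg K t →ₐ[K] K) (e : ℕ)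
    (he : ((e + 1 : ℕ) : ℕ∞)
      ≤ ordAt t ht Q (xInt K t - algebraMap K (Rg K t) (Q (xInt K t)))) :
    (e : ℕ∞) ≤ ordAt t ht Q (dfn t ht y) := by
  classical
  letI := polyAlg t ht
  haveI := polyAlg_finite t ht
  haveI := polyAlg_free t ht
  haveI : Infinite K := IsAlgClosed.instInfinite
  have hcount := count_fib t ht (Q (xInt K t)) Q
  rw [if_pos rfl] at hcount
  refine RamLip.le_ord_deriv (ordData t ht) (RamRg.ordAt_add t ht) (Lip.chp (K := K) y) 1
    (xInt K t) y Q (fib t ht (Q (xInt K t)))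
    (fun c => by rw [one_mul]; exact chp_evalEval t ht y _ c) e ?_ ?_
  · rw [← hcount] at he
    have h1 : e + 1 ≤ (fib t ht (Q (xInt K t))).count Q := by
      convert (Nat.cast_le (α := ℕ∞)).1 (by convert he)
    convert h1
  · refine le_trans ?_ he
    exact_mod_cast Nat.le_succ e

/-- **Function form of (RamPt≤) on the chart ring**: finitely many functions `D j` of the chart
ring (the different functions of the Vandermonde nodes of `x`), each vanishing to order `≥ e - 1`
where `t - t(Q)` vanishes to order `≥ e`, such that for every point `R` some `j` has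
`∏_{S ∈ fib (t R) - R} cdist_v(S, R) ≤ C_v · |D_j(R)|_v`. -/
theorem ram_fn_rg {V : Type*} (Fm : AbsFamily K V) {n : ℕ} (x : Fin n → Rg K t) :
    ∃ (N : ℕ) (D : Fin N → Rg K t),
      (∀ (j : Fin N) (Q : Rg K t →ₐ[K] K) (e : ℕ),
        ((e + 1 : ℕ) : ℕ∞)
          ≤ ordAt t ht Q (xInt K t - algebraMap K (Rg K t) (Q (xInt K t))) →
        (e : ℕ∞) ≤ ordAt t ht Q (D j)) ∧
      ∃ C : V → ℝ, Tame C ∧ ∀ (v : V) (R : Rg K t →ₐ[K] K), ∃ j : Fin N,
        ((by classical exact (fib t ht (R (xInt K t))).erase R :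
            Multiset (Rg K t →ₐ[K] K)).map fun S => cdist Fm x v S R).prod
          ≤ C v * Fm.abv v (R (D j)) := by
  classical
  haveI : Infinite K := IsAlgClosed.instInfinite
  set m : ℕ := deg t ht with hm
  set N : ℕ := m * (n - 1) + 1 with hN
  let lam : Fin N → K := fun j => Infinite.natEmbedding K (j : ℕ)
  have hlam : Function.Injective lam := fun a b h =>
    Fin.ext ((Infinite.natEmbedding K).injective h)
  obtain ⟨Cn, hCn, hnode⟩ := exists_good_node Fm (n := n) (m := m) lam hlam
    (by rw [Fintype.card_fin, hN]; exact Nat.lt_succ_self _)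
  set y : Fin N → Rg K t := fun j => ∑ i : Fin n, lam j ^ (i : ℕ) • x i with hy
  refine ⟨N, fun j => dfn t ht (y j), fun j Q e he => le_ordAt_dfn t ht (y j) Q e he,
    fun v => Cn v ^ m, hCn.pow m, fun v R => ?_⟩
  set Z' : Multiset (Rg K t →ₐ[K] K) := (fib t ht (R (xInt K t))).erase R with hZ'
  have hRmem : R ∈ fib t ht (R (xInt K t)) := (mem_fib t ht _ R).2 rfl
  have hZ'card : Multiset.card Z' ≤ m := by
    rw [hZ', Multiset.card_erase_of_mem hRmem, card_fib]
    exact Nat.pred_le _
  set wS : (Rg K t →ₐ[K] K) → Fin n → K := fun S i => R (x i) - S (x i) with hwS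
  obtain ⟨j, hj⟩ := hnode v (Z'.map wS) (by rw [Multiset.card_map]; exact hZ'card)
  refine ⟨j, ?_⟩
  have hyw : ∀ S : Rg K t →ₐ[K] K,
      ∑ i : Fin n, lam j ^ (i : ℕ) * wS S i = R (y j) - S (y j) := by
    intro S
    simp only [hwS, hy, map_sum, map_smul, smul_eq_mul, mul_sub, Finset.sum_sub_distrib]
  have hS : ∀ S ∈ Z', cdist Fm x v S R ≤ Cn v * Fm.abv v (R (y j) - S (y j)) := by
    intro S hSZ
    refine Real.iSup_le (fun i => ?_) (mul_nonneg (hCn.nonneg v) ((Fm.abv v).nonneg _))
    have := hj (wS S) (Multiset.mem_map_of_mem wS hSZ) i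
    rwa [hyw S] at this
  have hprod1 : (Z'.map fun S => cdist Fm x v S R).prod
      ≤ (Z'.map fun S => Cn v * Fm.abv v (R (y j) - S (y j))).prod :=
    Multiset.prod_map_le_prod_map₀ _ _ (fun S _ => cdist_nonneg Fm x v S R) hS
  have hprod2 : (Z'.map fun S => Cn v * Fm.abv v (R (y j) - S (y j))).prod
      = Cn v ^ Multiset.card Z' * Fm.abv v ((Z'.map fun S => R (y j) - S (y j)).prod) := by
    rw [Multiset.prod_map_mul, map_multiset_prod, Multiset.map_map]
    simp only [Multiset.map_const', Multiset.prod_replicate]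
    rfl
  have hCnpow : Cn v ^ Multiset.card Z' ≤ Cn v ^ m := pow_le_pow_right₀ (hCn.1 v) hZ'card
  have hval : R (dfn t ht (y j)) = (Z'.map fun S => R (y j) - S (y j)).prod := by
    rw [apply_dfn t ht (y j) R]
  calc (Z'.map fun S => cdist Fm x v S R).prod
      ≤ Cn v ^ Multiset.card Z' * Fm.abv v ((Z'.map fun S => R (y j) - S (y j)).prod) := by
        rw [← hprod2]; exact hprod1
    _ ≤ Cn v ^ m * Fm.abv v (R (dfn t ht (y j))) := by
        rw [hval]
        exact mul_le_mul_of_nonneg_right hCnpow ((Fm.abv v).nonneg _)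

end Fermat.Agent.MW.HtM.RamFn
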