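/-
MW / [H-M] — THE TWO-CHART ASSEMBLY OF `ram` (the diagonal fibre bound, `HG.Setting.RamLe`) for
the two-chart distance `dlt` of `TwoChartDefs.lean`.

Inputs (chart statements, twins of `FibLip0/1`):
* `RamFib0` : on chart 0 there is a finite family `D j` of functions regular off `pinf`, each
  vanishing to order `≥ e_Q - 1` at every affine point `Q` (`e_Q` the ramification index of `t`),
  with `∏_{S ∈ Fib_t(R) - R} pdist₀(S, R) ≤ C_v · |D j (R)|_v` for some `j` (the derivative of the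
  fibre polynomial of a good Vandermonde node);
* `RamFib1` : the same on chart 1 (functions regular off the zeros of `t`), where moreover
  `ord_pinf (D j) ≥ m - 1`;
* `ChartBound0`, `ChartBound1`, `Cmp` of `TwoChartDefs.lean`.

Intermediate results: `dbound0`, `dbound1` — the chart bounds for ONE fixed function in `dlt`-form
(all zeros count, near or far, in the region or not).

Output: `ramLe_dlt`, literally the statement `HG.Setting.RamLe` for `δ = dlt Ab t x₀ x₁`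
(`setting_ramLe`).

Three zones for the point `R`:
  (I)   `|t(R)| ≤ 1`      : `RamFib0` + `dbound0` for `D j`;
  (II)  `1 < |t(R)| ≤ ρ`  : `RamFib0` (the distance on the fibre of `R` is the chart-0 distance)
                             + `dbound1` for the chart-1 function `D j · t⁻ᵏ`;
  (III) `ρ < |t(R)|`      : `RamFib1` + `dbound1` for `(D j)ᵐ · t^(m-1)`, which is regular at
                             `pinf`; this produces the factor `|t(R)|^(m-1)`.
-/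
import Mathlib
import Fermat.Agent.MW.HtM.TwoChartDefs
import Fermat.Agent.MW.HG.Defs

set_option autoImplicit false

namespace Fermat.Agent.MW.HtM.TwoChartRam

open AlgebraicCurve Fermat.Agent.Lib.FF Fermat.Agent.MW.HtM.TwoChart

variable {K F V : Type*} [Field K] [Field F] [Algebra K F]

/-! ### Finsupp bookkeeping -/

section Fs

variable {P : Type*}

theorem one_le_prod_pow (E : P →₀ ℕ) (d : P → ℝ) {c : ℝ}
    (h : ∀ Q ∈ E.support, 1 ≤ c * d Q) :
    1 ≤ c ^ HQ.deg E * E.prod fun Q n => d Q ^ n := by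
  unfold Finsupp.prod
  rw [deg_eq_sum, ← Finset.prod_pow_eq_pow_sum, ← Finset.prod_mul_distrib]
  calc (1 : ℝ) = ∏ _Q ∈ E.support, (1 : ℝ) := by simp
    _ ≤ ∏ Q ∈ E.support, c ^ E Q * d Q ^ E Q :=
        Finset.prod_le_prod (fun _ _ => zero_le_one) fun Q hQ => by
          rw [← mul_pow]
          exact one_le_pow₀ (h Q hQ)

/-- Splitting an effective divisor into a "near" part (where `h ≤ c₁ d`) and a "far" part (where
`d ≥ c₂⁻¹`). -/
theorem split_bound (𝔯 : P →₀ ℕ) (p : P → Prop) [DecidablePred p] (h d : P → ℝ) {c₁ c₂ : ℝ}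
    (hc₁ : 1 ≤ c₁) (hc₂ : 1 ≤ c₂) {N : ℕ} (hN : HQ.deg 𝔯 ≤ N)
    (hd0 : ∀ Q ∈ 𝔯.support, 0 ≤ d Q)
    (h1 : ∀ Q ∈ 𝔯.support, p Q → 0 ≤ h Q ∧ h Q ≤ c₁ * d Q)
    (h2 : ∀ Q ∈ 𝔯.support, ¬ p Q → 1 ≤ c₂ * d Q) :
    ((𝔯.filter p).prod fun Q n => h Q ^ n) ≤ (c₁ * c₂) ^ N * 𝔯.prod fun Q n => d Q ^ n := by
  have hsplit := Finsupp.prod_filter_mul_prod_filter_not (f := 𝔯) (p := p) (fun Q n => d Q ^ n)
  have hs1 : ∀ Q ∈ (𝔯.filter p).support, Q ∈ 𝔯.support ∧ p Q := by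
    intro Q hQ
    rw [Finsupp.support_filter, Finset.mem_filter] at hQ
    exact hQ
  have hs2 : ∀ Q ∈ (𝔯.filter fun a => ¬ p a).support, Q ∈ 𝔯.support ∧ ¬ p Q := by
    intro Q hQ
    rw [Finsupp.support_filter, Finset.mem_filter] at hQ
    exact hQ
  set X := (𝔯.filter p).prod fun Q n => d Q ^ n with hX
  set Y := (𝔯.filter fun a => ¬ p a).prod fun Q n => d Q ^ n with hY
  have hA : ((𝔯.filter p).prod fun Q n => h Q ^ n) ≤ c₁ ^ HQ.deg (𝔯.filter p) * X :=
    prod_pow_le _ h d (fun Q hQ => (h1 Q (hs1 Q hQ).1 (hs1 Q hQ).2).1)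
      (fun Q hQ => (h1 Q (hs1 Q hQ).1 (hs1 Q hQ).2).2)
  have hB : 1 ≤ c₂ ^ HQ.deg (𝔯.filter fun a => ¬ p a) * Y :=
    one_le_prod_pow _ d (fun Q hQ => h2 Q (hs2 Q hQ).1 (hs2 Q hQ).2)
  have hX0 : 0 ≤ X := prod_pow_nonneg _ d (fun Q hQ => hd0 Q (hs1 Q hQ).1)
  have hY0 : 0 ≤ Y := prod_pow_nonneg _ d (fun Q hQ => hd0 Q (hs2 Q hQ).1)
  have hc1N : c₁ ^ HQ.deg (𝔯.filter p) ≤ c₁ ^ N :=
    pow_le_pow_right₀ hc₁ ((deg_filter_le p 𝔯).trans hN)
  have hc2N : c₂ ^ HQ.deg (𝔯.filter fun a => ¬ p a) ≤ c₂ ^ N :=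
    pow_le_pow_right₀ hc₂ ((deg_filter_le _ 𝔯).trans hN)
  have hc1pos : 0 ≤ c₁ ^ N := pow_nonneg (zero_le_one.trans hc₁) N
  have hc2pos : 0 ≤ c₂ ^ N := pow_nonneg (zero_le_one.trans hc₂) N
  calc ((𝔯.filter p).prod fun Q n => h Q ^ n)
      ≤ c₁ ^ HQ.deg (𝔯.filter p) * X := hA
    _ ≤ c₁ ^ N * X := mul_le_mul_of_nonneg_right hc1N hX0
    _ ≤ c₁ ^ N * X * (c₂ ^ HQ.deg (𝔯.filter fun a => ¬ p a) * Y) :=
        le_mul_of_one_le_right (mul_nonneg hc1pos hX0) hB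
    _ ≤ c₁ ^ N * X * (c₂ ^ N * Y) :=
        mul_le_mul_of_nonneg_left (mul_le_mul_of_nonneg_right hc2N hY0) (mul_nonneg hc1pos hX0)
    _ = (c₁ * c₂) ^ N * 𝔯.prod fun Q n => d Q ^ n := by rw [← hsplit, mul_pow]; ring

end Fs

/-! ### Facts about places -/

section PlaceFacts

variable {pinf : Place K F} {t : F}

/-- A point of the affine fibre of `τ` is not `pinf` and has `t`-value `τ`. -/
theorem fib_pt {τ : K} {Z : Place K F →₀ ℕ} (hZ0 : Z pinf = 0)
    (hZ : ∀ P, P ≠ pinf → (Z P : ℤ) = P.ord (t - algebraMap K F τ)) {S : Place K F}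
    (hS : S ∈ Z.support) : S ≠ pinf ∧ pval S t = τ := by
  have hne : Z S ≠ 0 := Finsupp.mem_support_iff.mp hS
  have hSp : S ≠ pinf := fun h => hne (h ▸ hZ0)
  refine ⟨hSp, ?_⟩
  have hpos : 0 < S.ord (t - algebraMap K F τ) := by
    rw [← hZ S hSp]
    exact_mod_cast Nat.pos_of_ne_zero hne
  have hf0 : t - algebraMap K F τ ≠ 0 := by
    intro h
    rw [h, Place.ord_zero] at hpos
    exact lt_irrefl _ hpos
  refine pval_eq S ?_
  rw [S.adicValuation_eq_exp_neg_ord hf0, ← WithZero.exp_zero, WithZero.exp_lt_exp]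
  omega

/-- `t` is a unit at an affine place where its value is not `0`. -/
theorem ord_t_eq_zero (ht_reg : ∀ P : Place K F, P ≠ pinf → 0 ≤ P.ord t) {Q : Place K F}
    (hQ : Q ≠ pinf) (h : pval Q t ≠ 0) : Q.ord t = 0 := by
  by_contra hne
  exact h (pval_eq_zero_of_ord_pos (lt_of_le_of_ne (ht_reg Q hQ) (Ne.symm hne)))

theorem pval_t_inv (hres : ∀ P : Place K F, RR.ResK P)
    (ht_reg : ∀ P : Place K F, P ≠ pinf → 0 ≤ P.ord t) {Q : Place K F} (hQ : Q ≠ pinf)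
    (h : pval Q t ≠ 0) : pval Q t⁻¹ = (pval Q t)⁻¹ :=
  pval_inv (hres Q) (Fermat.Agent.S24.mem_of_ord_nonneg Q (ht_reg Q hQ)) h

theorem ord_mul_inv_pow (P : Place K F) {f s : F} (hf : f ≠ 0) (hs : s ≠ 0) (k : ℕ) :
    P.ord (f * s⁻¹ ^ k) = P.ord f - k * P.ord s := by
  have hpow : s⁻¹ ^ k = s ^ (-(k : ℤ)) := by rw [zpow_neg, zpow_natCast, inv_pow]
  rw [P.ord_mul hf (pow_ne_zero _ (inv_ne_zero hs)), hpow, P.ord_zpow]
  ring

theorem ord_pow_mul_pow (P : Place K F) {f s : F} (hf : f ≠ 0) (hs : s ≠ 0) (a b : ℕ) :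
    P.ord (f ^ a * s ^ b) = a * P.ord f + b * P.ord s := by
  rw [P.ord_mul (pow_ne_zero _ hf) (pow_ne_zero _ hs), ← zpow_natCast, ← zpow_natCast,
    P.ord_zpow, P.ord_zpow]

end PlaceFacts

/-! ### The chart statements for `ram` -/

section Targets

variable (Ab : AbsFamily K V) (t : F) (pinf : Place K F) {n₀ n₁ : ℕ} (x₀ : Fin n₀ → F)
  (x₁ : Fin n₁ → F) (m : ℕ)

/-- **Fibre-derivative bound on chart 0** (twin of `FibLip0`). -/
def RamFib0 : Prop :=
  ∃ (J : Type) (_ : Fintype J) (D : J → F),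
    (∀ j, ∀ P : Place K F, P ≠ pinf → 0 ≤ P.ord (D j)) ∧
    (∀ j, D j ≠ 0 → ∀ Q : Place K F, Q ≠ pinf →
      Q.ord (t - algebraMap K F (pval Q t)) - 1 ≤ Q.ord (D j)) ∧
    ∃ C : V → ℝ, Tame C ∧ ∀ (v : V) (R : Place K F), R ≠ pinf → tabs Ab t v R ≤ rho Ab v →
      R.ord (t - algebraMap K F (pval R t)) = 1 →
      ∀ Z : Place K F →₀ ℕ, Z pinf = 0 →
      (∀ P, P ≠ pinf → (Z P : ℤ) = P.ord (t - algebraMap K F (pval R t))) →
      ∃ j, ((Z.erase R).prod fun S k => pdist Ab x₀ v S R ^ k) ≤ C v * Ab.abv v (pval R (D j))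

/-- **Fibre-derivative bound on chart 1** (twin of `FibLip1`). -/
def RamFib1 : Prop :=
  ∃ (J : Type) (_ : Fintype J) (D : J → F),
    (∀ j, ∀ P : Place K F, P.ord t ≤ 0 → 0 ≤ P.ord (D j)) ∧
    (∀ j, D j ≠ 0 → ∀ Q : Place K F, Q ≠ pinf → Q.ord t = 0 →
      Q.ord (t - algebraMap K F (pval Q t)) - 1 ≤ Q.ord (D j)) ∧
    (∀ j, D j ≠ 0 → (m : ℤ) - 1 ≤ pinf.ord (D j)) ∧
    ∃ C : V → ℝ, Tame C ∧ ∀ (v : V) (R : Place K F), R ≠ pinf →
      (rho Ab v)⁻¹ ≤ tabs Ab t v R →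
      R.ord (t - algebraMap K F (pval R t)) = 1 →
      ∀ Z : Place K F →₀ ℕ, Z pinf = 0 →
      (∀ P, P ≠ pinf → (Z P : ℤ) = P.ord (t - algebraMap K F (pval R t))) →
      ∃ j, ((Z.erase R).prod fun S k => pdist Ab x₁ v S R ^ k) ≤ C v * Ab.abv v (pval R (D j))

end Targets

variable {Ab : AbsFamily K V} {t : F} {pinf : Place K F} {n₀ n₁ : ℕ} {x₀ : Fin n₀ → F}
  {x₁ : Fin n₁ → F} {m : ℕ}

/-! ### The chart bounds for one fixed function, in `dlt`-form -/

/-- **Chart bound 0 in `dlt`-form**: for a fixed function `u` regular off `pinf`, at the points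
`S` with `|t(S)| ≤ 1`, against ANY effective divisor of zeros of `u` off `pinf`. -/
theorem dbound0 (hres : ∀ P : Place K F, RR.ResK P)
    (ht_reg : ∀ P : Place K F, P ≠ pinf → 0 ≤ P.ord t) (ht1 : ∃ i, x₁ i = t⁻¹)
    (c0 : ChartBound0 Ab t pinf x₀) (u : F) (hu : ∀ P : Place K F, P ≠ pinf → 0 ≤ P.ord u)
    (N : ℕ) :
    ∃ C : V → ℝ, Tame C ∧ ∀ (v : V) (S : Place K F), S ≠ pinf → tabs Ab t v S ≤ 1 →
      ∀ E : Place K F →₀ ℕ, E pinf = 0 → HQ.deg E ≤ N →
      (∀ Q ∈ E.support, (E Q : ℤ) ≤ Q.ord u) →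
      Ab.abv v (pval S u) ≤ C v * E.prod fun Q n => dlt Ab t x₀ x₁ v S Q ^ n := by
  classical
  obtain ⟨i₁, hi₁⟩ := ht1
  obtain ⟨C, hC, hb⟩ := c0 (fun _ : Unit => u) (fun _ => hu) N
  refine ⟨fun v => C v * rho Ab v ^ N, hC.mul ((tame_rho Ab).pow N), ?_⟩
  intro v S hS hS1 E hE0 hEN hEord
  have hρ1 := one_le_rho Ab v
  have hSρ : tabs Ab t v S ≤ rho Ab v := hS1.trans hρ1
  set p : Place K F → Prop := fun Q => tabs Ab t v Q ≤ rho Ab v ∧ pdist Ab x₀ v Q S ≤ 1 with hp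
  have hEsupp : ∀ Q ∈ E.support, Q ≠ pinf :=
    fun Q hQ h => (Finsupp.mem_support_iff.mp hQ) (h ▸ hE0)
  have hfs : ∀ Q ∈ (E.filter p).support, Q ∈ E.support ∧ p Q := by
    intro Q hQ
    rw [Finsupp.support_filter, Finset.mem_filter] at hQ
    exact hQ
  have hsum : (∑ i : Unit, (fun _ : Unit => (1 : K)) i • (fun _ : Unit => u) i) = u := by simp
  have h1 := hb v (fun _ => 1) 1 zero_le_one (fun _ => by simp) S hS hSρ (E.filter p)
    ((deg_filter_le p E).trans hEN)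
    (fun Q hQ => ⟨hEsupp Q (hfs Q hQ).1, (hfs Q hQ).2.1⟩)
    (fun Q hQ => by
      rw [hsum, Finsupp.filter_apply_pos p E (hfs Q hQ).2]
      exact hEord Q (hfs Q hQ).1)
  rw [hsum, mul_one] at h1
  have h2 := split_bound E p (fun Q => pdist Ab x₀ v Q S) (fun Q => dlt Ab t x₀ x₁ v S Q)
    (le_refl 1) hρ1 hEN (fun Q _ => dlt_nonneg Ab t x₀ x₁ v S Q) ?_ ?_
  · calc Ab.abv v (pval S u) ≤ C v * (E.filter p).prod fun Q k => pdist Ab x₀ v Q S ^ k := h1
      _ ≤ C v * ((1 * rho Ab v) ^ N * E.prod fun Q n => dlt Ab t x₀ x₁ v S Q ^ n) :=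
          mul_le_mul_of_nonneg_left h2 (hC.nonneg v)
      _ = C v * rho Ab v ^ N * E.prod fun Q n => dlt Ab t x₀ x₁ v S Q ^ n := by
          rw [one_mul]; ring
  · -- near points
    intro Q _ hpQ
    refine ⟨pdist_nonneg Ab x₀ v Q S, ?_⟩
    rw [one_mul, dlt_of_both0 Ab t x₀ x₁ v S Q ⟨hSρ, hpQ.1⟩, pdist_comm Ab x₀ v S Q,
      min_eq_right hpQ.2]
  · -- far points
    intro Q hQ hpQ
    have hQp := hEsupp Q hQ
    by_cases hQρ : tabs Ab t v Q ≤ rho Ab v
    · have hd : 1 < pdist Ab x₀ v Q S := by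
        by_contra hcon
        exact hpQ ⟨hQρ, not_lt.mp hcon⟩
      rw [dlt_of_both0 Ab t x₀ x₁ v S Q ⟨hSρ, hQρ⟩, pdist_comm Ab x₀ v S Q, min_eq_left hd.le,
        mul_one]
      exact hρ1
    · have h0 : ¬ (tabs Ab t v S ≤ rho Ab v ∧ tabs Ab t v Q ≤ rho Ab v) := fun h => hQρ h.2
      by_cases hSr : (rho Ab v)⁻¹ ≤ tabs Ab t v S
      · -- both in region 1: far lemma on `t⁻¹`
        have hQgt : rho Ab v < tabs Ab t v Q := not_le.mp hQρ
        have hQr : (rho Ab v)⁻¹ ≤ tabs Ab t v Q := (rho_inv_le_rho Ab v).trans hQgt.le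
        rw [dlt_of_both1 Ab t x₀ x₁ v S Q h0 ⟨hSr, hQr⟩]
        have hSpos : 0 < Ab.abv v (pval S t) := lt_of_lt_of_le (inv_pos.mpr (rho_pos Ab v)) hSr
        have hQpos : 0 < Ab.abv v (pval Q t) := lt_of_lt_of_le (inv_pos.mpr (rho_pos Ab v)) hQr
        have hSt : pval S t ≠ 0 := (Ab.abv v).pos_iff.mp hSpos
        have hQt : pval Q t ≠ 0 := (Ab.abv v).pos_iff.mp hQpos
        have hα : 1 ≤ Ab.abv v (pval S t)⁻¹ := by
          rw [map_inv₀]
          exact (one_le_inv₀ hSpos).mpr hS1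
        have hfar := far_lemma Ab v (α := (pval S t)⁻¹) (β := (pval Q t)⁻¹) (by
          rw [map_inv₀]
          have h3 : rho Ab v * (Ab.abv v (pval Q t))⁻¹ < 1 := by
            rw [mul_inv_lt_iff₀ hQpos, one_mul]
            exact hQgt
          exact lt_of_lt_of_le h3 hα)
        have hle : Ab.abv v ((pval S t)⁻¹ - (pval Q t)⁻¹) ≤ pdist Ab x₁ v S Q := by
          have := le_pdist Ab x₁ v Q S i₁
          rw [hi₁, pval_t_inv hres ht_reg hS hSt, pval_t_inv hres ht_reg hQp hQt,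
            pdist_comm] at this
          exact this
        have h3 : 1 ≤ rho Ab v * pdist Ab x₁ v S Q :=
          hα.trans (hfar.trans (mul_le_mul_of_nonneg_left hle (rho_pos Ab v).le))
        rcases le_total 1 (pdist Ab x₁ v S Q) with h4 | h4
        · rw [min_eq_left h4, mul_one]; exact hρ1
        · rw [min_eq_right h4]; exact h3
      · have h1' : ¬ ((rho Ab v)⁻¹ ≤ tabs Ab t v S ∧ (rho Ab v)⁻¹ ≤ tabs Ab t v Q) :=
          fun h => hSr h.1
        rw [dlt_of_neither Ab t x₀ x₁ v S Q h0 h1', mul_one]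
        exact hρ1

/-- **Chart bound 1 in `dlt`-form**: for a fixed function `u` regular off the zeros of `t`, at
the points `S` with `1 < |t(S)|`, against any effective divisor off `pinf` whose points in the
region of chart 1 are zeros of `u`. -/
theorem dbound1 (ht0 : ∃ i, x₀ i = t)
    (c1 : ChartBound1 Ab t pinf x₁) (cmp : Cmp Ab t pinf x₀ x₁) (u : F)
    (hu : ∀ P : Place K F, P.ord t ≤ 0 → 0 ≤ P.ord u) (N : ℕ) :
    ∃ C : V → ℝ, Tame C ∧ ∀ (v : V) (S : Place K F), S ≠ pinf → 1 < tabs Ab t v S →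
      ∀ E : Place K F →₀ ℕ, E pinf = 0 → HQ.deg E ≤ N →
      (∀ Q ∈ E.support, (rho Ab v)⁻¹ ≤ tabs Ab t v Q → (E Q : ℤ) ≤ Q.ord u) →
      Ab.abv v (pval S u) ≤ C v * E.prod fun Q n => dlt Ab t x₀ x₁ v S Q ^ n := by
  classical
  obtain ⟨i₀, hi₀⟩ := ht0
  obtain ⟨Cc, hCc, hcmp⟩ := cmp
  obtain ⟨C, hC, hb⟩ := c1 (fun _ : Unit => u) (fun _ => hu) N
  refine ⟨fun v => C v * (Cc v * (Cc v * rho Ab v)) ^ N,
    hC.mul ((hCc.mul (hCc.mul (tame_rho Ab))).pow N), ?_⟩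
  intro v S hS hS1 E hE0 hEN hEord
  have hρ1 := one_le_rho Ab v
  have hCc1 := hCc.1 v
  have hCρ1 : 1 ≤ Cc v * rho Ab v := one_le_mul_of_one_le_of_one_le hCc1 hρ1
  have hSr : (rho Ab v)⁻¹ ≤ tabs Ab t v S := (rho_inv_le_one Ab v).trans hS1.le
  set p : Place K F → Prop :=
    fun Q => (rho Ab v)⁻¹ ≤ tabs Ab t v Q ∧ pdist Ab x₁ v Q S ≤ 1 with hp
  have hEsupp : ∀ Q ∈ E.support, Q ≠ pinf :=
    fun Q hQ h => (Finsupp.mem_support_iff.mp hQ) (h ▸ hE0)
  have hfs : ∀ Q ∈ (E.filter p).support, Q ∈ E.support ∧ p Q := by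
    intro Q hQ
    rw [Finsupp.support_filter, Finset.mem_filter] at hQ
    exact hQ
  have hsum : (∑ i : Unit, (fun _ : Unit => (1 : K)) i • (fun _ : Unit => u) i) = u := by simp
  have h1 := hb v (fun _ => 1) 1 zero_le_one (fun _ => by simp) S hS hSr (E.filter p)
    ((deg_filter_le p E).trans hEN)
    (fun Q hQ => ⟨hEsupp Q (hfs Q hQ).1, (hfs Q hQ).2.1⟩)
    (fun Q hQ => by
      rw [hsum, Finsupp.filter_apply_pos p E (hfs Q hQ).2]
      exact hEord Q (hfs Q hQ).1 (hfs Q hQ).2.1)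
  rw [hsum, mul_one] at h1
  have h2 := split_bound E p (fun Q => pdist Ab x₁ v Q S) (fun Q => dlt Ab t x₀ x₁ v S Q)
    hCc1 hCρ1 hEN (fun Q _ => dlt_nonneg Ab t x₀ x₁ v S Q) ?_ ?_
  · calc Ab.abv v (pval S u) ≤ C v * (E.filter p).prod fun Q k => pdist Ab x₁ v Q S ^ k := h1
      _ ≤ C v * ((Cc v * (Cc v * rho Ab v)) ^ N *
            E.prod fun Q n => dlt Ab t x₀ x₁ v S Q ^ n) :=
          mul_le_mul_of_nonneg_left h2 (hC.nonneg v)
      _ = C v * (Cc v * (Cc v * rho Ab v)) ^ N *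
            E.prod fun Q n => dlt Ab t x₀ x₁ v S Q ^ n := by ring
  · -- near points: `pdist₁ Q S ≤ Cc * dlt S Q`
    intro Q hQ hpQ
    have hQp := hEsupp Q hQ
    refine ⟨pdist_nonneg Ab x₁ v Q S, ?_⟩
    by_cases h0 : tabs Ab t v S ≤ rho Ab v ∧ tabs Ab t v Q ≤ rho Ab v
    · rw [dlt_of_both0 Ab t x₀ x₁ v S Q h0]
      have hc := hcmp v S Q hS hQp hSr h0.1 hpQ.1 h0.2
      rw [pdist_comm Ab x₁ v Q S]
      rcases le_total 1 (pdist Ab x₀ v S Q) with h4 | h4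
      · rw [min_eq_left h4, mul_one, pdist_comm Ab x₁ v S Q]
        exact hpQ.2.trans hCc1
      · rw [min_eq_right h4]; exact hc
    · rw [dlt_of_both1 Ab t x₀ x₁ v S Q h0 ⟨hSr, hpQ.1⟩, pdist_comm Ab x₁ v S Q,
        min_eq_right hpQ.2]
      exact le_mul_of_one_le_left (pdist_nonneg Ab x₁ v Q S) hCc1
  · -- far points: `1 ≤ Cc ρ * dlt S Q`
    intro Q hQ hpQ
    have hQp := hEsupp Q hQ
    by_cases hQr : (rho Ab v)⁻¹ ≤ tabs Ab t v Q
    · have hd : 1 < pdist Ab x₁ v Q S := by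
        by_contra hcon
        exact hpQ ⟨hQr, not_lt.mp hcon⟩
      by_cases h0 : tabs Ab t v S ≤ rho Ab v ∧ tabs Ab t v Q ≤ rho Ab v
      · rw [dlt_of_both0 Ab t x₀ x₁ v S Q h0]
        have hc := hcmp v S Q hS hQp hSr h0.1 hQr h0.2
        rw [pdist_comm Ab x₁ v S Q] at hc
        have h5 : 1 ≤ Cc v * pdist Ab x₀ v S Q := hd.le.trans hc
        rcases le_total 1 (pdist Ab x₀ v S Q) with h4 | h4
        · rw [min_eq_left h4, mul_one]; exact hCρ1
        · rw [min_eq_right h4]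
          have hpd := pdist_nonneg Ab x₀ v S Q
          calc 1 ≤ Cc v * pdist Ab x₀ v S Q := h5
            _ ≤ Cc v * rho Ab v * pdist Ab x₀ v S Q := by
                rw [mul_assoc]
                exact mul_le_mul_of_nonneg_left (le_mul_of_one_le_left hpd hρ1)
                  (zero_le_one.trans hCc1)
      · rw [dlt_of_both1 Ab t x₀ x₁ v S Q h0 ⟨hSr, hQr⟩, pdist_comm Ab x₁ v S Q,
          min_eq_left hd.le, mul_one]
        exact hCρ1
    · -- `|t(Q)| < ρ⁻¹`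
      have hQlt : tabs Ab t v Q < (rho Ab v)⁻¹ := not_le.mp hQr
      have hQρ : tabs Ab t v Q ≤ rho Ab v := hQlt.le.trans (rho_inv_le_rho Ab v)
      by_cases hSρ : tabs Ab t v S ≤ rho Ab v
      · rw [dlt_of_both0 Ab t x₀ x₁ v S Q ⟨hSρ, hQρ⟩]
        have hfar := far_lemma Ab v (α := pval S t) (β := pval Q t) (by
          have h3 : rho Ab v * Ab.abv v (pval Q t) < 1 := by
            have := mul_lt_mul_of_pos_left hQlt (rho_pos Ab v)
            rwa [mul_inv_cancel₀ (rho_pos Ab v).ne'] at this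
          exact h3.trans hS1)
        have hle : Ab.abv v (pval S t - pval Q t) ≤ pdist Ab x₀ v S Q := by
          have := le_pdist Ab x₀ v Q S i₀
          rw [hi₀, pdist_comm] at this
          exact this
        have h3 : 1 ≤ rho Ab v * pdist Ab x₀ v S Q :=
          hS1.le.trans (hfar.trans (mul_le_mul_of_nonneg_left hle (rho_pos Ab v).le))
        rcases le_total 1 (pdist Ab x₀ v S Q) with h4 | h4
        · rw [min_eq_left h4, mul_one]; exact hCρ1
        · rw [min_eq_right h4]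
          calc 1 ≤ rho Ab v * pdist Ab x₀ v S Q := h3
            _ ≤ Cc v * rho Ab v * pdist Ab x₀ v S Q := by
                rw [mul_assoc]
                exact le_mul_of_one_le_left
                  (mul_nonneg (rho_pos Ab v).le (pdist_nonneg Ab x₀ v S Q)) hCc1
      · have h0 : ¬ (tabs Ab t v S ≤ rho Ab v ∧ tabs Ab t v Q ≤ rho Ab v) := fun h => hSρ h.1
        have h1' : ¬ ((rho Ab v)⁻¹ ≤ tabs Ab t v S ∧ (rho Ab v)⁻¹ ≤ tabs Ab t v Q) :=
          fun h => hQr h.2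
        rw [dlt_of_neither Ab t x₀ x₁ v S Q h0 h1', mul_one]
        exact hCρ1

/-! ### The assembly -/

/-- **`ram` for the two-chart distance**: literally `HG.Setting.RamLe` for `δ = dlt Ab t x₀ x₁`. -/
theorem ramLe_dlt (hres : ∀ P : Place K F, RR.ResK P) (hm : 0 < m)
    (ht_reg : ∀ P : Place K F, P ≠ pinf → 0 ≤ P.ord t) (ht_inf : pinf.ord t = -(m : ℤ))
    (ht0 : ∃ i, x₀ i = t) (ht1 : ∃ i, x₁ i = t⁻¹)
    (c0 : ChartBound0 Ab t pinf x₀) (c1 : ChartBound1 Ab t pinf x₁) (cmp : Cmp Ab t pinf x₀ x₁)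
    (r0 : RamFib0 Ab t pinf x₀) (r1 : RamFib1 Ab t pinf x₁ m) :
    ∃ C : V → ℝ, Tame C ∧ ∀ (v : V) (R : Place K F), R ≠ pinf →
      R.ord (t - algebraMap K F (pval R t)) = 1 →
      ∀ Z 𝔯 : Place K F →₀ ℕ, Z pinf = 0 →
      (∀ P, P ≠ pinf → (Z P : ℤ) = P.ord (t - algebraMap K F (pval R t))) →
      𝔯 pinf = 0 →
      (∀ P : Place K F, P ≠ pinf → (𝔯 P : ℤ) = P.ord (t - algebraMap K F (pval P t)) - 1) →
      ((Z.erase R).prod fun S n => dlt Ab t x₀ x₁ v R S ^ n) ^ m *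
          max 1 (Ab.abv v (pval R t)) ^ (m - 1) ≤
        C v * (𝔯.prod fun r n => dlt Ab t x₀ x₁ v R r ^ n) ^ m := by
  classical
  by_cases hex : ∃ 𝔯₀ : Place K F →₀ ℕ, 𝔯₀ pinf = 0 ∧
      ∀ P : Place K F, P ≠ pinf → (𝔯₀ P : ℤ) = P.ord (t - algebraMap K F (pval P t)) - 1
  swap
  · exact ⟨fun _ => 1, Tame.one, fun v R _ _ Z 𝔯 _ _ h𝔯0 h𝔯 => absurd ⟨𝔯, h𝔯0, h𝔯⟩ hex⟩
  obtain ⟨𝔯₀, h𝔯₀0, h𝔯₀⟩ := hex
  set N := HQ.deg 𝔯₀ with hN
  obtain ⟨J₀, _, D₀, hD₀reg, hD₀ord, C₀, hC₀, hfib₀⟩ := r0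
  obtain ⟨J₁, _, D₁, hD₁reg, hD₁ord, hD₁inf, C₁, hC₁, hfib₁⟩ := r1
  have ht_ne : t ≠ 0 := by
    rintro rfl
    rw [Place.ord_zero] at ht_inf
    have : (m : ℤ) = 0 := by omega
    exact hm.ne' (by exact_mod_cast this)
  -- zone I: the functions `D₀ j` on chart 0
  choose B0 hB0 hb0 using fun j => dbound0 (x₀ := x₀) hres ht_reg ht1 c0 (D₀ j) (hD₀reg j) N
  -- zone II: the chart-1 functions `D₀ j · t⁻ᵏ`
  let k : J₀ → ℕ := fun j => (-pinf.ord (D₀ j)).toNat
  let u₂ : J₀ → F := fun j => D₀ j * t⁻¹ ^ k j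
  have hu₂ : ∀ j, ∀ P : Place K F, P.ord t ≤ 0 → 0 ≤ P.ord (u₂ j) := by
    intro j P hP
    by_cases hD : D₀ j = 0
    · have : u₂ j = 0 := by simp [u₂, hD]
      rw [this, Place.ord_zero]
    have hord : P.ord (u₂ j) = P.ord (D₀ j) - k j * P.ord t := ord_mul_inv_pow P hD ht_ne (k j)
    rw [hord]
    by_cases hPinf : P = pinf
    · rw [hPinf, ht_inf]
      have h1 : -pinf.ord (D₀ j) ≤ (k j : ℤ) := Int.self_le_toNat _
      have h2 : (k j : ℤ) ≤ k j * m := by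
        have hm1 : (1 : ℤ) ≤ m := by exact_mod_cast hm
        have hk0 : (0 : ℤ) ≤ k j := Int.natCast_nonneg _
        nlinarith
      linarith
    · have h0 : P.ord t = 0 := le_antisymm hP (ht_reg P hPinf)
      rw [h0, mul_zero, sub_zero]
      exact hD₀reg j P hPinf
  choose B2 hB2 hb2 using fun j => dbound1 (x₁ := x₁) ht0 c1 cmp (u₂ j) (hu₂ j) N
  -- zone III: the chart-1 functions `(D₁ j)ᵐ · t^(m-1)`
  let ψ : J₁ → F := fun j => D₁ j ^ m * t ^ (m - 1)
  have hψ : ∀ j, ∀ P : Place K F, P.ord t ≤ 0 → 0 ≤ P.ord (ψ j) := by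
    intro j P hP
    by_cases hD : D₁ j = 0
    · have : ψ j = 0 := by simp [ψ, hD, hm.ne']
      rw [this, Place.ord_zero]
    have hord : P.ord (ψ j) = m * P.ord (D₁ j) + ((m - 1 : ℕ) : ℤ) * P.ord t :=
      ord_pow_mul_pow P hD ht_ne m (m - 1)
    rw [hord, Nat.cast_pred hm]
    by_cases hPinf : P = pinf
    · rw [hPinf, ht_inf]
      have h1 := hD₁inf j hD
      have h2 : (m : ℤ) * ((m : ℤ) - 1) ≤ m * pinf.ord (D₁ j) :=
        mul_le_mul_of_nonneg_left h1 (Int.natCast_nonneg m)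
      linarith
    · have h0 : P.ord t = 0 := le_antisymm hP (ht_reg P hPinf)
      rw [h0, mul_zero, add_zero]
      exact mul_nonneg (Int.natCast_nonneg m) (hD₁reg j P hP)
  choose B3 hB3 hb3 using fun j => dbound1 (x₁ := x₁) ht0 c1 cmp (ψ j) (hψ j) (m * N)
  -- the constants
  set A0 : V → ℝ := fun v => ∏ j, B0 j v with hA0def
  set A2 : V → ℝ := fun v => ∏ j, B2 j v with hA2def
  set A3 : V → ℝ := fun v => ∏ j, B3 j v with hA3def
  set Kk : ℕ := ∑ j, k j with hKk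
  have hA0 : Tame A0 := Tame.prod _ _ fun j _ => hB0 j
  have hA2 : Tame A2 := Tame.prod _ _ fun j _ => hB2 j
  have hA3 : Tame A3 := Tame.prod _ _ fun j _ => hB3 j
  have hρ : Tame (rho Ab) := tame_rho Ab
  set CI : V → ℝ := fun v => (C₀ v * A0 v) ^ m with hCIdef
  set CII : V → ℝ := fun v => (C₀ v * (rho Ab v ^ Kk * A2 v)) ^ m * rho Ab v ^ (m - 1)
    with hCIIdef
  set CIII : V → ℝ := fun v => C₁ v ^ m * A3 v with hCIIIdef
  have hCI : Tame CI := (hC₀.mul hA0).pow m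
  have hCII : Tame CII := ((hC₀.mul ((hρ.pow Kk).mul hA2)).pow m).mul (hρ.pow (m - 1))
  have hCIII : Tame CIII := (hC₁.pow m).mul hA3
  refine ⟨fun v => CI v * CII v * CIII v, (hCI.mul hCII).mul hCIII, ?_⟩
  intro v R hR hunr Z 𝔯 hZ0 hZ h𝔯0 h𝔯
  have h𝔯eq : 𝔯 = 𝔯₀ := by
    ext P
    by_cases hP : P = pinf
    · rw [hP, h𝔯0, h𝔯₀0]
    · have := (h𝔯 P hP).trans (h𝔯₀ P hP).symm
      exact_mod_cast this
  rw [h𝔯eq]
  set Pr : ℝ := 𝔯₀.prod fun r n => dlt Ab t x₀ x₁ v R r ^ n with hPr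
  have hPr0 : 0 ≤ Pr := prod_pow_nonneg _ _ fun Q _ => dlt_nonneg Ab t x₀ x₁ v R Q
  set Fd : ℝ := (Z.erase R).prod fun S n => dlt Ab t x₀ x₁ v R S ^ n with hFd
  have hFd0 : 0 ≤ Fd := prod_pow_nonneg _ _ fun Q _ => dlt_nonneg Ab t x₀ x₁ v R Q
  have hPrm0 : 0 ≤ Pr ^ m := pow_nonneg hPr0 m
  have hfibpt : ∀ S ∈ (Z.erase R).support, S ≠ pinf ∧ pval S t = pval R t := by
    intro S hS
    rw [Finsupp.support_erase] at hS
    exact fib_pt hZ0 hZ (Finset.mem_of_mem_erase hS)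
  have h𝔯supp : ∀ Q ∈ 𝔯₀.support, Q ≠ pinf :=
    fun Q hQ h => (Finsupp.mem_support_iff.mp hQ) (h ▸ h𝔯₀0)
  have hCI1 := hCI.1 v
  have hCII1 := hCII.1 v
  have hCIII1 := hCIII.1 v
  have hCI0 := hCI.nonneg v
  have hCII0 := hCII.nonneg v
  have hCIII0 := hCIII.nonneg v
  have hρ1 := one_le_rho Ab v
  -- the fibre product in chart-0 distances, for `R` in the region of chart 0
  have hFd_le0 : tabs Ab t v R ≤ rho Ab v →
      Fd ≤ (Z.erase R).prod fun S k => pdist Ab x₀ v S R ^ k := by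
    intro hRρ
    refine Finset.prod_le_prod (fun S _ => pow_nonneg (dlt_nonneg Ab t x₀ x₁ v R S) _)
      fun S hS => ?_
    have hSt := (hfibpt S hS).2
    have hSρ : tabs Ab t v S ≤ rho Ab v := by
      show Ab.abv v (pval S t) ≤ _
      rw [hSt]; exact hRρ
    refine pow_le_pow_left₀ (dlt_nonneg Ab t x₀ x₁ v R S) ?_ _
    rw [dlt_of_both0 Ab t x₀ x₁ v R S ⟨hRρ, hSρ⟩, pdist_comm Ab x₀ v R S]
    exact min_le_right _ _
  rcases le_or_gt (tabs Ab t v R) 1 with hz | hz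
  · -- ZONE I
    have hRρ : tabs Ab t v R ≤ rho Ab v := hz.trans hρ1
    obtain ⟨j, hj⟩ := hfib₀ v R hR hRρ hunr Z hZ0 hZ
    have hD : Ab.abv v (pval R (D₀ j)) ≤ A0 v * Pr := by
      by_cases hD0 : D₀ j = 0
      · rw [hD0, pval_zero, map_zero]
        exact mul_nonneg (hA0.nonneg v) hPr0
      · have := hb0 j v R hR hz 𝔯₀ h𝔯₀0 le_rfl (fun Q hQ => by
          rw [h𝔯₀ Q (h𝔯supp Q hQ)]
          exact hD₀ord j hD0 Q (h𝔯supp Q hQ))
        exact this.trans (mul_le_mul_of_nonneg_right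
          (Tame.le_prod Finset.univ B0 (fun j _ => hB0 j) (Finset.mem_univ j) v) hPr0)
    have h1 : Fd ≤ C₀ v * A0 v * Pr :=
      calc Fd ≤ (Z.erase R).prod fun S k => pdist Ab x₀ v S R ^ k := hFd_le0 hRρ
        _ ≤ C₀ v * Ab.abv v (pval R (D₀ j)) := hj
        _ ≤ C₀ v * (A0 v * Pr) := mul_le_mul_of_nonneg_left hD (hC₀.nonneg v)
        _ = C₀ v * A0 v * Pr := by ring
    have hmax : max 1 (Ab.abv v (pval R t)) = 1 := max_eq_left hz
    rw [hmax, one_pow, mul_one]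
    calc Fd ^ m ≤ (C₀ v * A0 v * Pr) ^ m := pow_le_pow_left₀ hFd0 h1 m
      _ = CI v * Pr ^ m := by rw [mul_pow]
      _ ≤ CI v * CII v * CIII v * Pr ^ m := by
          refine mul_le_mul_of_nonneg_right ?_ hPrm0
          calc CI v = CI v * 1 * 1 := by ring
            _ ≤ CI v * CII v * CIII v :=
                mul_le_mul (mul_le_mul_of_nonneg_left hCII1 hCI0) hCIII1 zero_le_one
                  (mul_nonneg hCI0 hCII0)
  · have hRpos : 0 < Ab.abv v (pval R t) := lt_trans one_pos hz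
    have hRt : pval R t ≠ 0 := (Ab.abv v).pos_iff.mp hRpos
    have hRord : R.ord t = 0 := ord_t_eq_zero ht_reg hR hRt
    have hmemt : t ∈ R.toValuationSubring := Fermat.Agent.S24.mem_of_ord_nonneg R (ht_reg R hR)
    rcases le_or_gt (tabs Ab t v R) (rho Ab v) with hz2 | hz2
    · -- ZONE II
      obtain ⟨j, hj⟩ := hfib₀ v R hR hz2 hunr Z hZ0 hZ
      have hD : Ab.abv v (pval R (D₀ j)) ≤ rho Ab v ^ Kk * A2 v * Pr := by
        by_cases hD0 : D₀ j = 0
        · rw [hD0, pval_zero, map_zero]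
          exact mul_nonneg (mul_nonneg (pow_nonneg (rho_pos Ab v).le _) (hA2.nonneg v)) hPr0
        · have hb := hb2 j v R hR hz 𝔯₀ h𝔯₀0 le_rfl (fun Q hQ hQr => by
            have hQp := h𝔯supp Q hQ
            have hQpos : 0 < Ab.abv v (pval Q t) :=
              lt_of_lt_of_le (inv_pos.mpr (rho_pos Ab v)) hQr
            have hQt : pval Q t ≠ 0 := (Ab.abv v).pos_iff.mp hQpos
            have hQord : Q.ord t = 0 := ord_t_eq_zero ht_reg hQp hQt
            have hou : Q.ord (u₂ j) = Q.ord (D₀ j) := by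
              have := ord_mul_inv_pow Q hD0 ht_ne (k j)
              rw [hQord, mul_zero, sub_zero] at this
              exact this
            rw [hou, h𝔯₀ Q hQp]
            exact hD₀ord j hD0 Q hQp)
          have hmemD : D₀ j ∈ R.toValuationSubring :=
            Fermat.Agent.S24.mem_of_ord_nonneg R (hD₀reg j R hR)
          have hmemti : t⁻¹ ∈ R.toValuationSubring :=
            Fermat.Agent.S24.mem_of_ord_nonneg R (by rw [R.ord_inv, hRord, neg_zero])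
          have hpv : pval R (u₂ j) = pval R (D₀ j) * ((pval R t)⁻¹) ^ k j := by
            show pval R (D₀ j * t⁻¹ ^ k j) = _
            rw [pval_mul (hres R) hmemD (pow_mem hmemti _), pval_pow (hres R) hmemti,
              pval_inv (hres R) hmemt hRt]
          rw [hpv, map_mul, map_pow, map_inv₀] at hb
          have hle : Ab.abv v (pval R (D₀ j))
              ≤ Ab.abv v (pval R t) ^ k j * (B2 j v * Pr) := by
            have h3 : Ab.abv v (pval R (D₀ j)) = Ab.abv v (pval R t) ^ k j *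
                (Ab.abv v (pval R (D₀ j)) * (Ab.abv v (pval R t))⁻¹ ^ k j) := by
              rw [inv_pow, mul_comm (Ab.abv v (pval R (D₀ j))), ← mul_assoc,
                mul_inv_cancel₀ (pow_ne_zero _ hRpos.ne'), one_mul]
            rw [h3]
            exact mul_le_mul_of_nonneg_left hb (pow_nonneg hRpos.le _)
          have hB2A : B2 j v ≤ A2 v :=
            Tame.le_prod Finset.univ B2 (fun j _ => hB2 j) (Finset.mem_univ j) v
          have hkK : k j ≤ Kk := Finset.single_le_sum (f := k) (fun _ _ => Nat.zero_le _)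
            (Finset.mem_univ j)
          have hpowk : Ab.abv v (pval R t) ^ k j ≤ rho Ab v ^ Kk :=
            (pow_le_pow_left₀ hRpos.le hz2 _).trans (pow_le_pow_right₀ hρ1 hkK)
          calc Ab.abv v (pval R (D₀ j))
              ≤ Ab.abv v (pval R t) ^ k j * (B2 j v * Pr) := hle
            _ ≤ rho Ab v ^ Kk * (A2 v * Pr) :=
                mul_le_mul hpowk (mul_le_mul_of_nonneg_right hB2A hPr0)
                  (mul_nonneg ((hB2 j).nonneg v) hPr0) (pow_nonneg (rho_pos Ab v).le _)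
            _ = rho Ab v ^ Kk * A2 v * Pr := by ring
      have h1 : Fd ≤ C₀ v * (rho Ab v ^ Kk * A2 v) * Pr :=
        calc Fd ≤ (Z.erase R).prod fun S k => pdist Ab x₀ v S R ^ k := hFd_le0 hz2
          _ ≤ C₀ v * Ab.abv v (pval R (D₀ j)) := hj
          _ ≤ C₀ v * (rho Ab v ^ Kk * A2 v * Pr) := mul_le_mul_of_nonneg_left hD (hC₀.nonneg v)
          _ = C₀ v * (rho Ab v ^ Kk * A2 v) * Pr := by ring
      have hmax : max 1 (Ab.abv v (pval R t)) ≤ rho Ab v := max_le hρ1 hz2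
      calc Fd ^ m * max 1 (Ab.abv v (pval R t)) ^ (m - 1)
          ≤ (C₀ v * (rho Ab v ^ Kk * A2 v) * Pr) ^ m * rho Ab v ^ (m - 1) :=
            mul_le_mul (pow_le_pow_left₀ hFd0 h1 m)
              (pow_le_pow_left₀ (zero_le_one.trans (le_max_left _ _)) hmax _)
              (pow_nonneg (zero_le_one.trans (le_max_left _ _)) _)
              (pow_nonneg (hFd0.trans h1) _)
        _ = CII v * Pr ^ m := by rw [mul_pow]; ring
        _ ≤ CI v * CII v * CIII v * Pr ^ m := by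
            refine mul_le_mul_of_nonneg_right ?_ hPrm0
            calc CII v = 1 * CII v * 1 := by ring
              _ ≤ CI v * CII v * CIII v :=
                  mul_le_mul (mul_le_mul_of_nonneg_right hCI1 hCII0) hCIII1 zero_le_one
                    (mul_nonneg hCI0 hCII0)
    · -- ZONE III
      have hRr : (rho Ab v)⁻¹ ≤ tabs Ab t v R := (rho_inv_le_rho Ab v).trans hz2.le
      obtain ⟨j, hj⟩ := hfib₁ v R hR hRr hunr Z hZ0 hZ
      have hFd_le1 : Fd ≤ (Z.erase R).prod fun S k => pdist Ab x₁ v S R ^ k := by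
        refine Finset.prod_le_prod (fun S _ => pow_nonneg (dlt_nonneg Ab t x₀ x₁ v R S) _)
          fun S hS => ?_
        have hSt := (hfibpt S hS).2
        have hSr : (rho Ab v)⁻¹ ≤ tabs Ab t v S := by
          show _ ≤ Ab.abv v (pval S t)
          rw [hSt]; exact hRr
        refine pow_le_pow_left₀ (dlt_nonneg Ab t x₀ x₁ v R S) ?_ _
        rw [dlt_of_both1 Ab t x₀ x₁ v R S (fun h => absurd h.1 (not_le.mpr hz2)) ⟨hRr, hSr⟩,
          pdist_comm Ab x₁ v R S]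
        exact min_le_right _ _
      have hD : Ab.abv v (pval R (D₁ j)) ^ m * Ab.abv v (pval R t) ^ (m - 1)
          ≤ A3 v * Pr ^ m := by
        by_cases hD0 : D₁ j = 0
        · rw [hD0, pval_zero, map_zero, zero_pow hm.ne', zero_mul]
          exact mul_nonneg (hA3.nonneg v) hPrm0
        · have hb := hb3 j v R hR hz (m • 𝔯₀)
            (by rw [Finsupp.smul_apply, h𝔯₀0, smul_zero]) (deg_nsmul m 𝔯₀).le
            (fun Q hQ hQr => by
              have hQs : Q ∈ 𝔯₀.support := Finsupp.support_smul hQ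
              have hQp := h𝔯supp Q hQs
              have hQpos : 0 < Ab.abv v (pval Q t) :=
                lt_of_lt_of_le (inv_pos.mpr (rho_pos Ab v)) hQr
              have hQt : pval Q t ≠ 0 := (Ab.abv v).pos_iff.mp hQpos
              have hQord : Q.ord t = 0 := ord_t_eq_zero ht_reg hQp hQt
              have hou : Q.ord (ψ j) = m * Q.ord (D₁ j) := by
                have := ord_pow_mul_pow Q hD0 ht_ne m (m - 1)
                rw [hQord, mul_zero, add_zero] at this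
                exact this
              have h4 := hD₁ord j hD0 Q hQp hQord
              rw [← h𝔯₀ Q hQp] at h4
              rw [hou, Finsupp.smul_apply, smul_eq_mul, Nat.cast_mul]
              exact mul_le_mul_of_nonneg_left h4 (Int.natCast_nonneg m))
          have hmemD : D₁ j ∈ R.toValuationSubring :=
            Fermat.Agent.S24.mem_of_ord_nonneg R (hD₁reg j R hRord.le)
          have hpv : pval R (ψ j) = pval R (D₁ j) ^ m * pval R t ^ (m - 1) := by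
            show pval R (D₁ j ^ m * t ^ (m - 1)) = _
            rw [pval_mul (hres R) (pow_mem hmemD _) (pow_mem hmemt _),
              pval_pow (hres R) hmemD, pval_pow (hres R) hmemt]
          rw [hpv, map_mul, map_pow, map_pow, prod_nsmul m hm] at hb
          exact hb.trans (mul_le_mul_of_nonneg_right
            (Tame.le_prod Finset.univ B3 (fun j _ => hB3 j) (Finset.mem_univ j) v) hPrm0)
      have h1 : Fd ≤ C₁ v * Ab.abv v (pval R (D₁ j)) := hFd_le1.trans hj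
      have hmax : max 1 (Ab.abv v (pval R t)) = Ab.abv v (pval R t) := max_eq_right hz.le
      rw [hmax]
      calc Fd ^ m * Ab.abv v (pval R t) ^ (m - 1)
          ≤ (C₁ v * Ab.abv v (pval R (D₁ j))) ^ m * Ab.abv v (pval R t) ^ (m - 1) :=
            mul_le_mul_of_nonneg_right (pow_le_pow_left₀ hFd0 h1 m) (pow_nonneg hRpos.le _)
        _ = C₁ v ^ m * (Ab.abv v (pval R (D₁ j)) ^ m * Ab.abv v (pval R t) ^ (m - 1)) := by
            rw [mul_pow]; ring
        _ ≤ C₁ v ^ m * (A3 v * Pr ^ m) :=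
            mul_le_mul_of_nonneg_left hD (pow_nonneg (hC₁.nonneg v) m)
        _ = CIII v * Pr ^ m := by ring
        _ ≤ CI v * CII v * CIII v * Pr ^ m := by
            refine mul_le_mul_of_nonneg_right ?_ hPrm0
            calc CIII v = 1 * 1 * CIII v := by ring
              _ ≤ CI v * CII v * CIII v :=
                  mul_le_mul_of_nonneg_right
                    (mul_le_mul hCI1 hCII1 zero_le_one hCI0) hCIII0

/-- **`RamLe` for a global setting whose local distance is the two-chart distance.** -/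
theorem setting_ramLe (𝒮 : HG.Setting Ab pinf t m)
    (h𝒮 : ∀ v R S, 𝒮.δ v R S = dlt Ab t x₀ x₁ v R S)
    (hres : ∀ P : Place K F, RR.ResK P)
    (ht0 : ∃ i, x₀ i = t) (ht1 : ∃ i, x₁ i = t⁻¹)
    (c0 : ChartBound0 Ab t pinf x₀) (c1 : ChartBound1 Ab t pinf x₁) (cmp : Cmp Ab t pinf x₀ x₁)
    (r0 : RamFib0 Ab t pinf x₀) (r1 : RamFib1 Ab t pinf x₁ m) : 𝒮.RamLe := by
  obtain ⟨C, hC, h⟩ := ramLe_dlt hres 𝒮.m_pos 𝒮.t_reg 𝒮.t_pole ht0 ht1 c0 c1 cmp r0 r1
  refine ⟨C, hC, fun v R hR hunr Z 𝔯 hZ h𝔯0 h𝔯 => ?_⟩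
  have := h v R hR hunr Z 𝔯 hZ.1 hZ.2 h𝔯0 h𝔯
  simpa only [h𝒮] using this

end Fermat.Agent.MW.HtM.TwoChartRam
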