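/-
MW / [H-M] — brick (e), FUNCTION form of (RamPt≤) in PLACE form (`pval`, `pdist`), the inputs
`RamFib0` / `RamFib1` of the two-chart assembly of `ram`.

* `fib_eq_fibre` : the fibre multiset of `RamFib` is the fibre multiset of `FibreNorm`;
* `prod_fibre_erase_eq` : products over the fibre minus an unramified point = `Finsupp.prod` over
  the erased fibre divisor;
* `ramFn_pl` : the chart statement for ANY transcendental `s` and any finite family `x` of the
  chart ring of `s`: finitely many functions `D j` of the chart ring with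
  `ord_Q (D j) ≥ ord_Q (s - s(Q)) - 1` at every place `Q` of the chart, and for every unramified
  place `R` of the chart a `j` with `∏_{S ∈ Z - R} pdist_v(S, R)^{Z S} ≤ C_v · |D_j(R)|_v`;
* `ramFib0`, `ramFib1` : the two chart statements for `t` (off `pinf`) and `t⁻¹` (off the zeros
  of `t`, with the extra vanishing order `m - 1` at `pinf`).
-/
import Mathlib
import Fermat.Agent.MW.HtM.RamFn
import Fermat.Agent.MW.HtM.FibLipRg
import Fermat.Agent.MW.HtM.TwoChartRam

set_option autoImplicit false
set_option linter.style.haveILetI false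

noncomputable section

namespace Fermat.Agent.MW.HtM.RamFnPl

open AlgebraicCurve IntermediateField
open Fermat.Agent.Lib.FF Fermat.Agent.Lib.FF.IntP Fermat.Agent.S24
open Fermat.Agent.MW.HtM.RegRing Fermat.Agent.MW.HtM.FibreNorm Fermat.Agent.MW.HtM.TwoChart
open Fermat.Agent.MW.HtM.FibLipRg

universe uK uF

variable {K : Type uK} {F : Type uF} [Field K] [Field F] [Algebra K F]
variable [IsAlgClosed K] [CharZero K]

section Chart

variable (s : F) (hs : Transcendental K s) [FiniteDimensional K⟮s⟯ F]

/-- The two fibre multisets agree. -/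
theorem fib_eq_fibre (τ : K) : RamFib.fib s hs τ = fibre s hs τ := by
  classical
  refine Multiset.ext.2 fun S => ?_
  have h1 := RamFib.count_fib s hs τ S
  rw [count_fibre]
  by_cases hS : S (xInt K s) = τ
  · rw [if_pos hS, ordAt_of_ne s hs S (RamFib.xInt_sub_ne_zero s hs τ)] at h1
    have h2 : (RamFib.fib s hs τ).count S = ((ptEquiv s hs S).1.ord
        ((xInt K s - algebraMap K (Rg K s) τ : Rg K s) : F)).toNat := by
      convert (Nat.cast_inj (R := ℕ∞)).1 (by convert h1)
    have h3 : mult s hs τ S = ((ptEquiv s hs S).1.ord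
        ((xInt K s - algebraMap K (Rg K s) τ : Rg K s) : F)).toNat := rfl
    rw [h3]
    convert h2
  · rw [if_neg hS] at h1
    have h2 : (RamFib.fib s hs τ).count S = 0 := by
      have h1' : ((RamFib.fib s hs τ).count S : ℕ∞) = ((0 : ℕ) : ℕ∞) := by
        rw [Nat.cast_zero]
        convert h1
      convert (Nat.cast_inj (R := ℕ∞)).1 h1'
    have h3 : mult s hs τ S = 0 := by
      by_contra h
      exact hS ((mem_fibrePts_iff_apply s hs).1
        ((mult_pos_iff s hs).1 (Nat.pos_of_ne_zero h)))
    rw [h3]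
    convert h2

/-- Products over the fibre minus an unramified point = `Finsupp.prod` over the erased fibre
divisor. -/
theorem prod_fibre_erase_eq (τ : K) (Z : Place K F →₀ ℕ)
    (hZ : ∀ P, (Z P : ℤ) = max (P.ord (s - algebraMap K F τ)) 0) (R : Rg K s →ₐ[K] K)
    (hR : (plc s hs R).ord (s - algebraMap K F τ) = 1) {M : Type*} [CommMonoid M]
    (g : Place K F → M) :
    ((by classical exact (fibre s hs τ).erase R : Multiset (Rg K s →ₐ[K] K)).map
        fun S => g (plc s hs S)).prod
      = (Z.erase (plc s hs R)).prod fun P k => g P ^ k := by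
  classical
  set g' : Place K F → M := fun P => if P = plc s hs R then 1 else g P with hg'
  have hmult : mult s hs τ R = 1 := by
    have := natCast_mult s hs τ R
    omega
  have hRmem : R ∈ fibre s hs τ := by
    rw [← Multiset.count_pos, count_fibre, hmult]
    exact one_pos
  have hnot : R ∉ (fibre s hs τ).erase R := by
    rw [← Multiset.count_eq_zero, Multiset.count_erase_self, count_fibre, hmult]
  have h1 := prod_fibre_eq s hs τ Z hZ g'
  have hcons : fibre s hs τ = R ::ₘ (fibre s hs τ).erase R := (Multiset.cons_erase hRmem).symm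
  have h2 : g' (plc s hs R) = 1 := if_pos rfl
  have h3 : (((fibre s hs τ).erase R).map fun S => g' (plc s hs S))
      = ((fibre s hs τ).erase R).map fun S => g (plc s hs S) := by
    refine Multiset.map_congr rfl fun S hS => ?_
    have hne : plc s hs S ≠ plc s hs R := fun h => hnot ((plc_injective s hs h) ▸ hS)
    exact if_neg hne
  have h4 : ((fibre s hs τ).map fun S => g' (plc s hs S)).prod
      = (((fibre s hs τ).erase R).map fun S => g (plc s hs S)).prod := by
    conv_lhs => rw [hcons]
    rw [Multiset.map_cons, Multiset.prod_cons, h2, one_mul, h3]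
  rw [← h4, h1, Finsupp.prod, Finsupp.prod, Finsupp.support_erase]
  rw [← Finset.prod_erase (Z.support) (a := plc s hs R) (by rw [h2, one_pow])]
  refine Finset.prod_congr rfl fun P hP => ?_
  have hPne : P ≠ plc s hs R := Finset.ne_of_mem_erase hP
  rw [Finsupp.erase_ne hPne]
  simp only [hg', if_neg hPne]

include hs in
/-- **The chart statement, function form of (RamPt≤) in place form**, for any transcendental `s`
and any finite family `x` of the chart ring of `s`. -/
theorem ramFn_pl {V : Type*} (Fm : AbsFamily K V) {n : ℕ} (x : Fin n → Rg K s) :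
    ∃ (N : ℕ) (D : Fin N → Rg K s),
      (∀ (j : Fin N) (Q : Place K F), 0 ≤ Q.ord s → (D j : F) ≠ 0 →
        Q.ord (s - algebraMap K F (pval Q s)) - 1 ≤ Q.ord (D j : F)) ∧
      ∃ C : V → ℝ, Tame C ∧ ∀ (v : V) (R : Place K F), 0 ≤ R.ord s →
        R.ord (s - algebraMap K F (pval R s)) = 1 →
        ∀ Z : Place K F →₀ ℕ,
          (∀ P, (Z P : ℤ) = max (P.ord (s - algebraMap K F (pval R s))) 0) →
        ∃ j : Fin N, ((Z.erase R).prod fun S k => pdist Fm (fun i => (x i : F)) v S R ^ k)
          ≤ C v * Fm.abv v (pval R (D j : F)) := by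
  classical
  obtain ⟨N, D, hD, C, hC, hmain⟩ := RamFn.ram_fn_rg s hs Fm x
  refine ⟨N, D, ?_, C, hC, ?_⟩
  · intro j Q hQ hDj
    obtain ⟨Q', rfl⟩ := exists_plc_eq s hs Q hQ
    have hval : pval (plc s hs Q') s = Q' (xInt K s) := pval_plc s hs Q' (xInt K s)
    rw [hval]
    have hDj' : D j ≠ 0 := fun h => hDj (by rw [h]; rfl)
    have hc0 := RamFib.xInt_sub_ne_zero s hs (Q' (xInt K s))
    have hpos : 0 < (plc s hs Q').ord (s - algebraMap K F (Q' (xInt K s))) :=
      (apply_xInt_eq_iff s hs Q' _).1 rfl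
    have hcoe : (ptEquiv s hs Q').1.ord
        ((xInt K s - algebraMap K (Rg K s) (Q' (xInt K s)) : Rg K s) : F)
        = (plc s hs Q').ord (s - algebraMap K F (Q' (xInt K s))) := rfl
    have hcoe2 : (ptEquiv s hs Q').1.ord (D j : F) = (plc s hs Q').ord (D j : F) := rfl
    generalize (plc s hs Q').ord (s - algebraMap K F (Q' (xInt K s))) = eQ at hpos hcoe ⊢
    have h1 := hD j Q' (eQ - 1).toNat (by
      rw [natCast_le_ordAt_iff s hs Q' hc0, hcoe]
      push_cast
      omega)
    rw [natCast_le_ordAt_iff s hs Q' hDj', hcoe2] at h1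
    omega
  · intro v R hR hunr Z hZ
    obtain ⟨R', rfl⟩ := exists_plc_eq s hs R hR
    have hval : pval (plc s hs R') s = R' (xInt K s) := pval_plc s hs R' (xInt K s)
    rw [hval] at hunr hZ
    obtain ⟨j, hj⟩ := hmain v R'
    refine ⟨j, ?_⟩
    rw [pval_plc s hs R' (D j)]
    refine le_of_eq_of_le ?_ hj
    rw [fib_eq_fibre]
    have h5 := prod_fibre_erase_eq s hs _ Z hZ R' hunr
      (fun P => pdist Fm (fun i => (x i : F)) v P (plc s hs R'))
    rw [← h5]
    congr 1
    refine Multiset.map_congr (by congr) fun S _ => ?_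
    exact (cdist_eq_pdist s hs Fm x v S R').symm

end Chart

/-! ### The two literal targets of the two-chart assembly of `ram` -/

section Targets

variable (t : F) (ht : Transcendental K t) [FiniteDimensional K⟮t⟯ F]
variable {V : Type*} (Ab : AbsFamily K V)

include ht in
/-- **`RamFib0`**: the fibre-derivative bound on the chart off `pinf`, for any finite family of
the chart ring of `t`. -/
theorem ramFib0 {pinf : Place K F} (ht_reg : ∀ P : Place K F, P ≠ pinf → 0 ≤ P.ord t)
    (ht_inf : pinf.ord t < 0) {n₀ : ℕ} (x : Fin n₀ → Rg K t) :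
    TwoChartRam.RamFib0 Ab t pinf (fun i => (x i : F)) := by
  obtain ⟨N, D, hD, C, hC, hmain⟩ := ramFn_pl t ht Ab x
  refine ⟨Fin N, inferInstance, fun j => (D j : F), ?_, ?_, C, hC, ?_⟩
  · intro j P hP
    exact (mem_Rg_iff t ht (D j : F)).1 (D j).2 P (ht_reg P hP)
  · intro j hDj Q hQ
    exact hD j Q (ht_reg Q hQ) hDj
  · intro v R hR _ hunr Z hZinf hZ
    refine hmain v R (ht_reg R hR) hunr Z fun P => ?_
    by_cases hP : P = pinf
    · subst hP
      rw [hZinf, ord_sub_const_of_neg P ht_inf _, max_eq_right ht_inf.le]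
      rfl
    · rw [hZ P hP]
      have h1 : 0 ≤ P.ord (t - algebraMap K F (pval R t)) := by
        rw [← hZ P hP]
        exact Int.natCast_nonneg _
      rw [max_eq_left h1]

include ht in
/-- **`RamFib1`**: the fibre-derivative bound on the chart off the zeros of `t`, for any finite
family of the chart ring of `t⁻¹`; the functions vanish to order `≥ m - 1` at `pinf`. -/
theorem ramFib1 {pinf : Place K F} {m : ℕ}
    (ht_reg : ∀ P : Place K F, P ≠ pinf → 0 ≤ P.ord t) (ht_inf : pinf.ord t = -(m : ℤ))
    (hm : 0 < m) {n₁ : ℕ} (x : Fin n₁ → Rg K t⁻¹) :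
    TwoChartRam.RamFib1 Ab t pinf (fun i => (x i : F)) m := by
  haveI := Transfer.finiteDimensional_inv (K := K) t
  haveI : Algebra.IsAlgebraic K⟮t⟯ F := Algebra.IsAlgebraic.of_finite _ _
  have hs : Transcendental K t⁻¹ := Transfer.transcendental_inv ht
  have ht0 : t ≠ 0 := by
    rintro rfl
    exact ht isAlgebraic_zero
  have hinf_neg : pinf.ord t < 0 := by rw [ht_inf]; omega
  have hpinv : ∀ Q : Place K F, Q.ord t = 0 →
      pval Q t⁻¹ = (pval Q t)⁻¹ ∧ pval Q t ≠ 0 := by
    intro Q hQ
    have hres : RR.ResK Q := fun a => residueTrivial t Q a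
    have hne : pval Q t ≠ 0 := pval_ne_zero_of_ord_eq_zero hres ht0 hQ
    exact ⟨pval_inv hres (mem_of_ord_nonneg Q hQ.ge) hne, hne⟩
  obtain ⟨N, D, hD, C, hC, hmain⟩ := ramFn_pl t⁻¹ hs Ab x
  refine ⟨Fin N, inferInstance, fun j => (D j : F), ?_, ?_, ?_, C, hC, ?_⟩
  · intro j P hP
    exact (mem_Rg_iff t⁻¹ hs (D j : F)).1 (D j).2 P (by rw [P.ord_inv]; omega)
  · intro j hDj Q _ hQ0
    have h1 := hD j Q (by rw [Q.ord_inv]; omega) hDj
    obtain ⟨hv, hne⟩ := hpinv Q hQ0
    rw [hv, ord_inv_sub_inv Q ht0 hne (sub_const_ne_zero t ht _), hQ0, sub_zero] at h1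
    exact h1
  · intro j hDj
    have hpos : 0 < pinf.ord t⁻¹ := by rw [pinf.ord_inv, ht_inf]; omega
    have h1 := hD j pinf hpos.le hDj
    have h2 : pval pinf t⁻¹ = 0 := pval_eq_zero_of_ord_pos hpos
    rw [h2, map_zero, sub_zero, pinf.ord_inv, ht_inf] at h1
    change (m : ℤ) - 1 ≤ pinf.ord (D j : F)
    omega
  · intro v R hR hRt hunr Z hZinf hZ
    have hrho := rho_pos Ab v
    have hpv0 : pval R t ≠ 0 := by
      intro h0
      unfold tabs at hRt
      rw [h0, map_zero] at hRt
      exact absurd hRt (not_le.mpr (inv_pos.mpr hrho))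
    have hRt0 : 0 ≤ R.ord t := ht_reg R hR
    have hRord : R.ord t = 0 := by
      by_contra hne
      exact hpv0 (pval_eq_zero_of_ord_pos (by omega))
    obtain ⟨hv, -⟩ := hpinv R hRord
    have hunr' : R.ord (t⁻¹ - algebraMap K F (pval R t⁻¹)) = 1 := by
      rw [hv, ord_inv_sub_inv R ht0 hpv0 (sub_const_ne_zero t ht _), hRord, sub_zero]
      exact hunr
    refine hmain v R (by rw [R.ord_inv]; omega) hunr' Z fun P => ?_
    rw [hv, max_ord_inv_sub_inv P ht hpv0]
    by_cases hP : P = pinf
    · subst hP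
      rw [hZinf, ord_sub_const_of_neg P hinf_neg _, max_eq_right hinf_neg.le]
      rfl
    · rw [hZ P hP]
      have h1 : 0 ≤ P.ord (t - algebraMap K F (pval R t)) := by
        rw [← hZ P hP]
        exact Int.natCast_nonneg _
      rw [max_eq_left h1]

end Targets

end Fermat.Agent.MW.HtM.RamFnPl
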