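/-
MW / [H-M] — `ram` (the diagonal fibre bound `HG.Setting.RamLe`) for the local height datum of a
function field, with NO hypothesis left: `RamFF.ramLe_of_coords` / `setting_ramLe_of_coords`
with the two chart statements `RamFib0`, `RamFib1` discharged by `RamFnPl.ramFib0/ramFib1`.

* `ramFib0_of_coords`, `ramFib1_of_coords` : the two chart statements for coordinates
  `IsCoords t x₀ x₁`;
* `ramLe_coords` : the literal `ram` statement for `δ = TwoChart.dlt Ab t x₀ x₁`;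
* `setting_ramLe` : `𝒮.RamLe` for every global setting whose local distance is the distance of
  `LocalHtFF.localHtFF`.
-/
import Mathlib
import Fermat.Agent.MW.HtM.RamFnPl
import Fermat.Agent.MW.HtM.RamFF

set_option autoImplicit false
set_option linter.style.haveILetI false

namespace Fermat.Agent.MW.HtM.RamClosed

open AlgebraicCurve IntermediateField
open Fermat.Agent.Lib.FF Fermat.Agent.MW.HtM.TwoChart Fermat.Agent.MW.HtM.TwoChartRam
  Fermat.Agent.MW.HtM.LocalHtFF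

universe uK uF

variable {K : Type uK} {F : Type uF} [Field K] [Field F] [Algebra K F] [IsAlgClosed K]
  [CharZero K] {t : F} [FiniteDimensional K⟮t⟯ F] {V : Type*} (Ab : AbsFamily K V)
  {pinf : Place K F} {n₀ n₁ : ℕ} {x₀ : Fin n₀ → F} {x₁ : Fin n₁ → F} {m : ℕ}

/-- **`RamFib0` for coordinates.** -/
theorem ramFib0_of_coords (ht : Transcendental K t) (hc : IsCoords (K := K) t x₀ x₁)
    (ht_reg : ∀ P : Place K F, P ≠ pinf → 0 ≤ P.ord t) (ht_inf : pinf.ord t < 0) :
    RamFib0 Ab t pinf x₀ := by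
  obtain ⟨y₀, y₁, -, -, rfl, rfl, -, -⟩ := hc
  exact RamFnPl.ramFib0 t ht Ab ht_reg ht_inf y₀

/-- **`RamFib1` for coordinates.** -/
theorem ramFib1_of_coords (ht : Transcendental K t) (hc : IsCoords (K := K) t x₀ x₁)
    (hm : 0 < m) (ht_reg : ∀ P : Place K F, P ≠ pinf → 0 ≤ P.ord t)
    (ht_inf : pinf.ord t = -(m : ℤ)) :
    RamFib1 Ab t pinf x₁ m := by
  obtain ⟨y₀, y₁, -, -, rfl, rfl, -, -⟩ := hc
  exact RamFnPl.ramFib1 t ht Ab ht_reg ht_inf hm y₁

/-- **`ram` for the two-chart distance of a function field, no hypothesis left.** -/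
theorem ramLe_coords (ht : Transcendental K t) (hc : IsCoords (K := K) t x₀ x₁) (hm : 0 < m)
    (ht_reg : ∀ P : Place K F, P ≠ pinf → 0 ≤ P.ord t) (ht_inf : pinf.ord t = -(m : ℤ)) :
    ∃ C : V → ℝ, Tame C ∧ ∀ (v : V) (R : Place K F), R ≠ pinf →
      R.ord (t - algebraMap K F (pval R t)) = 1 →
      ∀ Z 𝔯 : Place K F →₀ ℕ, Z pinf = 0 →
      (∀ P, P ≠ pinf → (Z P : ℤ) = P.ord (t - algebraMap K F (pval R t))) →
      𝔯 pinf = 0 →
      (∀ P : Place K F, P ≠ pinf → (𝔯 P : ℤ) = P.ord (t - algebraMap K F (pval P t)) - 1) →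
      ((Z.erase R).prod fun S n => dlt Ab t x₀ x₁ v R S ^ n) ^ m *
          max 1 (Ab.abv v (pval R t)) ^ (m - 1) ≤
        C v * (𝔯.prod fun r n => dlt Ab t x₀ x₁ v R r ^ n) ^ m :=
  RamFF.ramLe_of_coords Ab ht hc hm ht_reg ht_inf
    (ramFib0_of_coords Ab ht hc ht_reg (by rw [ht_inf]; omega))
    (ramFib1_of_coords Ab ht hc hm ht_reg ht_inf)

/-- **`RamLe` for a global setting over the local height datum of a function field, no
hypothesis left.** -/
theorem setting_ramLe (ht : Transcendental K t) (hc : IsCoords (K := K) t x₀ x₁)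
    (𝒮 : HG.Setting Ab pinf t m)
    (h𝒮 : 𝒮.δ = (localHtFF Ab ht hc 𝒮.m_pos 𝒮.t_reg 𝒮.t_pole).δ) : 𝒮.RamLe :=
  RamFF.setting_ramLe_of_coords Ab ht hc 𝒮 h𝒮
    (ramFib0_of_coords Ab ht hc 𝒮.t_reg (by rw [𝒮.t_pole]; have := 𝒮.m_pos; omega))
    (ramFib1_of_coords Ab ht hc 𝒮.m_pos 𝒮.t_reg 𝒮.t_pole)

end Fermat.Agent.MW.HtM.RamClosed
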