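/-
MW / HT-M — the chart ring of places (helper5).

`K` a field, `F/K` a function field of one variable in the `Lib.FF.IsFF1` setting, `x : F`.
`aff K x` is the `K`-subalgebra of the functions regular at every place at which `x` is regular
(the coordinate ring of the affine chart `x ≠ ∞`).  It is the integral closure of `K[x]` in `F`,
hence (for `F/K(x)` separable) a Dedekind domain, finite over `K[x]`, of finite type over `K`,
with fraction field `F`.
-/
import Mathlib
import Fermat.Agent.Lib.FF.Holo

set_option autoImplicit false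

noncomputable section

namespace Fermat.Agent.MW.HtM.Aff

open AlgebraicCurve IntermediateField Fermat.Agent.Lib.FF
open scoped IntermediateField.algebraAdjoinAdjoin

variable {K F : Type*} [Field K] [Field F] [Algebra K F]

/-- The chart ring: functions regular at every place at which `x` is regular. -/
def aff (K : Type*) {F : Type*} [Field K] [Field F] [Algebra K F] (x : F) : Subalgebra K F where
  carrier := {f | ∀ P : Place K F, 0 ≤ P.ord x → f ∈ P.toValuationSubring}
  mul_mem' := fun ha hb P hP => P.toValuationSubring.mul_mem _ _ (ha P hP) (hb P hP)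
  add_mem' := fun ha hb P hP => P.toValuationSubring.add_mem _ _ (ha P hP) (hb P hP)
  algebraMap_mem' := fun a P _ => P.algebraMap_mem' a

theorem mem_aff {x f : F} :
    f ∈ aff K x ↔ ∀ P : Place K F, 0 ≤ P.ord x → f ∈ P.toValuationSubring := Iff.rfl

theorem mem_aff_iff_ord {x f : F} :
    f ∈ aff K x ↔ ∀ P : Place K F, 0 ≤ P.ord x → 0 ≤ P.ord f :=
  ⟨fun h P hP => Fermat.Agent.S24.ord_nonneg_of_mem P (h P hP),
    fun h P hP => Fermat.Agent.S24.mem_of_ord_nonneg P (h P hP)⟩

theorem self_mem_aff (x : F) : x ∈ aff K x :=
  fun P hP => Fermat.Agent.S24.mem_of_ord_nonneg P hP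

theorem adjoin_le_aff (x : F) : Algebra.adjoin K {x} ≤ aff K x :=
  Algebra.adjoin_le (by
    intro y hy
    rw [Set.mem_singleton_iff] at hy
    rw [hy]
    exact self_mem_aff x)

/-- `aff K x` is the integral closure of `K[x]` (RED-HOLO). -/
theorem mem_aff_iff_isIntegral {x : F} (h : IsFF1 K F x) {f : F} :
    f ∈ aff K x ↔ IsIntegral (Algebra.adjoin K {x}) f := by
  rw [h.isIntegral_adjoin_iff, mem_aff_iff_ord]

/-- `K[x]` is a principal ideal ring. -/
instance isPrincipalIdealRing_adjoin (x : F) : IsPrincipalIdealRing (Algebra.adjoin K {x}) := by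
  let g : Algebra.adjoin K {x} := ⟨x, Algebra.self_mem_adjoin_singleton K x⟩
  refine IsPrincipalIdealRing.of_surjective (Polynomial.aeval (R := K) g).toRingHom ?_
  rintro ⟨y, hy⟩
  rw [Algebra.adjoin_singleton_eq_range_aeval] at hy
  obtain ⟨p, rfl⟩ := hy
  refine ⟨p, Subtype.ext ?_⟩
  show ((Polynomial.aeval (R := K) g p : Algebra.adjoin K {x}) : F) = _
  rw [← Subalgebra.coe_val, ← Polynomial.aeval_algHom_apply]
  rfl

/-- The structure of `K[x]`-algebra on the chart ring. -/
@[instance_reducible]
def algAdjoin (x : F) : Algebra (Algebra.adjoin K {x}) (aff K x) :=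
  (Subalgebra.inclusion (adjoin_le_aff x)).toAlgebra

attribute [local instance] algAdjoin

theorem algebraMap_adjoin_coe (x : F) (r : Algebra.adjoin K {x}) :
    ((algebraMap (Algebra.adjoin K {x}) (aff K x) r : aff K x) : F) = (r : F) := rfl

instance isScalarTower_adjoin_aff (x : F) :
    IsScalarTower (Algebra.adjoin K {x}) (aff K x) F :=
  IsScalarTower.of_algebraMap_eq fun _ => rfl

instance isScalarTower_K_adjoin_aff (x : F) :
    IsScalarTower K (Algebra.adjoin K {x}) (aff K x) :=
  IsScalarTower.of_algebraMap_eq fun _ => rfl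

/-- The chart ring is an integral closure of `K[x]` in `F`. -/
theorem isIntegralClosure {x : F} (h : IsFF1 K F x) :
    IsIntegralClosure (aff K x) (Algebra.adjoin K {x}) F where
  algebraMap_injective := Subtype.val_injective
  isIntegral_iff := by
    intro f
    rw [← mem_aff_iff_isIntegral h]
    exact ⟨fun hf => ⟨⟨f, hf⟩, rfl⟩, fun ⟨y, hy⟩ => hy ▸ y.2⟩

section Separable

variable {x : F} [Algebra.IsSeparable K⟮x⟯ F]

/-- The chart ring is a Dedekind domain. -/
theorem isDedekindDomain (h : IsFF1 K F x) : IsDedekindDomain (aff K x) := by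
  have := h.finiteDimensional
  have := isIntegralClosure h
  exact IsIntegralClosure.isDedekindDomain (Algebra.adjoin K {x}) K⟮x⟯ F (aff K x)

/-- The chart ring is finite over `K[x]`. -/
theorem module_finite (h : IsFF1 K F x) : Module.Finite (Algebra.adjoin K {x}) (aff K x) := by
  have := h.finiteDimensional
  have := isIntegralClosure h
  exact IsIntegralClosure.finite (Algebra.adjoin K {x}) K⟮x⟯ F (aff K x)

omit [Algebra.IsSeparable K⟮x⟯ F] in
/-- `F` is the fraction field of the chart ring. -/
theorem isFractionRing (h : IsFF1 K F x) : IsFractionRing (aff K x) F := by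
  have := h.finiteDimensional
  have := isIntegralClosure h
  exact IsIntegralClosure.isFractionRing_of_finite_extension (Algebra.adjoin K {x}) K⟮x⟯ F
    (aff K x)

/-- The chart ring is a `K`-algebra of finite type. -/
theorem finiteType (h : IsFF1 K F x) : Algebra.FiniteType K (aff K x) := by
  have := module_finite h
  have h1 : Algebra.FiniteType K (Algebra.adjoin K {x}) :=
    (Subalgebra.fg_iff_finiteType _).mp ⟨{x}, by simp⟩
  have h2 : Algebra.FiniteType (Algebra.adjoin K {x}) (aff K x) := inferInstance
  exact Algebra.FiniteType.trans h1 h2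

end Separable

end Fermat.Agent.MW.HtM.Aff
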