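/-
MW / HT-M — the points of the chart ring are the places (helper5).

Setting of `AffRing.lean`: `F/K` a function field of one variable (`IsFF1 K F x`), `F/K(x)`
separable, `aff K x` the ring of functions regular wherever `x` is.

* `ev h P hP : aff K x →ₐ[K] K` — the value at a place `P` at which `x` is regular;
* `exists_place_of_algHom`, `ev_injective` — every `K`-point of the chart ring is `ev` of exactly
  one such place;
* `mem_ker_pow_iff` — the `𝔪`-adic filtration of the chart ring at a point is the filtration by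
  the order at the corresponding place;
* `exists_uniformizer`, `exists_hz` — uniformisers inside the chart ring, in the literal shape of
  the hypothesis `hz` of `Diag.exists_diag_unit`.
-/
import Mathlib
import Fermat.Agent.MW.HtM.AffRing
import Fermat.Agent.BAD.NodalRiemann

set_option autoImplicit false

noncomputable section

namespace Fermat.Agent.MW.HtM.Aff

open AlgebraicCurve IntermediateField Fermat.Agent.Lib.FF Fermat.Agent.BAD.NodalRiemann
open WithZero IsDedekindDomain

variable {K F : Type*} [Field K] [Field F] [Algebra K F] {x : F}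

/-! ### The value at a place -/

theorem exists_cong_of_mem (h : IsFF1 K F x) (P : Place K F) (hP : 0 ≤ P.ord x)
    (f : aff K x) : ∃ c : K, Cong P (f : F) c :=
  exists_cong (h.resK P) (P.adicValuation_le_one_of_mem (f.2 P hP))

/-- The value at a place `P` at which `x` is regular, as a `K`-algebra homomorphism on the
chart ring. -/
def ev (h : IsFF1 K F x) (P : Place K F) (hP : 0 ≤ P.ord x) : aff K x →ₐ[K] K where
  toFun f := (exists_cong_of_mem h P hP f).choose
  map_one' := (exists_cong_of_mem h P hP 1).choose_spec.unique (by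
    have := cong_algebraMap P (1 : K)
    rwa [map_one] at this)
  map_mul' f g := (exists_cong_of_mem h P hP (f * g)).choose_spec.unique
    ((exists_cong_of_mem h P hP f).choose_spec.mul (exists_cong_of_mem h P hP g).choose_spec)
  map_zero' := (exists_cong_of_mem h P hP 0).choose_spec.unique (cong_zero P)
  map_add' f g := (exists_cong_of_mem h P hP (f + g)).choose_spec.unique
    ((exists_cong_of_mem h P hP f).choose_spec.add (exists_cong_of_mem h P hP g).choose_spec)
  commutes' c := (exists_cong_of_mem h P hP (algebraMap K (aff K x) c)).choose_spec.unique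
    (cong_algebraMap P c)

theorem cong_ev (h : IsFF1 K F x) (P : Place K F) (hP : 0 ≤ P.ord x) (f : aff K x) :
    Cong P (f : F) (ev h P hP f) :=
  (exists_cong_of_mem h P hP f).choose_spec

theorem ev_eq_iff (h : IsFF1 K F x) (P : Place K F) (hP : 0 ≤ P.ord x) (f : aff K x) (c : K) :
    ev h P hP f = c ↔ Cong P (f : F) c :=
  ⟨fun e => e ▸ cong_ev h P hP f, fun hc => (cong_ev h P hP f).unique hc⟩

theorem cong_zero_iff (P : Place K F) (f : F) : Cong P f 0 ↔ f = 0 ∨ 0 < P.ord f := by
  unfold Cong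
  rw [map_zero, sub_zero]
  rcases eq_or_ne f 0 with rfl | hf
  · simp
  · rw [P.adicValuation_eq_exp_neg_ord hf, ← exp_zero, exp_lt_exp]
    constructor
    · intro h
      right
      omega
    · rintro (h | h)
      · exact absurd h hf
      · omega

theorem ev_eq_zero_iff (h : IsFF1 K F x) (P : Place K F) (hP : 0 ≤ P.ord x) (f : aff K x) :
    ev h P hP f = 0 ↔ (f : F) = 0 ∨ 0 < P.ord (f : F) := by
  rw [ev_eq_iff, cong_zero_iff]

theorem ord_nonneg (P : Place K F) (hP : 0 ≤ P.ord x) (f : aff K x) : 0 ≤ P.ord (f : F) :=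
  Fermat.Agent.S24.ord_nonneg_of_mem P (f.2 P hP)

theorem ord_eq_zero_of_ev_ne_zero (h : IsFF1 K F x) (P : Place K F) (hP : 0 ≤ P.ord x)
    (f : aff K x) (hf : ev h P hP f ≠ 0) : P.ord (f : F) = 0 := by
  have h1 := ord_nonneg P hP f
  have h2 : ¬ ((f : F) = 0 ∨ 0 < P.ord (f : F)) := fun hh => hf ((ev_eq_zero_iff h P hP f).mpr hh)
  push Not at h2
  omega

theorem ev_surjective (R : aff K x →ₐ[K] K) : Function.Surjective R :=
  fun c => ⟨algebraMap K (aff K x) c, by simp⟩

/-! ### Points are places -/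

section Separable

variable [Algebra.IsSeparable K⟮x⟯ F]

omit [Algebra.IsSeparable K⟮x⟯ F] in
theorem ker_isMaximal (R : aff K x →ₐ[K] K) : (RingHom.ker R.toRingHom).IsMaximal :=
  RingHom.ker_isMaximal_of_surjective R.toRingHom (ev_surjective R)

omit [Algebra.IsSeparable K⟮x⟯ F] in
theorem ker_ne_bot (h : IsFF1 K F x) (R : aff K x →ₐ[K] K) : RingHom.ker R.toRingHom ≠ ⊥ := by
  intro hbot
  let xx : aff K x := ⟨x, self_mem_aff x⟩
  have hmem : xx - algebraMap K (aff K x) (R xx) ∈ RingHom.ker R.toRingHom := by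
    rw [RingHom.mem_ker]
    simp
  rw [hbot, Ideal.mem_bot, sub_eq_zero] at hmem
  have hx : x = algebraMap K F (R xx) := congrArg Subtype.val hmem
  exact h.transcendental (hx ▸ isAlgebraic_algebraMap _)

/-- The discreteness of `ℤᵐ⁰`: below `1` means at most `exp (-1)`. -/
theorem le_exp_neg_one_of_lt_one {a : ℤᵐ⁰} (ha : a < 1) : a ≤ exp (-1 : ℤ) := by
  rcases eq_or_ne a 0 with rfl | h0
  · exact zero_le
  · rw [← exp_log h0, ← exp_zero, exp_lt_exp] at ha
    rw [← exp_log h0, exp_le_exp]
    omega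

omit [Algebra.IsSeparable K⟮x⟯ F] in
/-- **Points are places** (existence, with the comparison of the two valuations): for a
`K`-point `R` of the chart ring there is a place `P`, regular for `x`, such that the adic
valuation of the chart ring at `ker R` is the valuation of `P`. -/
theorem exists_place_valuation [IsDedekindDomain (aff K x)] [IsFractionRing (aff K x) F]
    (h : IsFF1 K F x) (R : aff K x →ₐ[K] K) :
    ∃ (v : HeightOneSpectrum (aff K x)) (P : Place K F),
      v.asIdeal = RingHom.ker R.toRingHom ∧ 0 ≤ P.ord x ∧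
        ∀ g : F, v.valuation F g = P.adicValuation g := by
  have := h.finiteDimensional
  have := ker_isMaximal R
  let v : HeightOneSpectrum (aff K x) :=
    ⟨RingHom.ker R.toRingHom, Ideal.IsMaximal.isPrime inferInstance, ker_ne_bot h R⟩
  let V : ValuationSubring F := (v.valuation F).valuationSubring
  have hV_mem : ∀ g : F, g ∈ V ↔ v.valuation F g ≤ 1 := fun g => Iff.rfl
  have haff : ∀ f : aff K x, (f : F) ∈ V := fun f => v.valuation_le_one f
  have hK : ∀ a : K, algebraMap K F a ∈ V := fun a => haff (algebraMap K (aff K x) a)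
  -- a nonzero element of the kernel
  obtain ⟨s, hs, hs0⟩ : ∃ s : aff K x, s ∈ v.asIdeal ∧ s ≠ 0 := by
    by_contra hcon
    push Not at hcon
    exact v.ne_bot ((Submodule.eq_bot_iff _).mpr hcon)
  have hsF : (s : F) ≠ 0 := fun h0 => hs0 (Subtype.ext h0)
  have hs1 : v.valuation F (s : F) < 1 := (v.valuation_lt_one_iff_mem s).mpr hs
  have hVtop : V ≠ ⊤ := by
    intro htop
    have : (s : F)⁻¹ ∈ V := htop ▸ ValuationSubring.mem_top _
    rw [hV_mem, map_inv₀] at this
    have h2 : 1 ≤ v.valuation F (s : F) := by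
      have hne : v.valuation F (s : F) ≠ 0 := (Valuation.ne_zero_iff _).mpr hsF
      exact (inv_le_one₀ (zero_lt_iff.mpr hne)).mp this
    exact absurd hs1 (not_lt.mpr h2)
  let P : Place K F := Holo.placeOfValuationSubring x V hK hVtop
  have hPV : ∀ g : F, g ∈ P.toValuationSubring ↔ v.valuation F g ≤ 1 := fun g => Iff.rfl
  have hPx : 0 ≤ P.ord x :=
    Fermat.Agent.S24.ord_nonneg_of_mem P (haff ⟨x, self_mem_aff x⟩)
  -- units
  have hunit : ∀ g : F, v.valuation F g = 1 → P.ord g = 0 := by
    intro g hg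
    have hg0 : g ≠ 0 := by
      rintro rfl
      simp at hg
    have h1 : 0 ≤ P.ord g := Fermat.Agent.S24.ord_nonneg_of_mem P ((hPV g).mpr hg.le)
    have h2 : 0 ≤ P.ord g⁻¹ := by
      refine Fermat.Agent.S24.ord_nonneg_of_mem P ((hPV _).mpr ?_)
      rw [map_inv₀, hg, inv_one]
    rw [P.ord_inv] at h2
    omega
  -- non-units have positive order
  have hpos : ∀ g : F, g ≠ 0 → v.valuation F g < 1 → 0 < P.ord g := by
    intro g hg0 hg
    rw [Fermat.Agent.S24.ord_pos_iff, hPV, map_inv₀, not_le]
    have hne : v.valuation F g ≠ 0 := (Valuation.ne_zero_iff _).mpr hg0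
    exact (one_lt_inv₀ (zero_lt_iff.mpr hne)).mpr hg
  -- a uniformiser of `v` in the chart ring has order one at `P`
  obtain ⟨ϖ, hϖ⟩ := v.intValuation_exists_uniformizer
  have hϖv : v.valuation F (ϖ : F) = exp (-1 : ℤ) := by
    have := v.valuation_of_algebraMap (K := F) ϖ
    rw [hϖ] at this
    exact this
  have hϖ0 : (ϖ : F) ≠ 0 := by
    intro h0
    rw [h0, map_zero] at hϖv
    exact exp_ne_zero hϖv.symm
  have hϖpos : 0 < P.ord (ϖ : F) := hpos _ hϖ0 (by rw [hϖv, ← exp_zero, exp_lt_exp]; norm_num)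
  have hϖ1 : P.ord (ϖ : F) = 1 := by
    obtain ⟨π, hπ⟩ := IsDiscreteValuationRing.exists_irreducible P.toValuationSubring
    have hπ1 : P.ord (π : F) = 1 := P.ord_coe_irreducible hπ
    have hπ0 : (π : F) ≠ 0 := by
      intro h0
      rw [h0] at hπ1
      simp at hπ1
    have hπv : v.valuation F (π : F) ≤ exp (-1 : ℤ) := by
      apply le_exp_neg_one_of_lt_one
      have hmem : (π : F) ∈ P.toValuationSubring := π.2
      have hnot : (π : F)⁻¹ ∉ P.toValuationSubring := by
        rw [← Fermat.Agent.S24.ord_pos_iff, hπ1]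
        norm_num
      rw [hPV, map_inv₀, not_le] at hnot
      have hne : v.valuation F (π : F) ≠ 0 := (Valuation.ne_zero_iff _).mpr hπ0
      exact (one_lt_inv₀ (zero_lt_iff.mpr hne)).mp hnot
    -- `ϖ / π ^ ord ϖ` is a unit at `P`
    set n : ℤ := P.ord (ϖ : F) with hn
    have hu : P.ord ((ϖ : F) * ((π : F) ^ n)⁻¹) = 0 := by
      rw [P.ord_mul hϖ0 (inv_ne_zero (zpow_ne_zero _ hπ0)), P.ord_inv, P.ord_zpow, hπ1]
      ring
    have hu1 : v.valuation F ((ϖ : F) * ((π : F) ^ n)⁻¹) = 1 := by
      have hu0 : (ϖ : F) * ((π : F) ^ n)⁻¹ ≠ 0 :=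
        mul_ne_zero hϖ0 (inv_ne_zero (zpow_ne_zero _ hπ0))
      have ha : v.valuation F ((ϖ : F) * ((π : F) ^ n)⁻¹) ≤ 1 :=
        (hPV _).mp (Fermat.Agent.S24.mem_of_ord_nonneg P (by rw [hu]))
      have hb : v.valuation F ((ϖ : F) * ((π : F) ^ n)⁻¹)⁻¹ ≤ 1 :=
        (hPV _).mp (Fermat.Agent.S24.mem_of_ord_nonneg P (by rw [P.ord_inv, hu]; simp))
      rw [map_inv₀] at hb
      have hne : v.valuation F ((ϖ : F) * ((π : F) ^ n)⁻¹) ≠ 0 := (Valuation.ne_zero_iff _).mpr hu0
      exact le_antisymm ha ((inv_le_one₀ (zero_lt_iff.mpr hne)).mp hb)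
    rw [map_mul, map_inv₀, map_zpow₀, hϖv] at hu1
    have hπne : v.valuation F (π : F) ≠ 0 := (Valuation.ne_zero_iff _).mpr hπ0
    have hEq : exp (-1 : ℤ) = v.valuation F (π : F) ^ n := by
      have hz : v.valuation F (π : F) ^ n ≠ 0 := zpow_ne_zero _ hπne
      field_simp at hu1
      exact hu1
    have hle : v.valuation F (π : F) ^ n ≤ exp (-1 : ℤ) ^ n := by
      have hn0 : 0 ≤ n := hϖpos.le
      obtain ⟨m, hm⟩ := Int.eq_ofNat_of_zero_le hn0
      rw [hm, zpow_natCast, zpow_natCast]
      exact pow_le_pow_left₀ zero_le hπv m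
    rw [← hEq, ← exp_zsmul, exp_le_exp] at hle
    simp only [smul_eq_mul] at hle
    omega
  refine ⟨v, P, rfl, hPx, ?_⟩
  intro g
  rcases eq_or_ne g 0 with rfl | hg0
  · simp
  · rw [P.adicValuation_eq_exp_neg_ord hg0]
    have hne : v.valuation F g ≠ 0 := (Valuation.ne_zero_iff _).mpr hg0
    set k : ℤ := log (v.valuation F g) with hk
    have hvg : v.valuation F g = exp k := (exp_log hne).symm
    have hu1 : v.valuation F (g * ((ϖ : F) ^ (-k))⁻¹) = 1 := by
      rw [map_mul, map_inv₀, map_zpow₀, hϖv, hvg, ← exp_zsmul]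
      simp only [smul_eq_mul, mul_neg, mul_one, neg_neg]
      exact mul_inv_cancel₀ exp_ne_zero
    have h0 := hunit _ hu1
    rw [P.ord_mul hg0 (inv_ne_zero (zpow_ne_zero _ hϖ0)), P.ord_inv, P.ord_zpow, hϖ1] at h0
    rw [hvg, exp_inj]
    omega

omit [Algebra.IsSeparable K⟮x⟯ F] in
/-- A place whose value map is `R` is the place attached to `ker R`. -/
theorem eq_of_ev_eq [IsDedekindDomain (aff K x)] [IsFractionRing (aff K x) F]
    (h : IsFF1 K F x) (R : aff K x →ₐ[K] K) (v : HeightOneSpectrum (aff K x)) (P₀ : Place K F)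
    (hv : v.asIdeal = RingHom.ker R.toRingHom)
    (hval : ∀ g : F, v.valuation F g = P₀.adicValuation g)
    (Q : Place K F) (hQ : 0 ≤ Q.ord x) (e : ev h Q hQ = R) : P₀ = Q := by
  apply Fermat.Agent.S24.place_eq_of_le
  intro g hg
  rcases eq_or_ne g 0 with rfl | hg0
  · exact zero_mem _
  have h1 : v.valuation F g ≤ 1 := by
    rw [hval]
    exact P₀.adicValuation_le_one_of_mem hg
  obtain ⟨n, d, hnd⟩ := v.exists_primeCompl_mul_eq_of_integer g h1
  have hd : R (d : aff K x) ≠ 0 := by
    intro h0
    have hmem : (d : aff K x) ∈ RingHom.ker R.toRingHom := h0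
    rw [← hv] at hmem
    exact d.2 hmem
  have hd' : ev h Q hQ (d : aff K x) ≠ 0 := by
    rw [e]
    exact hd
  have hordd : Q.ord (((d : aff K x) : aff K x) : F) = 0 :=
    ord_eq_zero_of_ev_ne_zero h Q hQ _ hd'
  have hd0 : (((d : aff K x) : aff K x) : F) ≠ 0 := by
    intro h0
    apply hd
    have : (d : aff K x) = 0 := Subtype.ext h0
    rw [this]
    exact map_zero _
  have hnd' : g * (((d : aff K x) : aff K x) : F) = ((n : aff K x) : F) := hnd
  have hn0 : ((n : aff K x) : F) ≠ 0 := hnd' ▸ mul_ne_zero hg0 hd0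
  have hordn : 0 ≤ Q.ord ((n : aff K x) : F) := ord_nonneg Q hQ n
  apply Fermat.Agent.S24.mem_of_ord_nonneg
  have := Q.ord_mul hg0 hd0
  rw [hnd', hordd] at this
  omega

/-- **Points are places**: every `K`-point of the chart ring is the value map of a place. -/
theorem exists_place_of_algHom (h : IsFF1 K F x) (R : aff K x →ₐ[K] K) :
    ∃ (P : Place K F) (hP : 0 ≤ P.ord x), ev h P hP = R := by
  have := isDedekindDomain h
  have := isFractionRing h
  obtain ⟨v, P, hv, hP, hval⟩ := exists_place_valuation h R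
  refine ⟨P, hP, AlgHom.ext fun f => ?_⟩
  rw [ev_eq_iff]
  unfold Cong
  rw [← hval]
  have hmem : f - algebraMap K (aff K x) (R f) ∈ v.asIdeal := by
    rw [hv, RingHom.mem_ker]
    simp
  have hcoe : algebraMap (aff K x) F (f - algebraMap K (aff K x) (R f))
      = (f : F) - algebraMap K F (R f) := rfl
  rw [← hcoe]
  exact (v.valuation_lt_one_iff_mem _).mpr hmem

/-- The value map determines the place. -/
theorem ev_injective (h : IsFF1 K F x) {P P' : Place K F} (hP : 0 ≤ P.ord x)
    (hP' : 0 ≤ P'.ord x) (e : ev h P hP = ev h P' hP') : P = P' := by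
  have := isDedekindDomain h
  have := isFractionRing h
  obtain ⟨v, P₀, hv, -, hval⟩ := exists_place_valuation h (ev h P hP)
  have h1 := eq_of_ev_eq h (ev h P hP) v P₀ hv hval P hP rfl
  have h2 := eq_of_ev_eq h (ev h P hP) v P₀ hv hval P' hP' e.symm
  rw [← h1, h2]

/-- The `𝔪`-adic filtration at a point of the chart ring is the filtration by the order at the
corresponding place. -/
theorem mem_ker_pow_iff (h : IsFF1 K F x) (P : Place K F) (hP : 0 ≤ P.ord x) (f : aff K x)
    (n : ℕ) :
    f ∈ RingHom.ker (ev h P hP).toRingHom ^ n ↔ f = 0 ∨ (n : ℤ) ≤ P.ord (f : F) := by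
  have := isDedekindDomain h
  have := isFractionRing h
  obtain ⟨v, P₀, hv, -, hval⟩ := exists_place_valuation h (ev h P hP)
  have hPP := eq_of_ev_eq h (ev h P hP) v P₀ hv hval P hP rfl
  subst hPP
  rw [← hv, ← v.intValuation_le_pow_iff_mem, ← v.valuation_of_algebraMap (K := F), hval]
  rcases eq_or_ne f 0 with rfl | hf
  · simp
  · have hfF : (f : F) ≠ 0 := fun h0 => hf (Subtype.ext h0)
    show P₀.adicValuation (f : F) ≤ exp (-(n : ℤ)) ↔ _
    rw [P₀.adicValuation_eq_exp_neg_ord hfF, exp_le_exp]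
    constructor
    · intro hh
      right
      omega
    · rintro (hh | hh)
      · exact absurd hh hf
      · omega

/-- A uniformiser at `P` inside the chart ring. -/
theorem exists_uniformizer (h : IsFF1 K F x) (P : Place K F) (hP : 0 ≤ P.ord x) :
    ∃ z : aff K x, P.ord (z : F) = 1 := by
  have := isDedekindDomain h
  have := isFractionRing h
  obtain ⟨v, P₀, hv, -, hval⟩ := exists_place_valuation h (ev h P hP)
  have hPP := eq_of_ev_eq h (ev h P hP) v P₀ hv hval P hP rfl
  subst hPP
  obtain ⟨ϖ, hϖ⟩ := v.intValuation_exists_uniformizer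
  refine ⟨ϖ, ?_⟩
  have h1' := v.valuation_of_algebraMap (K := F) ϖ
  rw [hϖ, hval] at h1'
  have h1 : P₀.adicValuation (ϖ : F) = exp (-1 : ℤ) := h1'
  have h0 : (ϖ : F) ≠ 0 := by
    intro h0
    rw [h0, map_zero] at h1
    exact exp_ne_zero h1.symm
  rw [P₀.adicValuation_eq_exp_neg_ord h0, exp_inj] at h1
  omega

/-- Any element of order one at `P` is a uniformiser of the chart ring at the point `P`, in the
literal shape of the hypothesis `hz` of `Diag.exists_diag_unit`. -/
theorem hz_of_ord_eq_one (h : IsFF1 K F x) (P : Place K F) (hP : 0 ≤ P.ord x) (z : aff K x)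
    (hz : P.ord (z : F) = 1) (y : aff K x) (hy : ev h P hP y = 0) :
    ∃ c : K, y - c • (z - algebraMap K (aff K x) (ev h P hP z)) ∈
      RingHom.ker (ev h P hP).toRingHom ^ 2 := by
  have hz0 : ev h P hP z = 0 := by
    rw [ev_eq_zero_iff]
    right
    omega
  have hzF : (z : F) ≠ 0 := by
    intro h0
    rw [h0] at hz
    simp at hz
  rw [hz0, map_zero, sub_zero]
  rw [ev_eq_zero_iff] at hy
  rcases hy with hy | hy
  · refine ⟨0, ?_⟩
    have : y = 0 := Subtype.ext hy
    rw [this, zero_smul, sub_zero]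
    exact zero_mem _
  · have hyF : (y : F) ≠ 0 := by
      intro h0
      rw [h0] at hy
      simp at hy
    have hq : P.adicValuation ((y : F) / (z : F)) ≤ 1 := by
      rw [P.adicValuation_le_one_iff]
      right
      rw [div_eq_mul_inv, P.ord_mul hyF (inv_ne_zero hzF), P.ord_inv, hz]
      omega
    obtain ⟨c, hc⟩ := exists_cong (h.resK P) hq
    refine ⟨c, ?_⟩
    rw [mem_ker_pow_iff]
    by_cases h0 : y - c • z = 0
    · exact Or.inl h0
    · right
      have h0F : ((y - c • z : aff K x) : F) ≠ 0 := fun hh => h0 (Subtype.ext hh)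
      have hfac : ((y - c • z : aff K x) : F)
          = (z : F) * ((y : F) / (z : F) - algebraMap K F c) := by
        have : ((y - c • z : aff K x) : F) = (y : F) - algebraMap K F c * (z : F) := by
          rw [Algebra.smul_def]
          rfl
        rw [this]
        field_simp
      have hne : (y : F) / (z : F) - algebraMap K F c ≠ 0 := by
        intro hh
        rw [hfac, hh, mul_zero] at h0F
        exact h0F rfl
      have hpos : 0 < P.ord ((y : F) / (z : F) - algebraMap K F c) := by
        have hc' : P.adicValuation ((y : F) / (z : F) - algebraMap K F c) < 1 := hc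
        rw [P.adicValuation_eq_exp_neg_ord hne, ← exp_zero, exp_lt_exp] at hc'
        omega
      rw [hfac, P.ord_mul hzF hne, hz]
      push_cast
      omega

/-- **Uniformisers exist**, in the literal shape of `hz` of `Diag.exists_diag_unit`. -/
theorem exists_hz (h : IsFF1 K F x) (R : aff K x →ₐ[K] K) :
    ∃ z : aff K x, ∀ y : aff K x, R y = 0 →
      ∃ c : K, y - c • (z - algebraMap K (aff K x) (R z)) ∈ RingHom.ker R.toRingHom ^ 2 := by
  obtain ⟨P, hP, rfl⟩ := exists_place_of_algHom h R
  obtain ⟨z, hz⟩ := exists_uniformizer h P hP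
  exact ⟨z, fun y hy => hz_of_ord_eq_one h P hP z hz y hy⟩

end Separable

end Fermat.Agent.MW.HtM.Aff
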