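/-
MW / [H-M] — THE DETERMINANT BOUND (local half of the Hadamard estimates (HadK), (HadR)),
derived abstractly from the uniform interpolation bound (M≤) alone.

For a finite family `f : ι → F` of functions having a value at every place `≠ pinf`, a selection
`σ : Fin n → ι` and pairwise distinct places `P 0, …, P (n-1)` (all `≠ pinf`):

  `|det (f (σ i) (P j))|_v ^ m ≤ C v * (∏ j, max 1 |t (P j)|_v) ^ M * (∏_{i<j} δ v (P i) (P j)) ^ m`

with a tame constant `C` depending only on `(f, n)`.

Proof: induction on `n`; Laplace expansion along the last point `S = P n` exhibits the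
determinant as the value at `S` of `φ = ∑ ± minor_i • f (σ i)`, which vanishes at the other
points; (M≤) for `φ` with `D = ∑ P j`, the coefficients being bounded by the induction hypothesis.

`MLe` is the (M≤) statement for ONE family with the zero-divisor hypothesis guarded by
`R ≠ pinf` (the field `mle` of `HtM.LocalHt` with that guard).
-/
import Mathlib
import Fermat.Prelude.Def_AlgebraicCurve_DivisorClassGroup
import Fermat.Agent.MW.HtM.Tame
import Fermat.Agent.MW.HtM.Local
import Fermat.Agent.MW.HQ.Defs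

set_option autoImplicit false

namespace Fermat.Agent.MW.HtM.DetBound

open AlgebraicCurve

variable {K F V : Type*} [Field K] [Field F] [Algebra K F]

/-! ### Functions with a value at a place -/

/-- `f` has a value at `P`: there is a constant `c` with `f - c ∈ 𝔪_P`. -/
def HasVal (P : Place K F) (f : F) : Prop :=
  ∃ c : K, P.adicValuation (f - algebraMap K F c) < 1

theorem HasVal.spec {P : Place K F} {f : F} (h : HasVal P f) :
    P.adicValuation (f - algebraMap K F (pval P f)) < 1 := pval_spec P h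

theorem hasVal_algebraMap (P : Place K F) (c : K) : HasVal P (algebraMap K F c) :=
  ⟨c, by simp⟩

theorem hasVal_zero (P : Place K F) : HasVal P (0 : F) := by
  simpa using hasVal_algebraMap P (0 : K)

theorem HasVal.add {P : Place K F} {f g : F} (hf : HasVal P f) (hg : HasVal P g) :
    HasVal P (f + g) ∧ pval P (f + g) = pval P f + pval P g := by
  have h : P.adicValuation (f + g - algebraMap K F (pval P f + pval P g)) < 1 := by
    have e : f + g - algebraMap K F (pval P f + pval P g)
        = (f - algebraMap K F (pval P f)) + (g - algebraMap K F (pval P g)) := by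
      rw [map_add]; ring
    rw [e]
    exact lt_of_le_of_lt (Valuation.map_add _ _ _) (max_lt hf.spec hg.spec)
  exact ⟨⟨_, h⟩, pval_eq P h⟩

theorem HasVal.smul {P : Place K F} {f : F} (c : K) (hf : HasVal P f) :
    HasVal P (c • f) ∧ pval P (c • f) = c * pval P f := by
  have h : P.adicValuation (c • f - algebraMap K F (c * pval P f)) < 1 := by
    have e : c • f - algebraMap K F (c * pval P f)
        = algebraMap K F c * (f - algebraMap K F (pval P f)) := by
      rw [map_mul, Algebra.smul_def]; ring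
    rw [e, map_mul]
    rcases eq_or_ne c 0 with rfl | hc
    · simp
    · rw [adicValuation_algebraMap P hc, one_mul]
      exact hf.spec
  exact ⟨⟨_, h⟩, pval_eq P h⟩

theorem HasVal.sum {P : Place K F} {ι : Type*} (s : Finset ι) (a : ι → K) (f : ι → F)
    (h : ∀ i ∈ s, HasVal P (f i)) :
    HasVal P (∑ i ∈ s, a i • f i) ∧ pval P (∑ i ∈ s, a i • f i) = ∑ i ∈ s, a i * pval P (f i) := by
  classical
  induction s using Finset.induction_on with
  | empty => exact ⟨by simpa using hasVal_zero P, by simp⟩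
  | insert i s hi ih =>
    have h1 := (h i (Finset.mem_insert_self i s)).smul (a i)
    have h2 := ih fun j hj => h j (Finset.mem_insert_of_mem hj)
    rw [Finset.sum_insert hi, Finset.sum_insert hi]
    refine ⟨(h1.1.add h2.1).1, ?_⟩
    rw [(h1.1.add h2.1).2, h1.2, h2.2]

/-- A function with a value at `P` is regular at `P`. -/
theorem HasVal.ord_nonneg {P : Place K F} {f : F} (h : HasVal P f) : 0 ≤ P.ord f := by
  rcases eq_or_ne f 0 with rfl | hf
  · simp
  obtain ⟨c, hc⟩ := h
  have h1 : P.adicValuation f ≤ 1 := by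
    have e : f = (f - algebraMap K F c) + algebraMap K F c := by ring
    rw [e]
    refine (Valuation.map_add _ _ _).trans (max_le hc.le ?_)
    rcases eq_or_ne c 0 with rfl | hc0
    · simp
    · exact (adicValuation_algebraMap P hc0).le
  have h2 : WithZero.log (P.adicValuation f) ≤ WithZero.log (1 : WithZero (Multiplicative ℤ)) :=
    (WithZero.log_le_log (P.adicValuation_ne_zero hf) one_ne_zero).mpr h1
  rw [WithZero.log_one] at h2
  unfold Place.ord
  omega

/-- A nonzero function with value `0` at `P` vanishes at `P`. -/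
theorem HasVal.one_le_ord {P : Place K F} {f : F} (h : HasVal P f) (h0 : pval P f = 0)
    (hf : f ≠ 0) : 1 ≤ P.ord f := by
  have h1 : P.adicValuation f < 1 := by
    have := h.spec
    rwa [h0, map_zero, sub_zero] at this
  have h2 : WithZero.log (P.adicValuation f) < WithZero.log (1 : WithZero (Multiplicative ℤ)) :=
    (WithZero.log_lt_log (P.adicValuation_ne_zero hf) one_ne_zero).mpr h1
  rw [WithZero.log_one] at h2
  unfold Place.ord
  omega

/-! ### Divisors that are sums of points -/

theorem deg_sum_single {P : Type*} {κ : Type*} (s : Finset κ) (Q : κ → P) :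
    HQ.deg (∑ j ∈ s, Finsupp.single (Q j) 1) = s.card := by
  classical
  induction s using Finset.induction_on with
  | empty => simp
  | insert i s hi ih =>
    rw [Finset.sum_insert hi, HQ.deg_add, ih, Finset.card_insert_of_notMem hi]
    have : HQ.deg (Finsupp.single (Q i) 1) = 1 := by
      unfold HQ.deg
      rw [Finsupp.sum_single_index rfl]
    omega

theorem prod_sum_single {P : Type*} {κ : Type*} (s : Finset κ) (Q : κ → P) (d : P → ℝ) :
    (∑ j ∈ s, Finsupp.single (Q j) 1).prod (fun R n => d R ^ n) = ∏ j ∈ s, d (Q j) := by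
  classical
  rw [← Finsupp.prod_finsetSum_index (fun _ => pow_zero _) (fun _ _ _ => pow_add _ _ _)]
  refine Finset.prod_congr rfl fun j _ => ?_
  rw [show ((Finsupp.single (Q j) 1).prod fun R n => d R ^ n) = d (Q j) ^ 1 from
    Finsupp.prod_single_index (pow_zero _), pow_one]

theorem sum_single_apply_of_injective {P : Type*} {κ : Type*} [Fintype κ] (Q : κ → P)
    (hQ : Function.Injective Q) (j : κ) :
    (∑ j : κ, Finsupp.single (Q j) 1 : P →₀ ℕ) (Q j) = 1 := by
  classical
  rw [Finsupp.finsetSum_apply]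
  simp only [Finsupp.single_apply, hQ.eq_iff]
  simp

theorem sum_single_apply_of_notMem {P : Type*} {κ : Type*} [Fintype κ] (Q : κ → P) (R : P)
    (hR : ∀ j, Q j ≠ R) : (∑ j : κ, Finsupp.single (Q j) 1 : P →₀ ℕ) R = 0 := by
  classical
  rw [Finsupp.finsetSum_apply]
  simp [hR]

/-! ### The interpolation bound for one family -/

/-- **(M≤) for the family `f`**, zero divisors of degree `≤ k`; the zero-divisor hypothesis is
required only at the places `R ≠ pinf`. -/
def MLe (Ab : AbsFamily K V) (pinf : Place K F) (t : F) (m : ℕ)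
    (δ : V → Place K F → Place K F → ℝ) {ι : Type*} [Fintype ι] (f : ι → F) (M k : ℕ) : Prop :=
  ∃ C : V → ℝ, Tame C ∧ ∀ (v : V) (a : ι → K) (A : ℝ), 0 ≤ A →
    (∀ i, Ab.abv v (a i) ≤ A) → ∀ S : Place K F, S ≠ pinf → ∀ D : Place K F →₀ ℕ,
    HQ.deg D ≤ k → D pinf = 0 → (∀ R, R ≠ pinf → (D R : ℤ) ≤ R.ord (∑ i, a i • f i)) →
    Ab.abv v (pval S (∑ i, a i • f i)) ^ m ≤
      C v * A ^ m * max 1 (Ab.abv v (pval S t)) ^ M * (D.prod fun R n => δ v R S ^ n) ^ m

/-! ### Products over pairs -/

theorem prod_pairs_succ {n : ℕ} (d : Fin (n + 1) → Fin (n + 1) → ℝ) :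
    (∏ i, ∏ j, if i < j then d i j else 1) =
      (∏ i : Fin n, ∏ j : Fin n, if i < j then d i.castSucc j.castSucc else 1) *
        ∏ i : Fin n, d i.castSucc (Fin.last n) := by
  rw [Fin.prod_univ_castSucc]
  have h1 : (∏ j : Fin (n + 1), if Fin.last n < j then d (Fin.last n) j else 1) = 1 := by
    refine Finset.prod_eq_one fun j _ => ?_
    rw [if_neg (not_lt.mpr (Fin.le_last j))]
  rw [h1, mul_one, ← Finset.prod_mul_distrib]
  refine Finset.prod_congr rfl fun i _ => ?_
  rw [Fin.prod_univ_castSucc, if_pos (Fin.castSucc_lt_last i)]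
  congr 1

/-! ### The determinant bound -/

section Det

variable (Ab : AbsFamily K V) (pinf : Place K F) (t : F) (m : ℕ)
  (δ : V → Place K F → Place K F → ℝ)

/-- Laplace expansion along the last point, as a function of that point. -/
theorem det_snoc {ι : Type*} (f : ι → F) {n : ℕ} (σ : Fin (n + 1) → ι)
    (P' : Fin n → Place K F) (Q : Place K F) :
    Matrix.det (Matrix.of fun i j => pval (Fin.snoc (α := fun _ => Place K F) P' Q j) (f (σ i)))
      = ∑ i : Fin (n + 1), ((-1) ^ ((i : ℕ) + n) *
          Matrix.det (Matrix.of fun (i' : Fin n) (j' : Fin n) =>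
            pval (P' j') (f (σ (i.succAbove i'))))) * pval Q (f (σ i)) := by
  rw [Matrix.det_succ_column _ (Fin.last n)]
  refine Finset.sum_congr rfl fun i _ => ?_
  have e : (Matrix.of fun i j => pval (Fin.snoc (α := fun _ => Place K F) P' Q j)
        (f (σ i))).submatrix i.succAbove (Fin.last n).succAbove
      = Matrix.of fun (i' : Fin n) (j' : Fin n) => pval (P' j') (f (σ (i.succAbove i'))) := by
    ext i' j'
    simp [Fin.succAbove_last]
  rw [e]
  simp only [Matrix.of_apply, Fin.snoc_last, Fin.val_last]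
  ring

theorem det_bound (hδ0 : ∀ v R S, 0 ≤ δ v R S) {ι : Type*} [Fintype ι] (f : ι → F) (M : ℕ)
    (hval : ∀ i, ∀ P : Place K F, P ≠ pinf → HasVal P (f i))
    (hmle : ∀ k, MLe Ab pinf t m δ f M k) (n : ℕ) :
    ∃ C : V → ℝ, Tame C ∧ ∀ (v : V) (σ : Fin n → ι) (P : Fin n → Place K F),
      (∀ j, P j ≠ pinf) → Function.Injective P →
      Ab.abv v (Matrix.det (Matrix.of fun i j => pval (P j) (f (σ i)))) ^ m ≤
        C v * (∏ j, max 1 (Ab.abv v (pval (P j) t))) ^ M *
          (∏ i, ∏ j, if i < j then δ v (P i) (P j) else 1) ^ m := by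
  classical
  induction n with
  | zero =>
    refine ⟨fun _ => 1, Tame.one, fun v σ P _ _ => ?_⟩
    simp
  | succ n ih =>
    obtain ⟨C₁, hC₁, h₁⟩ := ih
    obtain ⟨C₂, hC₂, h₂⟩ := hmle n
    refine ⟨fun v => C₂ v * (Ab.archN (n + 1) v ^ m * C₁ v),
      hC₂.mul (((Ab.tame_archN (n + 1)).pow m).mul hC₁), fun v σ P hP hinj => ?_⟩
    -- notation
    set S : Place K F := P (Fin.last n) with hS
    set P' : Fin n → Place K F := fun j => P j.castSucc with hP'
    have hPsnoc : (Fin.snoc (α := fun _ => Place K F) P' S) = P := by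
      funext j
      refine Fin.lastCases ?_ (fun j' => ?_) j
      · simp [hS]
      · simp [hP']
    have hP'inj : Function.Injective P' := fun j j' h => Fin.castSucc_injective n (hinj h)
    have hP'inf : ∀ j, P' j ≠ pinf := fun j => hP _
    have hP'S : ∀ j, P' j ≠ S := fun j h =>
      (Fin.castSucc_lt_last j).ne (hinj h)
    set minor : Fin (n + 1) → K := fun i =>
      Matrix.det (Matrix.of fun (i' : Fin n) (j' : Fin n) =>
        pval (P' j') (f (σ (i.succAbove i')))) with hminor
    set c : Fin (n + 1) → K := fun i => (-1) ^ ((i : ℕ) + n) * minor i with hc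
    set a : ι → K := fun ι' => ∑ i, if σ i = ι' then c i else 0 with ha
    -- the function φ
    have hφ : (∑ ι', a ι' • f ι') = ∑ i, c i • f (σ i) := by
      simp only [ha, Finset.sum_smul]
      rw [Finset.sum_comm]
      refine Finset.sum_congr rfl fun i _ => ?_
      simp [ite_smul]
    have hvalφ : ∀ Q : Place K F, Q ≠ pinf →
        HasVal Q (∑ ι', a ι' • f ι') ∧ pval Q (∑ ι', a ι' • f ι') =
          Matrix.det (Matrix.of fun i j =>
            pval (Fin.snoc (α := fun _ => Place K F) P' Q j) (f (σ i))) := by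
      intro Q hQ
      rw [hφ, det_snoc]
      exact HasVal.sum (P := Q) Finset.univ c (fun i => f (σ i)) fun i _ => hval (σ i) Q hQ
    -- positive bounds of the right-hand side
    have hC₁pos := hC₁.pos v
    have hC₂pos := hC₂.pos v
    have hNpos := (Ab.tame_archN (n + 1)).pos v
    have hX1 : 1 ≤ ∏ j, max 1 (Ab.abv v (pval (P j) t)) :=
      Finset.prod_induction _ (fun x => (1 : ℝ) ≤ x)
        (fun _ _ ha hb => one_le_mul_of_one_le_of_one_le ha hb) le_rfl
        (fun j _ => le_max_left _ _)
    have hY0 : 0 ≤ ∏ i, ∏ j, if i < j then δ v (P i) (P j) else 1 :=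
      Finset.prod_nonneg fun i _ => Finset.prod_nonneg fun j _ => by
        split_ifs
        · exact hδ0 _ _ _
        · exact zero_le_one
    by_cases hm : m = 0
    · subst hm
      simp only [pow_zero, mul_one, one_mul]
      have h1 : 1 ≤ C₂ v * C₁ v := one_le_mul_of_one_le_of_one_le (hC₂.1 v) (hC₁.1 v)
      have h2 : 1 ≤ (∏ j, max 1 (Ab.abv v (pval (P j) t))) ^ M := one_le_pow₀ hX1
      exact one_le_mul_of_one_le_of_one_le h1 h2
    have hRHS0 : 0 ≤ C₂ v * (Ab.archN (n + 1) v ^ m * C₁ v) *
        (∏ j, max 1 (Ab.abv v (pval (P j) t))) ^ M *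
          (∏ i, ∏ j, if i < j then δ v (P i) (P j) else 1) ^ m := by
      have : 0 ≤ (∏ j, max 1 (Ab.abv v (pval (P j) t))) := le_trans zero_le_one hX1
      positivity
    -- the determinant is the value of φ at S
    have hdet : Matrix.det (Matrix.of fun i j => pval (P j) (f (σ i)))
        = pval S (∑ ι', a ι' • f ι') := by
      rw [(hvalφ S (hP _)).2, hPsnoc]
    rw [hdet]
    by_cases hφ0 : (∑ ι', a ι' • f ι') = 0
    · rw [hφ0, pval_zero, map_zero, zero_pow hm]
      exact hRHS0
    -- φ vanishes at the points P' j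
    have hzero : ∀ j, pval (P' j) (∑ ι', a ι' • f ι') = 0 := by
      intro j
      rw [(hvalφ (P' j) (hP'inf j)).2]
      refine Matrix.det_zero_of_column_eq (i := j.castSucc) (j := Fin.last n)
        (Fin.castSucc_lt_last j).ne fun k => ?_
      simp
    -- the divisor D
    set D : Place K F →₀ ℕ := ∑ j : Fin n, Finsupp.single (P' j) 1 with hD
    have hDdeg : HQ.deg D ≤ n := by
      rw [hD, deg_sum_single]; simp
    have hDinf : D pinf = 0 := sum_single_apply_of_notMem P' pinf hP'inf
    have hDord : ∀ R, R ≠ pinf → (D R : ℤ) ≤ R.ord (∑ ι', a ι' • f ι') := by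
      intro R hR
      by_cases hRP : ∃ j, P' j = R
      · obtain ⟨j, rfl⟩ := hRP
        rw [hD, sum_single_apply_of_injective P' hP'inj j]
        exact_mod_cast (hvalφ _ hR).1.one_le_ord (hzero j) hφ0
      · push Not at hRP
        rw [hD, sum_single_apply_of_notMem P' R hRP]
        exact_mod_cast (hvalφ _ hR).1.ord_nonneg
    have hDprod : (D.prod fun R n => δ v R S ^ n) = ∏ j : Fin n, δ v (P' j) S := by
      rw [hD]; exact prod_sum_single Finset.univ P' (fun R => δ v R S)
    -- the bound of the coefficients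
    obtain ⟨i₀, -, hi₀⟩ := Finset.exists_mem_eq_sup' (Finset.univ_nonempty (α := Fin (n + 1)))
      (fun i => Ab.abv v (minor i))
    set μ : ℝ := Ab.abv v (minor i₀) with hμ
    have hμle : ∀ i, Ab.abv v (minor i) ≤ μ := fun i =>
      le_trans (Finset.le_sup' (fun i => Ab.abv v (minor i)) (Finset.mem_univ i)) hi₀.le
    have hμ0 : 0 ≤ μ := (Ab.abv v).nonneg _
    have hcabv : ∀ i, Ab.abv v (c i) = Ab.abv v (minor i) := by
      intro i
      simp only [hc]
      rw [(Ab.abv v).map_mul, map_pow, (Ab.abv v).map_neg, map_one, one_pow, one_mul]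
    have hA : ∀ ι', Ab.abv v (a ι') ≤ Ab.archN (n + 1) v * μ := by
      intro ι'
      have := Ab.abv_sum_le v (Finset.univ : Finset (Fin (n + 1)))
        (fun i => if σ i = ι' then c i else 0) hμ0 (fun i _ => by
          split_ifs
          · rw [hcabv]; exact hμle i
          · simpa using hμ0)
      simpa using this
    have hmle' := h₂ v a (Ab.archN (n + 1) v * μ) (mul_nonneg hNpos.le hμ0) hA S (hP _) D
      hDdeg hDinf hDord
    -- the induction hypothesis for the maximal minor
    have hih := h₁ v (fun i' => σ (i₀.succAbove i')) P' hP'inf hP'inj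
    have hih' : μ ^ m ≤ C₁ v * (∏ j, max 1 (Ab.abv v (pval (P' j) t))) ^ M *
        (∏ i, ∏ j, if i < j then δ v (P' i) (P' j) else 1) ^ m := hih
    -- assemble
    have hXsplit : (∏ j, max 1 (Ab.abv v (pval (P j) t)))
        = (∏ j, max 1 (Ab.abv v (pval (P' j) t))) * max 1 (Ab.abv v (pval S t)) := by
      rw [Fin.prod_univ_castSucc]
    have hYsplit : (∏ i, ∏ j, if i < j then δ v (P i) (P j) else 1)
        = (∏ i, ∏ j, if i < j then δ v (P' i) (P' j) else 1) * ∏ j : Fin n, δ v (P' j) S :=
      prod_pairs_succ fun i j => δ v (P i) (P j)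
    rw [hXsplit, hYsplit]
    rw [hDprod] at hmle'
    have hZ0 : 0 ≤ ∏ j : Fin n, δ v (P' j) S := Finset.prod_nonneg fun j _ => hδ0 _ _ _
    have hxS : 0 ≤ max 1 (Ab.abv v (pval S t)) := le_trans zero_le_one (le_max_left _ _)
    calc Ab.abv v (pval S (∑ ι', a ι' • f ι')) ^ m
        ≤ C₂ v * (Ab.archN (n + 1) v * μ) ^ m * max 1 (Ab.abv v (pval S t)) ^ M *
            (∏ j : Fin n, δ v (P' j) S) ^ m := hmle'
      _ = C₂ v * Ab.archN (n + 1) v ^ m * max 1 (Ab.abv v (pval S t)) ^ M *
            (∏ j : Fin n, δ v (P' j) S) ^ m * μ ^ m := by rw [mul_pow]; ring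
      _ ≤ C₂ v * Ab.archN (n + 1) v ^ m * max 1 (Ab.abv v (pval S t)) ^ M *
            (∏ j : Fin n, δ v (P' j) S) ^ m *
            (C₁ v * (∏ j, max 1 (Ab.abv v (pval (P' j) t))) ^ M *
              (∏ i, ∏ j, if i < j then δ v (P' i) (P' j) else 1) ^ m) := by
          refine mul_le_mul_of_nonneg_left hih' ?_
          positivity
      _ = _ := by rw [mul_pow, mul_pow]; ring

/-! ### Logarithmic forms -/

/-- Sums over ordered pairs `i ≠ j` of a symmetric function are twice the sums over `i < j`. -/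
theorem sum_ne_eq_two_mul_sum_lt {n : ℕ} (x : Fin n → Fin n → ℝ) (hx : ∀ i j, x i j = x j i) :
    (∑ i, ∑ j, if i ≠ j then x i j else 0) = 2 * ∑ i, ∑ j, if i < j then x i j else 0 := by
  have h1 : ∀ i j : Fin n, (if i ≠ j then x i j else 0)
      = (if i < j then x i j else 0) + (if j < i then x j i else 0) := by
    intro i j
    rcases lt_trichotomy i j with h | h | h
    · simp [h, h.ne, h.not_gt]
    · simp [h]
    · simp [h, h.ne', h.not_gt, hx i j]
  simp only [h1, Finset.sum_add_distrib]
  rw [Finset.sum_comm (f := fun i j => if j < i then x j i else 0)]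
  ring

/-- **Determinant bound, logarithmic form**: for a nonvanishing determinant and positive local
distances,
`m · ∑_{i<j} (−log δ v (P i) (P j)) ≤ log C v + M · ∑ j, log⁺ |t (P j)|_v − m · log |det|_v`. -/
theorem det_bound_log (hδ0 : ∀ v R S, 0 ≤ δ v R S)
    (hδpos : ∀ v R S, R ≠ pinf → S ≠ pinf → R ≠ S → 0 < δ v R S)
    {ι : Type*} [Fintype ι] (f : ι → F) (M : ℕ)
    (hval : ∀ i, ∀ P : Place K F, P ≠ pinf → HasVal P (f i))
    (hmle : ∀ k, MLe Ab pinf t m δ f M k) (n : ℕ) :
    ∃ C : V → ℝ, Tame C ∧ ∀ (v : V) (σ : Fin n → ι) (P : Fin n → Place K F),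
      (∀ j, P j ≠ pinf) → Function.Injective P →
      Matrix.det (Matrix.of fun i j => pval (P j) (f (σ i))) ≠ 0 →
      (m : ℝ) * ∑ i, ∑ j, (if i < j then -Real.log (δ v (P i) (P j)) else 0) ≤
        Real.log (C v) + (M : ℝ) * ∑ j, Real.log (max 1 (Ab.abv v (pval (P j) t)))
          - (m : ℝ) * Real.log (Ab.abv v (Matrix.det (Matrix.of fun i j =>
              pval (P j) (f (σ i))))) := by
  obtain ⟨C, hC, h⟩ := det_bound Ab pinf t m δ hδ0 f M hval hmle n
  refine ⟨C, hC, fun v σ P hP hinj hdet => ?_⟩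
  have h0 := h v σ P hP hinj
  have hd : 0 < Ab.abv v (Matrix.det (Matrix.of fun i j => pval (P j) (f (σ i)))) :=
    (Ab.abv v).pos hdet
  have hX : ∀ j, 0 < max 1 (Ab.abv v (pval (P j) t)) := fun j =>
    lt_of_lt_of_le one_pos (le_max_left _ _)
  have hY : ∀ i j, 0 < (if i < j then δ v (P i) (P j) else 1) := fun i j => by
    split_ifs with hij
    · exact hδpos v _ _ (hP i) (hP j) (fun e => hij.ne (hinj e))
    · exact one_pos
  have hXp : 0 < ∏ j, max 1 (Ab.abv v (pval (P j) t)) := Finset.prod_pos fun j _ => hX j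
  have hYp : 0 < ∏ i, ∏ j, (if i < j then δ v (P i) (P j) else 1) :=
    Finset.prod_pos fun i _ => Finset.prod_pos fun j _ => hY i j
  have h1 := Real.log_le_log (pow_pos hd m) h0
  rw [Real.log_pow, Real.log_mul (mul_pos (hC.pos v) (pow_pos hXp M)).ne' (pow_pos hYp m).ne',
    Real.log_mul (hC.pos v).ne' (pow_pos hXp M).ne', Real.log_pow, Real.log_pow,
    Real.log_prod (fun j _ => (hX j).ne'),
    Real.log_prod (fun i _ => (Finset.prod_pos fun j _ => hY i j).ne')] at h1
  have h2 : (∑ i, Real.log (∏ j, (if i < j then δ v (P i) (P j) else 1)))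
      = -∑ i, ∑ j, (if i < j then -Real.log (δ v (P i) (P j)) else 0) := by
    rw [← Finset.sum_neg_distrib]
    refine Finset.sum_congr rfl fun i _ => ?_
    rw [Real.log_prod (fun j _ => (hY i j).ne'), ← Finset.sum_neg_distrib]
    refine Finset.sum_congr rfl fun j _ => ?_
    split_ifs <;> simp
  rw [h2] at h1
  linarith

/-- **Determinant bound, logarithmic form over ordered pairs** (`δ` symmetric):
`m · ∑_{i≠j} (−log δ v (P i) (P j)) ≤ 2 · (log C v + M · ∑ j, log⁺ |t (P j)|_v − m · log |det|_v)`. -/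
theorem det_bound_log_ne (hδ0 : ∀ v R S, 0 ≤ δ v R S)
    (hδsymm : ∀ v R S, δ v R S = δ v S R)
    (hδpos : ∀ v R S, R ≠ pinf → S ≠ pinf → R ≠ S → 0 < δ v R S)
    {ι : Type*} [Fintype ι] (f : ι → F) (M : ℕ)
    (hval : ∀ i, ∀ P : Place K F, P ≠ pinf → HasVal P (f i))
    (hmle : ∀ k, MLe Ab pinf t m δ f M k) (n : ℕ) :
    ∃ C : V → ℝ, Tame C ∧ ∀ (v : V) (σ : Fin n → ι) (P : Fin n → Place K F),
      (∀ j, P j ≠ pinf) → Function.Injective P →
      Matrix.det (Matrix.of fun i j => pval (P j) (f (σ i))) ≠ 0 →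
      (m : ℝ) * ∑ i, ∑ j, (if i ≠ j then -Real.log (δ v (P i) (P j)) else 0) ≤
        2 * (Real.log (C v) + (M : ℝ) * ∑ j, Real.log (max 1 (Ab.abv v (pval (P j) t)))
          - (m : ℝ) * Real.log (Ab.abv v (Matrix.det (Matrix.of fun i j =>
              pval (P j) (f (σ i)))))) := by
  obtain ⟨C, hC, h⟩ := det_bound_log Ab pinf t m δ hδ0 hδpos f M hval hmle n
  refine ⟨C, hC, fun v σ P hP hinj hdet => ?_⟩
  have h0 := h v σ P hP hinj hdet
  rw [sum_ne_eq_two_mul_sum_lt (fun i j => -Real.log (δ v (P i) (P j)))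
    (fun i j => by rw [hδsymm])]
  linarith

end Det

end Fermat.Agent.MW.HtM.DetBound
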