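/-
MW / [H-M] (b) — the FUNCTION-FIELD HALF of the fibre Lipschitz bound `lip`.

`F/K` a function field of one variable over an algebraically closed field of characteristic
zero, `s ∈ F` transcendental, `Rg K s` its chart ring (`RegRing.lean`), points = places at which
`s` is regular (`RegRing.ptEquiv`).

* `fibre s hs τ` : the fibre of `s` over `τ` as a multiset of POINTS of the chart ring, each
  point `S` with multiplicity `ord_S (s - τ)`; `card_fibre : card = [F : K(s)]`;
* `exists_poly` : for a function `y` of the chart ring having a pole at every pole of `s`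
  ("good node"), the characteristic polynomial `G ∈ K[Y][T]` of `s` over `K[y]`, with
  `G(y, s) = 0` and, for every `τ`, `G(Y, τ) ≠ 0` with roots the values `y(S)`, `S` in the fibre
  of `τ`, with multiplicity — the inputs (i), (ii) of `fibre_data_of_poly` / `fibre_lip_of_poly`.
-/
import Mathlib
import Fermat.Agent.MW.HtM.RegRing
import Fermat.Agent.MW.HtM.FibrePoly
import Fermat.Agent.MW.Adj.Roots
import Fermat.Agent.S24.Transfer

set_option autoImplicit false
set_option linter.style.haveILetI false
set_option linter.unusedSectionVars false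

noncomputable section

namespace Fermat.Agent.MW.HtM.FibreNorm

open AlgebraicCurve IntermediateField Polynomial
open Fermat.Agent.Lib.FF Fermat.Agent.Lib.FF.IntP Fermat.Agent.S24
open Fermat.Agent.MW.HtM.RegRing

universe uK uF

variable {K : Type uK} {F : Type uF} [Field K] [Field F] [Algebra K F]
variable [IsAlgClosed K] [CharZero K]
variable (s : F) (hs : Transcendental K s) [FiniteDimensional K⟮s⟯ F]

/-! ### Points and places -/

/-- The place of a point of the chart ring. -/
def plc (R : Rg K s →ₐ[K] K) : Place K F := (ptEquiv s hs R).1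

theorem plc_injective : Function.Injective (plc s hs) := fun _ _ h =>
  (ptEquiv s hs).injective (Subtype.ext h)

theorem ord_plc_nonneg (R : Rg K s →ₐ[K] K) : 0 ≤ (plc s hs R).ord s := (ptEquiv s hs R).2

theorem exists_plc_eq (P : Place K F) (hP : 0 ≤ P.ord s) : ∃ R, plc s hs R = P :=
  ⟨(ptEquiv s hs).symm ⟨P, hP⟩, by simp [plc]⟩

/-- The value of a function of the chart ring at a point, in terms of the place. -/
theorem apply_eq_iff (R : Rg K s →ₐ[K] K) (c : Rg K s) (γ : K) :
    R c = γ ↔ (0 < (plc s hs R).ord ((c : F) - algebraMap K F γ) ∨ (c : F) = algebraMap K F γ) := by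
  have h0 : R c = γ ↔ R (c - algebraMap K (Rg K s) γ) = 0 := by
    rw [map_sub, AlgHom.commutes, Algebra.algebraMap_self_apply, sub_eq_zero]
  rw [h0, apply_eq_zero_iff s hs R]
  have h1 : ((c - algebraMap K (Rg K s) γ : Rg K s) : F) = (c : F) - algebraMap K F γ := rfl
  have h2 : c - algebraMap K (Rg K s) γ = 0 ↔ (c : F) = algebraMap K F γ := by
    rw [← sub_eq_zero (a := (c : F)), ← h1]
    exact ⟨fun h => by rw [h]; rfl, fun h => Subtype.ext h⟩
  rw [h2]
  rfl

omit [IsAlgClosed K] [CharZero K] [FiniteDimensional K⟮s⟯ F] in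
theorem coe_xInt : ((xInt K s : Rg K s) : F) = s := rfl

omit [IsAlgClosed K] [CharZero K] [FiniteDimensional K⟮s⟯ F] in
include hs in
theorem sub_const_ne_zero (τ : K) : s - algebraMap K F τ ≠ 0 := fun h =>
  hs (sub_eq_zero.mp h ▸ isAlgebraic_algebraMap τ)

/-- The value of `s` at a point. -/
theorem apply_xInt_eq_iff (R : Rg K s →ₐ[K] K) (τ : K) :
    R (xInt K s) = τ ↔ 0 < (plc s hs R).ord (s - algebraMap K F τ) := by
  rw [apply_eq_iff s hs R, coe_xInt]
  constructor
  · rintro (h | h)
    · exact h
    · exact absurd (sub_eq_zero.mpr h) (sub_const_ne_zero s hs τ)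
  · exact fun h => Or.inl h

theorem ord_sub_nonneg (R : Rg K s →ₐ[K] K) (τ : K) :
    0 ≤ (plc s hs R).ord (s - algebraMap K F τ) :=
  RegRing.ord_nonneg s hs R (xInt K s - algebraMap K (Rg K s) τ)

/-! ### The fibre -/

/-- The places of the fibre of `s` over `τ`. -/
def fibreSet (τ : K) : Finset (Place K F) :=
  (Transfer.placesOver_finite_sum s hs τ).choose.toFinset

theorem mem_fibreSet {τ : K} {P : Place K F} :
    P ∈ fibreSet s hs τ ↔ 0 < P.ord (s - algebraMap K F τ) := by
  rw [fibreSet, Set.Finite.mem_toFinset]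
  rfl

theorem sum_fibreSet (τ : K) :
    ∑ P ∈ fibreSet s hs τ, P.ord (s - algebraMap K F τ) = (Module.finrank K⟮s⟯ F : ℤ) :=
  (Transfer.placesOver_finite_sum s hs τ).choose_spec

omit [IsAlgClosed K] [CharZero K] [FiniteDimensional K⟮s⟯ F] in
/-- A place of a fibre is not a pole. -/
theorem ord_nonneg_of_ord_sub_pos {τ : K} {P : Place K F}
    (h : 0 < P.ord (s - algebraMap K F τ)) : 0 ≤ P.ord s :=
  IntP.ord_nonneg_of_mem_placesOver (x := s) (γ := τ) h

theorem finite_fibrePts (τ : K) :
    {R : Rg K s →ₐ[K] K | 0 < (plc s hs R).ord (s - algebraMap K F τ)}.Finite := by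
  have h1 : {R : Rg K s →ₐ[K] K | 0 < (plc s hs R).ord (s - algebraMap K F τ)}
      = plc s hs ⁻¹' (fibreSet s hs τ : Set (Place K F)) := by
    ext R
    simp [mem_fibreSet]
  rw [h1]
  exact (fibreSet s hs τ).finite_toSet.preimage (plc_injective s hs).injOn

/-- The points of the fibre of `s` over `τ`. -/
def fibrePts (τ : K) : Finset (Rg K s →ₐ[K] K) := (finite_fibrePts s hs τ).toFinset

theorem mem_fibrePts {τ : K} {R : Rg K s →ₐ[K] K} :
    R ∈ fibrePts s hs τ ↔ 0 < (plc s hs R).ord (s - algebraMap K F τ) := by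
  rw [fibrePts, Set.Finite.mem_toFinset]
  rfl

theorem mem_fibrePts_iff_apply {τ : K} {R : Rg K s →ₐ[K] K} :
    R ∈ fibrePts s hs τ ↔ R (xInt K s) = τ := by
  rw [mem_fibrePts, apply_xInt_eq_iff]

theorem image_fibrePts [DecidableEq (Place K F)] (τ : K) :
    (fibrePts s hs τ).image (plc s hs) = fibreSet s hs τ := by
  ext P
  rw [Finset.mem_image, mem_fibreSet]
  constructor
  · rintro ⟨R, hR, rfl⟩
    exact (mem_fibrePts s hs).mp hR
  · intro hP
    obtain ⟨R, rfl⟩ := exists_plc_eq s hs P (ord_nonneg_of_ord_sub_pos s hP)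
    exact ⟨R, (mem_fibrePts s hs).mpr hP, rfl⟩

/-- Transport of sums/products from the points of a fibre to its places. -/
theorem prod_fibrePts {M : Type*} [CommMonoid M] (τ : K) (g : Place K F → M) :
    ∏ R ∈ fibrePts s hs τ, g (plc s hs R) = ∏ P ∈ fibreSet s hs τ, g P := by
  classical
  rw [← image_fibrePts s hs τ, Finset.prod_image fun _ _ _ _ h => plc_injective s hs h]

theorem sum_fibrePts {M : Type*} [AddCommMonoid M] (τ : K) (g : Place K F → M) :
    ∑ R ∈ fibrePts s hs τ, g (plc s hs R) = ∑ P ∈ fibreSet s hs τ, g P := by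
  classical
  rw [← image_fibrePts s hs τ, Finset.sum_image fun _ _ _ _ h => plc_injective s hs h]

/-- The multiplicity of a point in the fibre of `τ`: the order of `s - τ` at its place. -/
def mult (τ : K) (R : Rg K s →ₐ[K] K) : ℕ :=
  ((plc s hs R).ord (s - algebraMap K F τ)).toNat

theorem natCast_mult (τ : K) (R : Rg K s →ₐ[K] K) :
    (mult s hs τ R : ℤ) = (plc s hs R).ord (s - algebraMap K F τ) :=
  Int.toNat_of_nonneg (ord_sub_nonneg s hs R τ)

theorem mult_pos_iff {τ : K} {R : Rg K s →ₐ[K] K} :
    0 < mult s hs τ R ↔ R ∈ fibrePts s hs τ := by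
  rw [mem_fibrePts, ← natCast_mult]
  exact Nat.cast_pos.symm

/-- **The fibre of `s` over `τ`** as a multiset of points of the chart ring, every point `S`
with multiplicity `ord_S (s - τ)`. -/
def fibre (τ : K) : Multiset (Rg K s →ₐ[K] K) :=
  ∑ R ∈ fibrePts s hs τ, Multiset.replicate (mult s hs τ R) R

theorem count_fibre [DecidableEq (Rg K s →ₐ[K] K)] (τ : K) (R : Rg K s →ₐ[K] K) :
    (fibre s hs τ).count R = mult s hs τ R := by
  rw [fibre, Multiset.count_sum']
  simp only [Multiset.count_replicate]
  rw [Finset.sum_ite_eq' (fibrePts s hs τ) R (fun S => mult s hs τ S)]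
  split_ifs with h
  · rfl
  · have := (mult_pos_iff s hs).not.mpr h
    omega

theorem mem_fibre {τ : K} {R : Rg K s →ₐ[K] K} :
    R ∈ fibre s hs τ ↔ R (xInt K s) = τ := by
  classical
  rw [← Multiset.count_pos, count_fibre, mult_pos_iff, mem_fibrePts_iff_apply]

/-- **The fibre has `[F : K(s)]` points**, counted with multiplicity. -/
theorem card_fibre (τ : K) : Multiset.card (fibre s hs τ) = Module.finrank K⟮s⟯ F := by
  rw [fibre, Multiset.card_sum]
  simp only [Multiset.card_replicate]
  have h1 : ((∑ R ∈ fibrePts s hs τ, mult s hs τ R : ℕ) : ℤ)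
      = (Module.finrank K⟮s⟯ F : ℤ) := by
    rw [Nat.cast_sum, ← sum_fibreSet s hs τ, ← sum_fibrePts s hs τ]
    exact Finset.sum_congr rfl fun R _ => natCast_mult s hs τ R
  exact_mod_cast h1

/-- Products over the fibre: `∏_{S ∈ fibre} g(S) = ∏_{S} g(S) ^ mult(S)`. -/
theorem prod_map_fibre {M : Type*} [CommMonoid M] (τ : K) (g : (Rg K s →ₐ[K] K) → M) :
    ((fibre s hs τ).map g).prod = ∏ R ∈ fibrePts s hs τ, g R ^ mult s hs τ R := by
  have h1 : (fibre s hs τ).map g
      = ∑ R ∈ fibrePts s hs τ, (Multiset.replicate (mult s hs τ R) R).map g :=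
    map_sum (Multiset.mapAddMonoidHom g) _ _
  rw [h1, Multiset.prod_sum]
  refine Finset.prod_congr rfl fun R _ => ?_
  rw [Multiset.map_replicate, Multiset.prod_replicate]

/-- The count of a value in the image of the fibre. -/
theorem count_map_fibre {β : Type*} [DecidableEq β] (τ : K) (g : (Rg K s →ₐ[K] K) → β) (c : β) :
    Multiset.count c ((fibre s hs τ).map g)
      = ∑ R ∈ (fibrePts s hs τ).filter (fun R => g R = c), mult s hs τ R := by
  have h1 : (fibre s hs τ).map g
      = ∑ R ∈ fibrePts s hs τ, (Multiset.replicate (mult s hs τ R) R).map g :=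
    map_sum (Multiset.mapAddMonoidHom g) _ _
  rw [h1, Multiset.count_sum', Finset.sum_filter]
  refine Finset.sum_congr rfl fun R _ => ?_
  rw [Multiset.map_replicate, Multiset.count_replicate]

/-! ### Cayley–Hamilton and the norm, for a finite free algebra -/

section Abstract

theorem aeval_charpoly_lmul {R₀ O : Type*} [CommRing R₀] [CommRing O] [Algebra R₀ O]
    [Module.Free R₀ O] [Module.Finite R₀ O] (a : O) :
    aeval a (Algebra.lmul R₀ O a).charpoly = 0 := by
  have h1 := LinearMap.aeval_self_charpoly (Algebra.lmul R₀ O a)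
  rw [Polynomial.aeval_algHom_apply] at h1
  have h2 := congrArg (fun f => f 1) h1
  simpa using h2

theorem eval_charpoly_lmul {R₀ O : Type*} [CommRing R₀] [CommRing O] [Algebra R₀ O]
    [Module.Free R₀ O] [Module.Finite R₀ O] (a : O) (r : R₀) :
    (Algebra.lmul R₀ O a).charpoly.eval r = Algebra.norm R₀ (algebraMap R₀ O r - a) := by
  rw [LinearMap.eval_charpoly, Algebra.norm_apply]
  congr 1
  rw [map_sub (Algebra.lmul R₀ O), AlgHom.commutes]

open Fermat.Agent.MW.Adj.Roots in
/-- The characteristic polynomial over `K[y]` of an element `a` of `O_y`, as a polynomial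
`G ∈ K[Y][T]`: `G(y, a) = 0` and `G(Y, τ)` is the norm polynomial of `τ - a`. -/
theorem exists_poly_field {K F : Type*} [Field K] [Field F] [Algebra K F] [IsAlgClosed K]
    [CharZero K] {x : F} (h : IsFF1 K F x) {y : F} (hyt : Transcendental K y)
    (sO : Ot (K := K) y) :
    ∃ G : Polynomial (Polynomial K),
      (G.map (Polynomial.aeval y).toRingHom).eval (sO : F) = 0 ∧
      ∀ τ : K, G.eval (C τ) = normPolyT hyt (algebraMap K (Ot (K := K) y) τ - sO) := by
  haveI := free_Ot h hyt
  haveI := finite_Ot h hyt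
  refine ⟨(Algebra.lmul (Kt K y) (Ot (K := K) y) sO).charpoly.map
    ((polyEquiv hyt).symm : Kt K y →+* K[X]), ?_, ?_⟩
  · have hCH := aeval_charpoly_lmul (R₀ := Kt K y) sO
    have h1 := Polynomial.aeval_algHom_apply (integralClosure (Kt K y) F).val sO
      (Algebra.lmul (Kt K y) (Ot (K := K) y) sO).charpoly
    rw [hCH, map_zero] at h1
    rw [eval_map, eval₂_map]
    have h2 : ((Polynomial.aeval y).toRingHom).comp ((polyEquiv hyt).symm : Kt K y →+* K[X])
        = algebraMap (Kt K y) F := by
      ext c
      change Polynomial.aeval y ((polyEquiv hyt).symm c) = (c : F)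
      rw [← coe_polyEquiv hyt, AlgEquiv.apply_symm_apply]
    rw [h2]
    exact h1
  · intro τ
    have h1 : (C τ : K[X]) = ((polyEquiv hyt).symm : Kt K y →+* K[X])
        (algebraMap K (Kt K y) τ) := by
      change C τ = (polyEquiv hyt).symm (algebraMap K (Kt K y) τ)
      rw [AlgEquiv.commutes]
      rfl
    rw [h1, eval_map, eval₂_at_apply, eval_charpoly_lmul]
    rfl

end Abstract

/-! ### The polynomial of a good node -/

section Node

open Fermat.Agent.MW.Adj.Roots

omit [IsAlgClosed K] [CharZero K] in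
theorem ord_neg' (P : Place K F) (f : F) : P.ord (-f) = P.ord f := by
  rcases eq_or_ne f 0 with rfl | hf
  · simp
  · have h1 : -f = algebraMap K F (-1) * f := by rw [map_neg, map_one]; ring
    have h2 : algebraMap K F (-1) ≠ 0 := by
      rw [map_neg, map_one]; exact neg_ne_zero.mpr one_ne_zero
    rw [h1, P.ord_mul h2 hf, ord_algebraMap, zero_add]

include hs in
/-- A nonconstant function has a pole. -/
theorem exists_pole : ∃ P : Place K F, P.ord s < 0 := by
  obtain ⟨hfin, hsum⟩ := Transfer.polesOf_finite_sum s hs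
  by_contra hne
  push Not at hne
  have hempty : hfin.toFinset = ∅ := by
    ext P
    rw [Set.Finite.mem_toFinset]
    simp only [Finset.notMem_empty, iff_false]
    exact not_lt.mpr (hne P)
  rw [hempty, Finset.sum_empty] at hsum
  have hpos : 0 < Module.finrank K⟮s⟯ F := Module.finrank_pos
  omega

variable (y : Rg K s)

include hs in
/-- A good node is transcendental. -/
theorem transcendental_node (hy : ∀ P : Place K F, P.ord s < 0 → P.ord (y : F) < 0) :
    Transcendental K (y : F) := by
  intro halg
  obtain ⟨c, hc⟩ := exists_eq_algebraMap_of_isAlgebraic halg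
  obtain ⟨P, hP⟩ := exists_pole s hs
  have := hy P hP
  rw [hc, ord_algebraMap] at this
  exact lt_irrefl _ this

include hs in
/-- `s` is integral over `K[y]` for a good node `y`. -/
theorem self_mem_Ot (hy : ∀ P : Place K F, P.ord s < 0 → P.ord (y : F) < 0)
    (hyt : Transcendental K (y : F)) : s ∈ Ot (K := K) (y : F) := by
  rw [mem_Ot_iff (isFF1_of_charZero s hs) hyt]
  intro P hP
  by_contra hneg
  have := hy P (not_le.mp hneg)
  omega

/-- The value of a good node at a point. -/
theorem apply_node_eq_iff (hyt : Transcendental K (y : F)) (R : Rg K s →ₐ[K] K) (c : K) :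
    R y = c ↔ 0 < (plc s hs R).ord ((y : F) - algebraMap K F c) := by
  rw [apply_eq_iff s hs R]
  constructor
  · rintro (h | h)
    · exact h
    · exact absurd (sub_eq_zero.mpr h) (sub_const_ne_zero (y : F) hyt c)
  · exact fun h => Or.inl h

/-- The count of a value of a good node on the fibre, as a sum over places. -/
theorem count_map_node [DecidableEq K] (hy : ∀ P : Place K F, P.ord s < 0 → P.ord (y : F) < 0)
    (hyt : Transcendental K (y : F)) (τ c : K) (fin : Finset (Place K F))
    (hfin : ∀ P, P ∈ fin ↔ 0 < P.ord ((y : F) - algebraMap K F c)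
      ∧ P.ord (algebraMap K F τ - s) ≠ 0) :
    (Multiset.count c ((fibre s hs τ).map fun S => S y) : ℤ)
      = ∑ P ∈ fin, P.ord (algebraMap K F τ - s) := by
  classical
  have hneg : ∀ P : Place K F, P.ord (algebraMap K F τ - s) = P.ord (s - algebraMap K F τ) := by
    intro P
    rw [← ord_neg' P (s - algebraMap K F τ), neg_sub]
  have hfin' : fin = (fibreSet s hs τ).filter
      (fun P => 0 < P.ord ((y : F) - algebraMap K F c)) := by
    ext P
    rw [hfin, Finset.mem_filter, mem_fibreSet, hneg]
    constructor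
    · rintro ⟨h1, h2⟩
      refine ⟨?_, h1⟩
      have h3 : 0 ≤ P.ord (y : F) := ord_nonneg_of_ord_sub_pos (y : F) h1
      have h4 : 0 ≤ P.ord s := by
        by_contra hcon
        have := hy P (not_le.mp hcon)
        omega
      obtain ⟨R, rfl⟩ := exists_plc_eq s hs P h4
      have := ord_sub_nonneg s hs R τ
      omega
    · rintro ⟨h1, h2⟩
      exact ⟨h2, by omega⟩
  rw [count_map_fibre, hfin', Nat.cast_sum, Finset.sum_filter, Finset.sum_filter,
    ← sum_fibrePts s hs τ]
  refine Finset.sum_congr rfl fun R _ => ?_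
  by_cases hR : R y = c
  · rw [if_pos hR, if_pos ((apply_node_eq_iff s hs y hyt R c).mp hR), hneg]
    exact natCast_mult s hs τ R
  · rw [if_neg hR, if_neg fun h => hR ((apply_node_eq_iff s hs y hyt R c).mpr h)]

/-- **The polynomial of a good node**: for a function `y` of the chart ring with a pole at every
pole of `s`, the characteristic polynomial `G ∈ K[Y][T]` of `s` over `K[y]` satisfies the inputs
(i), (ii) of `fibre_data_of_poly`. -/
theorem exists_poly [DecidableEq K] (hy : ∀ P : Place K F, P.ord s < 0 → P.ord (y : F) < 0) :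
    ∃ G : Polynomial (Polynomial K),
      (G.map (Polynomial.aeval y).toRingHom).eval (xInt K s) = 0 ∧
      (∀ τ : K, G.eval (C τ) ≠ 0) ∧
      ∀ τ c : K, (G.eval (C τ)).rootMultiplicity c
        = Multiset.count c ((fibre s hs τ).map fun S => S y) := by
  have h := isFF1_of_charZero s hs
  have hyt := transcendental_node s hs y hy
  obtain ⟨G, hG1, hG2⟩ := exists_poly_field h hyt ⟨s, self_mem_Ot s hs y hy hyt⟩
  have hcoe : ∀ τ : K, ((algebraMap K (Ot (K := K) (y : F)) τ
      - (⟨s, self_mem_Ot s hs y hy hyt⟩ : Ot (K := K) (y : F)) : Ot (K := K) (y : F)) : F)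
      = algebraMap K F τ - s := fun τ => rfl
  have hne : ∀ τ : K, ((algebraMap K (Ot (K := K) (y : F)) τ
      - (⟨s, self_mem_Ot s hs y hy hyt⟩ : Ot (K := K) (y : F)) : Ot (K := K) (y : F)) : F)
      ≠ 0 := by
    intro τ
    rw [hcoe]
    intro h0
    exact sub_const_ne_zero s hs τ (by rw [← neg_sub, h0, neg_zero])
  refine ⟨G, ?_, ?_, ?_⟩
  · apply Subtype.ext
    rw [eval_map] at hG1 ⊢
    have h1 := Polynomial.hom_eval₂ G (Polynomial.aeval y).toRingHom
      (integralClosure (Algebra.adjoin K {s}) F).val.toRingHom (xInt K s)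
    have h2 : ((integralClosure (Algebra.adjoin K {s}) F).val.toRingHom).comp
        (Polynomial.aeval y).toRingHom = (Polynomial.aeval (y : F)).toRingHom :=
      RingHom.ext fun p => (Polynomial.aeval_algHom_apply
        ((integralClosure (Algebra.adjoin K {s}) F).val.restrictScalars K) y p).symm
    rw [h2] at h1
    exact h1.trans hG1
  · intro τ
    rw [hG2]
    exact normPolyT_ne_zero h hyt _ (hne τ)
  · intro τ c
    rw [hG2]
    have key := rootMultiplicity_normPolyT h hyt _ (hne τ) c
    have hfinite : {P : Place K F | 0 < P.ord ((y : F) - algebraMap K F c)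
        ∧ P.ord (algebraMap K F τ - s) ≠ 0}.Finite := by
      haveI := Transfer.finiteDimensional_adjoin_of_transcendental (K := K) s hyt
      obtain ⟨hf, -⟩ := Transfer.placesOver_finite_sum (y : F) hyt c
      exact hf.subset fun P hP => hP.1
    have h2 := key hfinite.toFinset (fun P => by
      rw [Set.Finite.mem_toFinset, hcoe]; rfl)
    have h3 := count_map_node s hs y hy hyt τ c hfinite.toFinset (fun P => by
      rw [Set.Finite.mem_toFinset]; rfl)
    rw [hcoe] at h2
    exact_mod_cast h2.trans h3.symm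

end Node

/-! ### Good nodes exist -/

section GoodNodes

variable {n : ℕ} (x : Fin n → Rg K s) (hx : Algebra.adjoin K (Set.range x) = ⊤)

omit [IsAlgClosed K] [CharZero K] [FiniteDimensional K⟮s⟯ F] in
include hx in
/-- At a pole `P` of `s`, only finitely many Vandermonde combinations of the generators are
regular. -/
theorem finite_bad_at (P : Place K F) (hP : P.ord s < 0) :
    {lam : K | 0 ≤ P.ord ((∑ i : Fin n, lam ^ (i : ℕ) • x i : Rg K s) : F)}.Finite := by
  classical
  -- the `K`-submodule `V_P` of `F`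
  let VP : Submodule K F :=
    { carrier := {f | f ∈ P.toValuationSubring}
      add_mem' := fun ha hb => P.toValuationSubring.add_mem _ _ ha hb
      zero_mem' := P.toValuationSubring.zero_mem
      smul_mem' := fun c f hf => by
        rw [Set.mem_ofPred_eq, Algebra.smul_def]
        exact P.toValuationSubring.mul_mem _ _ (P.algebraMap_mem' c) hf }
  -- the linear map `c ↦ ∑ c_i x_i`
  let L : (Fin n → K) →ₗ[K] F :=
    { toFun := fun c => ((∑ i : Fin n, c i • x i : Rg K s) : F)
      map_add' := fun c d => by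
        simp only [Pi.add_apply, add_smul, Finset.sum_add_distrib]
        rfl
      map_smul' := fun a c => by
        simp only [Pi.smul_apply, smul_eq_mul, mul_smul, ← Finset.smul_sum, RingHom.id_apply]
        rfl }
  have hLapply : ∀ c : Fin n → K, L c = ((∑ i : Fin n, c i • x i : Rg K s) : F) := fun c => rfl
  set W : Submodule K (Fin n → K) := VP.comap L with hW
  have hWlt : W < ⊤ := by
    rw [lt_top_iff_ne_top]
    intro htop
    have hxi : ∀ i, (x i : F) ∈ P.toValuationSubring := by
      intro i
      have h1 : (Pi.single i 1 : Fin n → K) ∈ W := htop ▸ Submodule.mem_top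
      have h2 : L (Pi.single i 1) = (x i : F) := by
        rw [hLapply]
        congr 1
        rw [Finset.sum_eq_single i]
        · simp
        · intro j _ hji
          simp [hji]
        · intro h; exact absurd (Finset.mem_univ i) h
      rw [← h2]
      exact h1
    have hall : ∀ a : Rg K s, (a : F) ∈ P.toValuationSubring := by
      intro a
      have ha : a ∈ Algebra.adjoin K (Set.range x) := hx ▸ Algebra.mem_top
      induction ha using Algebra.adjoin_induction with
      | mem z hz =>
        obtain ⟨i, rfl⟩ := hz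
        exact hxi i
      | algebraMap r => exact P.algebraMap_mem' r
      | add a b _ _ ha hb => exact P.toValuationSubring.add_mem _ _ ha hb
      | mul a b _ _ ha hb => exact P.toValuationSubring.mul_mem _ _ ha hb
    have := ord_nonneg_of_mem P (hall (xInt K s))
    rw [coe_xInt] at this
    omega
  obtain ⟨ℓ, hℓ0, hℓ⟩ := Submodule.exists_le_ker_of_lt_top W hWlt
  set q : K[X] := ∑ i : Fin n, C (ℓ fun j => if i = j then 1 else 0) * X ^ (i : ℕ) with hq
  have hqeval : ∀ lam : K, q.eval lam = ℓ fun i => lam ^ (i : ℕ) := by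
    intro lam
    rw [LinearMap.pi_apply_eq_sum_univ ℓ, hq, eval_finsetSum]
    refine Finset.sum_congr rfl fun i _ => ?_
    rw [eval_mul, eval_C, eval_pow, eval_X, smul_eq_mul, mul_comm]
  have hq0 : q ≠ 0 := by
    intro h0
    apply hℓ0
    apply LinearMap.ext
    intro c
    rw [LinearMap.pi_apply_eq_sum_univ ℓ, LinearMap.zero_apply]
    refine Finset.sum_eq_zero fun i _ => ?_
    have h1 : q.coeff (i : ℕ) = ℓ fun j => if i = j then 1 else 0 := by
      rw [hq, finsetSum_coeff, Finset.sum_eq_single i]
      · rw [coeff_C_mul, coeff_X_pow, if_pos rfl, mul_one]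
      · intro j _ hji
        rw [coeff_C_mul, coeff_X_pow, if_neg (fun h => hji (Fin.ext h).symm), mul_zero]
      · intro h; exact absurd (Finset.mem_univ i) h
    rw [← h1, h0, coeff_zero, smul_zero]
  refine (Polynomial.finite_setOfPred_isRoot hq0).subset fun lam hlam => ?_
  have h1 : (fun i : Fin n => lam ^ (i : ℕ)) ∈ W := by
    rw [hW, Submodule.mem_comap, hLapply]
    exact mem_of_ord_nonneg P hlam
  have h2 := hℓ h1
  rw [LinearMap.mem_ker] at h2
  change q.IsRoot lam
  rw [IsRoot, hqeval]
  exact h2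

include hs hx in
/-- **Good nodes exist**: for any generators of the chart ring and any `N` there are `N`
distinct Vandermonde nodes `λ` such that `y_λ = ∑ λ^i x_i` has a pole at every pole of `s`. -/
theorem exists_good_nodes (N : ℕ) :
    ∃ lam : Fin N → K, Function.Injective lam ∧ ∀ j, ∀ P : Place K F, P.ord s < 0 →
      P.ord ((∑ i : Fin n, lam j ^ (i : ℕ) • x i : Rg K s) : F) < 0 := by
  classical
  obtain ⟨hfin, -⟩ := Transfer.polesOf_finite_sum s hs
  have hbad : (⋃ P ∈ {v : Place K F | v.ord s < 0},
      {lam : K | 0 ≤ P.ord ((∑ i : Fin n, lam ^ (i : ℕ) • x i : Rg K s) : F)}).Finite :=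
    hfin.biUnion fun P hP => finite_bad_at s x hx P hP
  have hinf := hbad.infinite_compl
  obtain ⟨T, hT, hcard⟩ := hinf.exists_subset_card_eq N
  let e : Fin N ≃ T := (Fintype.equivFinOfCardEq (by rw [Fintype.card_coe, hcard])).symm
  refine ⟨fun j => (e j : K), fun a b hab => e.injective (Subtype.ext hab), fun j P hP => ?_⟩
  have h1 : ((e j : T) : K) ∈ (T : Set K) := (e j).2
  have h2 := hT h1
  rw [Set.mem_compl_iff, Set.mem_iUnion₂] at h2
  by_contra hcon
  exact h2 ⟨P, hP, not_lt.mp hcon⟩

end GoodNodes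

/-! ### The chart `lip` -/

section Lip

variable {V : Type*} (Fm : AbsFamily K V)

/-- **(CL) The fibre Lipschitz bound on the chart of `s`**, all hypotheses of `fibre_lip`
discharged: for ANY finite family of generators `x` of the chart ring and a tame radius `ρ`,
  `∏_{S ∈ fibre τ} cdist_v(S, R) ≤ C_v · |s(R) - τ|_v`
for all points `R` with `|s(R)|_v ≤ ρ_v` and all `τ` with `|τ|_v ≤ ρ_v`. -/
theorem fibre_lip_rg {ρ : V → ℝ} (hρ : Tame ρ) {n : ℕ} (x : Fin n → Rg K s)
    (hx : Algebra.adjoin K (Set.range x) = ⊤) :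
    ∃ C : V → ℝ, Tame C ∧ ∀ v, ∀ R ∈ region s Fm ρ v, ∀ τ : K, Fm.abv v τ ≤ ρ v →
      ((fibre s hs τ).map fun S => cdist Fm x v S R).prod
        ≤ C v * Fm.abv v (R (xInt K s) - τ) := by
  classical
  set m := Module.finrank K⟮s⟯ F with hm
  obtain ⟨lam, hlam, hgood⟩ := exists_good_nodes s hs x hx (m * (n - 1) + 1)
  choose G hG1 hG2 hG3 using fun j : Fin (m * (n - 1) + 1) =>
    exists_poly s hs (∑ i : Fin n, lam j ^ (i : ℕ) • x i) (hgood j)
  exact fibre_lip_of_poly Fm (region s Fm ρ) (tbdd s Fm hρ) x (xInt K s) lam hlam m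
    (by rw [Fintype.card_fin]; exact Nat.lt_succ_self _) ρ hρ (fibre s hs)
    (card_fibre s hs) G hG1 hG2 hG3

end Lip

end Fermat.Agent.MW.HtM.FibreNorm
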