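/-
helper77 — MW / [H-M], brick (d): the **local Hadamard bound** from the interpolation bound (M≤).

For a family `f : Fin g → F` of functions regular off `pinf` with pole orders `≤ M` there, and
`g` distinct points `P j ≠ pinf`:

  `|det (f i (P j))|_v ^ m ≤ C v * (∏ j, max 1 |t (P j)|_v) ^ M * (∏ i < j, δ v (P i) (P j)) ^ m`

with a tame constant `C` depending only on `f`.  Induction on `g`: expand along the first column;
`φ = ∑ cofactor_i • f i` vanishes at `P 1, …, P (g-1)` (two equal columns) and its value at `P 0`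
is the determinant; apply (M≤) with `D = P 1 + … + P (g-1)` and bound the cofactors by induction.

`exists_bound` is stated for a plain distance function `δ` with the (M≤) statement `hmle` as a
hypothesis; `exists_hadamard` is the form for `L : LocalHt Ab pinf t m`, and
`exists_hadamard_of_resK` the same with `RR.ResK` at every place as residue hypothesis.
-/
import Mathlib
import Fermat.Prelude.Def_AlgebraicCurve_Repartitions
import Fermat.Agent.MW.HtM.Interface
import Fermat.Agent.MW.HtM.PVal

set_option autoImplicit false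

namespace Fermat.Agent.MW.HtM.Hadamard

open AlgebraicCurve Fermat.Agent.Lib.FF

variable {K F V : Type*} [Field K] [Field F] [Algebra K F]

/-- Every function regular at a place has a value there (trivial residue fields, `ord` form). -/
def HasVals (K F : Type*) [Field K] [Field F] [Algebra K F] : Prop :=
  ∀ (S : Place K F) (u : F), 0 ≤ S.ord u → ∃ c : K, S.adicValuation (u - algebraMap K F c) < 1

/-- Trivial residue fields (`RR.ResK` at every place) give `HasVals`. -/
theorem hasVals_of_resK (h : ∀ P : Place K F, RR.ResK P) : HasVals K F := fun S u hu =>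
  ⟨pval S u, pval_spec_of_mem S (h S)
    (RR.mem_of_val_le_one S (S.adicValuation_le_one_iff.mpr (Or.inr hu)))⟩

theorem adicValuation_smul_le (S : Place K F) (a : K) (x : F) :
    S.adicValuation (a • x) ≤ S.adicValuation x := by
  rw [Algebra.smul_def, map_mul]
  exact mul_le_of_le_one_left' (S.adicValuation_algebraMap_le_one a)

theorem ord_sum_smul_nonneg (S : Place K F) {ι : Type*} (s : Finset ι) (a : ι → K) (u : ι → F)
    (hu : ∀ i ∈ s, 0 ≤ S.ord (u i)) : 0 ≤ S.ord (∑ i ∈ s, a i • u i) := by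
  have h1 : S.adicValuation (∑ i ∈ s, a i • u i) ≤ 1 := by
    refine Valuation.map_sum_le _ fun i hi => ?_
    exact (adicValuation_smul_le S (a i) (u i)).trans
      (S.adicValuation_le_one_iff.mpr (Or.inr (hu i hi)))
  rcases S.adicValuation_le_one_iff.mp h1 with h | h
  · rw [h]; simp
  · exact h

/-- The value of a linear combination of regular functions. -/
theorem pval_sum_smul (hres : HasVals K F) (S : Place K F) {ι : Type*} (s : Finset ι)
    (a : ι → K) (u : ι → F) (hu : ∀ i ∈ s, 0 ≤ S.ord (u i)) :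
    pval S (∑ i ∈ s, a i • u i) = ∑ i ∈ s, a i * pval S (u i) := by
  apply pval_eq
  have h1 : ∑ i ∈ s, a i • u i - algebraMap K F (∑ i ∈ s, a i * pval S (u i))
      = ∑ i ∈ s, a i • (u i - algebraMap K F (pval S (u i))) := by
    rw [map_sum, ← Finset.sum_sub_distrib]
    refine Finset.sum_congr rfl fun i _ => ?_
    rw [smul_sub, map_mul, Algebra.smul_def, Algebra.smul_def]
  rw [h1]
  refine Valuation.map_sum_lt _ one_ne_zero fun i hi => ?_
  exact lt_of_le_of_lt (adicValuation_smul_le S (a i) _) (pval_spec S (hres S (u i) (hu i hi)))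

/-- A nonzero regular function with value `0` at `S` vanishes at `S`. -/
theorem one_le_ord_of_pval_eq_zero (hres : HasVals K F) (S : Place K F) {φ : F} (hφ : φ ≠ 0)
    (hreg : 0 ≤ S.ord φ) (h0 : pval S φ = 0) : 1 ≤ S.ord φ := by
  have h1 := pval_spec S (hres S φ hreg)
  rw [h0, map_zero, sub_zero, S.adicValuation_eq_exp_neg_ord hφ, ← WithZero.exp_zero,
    WithZero.exp_lt_exp] at h1
  omega

open Classical in
/-- The reduced effective divisor of a finite set of places. -/
noncomputable def setDiv (s : Finset (Place K F)) : Place K F →₀ ℕ :=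
  Finsupp.onFinset s (fun R => if R ∈ s then 1 else 0) (fun R hR => by
    by_contra h
    simp [h] at hR)

open Classical in
theorem setDiv_apply (s : Finset (Place K F)) (R : Place K F) :
    setDiv s R = if R ∈ s then 1 else 0 := rfl

theorem deg_setDiv (s : Finset (Place K F)) : HQ.deg (setDiv s) = s.card := by
  classical
  unfold HQ.deg setDiv
  rw [Finsupp.onFinset_sum _ (fun _ => rfl)]
  simp

theorem prod_setDiv (s : Finset (Place K F)) (h : Place K F → ℝ) :
    ((setDiv s).prod fun R n => h R ^ n) = ∏ R ∈ s, h R := by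
  classical
  unfold setDiv
  rw [Finsupp.onFinset_prod _ (fun _ => pow_zero _)]
  refine Finset.prod_congr rfl fun R hR => ?_
  simp [hR]

theorem abv_neg_one_pow_mul (w : AbsoluteValue K ℝ) (k : ℕ) (x : K) :
    w ((-1) ^ k * x) = w x := by
  rw [map_mul, map_pow, w.map_neg, map_one, one_pow, one_mul]

/-- **Local Hadamard bound**, from the interpolation bound (M≤) `hmle` for the distance `δ`. -/
theorem exists_bound (Ab : AbsFamily K V) (pinf : Place K F) (t : F) (m M : ℕ)
    (δ : V → Place K F → Place K F → ℝ)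
    (hδsymm : ∀ v R S, δ v R S = δ v S R) (hδ0 : ∀ v R S, 0 ≤ δ v R S)
    (hres : HasVals K F)
    (hmle : ∀ {ι : Type} [Fintype ι] (f : ι → F),
      (∀ i, ∀ P : Place K F, P ≠ pinf → 0 ≤ P.ord (f i)) → (∀ i, -(M : ℤ) ≤ pinf.ord (f i)) →
      ∀ k : ℕ, ∃ C : V → ℝ, Tame C ∧ ∀ (v : V) (a : ι → K) (A : ℝ), 0 ≤ A →
        (∀ i, Ab.abv v (a i) ≤ A) → ∀ S : Place K F, S ≠ pinf → ∀ D : Place K F →₀ ℕ,
        HQ.deg D ≤ k → D pinf = 0 → (∀ R, R ≠ pinf → (D R : ℤ) ≤ R.ord (∑ i, a i • f i)) →
        Ab.abv v (pval S (∑ i, a i • f i)) ^ m ≤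
          C v * A ^ m * max 1 (Ab.abv v (pval S t)) ^ M * (D.prod fun R n => δ v R S ^ n) ^ m) :
    ∀ (g : ℕ) (f : Fin g → F), (∀ i, ∀ P : Place K F, P ≠ pinf → 0 ≤ P.ord (f i)) →
      (∀ i, -(M : ℤ) ≤ pinf.ord (f i)) →
      ∃ C : V → ℝ, Tame C ∧ ∀ (v : V) (P : Fin g → Place K F), Function.Injective P →
        (∀ j, P j ≠ pinf) →
        Ab.abv v (Matrix.det (Matrix.of fun i j => pval (P j) (f i))) ^ m ≤
          C v * (∏ j, max 1 (Ab.abv v (pval (P j) t))) ^ M *
            (∏ i, ∏ j ∈ Finset.Ioi i, δ v (P i) (P j)) ^ m := by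
  intro g
  induction g with
  | zero =>
    intro f _ _
    refine ⟨fun _ => 1, Tame.one, fun v P _ _ => ?_⟩
    simp
  | succ n ih =>
    intro f hreg hpole
    -- constants for the minors and for (M≤)
    have hminor : ∀ i : Fin (n + 1), ∃ C : V → ℝ, Tame C ∧
        ∀ (v : V) (P : Fin n → Place K F), Function.Injective P → (∀ j, P j ≠ pinf) →
        Ab.abv v (Matrix.det (Matrix.of fun i' j => pval (P j) (f (i.succAbove i')))) ^ m ≤
          C v * (∏ j, max 1 (Ab.abv v (pval (P j) t))) ^ M *
            (∏ i', ∏ j ∈ Finset.Ioi i', δ v (P i') (P j)) ^ m :=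
      fun i => ih (fun i' => f (i.succAbove i')) (fun i' => hreg _) (fun i' => hpole _)
    choose Cm hCm_tame hCm using hminor
    obtain ⟨C', hC'tame, hC'⟩ := hmle f hreg hpole n
    have hprodtame : Tame (fun v => ∏ i, Cm i v) :=
      Tame.prod Finset.univ Cm fun i _ => hCm_tame i
    refine ⟨fun v => C' v * ∏ i, Cm i v, hC'tame.mul hprodtame, ?_⟩
    intro v P hPinj hPinf
    classical
    set A : Matrix (Fin (n + 1)) (Fin (n + 1)) K := Matrix.of fun i j => pval (P j) (f i) with hA
    set c : Fin (n + 1) → K :=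
      fun i => (-1) ^ (i : ℕ) * Matrix.det (A.submatrix i.succAbove Fin.succ) with hc
    set S : Place K F := P 0 with hS
    set P' : Fin n → Place K F := fun j => P j.succ with hP'
    have hP'inj : Function.Injective P' := fun a b h => Fin.succ_injective _ (hPinj h)
    have hP'inf : ∀ j, P' j ≠ pinf := fun j => hPinf j.succ
    -- the values of `φ = ∑ c i • f i`
    have hval : ∀ j : Fin (n + 1), pval (P j) (∑ i, c i • f i) = ∑ i, c i * A i j := fun j =>
      pval_sum_smul hres (P j) Finset.univ c f (fun i _ => hreg i (P j) (hPinf j))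
    have hdet : pval S (∑ i, c i • f i) = A.det := by
      rw [hS, hval 0, Matrix.det_succ_column_zero]
      refine Finset.sum_congr rfl fun i _ => ?_
      simp only [hc]
      ring
    have hvanish : ∀ j : Fin n, pval (P' j) (∑ i, c i • f i) = 0 := by
      intro j
      rw [hP', hval j.succ]
      have hB : (A.updateCol 0 fun i => A i j.succ).det = 0 :=
        Matrix.det_zero_of_column_eq (i := 0) (j := j.succ) (Fin.succ_ne_zero j).symm (fun k => by
          rw [Matrix.updateCol_self, Matrix.updateCol_ne (Fin.succ_ne_zero j)])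
      rw [Matrix.det_succ_column_zero] at hB
      rw [← hB]
      refine Finset.sum_congr rfl fun i _ => ?_
      have hsub : (A.updateCol 0 fun i => A i j.succ).submatrix i.succAbove Fin.succ
          = A.submatrix i.succAbove Fin.succ := by
        ext a b
        simp [Matrix.submatrix_apply]
      rw [hsub, Matrix.updateCol_self]
      simp only [hc]
      ring
    -- notation for the products
    set X' : ℝ := ∏ j, max 1 (Ab.abv v (pval (P' j) t)) with hX'
    set Y' : ℝ := ∏ i', ∏ j ∈ Finset.Ioi i', δ v (P' i') (P' j) with hY'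
    set Z : ℝ := ∏ j, δ v (P' j) S with hZ
    set x₀ : ℝ := max 1 (Ab.abv v (pval S t)) with hx₀
    have hX'1 : 1 ≤ X' := by
      rw [hX']
      exact Finset.prod_induction _ (fun r => (1 : ℝ) ≤ r) (fun a b ha hb => one_le_mul_of_one_le_of_one_le ha hb)
        le_rfl fun j _ => le_max_left _ _
    have hx₀1 : 1 ≤ x₀ := le_max_left _ _
    have hY'0 : 0 ≤ Y' :=
      Finset.prod_nonneg fun i' _ => Finset.prod_nonneg fun j _ => hδ0 _ _ _
    have hZ0 : 0 ≤ Z := Finset.prod_nonneg fun j _ => hδ0 _ _ _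
    have hXeq : ∏ j, max 1 (Ab.abv v (pval (P j) t)) = x₀ * X' := Fin.prod_univ_succ _
    have hYeq : ∏ i, ∏ j ∈ Finset.Ioi i, δ v (P i) (P j) = Z * Y' := by
      rw [Fin.prod_univ_succ, Fin.prod_Ioi_zero (fun j => δ v (P 0) (P j))]
      congr 1
      · rw [hZ]
        exact Finset.prod_congr rfl fun j _ => hδsymm _ _ _
      · rw [hY']
        exact Finset.prod_congr rfl fun i' _ =>
          Fin.prod_Ioi_succ (fun j => δ v (P i'.succ) (P j)) i'
    rw [hXeq, hYeq]
    have hC'1 : 1 ≤ C' v := hC'tame.1 v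
    have hCm1 : 1 ≤ ∏ i, Cm i v := hprodtame.1 v
    by_cases hφ : (∑ i, c i • f i) = 0
    · -- degenerate case: the determinant vanishes
      have h0 : A.det = 0 := by rw [← hdet, hφ, pval_zero]
      rw [h0, map_zero]
      have h1 : (0 : ℝ) ^ m ≤ (Z * Y') ^ m :=
        pow_le_pow_left₀ le_rfl (mul_nonneg hZ0 hY'0) m
      have h2 : (1 : ℝ) ≤ C' v * (∏ i, Cm i v) * (x₀ * X') ^ M :=
        one_le_mul_of_one_le_of_one_le (one_le_mul_of_one_le_of_one_le hC'1 hCm1)
          (one_le_pow₀ (one_le_mul_of_one_le_of_one_le hx₀1 hX'1))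
      exact h1.trans (le_mul_of_one_le_left (pow_nonneg (mul_nonneg hZ0 hY'0) m) h2)
    · -- main case
      obtain ⟨i₀, -, hi₀⟩ := Finset.exists_max_image Finset.univ (fun i => Ab.abv v (c i))
        ⟨0, Finset.mem_univ _⟩
      set s : Finset (Place K F) := Finset.univ.image P' with hs
      have hscard : s.card = n := by
        rw [hs, Finset.card_image_of_injective _ hP'inj, Finset.card_univ, Fintype.card_fin]
      have hpinf_s : pinf ∉ s := by
        rw [hs, Finset.mem_image]
        rintro ⟨j, -, hj⟩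
        exact hP'inf j hj
      have hD0 : setDiv s pinf = 0 := by rw [setDiv_apply, if_neg hpinf_s]
      have hDord : ∀ R : Place K F, R ≠ pinf →
          ((setDiv s R : ℕ) : ℤ) ≤ R.ord (∑ i, c i • f i) := by
        intro R hR
        have hreg' : 0 ≤ R.ord (∑ i, c i • f i) :=
          ord_sum_smul_nonneg R Finset.univ c f fun i _ => hreg i R hR
        rw [setDiv_apply]
        by_cases hRs : R ∈ s
        · rw [if_pos hRs]
          obtain ⟨j, -, rfl⟩ := Finset.mem_image.mp hRs
          exact_mod_cast one_le_ord_of_pval_eq_zero hres (P' j) hφ hreg' (hvanish j)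
        · rw [if_neg hRs]
          exact_mod_cast hreg'
      have h1 := hC' v c (Ab.abv v (c i₀)) ((Ab.abv v).nonneg _)
        (fun i => hi₀ i (Finset.mem_univ i)) S (hPinf 0) (setDiv s) (by rw [deg_setDiv, hscard])
        hD0 hDord
      rw [hdet, prod_setDiv s (fun R => δ v R S), hs,
        Finset.prod_image (fun a _ b _ h => hP'inj h)] at h1
      -- the cofactor bound
      have h2 : Ab.abv v (c i₀) ^ m ≤ Cm i₀ v * X' ^ M * Y' ^ m := by
        have h := hCm i₀ v P' hP'inj hP'inf
        have hce : Ab.abv v (c i₀)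
            = Ab.abv v (Matrix.det (Matrix.of fun i' j => pval (P' j) (f (i₀.succAbove i')))) := by
          simp only [hc]
          rw [abv_neg_one_pow_mul]
          rfl
        rw [hce]
        exact h
      have h3 : Cm i₀ v ≤ ∏ i, Cm i v :=
        Tame.le_prod Finset.univ Cm (fun i _ => hCm_tame i) (Finset.mem_univ i₀) v
      have hC'0 : 0 ≤ C' v := hC'tame.nonneg v
      have hX'M : 0 ≤ X' ^ M := pow_nonneg (le_trans zero_le_one hX'1) M
      have hY'm : 0 ≤ Y' ^ m := pow_nonneg hY'0 m
      have hx₀M : 0 ≤ x₀ ^ M := pow_nonneg (le_trans zero_le_one hx₀1) M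
      have hZm : 0 ≤ Z ^ m := pow_nonneg hZ0 m
      calc Ab.abv v A.det ^ m
          ≤ C' v * Ab.abv v (c i₀) ^ m * x₀ ^ M * Z ^ m := h1
        _ ≤ C' v * ((∏ i, Cm i v) * X' ^ M * Y' ^ m) * x₀ ^ M * Z ^ m := by
            have h4 : Ab.abv v (c i₀) ^ m ≤ (∏ i, Cm i v) * X' ^ M * Y' ^ m :=
              h2.trans (mul_le_mul_of_nonneg_right (mul_le_mul_of_nonneg_right h3 hX'M) hY'm)
            exact mul_le_mul_of_nonneg_right
              (mul_le_mul_of_nonneg_right (mul_le_mul_of_nonneg_left h4 hC'0) hx₀M) hZm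
        _ = C' v * (∏ i, Cm i v) * (x₀ * X') ^ M * (Z * Y') ^ m := by
            rw [mul_pow, mul_pow]; ring

/-- **Local Hadamard bound** for a local height datum `L : LocalHt Ab pinf t m`. -/
theorem exists_hadamard {Ab : AbsFamily K V} {pinf : Place K F} {t : F} {m : ℕ}
    (L : LocalHt Ab pinf t m) (hres : HasVals K F) (M : ℕ) {g : ℕ} (f : Fin g → F)
    (hreg : ∀ i, ∀ P : Place K F, P ≠ pinf → 0 ≤ P.ord (f i))
    (hpole : ∀ i, -(M : ℤ) ≤ pinf.ord (f i)) :
    ∃ C : V → ℝ, Tame C ∧ ∀ (v : V) (P : Fin g → Place K F), Function.Injective P →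
      (∀ j, P j ≠ pinf) →
      Ab.abv v (Matrix.det (Matrix.of fun i j => pval (P j) (f i))) ^ m ≤
        C v * (∏ j, max 1 (Ab.abv v (pval (P j) t))) ^ M *
          (∏ i, ∏ j ∈ Finset.Ioi i, L.δ v (P i) (P j)) ^ m :=
  exists_bound Ab pinf t m M L.δ L.δ_symm L.δ_nonneg hres
    (fun f hf hp k => L.mle f M hf hp k) g f hreg hpole

/-- **Local Hadamard bound**, with trivial residue fields in the `RR.ResK` form. -/
theorem exists_hadamard_of_resK {Ab : AbsFamily K V} {pinf : Place K F} {t : F} {m : ℕ}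
    (L : LocalHt Ab pinf t m) (hres : ∀ P : Place K F, RR.ResK P) (M : ℕ) {g : ℕ}
    (f : Fin g → F) (hreg : ∀ i, ∀ P : Place K F, P ≠ pinf → 0 ≤ P.ord (f i))
    (hpole : ∀ i, -(M : ℤ) ≤ pinf.ord (f i)) :
    ∃ C : V → ℝ, Tame C ∧ ∀ (v : V) (P : Fin g → Place K F), Function.Injective P →
      (∀ j, P j ≠ pinf) →
      Ab.abv v (Matrix.det (Matrix.of fun i j => pval (P j) (f i))) ^ m ≤
        C v * (∏ j, max 1 (Ab.abv v (pval (P j) t))) ^ M *
          (∏ i, ∏ j ∈ Finset.Ioi i, L.δ v (P i) (P j)) ^ m :=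
  exists_hadamard L (hasVals_of_resK hres) M f hreg hpole

end Fermat.Agent.MW.HtM.Hadamard
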