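/-
MW / [H-M] (helper1) — THE TWO-CHART ASSEMBLY: the interpolation bound (M≤) for the two-chart
distance `dlt` (`TwoChartDefs.lean`).

* `prod_filter_le` : the near/far bookkeeping for products over an effective divisor;
* `mle0`, `mle1`  : the chart bounds `ChartBound0`, `ChartBound1` in `dlt`-form (every zero is
  allowed, near or far, in the region of the chart or not);
* `mle_two`       : the field `mle` of `LocalHt` for `δ := dlt` (the `m`-th power trick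
  `φ ^ m * t⁻¹ ^ M` moves a function with a pole of order `≤ M` at `pinf` to chart 1).
-/
import Mathlib
import Fermat.Agent.MW.HtM.TwoChartDefs
import Fermat.Agent.S24.PlaceBasic

set_option autoImplicit false

namespace Fermat.Agent.MW.HtM.TwoChart

open AlgebraicCurve Fermat.Agent.Lib.FF

variable {K F V : Type*} [Field K] [Field F] [Algebra K F]

/-! ### Near/far bookkeeping -/

theorem le_mul_min_one {c x y : ℝ} (hc : 0 ≤ c) (h1 : y ≤ c) (h2 : y ≤ c * x) :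
    y ≤ c * min 1 x := by
  rw [mul_min_of_nonneg _ _ hc, mul_one]
  exact le_min h1 h2

theorem mem_support_filter {P : Type*} (p : P → Prop) [DecidablePred p] (D : P →₀ ℕ) (Q : P) :
    Q ∈ (D.filter p).support ↔ Q ∈ D.support ∧ p Q := by
  rw [Finsupp.support_filter, Finset.mem_filter]

/-- **Near/far lemma.**  If `g ≤ c₁ h` at the near points and `1 ≤ c₂ h` at the far points of
an effective divisor `D` of degree `≤ k`, the `g`-product over the near part of `D` is at most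
`(c₁ c₂) ^ k` times the `h`-product over `D`. -/
theorem prod_filter_le {P : Type*} (p : P → Prop) [DecidablePred p] (D : P →₀ ℕ) (g h : P → ℝ)
    {c₁ c₂ : ℝ} (k : ℕ) (hc₁ : 1 ≤ c₁) (hc₂ : 1 ≤ c₂) (hk : HQ.deg D ≤ k)
    (hh : ∀ Q ∈ D.support, 0 ≤ h Q) (hg : ∀ Q ∈ D.support, 0 ≤ g Q)
    (hnear : ∀ Q ∈ D.support, p Q → g Q ≤ c₁ * h Q)
    (hfar : ∀ Q ∈ D.support, ¬ p Q → 1 ≤ c₂ * h Q) :
    ((D.filter p).prod fun Q n => g Q ^ n) ≤ (c₁ * c₂) ^ k * D.prod fun Q n => h Q ^ n := by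
  have hsplit := Finsupp.prod_filter_mul_prod_filter_not (p := p) D (fun Q n => h Q ^ n)
  have hdeg : HQ.deg (D.filter p) + HQ.deg (D.filter fun a => ¬ p a) = HQ.deg D := by
    rw [← HQ.deg_add, Finsupp.filter_pos_add_filter_neg]
  have h1 : ((D.filter p).prod fun Q n => g Q ^ n) ≤
      c₁ ^ HQ.deg (D.filter p) * (D.filter p).prod fun Q n => h Q ^ n :=
    prod_pow_le _ g h (fun Q hQ => hg Q ((mem_support_filter p D Q).mp hQ).1)
      (fun Q hQ => hnear Q ((mem_support_filter p D Q).mp hQ).1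
        ((mem_support_filter p D Q).mp hQ).2)
  have h2 : (1 : ℝ) ≤ c₂ ^ HQ.deg (D.filter fun a => ¬ p a) *
      (D.filter fun a => ¬ p a).prod fun Q n => h Q ^ n := by
    have := prod_pow_le (D.filter fun a => ¬ p a) (fun _ => (1 : ℝ)) h (fun _ _ => zero_le_one)
      (fun Q hQ => hfar Q ((mem_support_filter _ D Q).mp hQ).1
        ((mem_support_filter _ D Q).mp hQ).2)
    simpa [Finsupp.prod] using this
  have hX : 0 ≤ (D.filter p).prod fun Q n => h Q ^ n :=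
    prod_pow_nonneg _ h fun Q hQ => hh Q ((mem_support_filter p D Q).mp hQ).1
  have hY : 0 ≤ (D.filter fun a => ¬ p a).prod fun Q n => h Q ^ n :=
    prod_pow_nonneg _ h fun Q hQ => hh Q ((mem_support_filter _ D Q).mp hQ).1
  have hc₁0 : (0 : ℝ) ≤ c₁ := zero_le_one.trans hc₁
  have hc₂0 : (0 : ℝ) ≤ c₂ := zero_le_one.trans hc₂
  have ha : c₁ ^ HQ.deg (D.filter p) ≤ c₁ ^ k := pow_le_pow_right₀ hc₁ (by omega)
  have hb : c₂ ^ HQ.deg (D.filter fun a => ¬ p a) ≤ c₂ ^ k := pow_le_pow_right₀ hc₂ (by omega)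
  calc ((D.filter p).prod fun Q n => g Q ^ n)
      ≤ c₁ ^ HQ.deg (D.filter p) * (D.filter p).prod fun Q n => h Q ^ n := h1
    _ ≤ (c₁ ^ HQ.deg (D.filter p) * (D.filter p).prod fun Q n => h Q ^ n) *
        (c₂ ^ HQ.deg (D.filter fun a => ¬ p a) *
          (D.filter fun a => ¬ p a).prod fun Q n => h Q ^ n) :=
        le_mul_of_one_le_right (mul_nonneg (pow_nonneg hc₁0 _) hX) h2
    _ = (c₁ ^ HQ.deg (D.filter p) * c₂ ^ HQ.deg (D.filter fun a => ¬ p a)) *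
        D.prod fun Q n => h Q ^ n := by rw [← hsplit]; ring
    _ ≤ (c₁ * c₂) ^ k * D.prod fun Q n => h Q ^ n := by
        rw [mul_pow]
        refine mul_le_mul_of_nonneg_right ?_ (prod_pow_nonneg _ h hh)
        exact mul_le_mul ha hb (pow_nonneg hc₂0 _) (pow_nonneg hc₁0 _)

/-! ### Points of the two regions -/

section Regions

variable (Ab : AbsFamily K V) (t : F) (pinf : Place K F) {n₀ n₁ : ℕ} (x₀ : Fin n₀ → F)
  (x₁ : Fin n₁ → F)

theorem pval_ne_zero_of_le_tabs {v : V} {S : Place K F} (h : (rho Ab v)⁻¹ ≤ tabs Ab t v S) :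
    pval S t ≠ 0 := by
  intro h0
  have h1 : tabs Ab t v S = 0 := by unfold tabs; rw [h0, map_zero]
  rw [h1] at h
  exact absurd h (not_le.mpr (inv_pos.mpr (rho_pos Ab v)))

theorem ord_eq_zero_of_pval_ne_zero {t} {pinf : Place K F}
    (ht_reg : ∀ P : Place K F, P ≠ pinf → 0 ≤ P.ord t) {S : Place K F} (hS : S ≠ pinf)
    (h : pval S t ≠ 0) : S.ord t = 0 := by
  have h1 := ht_reg S hS
  by_contra h2
  exact h (pval_eq_zero_of_ord_pos (lt_of_le_of_ne h1 (Ne.symm h2)))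

theorem inv_mem_of_pval_ne_zero {t} {pinf : Place K F}
    (ht_reg : ∀ P : Place K F, P ≠ pinf → 0 ≤ P.ord t) {S : Place K F} (hS : S ≠ pinf)
    (h : pval S t ≠ 0) : t⁻¹ ∈ S.toValuationSubring := by
  refine Fermat.Agent.S24.mem_of_ord_nonneg S ?_
  rw [S.ord_inv, ord_eq_zero_of_pval_ne_zero ht_reg hS h, neg_zero]

/-- The coordinate `t` of chart 0. -/
theorem abv_sub_le_pdist0 (ht0 : ∃ i, x₀ i = t) (v : V) (Q S : Place K F) :
    Ab.abv v (pval S t - pval Q t) ≤ pdist Ab x₀ v Q S := by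
  obtain ⟨i, hi⟩ := ht0
  have := le_pdist Ab x₀ v Q S i
  rwa [hi] at this

/-- The coordinate `t⁻¹` of chart 1. -/
theorem abv_inv_sub_le_pdist1 (hres : ∀ P : Place K F, RR.ResK P)
    (ht_reg : ∀ P : Place K F, P ≠ pinf → 0 ≤ P.ord t) (ht1 : ∃ i, x₁ i = t⁻¹) (v : V)
    {Q S : Place K F} (hQ : Q ≠ pinf) (hS : S ≠ pinf) (hQ0 : pval Q t ≠ 0) (hS0 : pval S t ≠ 0) :
    Ab.abv v ((pval S t)⁻¹ - (pval Q t)⁻¹) ≤ pdist Ab x₁ v Q S := by
  obtain ⟨i, hi⟩ := ht1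
  have := le_pdist Ab x₁ v Q S i
  rwa [hi, pval_inv (hres S) (Fermat.Agent.S24.mem_of_ord_nonneg S (ht_reg S hS)) hS0,
    pval_inv (hres Q) (Fermat.Agent.S24.mem_of_ord_nonneg Q (ht_reg Q hQ)) hQ0] at this

/-- **Chart 0, far zeros**: if `|t(S)| ≤ 1` and `Q` is not near `S` in chart 0, then
`1 ≤ ρ · dlt Q S`. -/
theorem one_le_rho_mul_dlt (hres : ∀ P : Place K F, RR.ResK P)
    (ht_reg : ∀ P : Place K F, P ≠ pinf → 0 ≤ P.ord t) (ht1 : ∃ i, x₁ i = t⁻¹) (v : V)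
    {Q S : Place K F} (hQ : Q ≠ pinf) (hS : S ≠ pinf) (hS1 : tabs Ab t v S ≤ 1)
    (hfar : ¬ (tabs Ab t v Q ≤ rho Ab v ∧ pdist Ab x₀ v Q S ≤ 1)) :
    1 ≤ rho Ab v * dlt Ab t x₀ x₁ v Q S := by
  have hρ := one_le_rho Ab v
  have hρ0 := rho_pos Ab v
  by_cases h0 : tabs Ab t v Q ≤ rho Ab v ∧ tabs Ab t v S ≤ rho Ab v
  · rw [dlt_of_both0 Ab t x₀ x₁ v Q S h0]
    have hd : 1 < pdist Ab x₀ v Q S := not_le.mp fun h => hfar ⟨h0.1, h⟩
    rw [min_eq_left hd.le, mul_one]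
    exact hρ
  · have hQρ : rho Ab v < tabs Ab t v Q := by
      by_contra h
      exact h0 ⟨not_lt.mp h, hS1.trans hρ⟩
    by_cases h1 : (rho Ab v)⁻¹ ≤ tabs Ab t v Q ∧ (rho Ab v)⁻¹ ≤ tabs Ab t v S
    · rw [dlt_of_both1 Ab t x₀ x₁ v Q S h0 h1]
      refine le_mul_min_one hρ0.le hρ ?_
      have hQ0 := pval_ne_zero_of_le_tabs Ab t h1.1
      have hS0 := pval_ne_zero_of_le_tabs Ab t h1.2
      have hd := abv_inv_sub_le_pdist1 Ab t pinf x₁ hres ht_reg ht1 v hQ hS hQ0 hS0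
      have hSpos : 0 < tabs Ab t v S := lt_of_lt_of_le (inv_pos.mpr hρ0) h1.2
      have hα : 1 ≤ Ab.abv v (pval S t)⁻¹ := by
        rw [map_inv₀]
        exact (one_le_inv₀ hSpos).mpr hS1
      have hβ : rho Ab v * Ab.abv v (pval Q t)⁻¹ < 1 := by
        rw [map_inv₀, ← div_eq_mul_inv]
        exact (div_lt_one (lt_trans hρ0 hQρ)).mpr hQρ
      have hfl := far_lemma Ab v (lt_of_lt_of_le hβ hα)
      calc (1 : ℝ) ≤ Ab.abv v (pval S t)⁻¹ := hα
        _ ≤ rho Ab v * Ab.abv v ((pval S t)⁻¹ - (pval Q t)⁻¹) := hfl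
        _ ≤ rho Ab v * pdist Ab x₁ v Q S := mul_le_mul_of_nonneg_left hd hρ0.le
    · rw [dlt_of_neither Ab t x₀ x₁ v Q S h0 h1, mul_one]
      exact hρ

/-- **Chart 1, near zeros**: the chart-1 distance is controlled by `dlt`. -/
theorem pdist1_le_mul_dlt {Cc : V → ℝ} (hCc1 : ∀ v, 1 ≤ Cc v)
    (hCc : ∀ (v : V) (R S : Place K F), R ≠ pinf → S ≠ pinf →
      (rho Ab v)⁻¹ ≤ tabs Ab t v R → tabs Ab t v R ≤ rho Ab v →
      (rho Ab v)⁻¹ ≤ tabs Ab t v S → tabs Ab t v S ≤ rho Ab v →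
      pdist Ab x₁ v R S ≤ Cc v * pdist Ab x₀ v R S) (v : V)
    {Q S : Place K F} (hQ : Q ≠ pinf) (hS : S ≠ pinf) (hS1 : 1 ≤ tabs Ab t v S)
    (hQ1 : (rho Ab v)⁻¹ ≤ tabs Ab t v Q) (hd : pdist Ab x₁ v Q S ≤ 1) :
    pdist Ab x₁ v Q S ≤ Cc v * dlt Ab t x₀ x₁ v Q S := by
  have hC0 : 0 ≤ Cc v := zero_le_one.trans (hCc1 v)
  have hS2 : (rho Ab v)⁻¹ ≤ tabs Ab t v S := (rho_inv_le_one Ab v).trans hS1
  by_cases h0 : tabs Ab t v Q ≤ rho Ab v ∧ tabs Ab t v S ≤ rho Ab v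
  · rw [dlt_of_both0 Ab t x₀ x₁ v Q S h0]
    exact le_mul_min_one hC0 (hd.trans (hCc1 v)) (hCc v Q S hQ hS hQ1 h0.1 hS2 h0.2)
  · rw [dlt_of_both1 Ab t x₀ x₁ v Q S h0 ⟨hQ1, hS2⟩, min_eq_right hd]
    exact le_mul_of_one_le_left (pdist_nonneg Ab x₁ v Q S) (hCc1 v)

/-- **Chart 1, far zeros**: if `1 ≤ |t(S)|` and `Q` is not near `S` in chart 1, then
`1 ≤ (Cc · ρ) · dlt Q S`. -/
theorem one_le_mul_dlt {Cc : V → ℝ} (hCc1 : ∀ v, 1 ≤ Cc v)
    (hCc : ∀ (v : V) (R S : Place K F), R ≠ pinf → S ≠ pinf →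
      (rho Ab v)⁻¹ ≤ tabs Ab t v R → tabs Ab t v R ≤ rho Ab v →
      (rho Ab v)⁻¹ ≤ tabs Ab t v S → tabs Ab t v S ≤ rho Ab v →
      pdist Ab x₁ v R S ≤ Cc v * pdist Ab x₀ v R S) (ht0 : ∃ i, x₀ i = t) (v : V)
    {Q S : Place K F} (hQ : Q ≠ pinf) (hS : S ≠ pinf) (hS1 : 1 ≤ tabs Ab t v S)
    (hfar : ¬ ((rho Ab v)⁻¹ ≤ tabs Ab t v Q ∧ pdist Ab x₁ v Q S ≤ 1)) :
    1 ≤ (Cc v * rho Ab v) * dlt Ab t x₀ x₁ v Q S := by
  have hC1 := hCc1 v
  have hC0 : 0 ≤ Cc v := zero_le_one.trans hC1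
  have hρ := one_le_rho Ab v
  have hρ0 := rho_pos Ab v
  have hCρ : 1 ≤ Cc v * rho Ab v := one_le_mul_of_one_le_of_one_le hC1 hρ
  have hS2 : (rho Ab v)⁻¹ ≤ tabs Ab t v S := (rho_inv_le_one Ab v).trans hS1
  by_cases h0 : tabs Ab t v Q ≤ rho Ab v ∧ tabs Ab t v S ≤ rho Ab v
  · rw [dlt_of_both0 Ab t x₀ x₁ v Q S h0]
    refine le_mul_min_one (zero_le_one.trans hCρ) hCρ ?_
    have hp0 := pdist_nonneg Ab x₀ v Q S
    by_cases hQ1 : (rho Ab v)⁻¹ ≤ tabs Ab t v Q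
    · have hd : 1 < pdist Ab x₁ v Q S := not_le.mp fun h => hfar ⟨hQ1, h⟩
      have hcmp := hCc v Q S hQ hS hQ1 h0.1 hS2 h0.2
      calc (1 : ℝ) ≤ pdist Ab x₁ v Q S := hd.le
        _ ≤ Cc v * pdist Ab x₀ v Q S := hcmp
        _ ≤ Cc v * rho Ab v * pdist Ab x₀ v Q S := by
            rw [mul_assoc]
            exact mul_le_mul_of_nonneg_left (le_mul_of_one_le_left hp0 hρ) hC0
    · have hQ2 : tabs Ab t v Q < (rho Ab v)⁻¹ := not_le.mp hQ1
      have hβ : rho Ab v * Ab.abv v (pval Q t) < 1 := by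
        have := mul_lt_mul_of_pos_left hQ2 hρ0
        rwa [mul_inv_cancel₀ hρ0.ne'] at this
      have hfl := far_lemma Ab v (lt_of_lt_of_le hβ hS1)
      have hd := abv_sub_le_pdist0 Ab t x₀ ht0 v Q S
      calc (1 : ℝ) ≤ Ab.abv v (pval S t) := hS1
        _ ≤ rho Ab v * Ab.abv v (pval S t - pval Q t) := hfl
        _ ≤ rho Ab v * pdist Ab x₀ v Q S := mul_le_mul_of_nonneg_left hd hρ0.le
        _ ≤ Cc v * rho Ab v * pdist Ab x₀ v Q S := by
            rw [mul_assoc]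
            exact le_mul_of_one_le_left (mul_nonneg hρ0.le hp0) hC1
  · by_cases h1 : (rho Ab v)⁻¹ ≤ tabs Ab t v Q ∧ (rho Ab v)⁻¹ ≤ tabs Ab t v S
    · rw [dlt_of_both1 Ab t x₀ x₁ v Q S h0 h1]
      have hd : 1 < pdist Ab x₁ v Q S := not_le.mp fun h => hfar ⟨h1.1, h⟩
      rw [min_eq_left hd.le, mul_one]
      exact hCρ
    · rw [dlt_of_neither Ab t x₀ x₁ v Q S h0 h1, mul_one]
      exact hCρ

end Regions

/-! ### The chart bounds in `dlt`-form -/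

section Mle

variable (Ab : AbsFamily K V) (t : F) (pinf : Place K F) {n₀ n₁ : ℕ} (x₀ : Fin n₀ → F)
  (x₁ : Fin n₁ → F)

theorem ne_pinf_of_mem_support {pinf : Place K F} {D : Place K F →₀ ℕ} (hD : D pinf = 0)
    {Q : Place K F} (hQ : Q ∈ D.support) : Q ≠ pinf := by
  rintro rfl
  exact (Finsupp.mem_support_iff.mp hQ) hD

open Classical in
/-- **(M≤) on chart 0 in `dlt`-form**: for `|t(S)|_v ≤ 1`, every effective divisor `D` off
`pinf` below the divisor of zeros (no condition on the position of the zeros). -/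
theorem mle0 (hres : ∀ P : Place K F, RR.ResK P)
    (ht_reg : ∀ P : Place K F, P ≠ pinf → 0 ≤ P.ord t) (ht1 : ∃ i, x₁ i = t⁻¹)
    (h0 : ChartBound0 Ab t pinf x₀) {ι : Type} [Fintype ι] (u : ι → F)
    (hu : ∀ i, ∀ P : Place K F, P ≠ pinf → 0 ≤ P.ord (u i)) (n : ℕ) :
    ∃ C : V → ℝ, Tame C ∧ ∀ (v : V) (a : ι → K) (A : ℝ), 0 ≤ A → (∀ i, Ab.abv v (a i) ≤ A) →
      ∀ S : Place K F, S ≠ pinf → tabs Ab t v S ≤ 1 → ∀ D : Place K F →₀ ℕ, HQ.deg D ≤ n →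
      D pinf = 0 →
      (∀ Q ∈ D.support, tabs Ab t v Q ≤ rho Ab v → (D Q : ℤ) ≤ Q.ord (∑ i, a i • u i)) →
      Ab.abv v (pval S (∑ i, a i • u i)) ≤
        C v * A * D.prod fun Q k => dlt Ab t x₀ x₁ v Q S ^ k := by
  obtain ⟨C0, hC0, H⟩ := h0 u hu n
  refine ⟨fun v => C0 v * rho Ab v ^ n, hC0.mul ((tame_rho Ab).pow n), ?_⟩
  intro v a A hA ha S hS hS1 D hD hDinf hord
  have hSρ : tabs Ab t v S ≤ rho Ab v := hS1.trans (one_le_rho Ab v)
  have key := H v a A hA ha S hS hSρ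
    (D.filter fun Q => tabs Ab t v Q ≤ rho Ab v ∧ pdist Ab x₀ v Q S ≤ 1)
    ((deg_filter_le _ D).trans hD)
    (fun Q hQ => ⟨ne_pinf_of_mem_support hDinf ((mem_support_filter _ D Q).mp hQ).1,
      ((mem_support_filter _ D Q).mp hQ).2.1⟩)
    (fun Q hQ => by
      have hQ' := (mem_support_filter _ D Q).mp hQ
      rw [Finsupp.filter_apply, if_pos hQ'.2]
      exact hord Q hQ'.1 hQ'.2.1)
  have hE := prod_filter_le (fun Q => tabs Ab t v Q ≤ rho Ab v ∧ pdist Ab x₀ v Q S ≤ 1) D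
    (fun Q => pdist Ab x₀ v Q S) (fun Q => dlt Ab t x₀ x₁ v Q S) n (le_refl 1) (one_le_rho Ab v)
    hD (fun Q _ => dlt_nonneg Ab t x₀ x₁ v Q S) (fun Q _ => pdist_nonneg Ab x₀ v Q S)
    (fun Q _ hp => by
      rw [dlt_of_both0 Ab t x₀ x₁ v Q S ⟨hp.1, hSρ⟩, min_eq_right hp.2, one_mul])
    (fun Q hQ hp => one_le_rho_mul_dlt Ab t pinf x₀ x₁ hres ht_reg ht1 v
      (ne_pinf_of_mem_support hDinf hQ) hS hS1 hp)
  calc Ab.abv v (pval S (∑ i, a i • u i))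
      ≤ C0 v * A * (D.filter fun Q => tabs Ab t v Q ≤ rho Ab v ∧
          pdist Ab x₀ v Q S ≤ 1).prod fun Q k => pdist Ab x₀ v Q S ^ k := key
    _ ≤ C0 v * A * ((1 * rho Ab v) ^ n * D.prod fun Q k => dlt Ab t x₀ x₁ v Q S ^ k) :=
        mul_le_mul_of_nonneg_left hE (mul_nonneg (hC0.nonneg v) hA)
    _ = C0 v * rho Ab v ^ n * A * D.prod fun Q k => dlt Ab t x₀ x₁ v Q S ^ k := by
        rw [one_mul]; ring

open Classical in
/-- **(M≤) on chart 1 in `dlt`-form**: for `1 ≤ |t(S)|_v`, every effective divisor `D` off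
`pinf` below the divisor of zeros in the region of chart 1. -/
theorem mle1 (ht0 : ∃ i, x₀ i = t) (h1 : ChartBound1 Ab t pinf x₁)
    (hc : Cmp Ab t pinf x₀ x₁) {ι : Type} [Fintype ι] (u : ι → F)
    (hu : ∀ i, ∀ P : Place K F, P.ord t ≤ 0 → 0 ≤ P.ord (u i)) (n : ℕ) :
    ∃ C : V → ℝ, Tame C ∧ ∀ (v : V) (a : ι → K) (A : ℝ), 0 ≤ A → (∀ i, Ab.abv v (a i) ≤ A) →
      ∀ S : Place K F, S ≠ pinf → 1 ≤ tabs Ab t v S → ∀ D : Place K F →₀ ℕ, HQ.deg D ≤ n →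
      D pinf = 0 →
      (∀ Q ∈ D.support, (rho Ab v)⁻¹ ≤ tabs Ab t v Q → (D Q : ℤ) ≤ Q.ord (∑ i, a i • u i)) →
      Ab.abv v (pval S (∑ i, a i • u i)) ≤
        C v * A * D.prod fun Q k => dlt Ab t x₀ x₁ v Q S ^ k := by
  obtain ⟨C1, hC1, H⟩ := h1 u hu n
  obtain ⟨Cc, hCc, Hc⟩ := hc
  refine ⟨fun v => C1 v * (Cc v * (Cc v * rho Ab v)) ^ n,
    hC1.mul ((hCc.mul (hCc.mul (tame_rho Ab))).pow n), ?_⟩
  intro v a A hA ha S hS hS1 D hD hDinf hord
  have hSρ : (rho Ab v)⁻¹ ≤ tabs Ab t v S := (rho_inv_le_one Ab v).trans hS1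
  have key := H v a A hA ha S hS hSρ
    (D.filter fun Q => (rho Ab v)⁻¹ ≤ tabs Ab t v Q ∧ pdist Ab x₁ v Q S ≤ 1)
    ((deg_filter_le _ D).trans hD)
    (fun Q hQ => ⟨ne_pinf_of_mem_support hDinf ((mem_support_filter _ D Q).mp hQ).1,
      ((mem_support_filter _ D Q).mp hQ).2.1⟩)
    (fun Q hQ => by
      have hQ' := (mem_support_filter _ D Q).mp hQ
      rw [Finsupp.filter_apply, if_pos hQ'.2]
      exact hord Q hQ'.1 hQ'.2.1)
  have hE := prod_filter_le (fun Q => (rho Ab v)⁻¹ ≤ tabs Ab t v Q ∧ pdist Ab x₁ v Q S ≤ 1) D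
    (fun Q => pdist Ab x₁ v Q S) (fun Q => dlt Ab t x₀ x₁ v Q S) n (hCc.1 v)
    (one_le_mul_of_one_le_of_one_le (hCc.1 v) (one_le_rho Ab v))
    hD (fun Q _ => dlt_nonneg Ab t x₀ x₁ v Q S) (fun Q _ => pdist_nonneg Ab x₁ v Q S)
    (fun Q hQ hp => pdist1_le_mul_dlt Ab t pinf x₀ x₁ hCc.1 Hc v
      (ne_pinf_of_mem_support hDinf hQ) hS hS1 hp.1 hp.2)
    (fun Q hQ hp => one_le_mul_dlt Ab t pinf x₀ x₁ hCc.1 Hc ht0 v
      (ne_pinf_of_mem_support hDinf hQ) hS hS1 hp)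
  calc Ab.abv v (pval S (∑ i, a i • u i))
      ≤ C1 v * A * (D.filter fun Q => (rho Ab v)⁻¹ ≤ tabs Ab t v Q ∧
          pdist Ab x₁ v Q S ≤ 1).prod fun Q k => pdist Ab x₁ v Q S ^ k := key
    _ ≤ C1 v * A * ((Cc v * (Cc v * rho Ab v)) ^ n *
          D.prod fun Q k => dlt Ab t x₀ x₁ v Q S ^ k) :=
        mul_le_mul_of_nonneg_left hE (mul_nonneg (hC1.nonneg v) hA)
    _ = C1 v * (Cc v * (Cc v * rho Ab v)) ^ n * A *
          D.prod fun Q k => dlt Ab t x₀ x₁ v Q S ^ k := by ring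

theorem ord_prod_ge (P : Place K F) {ι : Type*} (s : Finset ι) (g : ι → F) (c : ℤ)
    (hg : ∀ i ∈ s, g i ≠ 0) (h : ∀ i ∈ s, c ≤ P.ord (g i)) :
    (s.card : ℤ) * c ≤ P.ord (∏ i ∈ s, g i) := by
  classical
  induction s using Finset.induction_on with
  | empty => simp [Place.ord_one]
  | insert i s hi ih =>
    rw [Finset.prod_insert hi, Finset.card_insert_of_notMem hi]
    have h1 : g i ≠ 0 := hg i (Finset.mem_insert_self i s)
    have h2 : ∏ j ∈ s, g j ≠ 0 :=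
      Finset.prod_ne_zero_iff.mpr fun j hj => hg j (Finset.mem_insert_of_mem hj)
    rw [P.ord_mul h1 h2]
    have h3 := ih (fun j hj => hg j (Finset.mem_insert_of_mem hj))
      (fun j hj => h j (Finset.mem_insert_of_mem hj))
    have h4 := h i (Finset.mem_insert_self i s)
    push_cast
    linarith

/-- The `m`-th power trick: `(∏ f (w j)) · t⁻¹ ^ M` is regular on chart 1. -/
theorem chart1_regular {m M : ℕ} (ht_reg : ∀ P : Place K F, P ≠ pinf → 0 ≤ P.ord t)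
    (ht_inf : pinf.ord t = -(m : ℤ)) (hm : 0 < m) {ι : Type} (f : ι → F)
    (hf : ∀ i, ∀ P : Place K F, P ≠ pinf → 0 ≤ P.ord (f i))
    (hfinf : ∀ i, -(M : ℤ) ≤ pinf.ord (f i)) (w : Fin m → ι) (P : Place K F)
    (hP : P.ord t ≤ 0) : 0 ≤ P.ord ((∏ j, f (w j)) * (t⁻¹) ^ M) := by
  have ht0 : t ≠ 0 := by
    rintro rfl
    rw [Place.ord_zero] at ht_inf
    omega
  by_cases hPinf : P = pinf
  · rw [hPinf]
    by_cases hz : ∃ j, f (w j) = 0
    · obtain ⟨j, hj⟩ := hz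
      rw [Finset.prod_eq_zero (Finset.mem_univ j) hj, zero_mul, Place.ord_zero]
    · push_neg at hz
      have h1 := ord_prod_ge pinf Finset.univ (fun j => f (w j)) (-(M : ℤ)) (fun j _ => hz j)
        (fun j _ => hfinf (w j))
      have h2 : ∏ j, f (w j) ≠ 0 := Finset.prod_ne_zero_iff.mpr fun j _ => hz j
      have h3 : (t⁻¹) ^ M ≠ 0 := pow_ne_zero _ (inv_ne_zero ht0)
      rw [pinf.ord_mul h2 h3, ← zpow_natCast, pinf.ord_zpow, pinf.ord_inv, ht_inf]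
      rw [Finset.card_univ, Fintype.card_fin] at h1
      have h4 : (M : ℤ) * - -(m : ℤ) = (m : ℤ) * M := by ring
      rw [h4]
      linarith
  · have hPt : P.ord t = 0 := le_antisymm hP (ht_reg P hPinf)
    refine Fermat.Agent.S24.ord_nonneg_of_mem P ?_
    refine mul_mem (prod_mem fun j _ =>
      Fermat.Agent.S24.mem_of_ord_nonneg P (hf (w j) P hPinf)) (pow_mem ?_ M)
    refine Fermat.Agent.S24.mem_of_ord_nonneg P ?_
    rw [P.ord_inv, hPt, neg_zero]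

/-- **(M≤) for the two-chart distance** — the field `mle` of `LocalHt` for `δ := dlt`. -/
theorem mle_two {m : ℕ} (hres : ∀ P : Place K F, RR.ResK P) (hm : 0 < m)
    (ht_reg : ∀ P : Place K F, P ≠ pinf → 0 ≤ P.ord t) (ht_inf : pinf.ord t = -(m : ℤ))
    (ht0 : ∃ i, x₀ i = t) (ht1 : ∃ i, x₁ i = t⁻¹)
    (h0 : ChartBound0 Ab t pinf x₀) (h1 : ChartBound1 Ab t pinf x₁) (hc : Cmp Ab t pinf x₀ x₁)
    {ι : Type} [Fintype ι] (f : ι → F) (M : ℕ)
    (hf : ∀ i, ∀ P : Place K F, P ≠ pinf → 0 ≤ P.ord (f i))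
    (hfinf : ∀ i, -(M : ℤ) ≤ pinf.ord (f i)) (k : ℕ) :
    ∃ C : V → ℝ, Tame C ∧ ∀ (v : V) (a : ι → K) (A : ℝ), 0 ≤ A →
      (∀ i, Ab.abv v (a i) ≤ A) → ∀ S : Place K F, S ≠ pinf → ∀ D : Place K F →₀ ℕ,
      HQ.deg D ≤ k → D pinf = 0 → (∀ R, R ≠ pinf → (D R : ℤ) ≤ R.ord (∑ i, a i • f i)) →
      Ab.abv v (pval S (∑ i, a i • f i)) ^ m ≤
        C v * A ^ m * max 1 (Ab.abv v (pval S t)) ^ M *
          (D.prod fun R n => dlt Ab t x₀ x₁ v R S ^ n) ^ m := by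
  classical
  have ht00 : t ≠ 0 := by
    rintro rfl
    rw [Place.ord_zero] at ht_inf
    omega
  obtain ⟨C0, hC0, H0⟩ := mle0 Ab t pinf x₀ x₁ hres ht_reg ht1 h0 f hf k
  obtain ⟨C1, hC1, H1⟩ := mle1 Ab t pinf x₀ x₁ ht0 h1 hc
    (fun w : Fin m → ι => (∏ j, f (w j)) * (t⁻¹) ^ M)
    (fun w P hP => chart1_regular t pinf ht_reg ht_inf hm f hf hfinf w P hP) (m * k)
  refine ⟨fun v => C0 v ^ m * C1 v, (hC0.pow m).mul hC1, ?_⟩
  intro v a A hA ha S hS D hD hDinf hord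
  have hX : 0 ≤ D.prod fun R n => dlt Ab t x₀ x₁ v R S ^ n :=
    prod_pow_nonneg D _ fun Q _ => dlt_nonneg Ab t x₀ x₁ v Q S
  have hmax : (1 : ℝ) ≤ max 1 (Ab.abv v (pval S t)) ^ M := one_le_pow₀ (le_max_left _ _)
  have hC0v : 0 ≤ C0 v ^ m := pow_nonneg (hC0.nonneg v) m
  have hC1v := hC1.1 v
  have hAm : 0 ≤ A ^ m := pow_nonneg hA m
  rcases le_or_gt (tabs Ab t v S) 1 with hS1 | hS1
  · have key := H0 v a A hA ha S hS hS1 D hD hDinf
      (fun Q hQ _ => hord Q (ne_pinf_of_mem_support hDinf hQ))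
    calc Ab.abv v (pval S (∑ i, a i • f i)) ^ m
        ≤ (C0 v * A * D.prod fun R n => dlt Ab t x₀ x₁ v R S ^ n) ^ m :=
          pow_le_pow_left₀ ((Ab.abv v).nonneg _) key m
      _ = C0 v ^ m * A ^ m * (D.prod fun R n => dlt Ab t x₀ x₁ v R S ^ n) ^ m := by ring
      _ ≤ C0 v ^ m * C1 v * A ^ m * max 1 (Ab.abv v (pval S t)) ^ M *
          (D.prod fun R n => dlt Ab t x₀ x₁ v R S ^ n) ^ m := by
          refine mul_le_mul_of_nonneg_right ?_ (pow_nonneg hX m)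
          have h5 : 0 ≤ C0 v ^ m * A ^ m := mul_nonneg hC0v hAm
          calc C0 v ^ m * A ^ m ≤ C0 v ^ m * A ^ m * C1 v := le_mul_of_one_le_right h5 hC1v
            _ ≤ C0 v ^ m * A ^ m * C1 v * max 1 (Ab.abv v (pval S t)) ^ M :=
                le_mul_of_one_le_right (mul_nonneg h5 (hC1.nonneg v)) hmax
            _ = C0 v ^ m * C1 v * A ^ m * max 1 (Ab.abv v (pval S t)) ^ M := by ring
  · have hRHS : 0 ≤ C0 v ^ m * C1 v * A ^ m * max 1 (Ab.abv v (pval S t)) ^ M *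
        (D.prod fun R n => dlt Ab t x₀ x₁ v R S ^ n) ^ m :=
      mul_nonneg (mul_nonneg (mul_nonneg (mul_nonneg hC0v (hC1.nonneg v)) hAm)
        (zero_le_one.trans hmax)) (pow_nonneg hX m)
    by_cases hφ0 : ∑ i, a i • f i = 0
    · rw [hφ0, pval_zero, map_zero, zero_pow hm.ne']
      exact hRHS
    have htpos : 0 < Ab.abv v (pval S t) := lt_trans one_pos hS1
    have hS0 : pval S t ≠ 0 := fun h => by
      rw [h, map_zero] at htpos
      exact lt_irrefl _ htpos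
    have htS : t ∈ S.toValuationSubring := Fermat.Agent.S24.mem_of_ord_nonneg S (ht_reg S hS)
    have htinvS : t⁻¹ ∈ S.toValuationSubring := inv_mem_of_pval_ne_zero ht_reg hS hS0
    have hφS : ∑ i, a i • f i ∈ S.toValuationSubring := sum_mem fun i _ => by
      rw [Algebra.smul_def]
      exact mul_mem (S.algebraMap_mem' (a i))
        (Fermat.Agent.S24.mem_of_ord_nonneg S (hf i S hS))
    have hψ : ∑ w : Fin m → ι, (∏ j, a (w j)) • ((∏ j, f (w j)) * (t⁻¹) ^ M) =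
        (∑ i, a i • f i) ^ m * (t⁻¹) ^ M := by
      rw [Fintype.sum_pow, Finset.sum_mul]
      refine Finset.sum_congr rfl fun w _ => ?_
      rw [Finset.prod_smul, smul_mul_assoc]
    have key := H1 v (fun w => ∏ j, a (w j)) (A ^ m) hAm
      (fun w => by
        rw [map_prod]
        calc ∏ j, Ab.abv v (a (w j)) ≤ ∏ _j : Fin m, A :=
              Finset.prod_le_prod (fun j _ => (Ab.abv v).nonneg _) (fun j _ => ha (w j))
          _ = A ^ m := by simp)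
      S hS hS1.le (m • D) (by rw [deg_nsmul]; exact Nat.mul_le_mul_left m hD)
      (by simp [hDinf])
      (fun Q hQ hQ1 => by
        have hQD : Q ∈ D.support := Finsupp.support_smul hQ
        have hQinf := ne_pinf_of_mem_support hDinf hQD
        have hQ0 := pval_ne_zero_of_le_tabs Ab t hQ1
        have hQt : Q.ord t = 0 := ord_eq_zero_of_pval_ne_zero ht_reg hQinf hQ0
        beta_reduce
        rw [hψ, Q.ord_mul (pow_ne_zero m hφ0) (pow_ne_zero M (inv_ne_zero ht00)),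
          ← zpow_natCast, ← zpow_natCast (t⁻¹), Q.ord_zpow, Q.ord_zpow, Q.ord_inv, hQt]
        have h6 := hord Q hQinf
        simp only [Finsupp.smul_apply, smul_eq_mul]
        push_cast
        nlinarith)
    beta_reduce at key
    have hval : pval S ((∑ i, a i • f i) ^ m * (t⁻¹) ^ M) =
        pval S (∑ i, a i • f i) ^ m * ((pval S t)⁻¹) ^ M := by
      rw [pval_mul (hres S) (pow_mem hφS m) (pow_mem htinvS M), pval_pow (hres S) hφS,
        pval_pow (hres S) htinvS, pval_inv (hres S) htS hS0]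
    rw [hψ, hval, map_mul, map_pow, map_pow, map_inv₀, prod_nsmul m hm] at key
    rw [max_eq_right (show (1 : ℝ) ≤ Ab.abv v (pval S t) from hS1.le)]
    have htM : 0 < Ab.abv v (pval S t) ^ M := pow_pos htpos M
    have hsplit : Ab.abv v (pval S (∑ i, a i • f i)) ^ m =
        Ab.abv v (pval S (∑ i, a i • f i)) ^ m * ((Ab.abv v (pval S t))⁻¹) ^ M *
          Ab.abv v (pval S t) ^ M := by
      rw [inv_pow, mul_assoc, inv_mul_cancel₀ htM.ne', mul_one]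
    rw [hsplit]
    calc Ab.abv v (pval S (∑ i, a i • f i)) ^ m * ((Ab.abv v (pval S t))⁻¹) ^ M *
          Ab.abv v (pval S t) ^ M
        ≤ C1 v * A ^ m * (D.prod fun R n => dlt Ab t x₀ x₁ v R S ^ n) ^ m *
          Ab.abv v (pval S t) ^ M := mul_le_mul_of_nonneg_right key htM.le
      _ ≤ C0 v ^ m * (C1 v * A ^ m * (D.prod fun R n => dlt Ab t x₀ x₁ v R S ^ n) ^ m *
          Ab.abv v (pval S t) ^ M) :=
          le_mul_of_one_le_left (mul_nonneg (mul_nonneg (mul_nonneg (hC1.nonneg v) hAm)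
            (pow_nonneg hX m)) htM.le) (one_le_pow₀ (hC0.1 v))
      _ = C0 v ^ m * C1 v * A ^ m * Ab.abv v (pval S t) ^ M *
          (D.prod fun R n => dlt Ab t x₀ x₁ v R S ^ n) ^ m := by ring

end Mle

end Fermat.Agent.MW.HtM.TwoChart
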