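/-
MW / [H-M] (helper1) — THE TWO-CHART ASSEMBLY, FINAL: the structure `LocalHt Ab pinf t m` with
`δ := dlt Ab t x₀ x₁` from the seven chart statements of `TwoChartDefs.lean`
(`ChartBound0/1`, `FibLip0/1`, `Cmp`, `Sep0/1`).

`mle` is `TwoChart.mle_two` (`TwoChart.lean`), `lip`, `δ_pos`, `δ_eq_one` are helper15's
`TwoChartLip.lip_two`, `dlt_pos`, `dlt_ne_one_finite`.
-/
import Mathlib
import Fermat.Agent.MW.HtM.TwoChart
import Fermat.Agent.MW.HtM.TwoChartLip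

set_option autoImplicit false

namespace Fermat.Agent.MW.HtM.TwoChart

open AlgebraicCurve Fermat.Agent.Lib.FF

variable {K F V : Type*} [Field K] [Field F] [Algebra K F]

/-- **The local height datum of the two-chart distance.**  `t` has its only pole at `pinf`, of
order `m`; `x₀ ∋ t` are coordinates of chart 0 (functions regular off `pinf`), `x₁ ∋ t⁻¹`
coordinates of chart 1 (functions regular off the zeros of `t`). -/
noncomputable def localHt (Ab : AbsFamily K V) (t : F) (pinf : Place K F) {n₀ n₁ : ℕ}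
    (x₀ : Fin n₀ → F) (x₁ : Fin n₁ → F) {m : ℕ} (hres : ∀ P : Place K F, RR.ResK P)
    (hm : 0 < m) (ht_reg : ∀ P : Place K F, P ≠ pinf → 0 ≤ P.ord t)
    (ht_inf : pinf.ord t = -(m : ℤ)) (ht0 : ∃ i, x₀ i = t) (ht1 : ∃ i, x₁ i = t⁻¹)
    (c0 : ChartBound0 Ab t pinf x₀) (c1 : ChartBound1 Ab t pinf x₁)
    (l0 : FibLip0 Ab t pinf x₀) (l1 : FibLip1 Ab t pinf x₁) (cmp : Cmp Ab t pinf x₀ x₁)
    (s0 : Sep0 pinf x₀) (s1 : Sep1 t pinf x₁) : LocalHt Ab pinf t m where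
  δ := dlt Ab t x₀ x₁
  δ_symm := dlt_symm Ab t x₀ x₁
  δ_nonneg := dlt_nonneg Ab t x₀ x₁
  δ_le_one := dlt_le_one Ab t x₀ x₁
  δ_self := fun v R _ => dlt_self Ab t x₀ x₁ v R
  δ_pos := TwoChartLip.dlt_pos hres ht_reg s0 s1
  δ_eq_one := TwoChartLip.dlt_ne_one_finite s0
  mle := fun f M hf hfinf k =>
    mle_two Ab t pinf x₀ x₁ hres hm ht_reg ht_inf ht0 ht1 c0 c1 cmp f M hf hfinf k
  lip := TwoChartLip.lip_two hres ht_reg l0 l1

@[simp] theorem localHt_δ (Ab : AbsFamily K V) (t : F) (pinf : Place K F) {n₀ n₁ : ℕ}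
    (x₀ : Fin n₀ → F) (x₁ : Fin n₁ → F) {m : ℕ} (hres : ∀ P : Place K F, RR.ResK P)
    (hm : 0 < m) (ht_reg : ∀ P : Place K F, P ≠ pinf → 0 ≤ P.ord t)
    (ht_inf : pinf.ord t = -(m : ℤ)) (ht0 : ∃ i, x₀ i = t) (ht1 : ∃ i, x₁ i = t⁻¹)
    (c0 : ChartBound0 Ab t pinf x₀) (c1 : ChartBound1 Ab t pinf x₁)
    (l0 : FibLip0 Ab t pinf x₀) (l1 : FibLip1 Ab t pinf x₁) (cmp : Cmp Ab t pinf x₀ x₁)
    (s0 : Sep0 pinf x₀) (s1 : Sep1 t pinf x₁) :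
    (localHt Ab t pinf x₀ x₁ hres hm ht_reg ht_inf ht0 ht1 c0 c1 l0 l1 cmp s0 s1).δ =
      dlt Ab t x₀ x₁ := rfl

end Fermat.Agent.MW.HtM.TwoChart
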