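/-
MW / [H-M] — THE CLOSED TWO-CHART INSTANCE.

`TwoChart.localHt` (`TwoChartHt.lean`) builds `LocalHt Ab pinf t m` with `δ := dlt Ab t x₀ x₁`
from the seven chart statements of `TwoChartDefs.lean`.  All seven are theorems:
`RegRing.chartBound0/1` (`ChartBoundRg.lean`), `Adj.FibLipFinal.fibLip0/1`, `CmpRg.cmp`,
`SepRg.sep0/1`.  This file plugs them in:

* `localHtRg` : for ANY finite generating families `x₀ ∋ t` of the chart ring `Rg K t` and
  `x₁ ∋ t⁻¹` of the chart ring `Rg K t⁻¹`, the local height datum with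
  `δ = dlt Ab t (↑x₀) (↑x₁)` (`localHtRg_δ`, by `rfl`);
* `exists_localHt` : such families exist, hence `LocalHt Ab pinf t m` is inhabited, with `δ` of
  the two-chart form.
-/
import Mathlib
import Fermat.Agent.MW.HtM.TwoChartHt
import Fermat.Agent.MW.HtM.ChartBoundRg
import Fermat.Agent.MW.HtM.CmpRg
import Fermat.Agent.MW.HtM.SepRg
import Fermat.Agent.MW.Adj.FibLipFinal

set_option autoImplicit false
set_option linter.style.haveILetI false

noncomputable section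

namespace Fermat.Agent.MW.HtM.TwoChartClosed

open AlgebraicCurve IntermediateField
open Fermat.Agent.Lib.FF Fermat.Agent.Lib.FF.IntP Fermat.Agent.S24
open Fermat.Agent.MW.HtM Fermat.Agent.MW.HtM.RegRing Fermat.Agent.MW.HtM.TwoChart

universe uK uF

variable {K : Type uK} {F : Type uF} [Field K] [Field F] [Algebra K F] [IsAlgClosed K]
variable {V : Type*} (Ab : AbsFamily K V)

/-- **The closed local height datum of the two-chart distance**, for any finite generating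
families `x₀ ∋ t` of the chart ring of `t` (functions regular off `pinf`) and `x₁ ∋ t⁻¹` of the
chart ring of `t⁻¹` (functions regular off the zeros of `t`). -/
def localHtRg (t : F) (ht : Transcendental K t) [FiniteDimensional K⟮t⟯ F] (pinf : Place K F)
    {m : ℕ} (hres : ∀ P : Place K F, RR.ResK P) (hm : 0 < m)
    (ht_reg : ∀ P : Place K F, P ≠ pinf → 0 ≤ P.ord t) (ht_inf : pinf.ord t = -(m : ℤ))
    {n₀ n₁ : ℕ} (x₀ : Fin n₀ → Rg K t) (hx₀ : Algebra.adjoin K (Set.range x₀) = ⊤)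
    (h0 : ∃ i, x₀ i = xInt K t)
    (x₁ : Fin n₁ → Rg K t⁻¹) (hx₁ : Algebra.adjoin K (Set.range x₁) = ⊤)
    (h1 : ∃ i, x₁ i = xInt K t⁻¹) : LocalHt Ab pinf t m :=
  haveI : FiniteDimensional K⟮t⁻¹⟯ F := Transfer.finiteDimensional_inv (K := K) t
  have ht' : Transcendental K t⁻¹ := Transfer.transcendental_inv ht
  have hinf : pinf.ord t < 0 := by rw [ht_inf]; exact neg_lt_zero.2 (by exact_mod_cast hm)
  localHt Ab t pinf (fun i => (x₀ i : F)) (fun i => (x₁ i : F)) hres hm ht_reg ht_inf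
    (h0.imp fun i hi => by rw [hi]; rfl) (h1.imp fun i hi => by rw [hi]; rfl)
    (chartBound0 t ht Ab ht_reg hinf x₀ hx₀) (chartBound1 t ht Ab ht_reg hinf x₁ hx₁)
    (Adj.FibLipFinal.fibLip0 Ab t ht pinf ht_reg hinf _ fun i => (x₀ i).2)
    (Adj.FibLipFinal.fibLip1 Ab t ht' pinf ht_reg hinf _ fun i => (x₁ i).2)
    (CmpRg.cmp t ht Ab pinf x₀ hx₀ x₁)
    (SepRg.sep0 t ht pinf (ord_nonneg_iff_ne t ht_reg hinf) x₀ hx₀)
    (SepRg.sep1 t ht pinf x₁ hx₁)

@[simp] theorem localHtRg_δ (t : F) (ht : Transcendental K t) [FiniteDimensional K⟮t⟯ F]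
    (pinf : Place K F) {m : ℕ} (hres : ∀ P : Place K F, RR.ResK P) (hm : 0 < m)
    (ht_reg : ∀ P : Place K F, P ≠ pinf → 0 ≤ P.ord t) (ht_inf : pinf.ord t = -(m : ℤ))
    {n₀ n₁ : ℕ} (x₀ : Fin n₀ → Rg K t) (hx₀ : Algebra.adjoin K (Set.range x₀) = ⊤)
    (h0 : ∃ i, x₀ i = xInt K t)
    (x₁ : Fin n₁ → Rg K t⁻¹) (hx₁ : Algebra.adjoin K (Set.range x₁) = ⊤)
    (h1 : ∃ i, x₁ i = xInt K t⁻¹) :
    (localHtRg Ab t ht pinf hres hm ht_reg ht_inf x₀ hx₀ h0 x₁ hx₁ h1).δ =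
      dlt Ab t (fun i => (x₀ i : F)) (fun i => (x₁ i : F)) := rfl

/-- **`LocalHt Ab pinf t m` is inhabited**, by a datum whose distance is the two-chart distance
of finite generating families of the two chart rings. -/
theorem exists_localHt (t : F) (ht : Transcendental K t) [FiniteDimensional K⟮t⟯ F]
    (pinf : Place K F) {m : ℕ} (hres : ∀ P : Place K F, RR.ResK P) (hm : 0 < m)
    (ht_reg : ∀ P : Place K F, P ≠ pinf → 0 ≤ P.ord t) (ht_inf : pinf.ord t = -(m : ℤ)) :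
    ∃ (n₀ n₁ : ℕ) (x₀ : Fin n₀ → Rg K t) (x₁ : Fin n₁ → Rg K t⁻¹),
      Algebra.adjoin K (Set.range x₀) = ⊤ ∧ Algebra.adjoin K (Set.range x₁) = ⊤ ∧
      (∃ i, x₀ i = xInt K t) ∧ (∃ i, x₁ i = xInt K t⁻¹) ∧
      ∃ L : LocalHt Ab pinf t m,
        L.δ = dlt Ab t (fun i => (x₀ i : F)) (fun i => (x₁ i : F)) := by
  haveI : FiniteDimensional K⟮t⁻¹⟯ F := Transfer.finiteDimensional_inv (K := K) t
  have ht' : Transcendental K t⁻¹ := Transfer.transcendental_inv ht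
  obtain ⟨n₀, x₀, hx₀, h0⟩ := exists_generators_self t ht
  obtain ⟨n₁, x₁, hx₁, h1⟩ := exists_generators_self t⁻¹ ht'
  exact ⟨n₀, n₁, x₀, x₁, hx₀, hx₁, h0, h1,
    localHtRg Ab t ht pinf hres hm ht_reg ht_inf x₀ hx₀ h0 x₁ hx₁ h1, rfl⟩

/-- `LocalHt Ab pinf t m` is nonempty. -/
theorem nonempty_localHt (t : F) (ht : Transcendental K t) [FiniteDimensional K⟮t⟯ F]
    (pinf : Place K F) {m : ℕ} (hres : ∀ P : Place K F, RR.ResK P) (hm : 0 < m)
    (ht_reg : ∀ P : Place K F, P ≠ pinf → 0 ≤ P.ord t) (ht_inf : pinf.ord t = -(m : ℤ)) :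
    Nonempty (LocalHt Ab pinf t m) := by
  obtain ⟨_, _, _, _, _, _, _, _, L, _⟩ := exists_localHt Ab t ht pinf hres hm ht_reg ht_inf
  exact ⟨L⟩

end Fermat.Agent.MW.HtM.TwoChartClosed
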