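/-
MW / [H-M] — the two-chart assembly (Br6), the part that does not involve `mle` (helper15, split
of helper1's ruling #2 (4)): for the two-chart distance `TwoChart.dlt` of `TwoChartDefs.lean`,

* `lip_two` : the field `lip` of `LocalHt` from the two chart statements `FibLip0`, `FibLip1`
  (all the points of a fibre share the region of `τ`: both `≤ ρ` gives `FibLip0`, both `≥ ρ⁻¹`
  gives `FibLip1` and `a⁻¹ - b⁻¹ = (b - a) / (a b)`, across gives `dlt = 1` and the far lemma);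
* `dlt_pos` : the field `δ_pos` from the separation statements `Sep0`, `Sep1`;
* `dlt_ne_one_finite` : the field `δ_eq_one` from `Sep0`.
-/
import Mathlib
import Fermat.Agent.MW.HtM.TwoChartDefs

set_option autoImplicit false

namespace Fermat.Agent.MW.HtM.TwoChartLip

open AlgebraicCurve Fermat.Agent.Lib.FF Fermat.Agent.MW.HtM Fermat.Agent.MW.HtM.TwoChart

variable {K F V : Type*} [Field K] [Field F] [Algebra K F]
variable {Ab : AbsFamily K V} {t : F} {pinf : Place K F} {n₀ n₁ : ℕ} {x₀ : Fin n₀ → F}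
  {x₁ : Fin n₁ → F}

/-- A place off `pinf` in the region of chart 1 is a place where `t` is a unit. -/
theorem ord_eq_zero_of_le_tabs (ht_reg : ∀ P : Place K F, P ≠ pinf → 0 ≤ P.ord t) {v : V}
    {S : Place K F} (hS : S ≠ pinf) (h : (rho Ab v)⁻¹ ≤ tabs Ab t v S) : S.ord t = 0 := by
  refine le_antisymm (not_lt.mp fun hpos => ?_) (ht_reg S hS)
  have h0 : pval S t = 0 := pval_eq_zero_of_ord_pos hpos
  unfold tabs at h
  rw [h0, map_zero] at h
  have := inv_pos.mpr (rho_pos Ab v)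
  linarith

/-- **The field `δ_pos` of `LocalHt`.** -/
theorem dlt_pos (_hres : ∀ P : Place K F, RR.ResK P)
    (ht_reg : ∀ P : Place K F, P ≠ pinf → 0 ≤ P.ord t) (s0 : Sep0 pinf x₀)
    (s1 : Sep1 t pinf x₁) (v : V) (R S : Place K F) (hR : R ≠ pinf) (hS : S ≠ pinf)
    (hRS : R ≠ S) : 0 < dlt Ab t x₀ x₁ v R S := by
  by_cases h0 : tabs Ab t v R ≤ rho Ab v ∧ tabs Ab t v S ≤ rho Ab v
  · rw [dlt_of_both0 Ab t x₀ x₁ v R S h0]
    obtain ⟨i, hi⟩ := s0 R S hR hS hRS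
    refine lt_min one_pos (lt_of_lt_of_le ?_ (le_pdist Ab x₀ v R S i))
    exact (Ab.abv v).pos (sub_ne_zero.mpr (Ne.symm hi))
  · by_cases h1 : (rho Ab v)⁻¹ ≤ tabs Ab t v R ∧ (rho Ab v)⁻¹ ≤ tabs Ab t v S
    · rw [dlt_of_both1 Ab t x₀ x₁ v R S h0 h1]
      obtain ⟨i, hi⟩ := s1 R S hR hS (ord_eq_zero_of_le_tabs ht_reg hR h1.1)
        (ord_eq_zero_of_le_tabs ht_reg hS h1.2) hRS
      refine lt_min one_pos (lt_of_lt_of_le ?_ (le_pdist Ab x₁ v R S i))
      exact (Ab.abv v).pos (sub_ne_zero.mpr (Ne.symm hi))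
    · rw [dlt_of_neither Ab t x₀ x₁ v R S h0 h1]
      exact one_pos

/-- **The field `δ_eq_one` of `LocalHt`.** -/
theorem dlt_ne_one_finite (s0 : Sep0 pinf x₀) (R S : Place K F) (hR : R ≠ pinf)
    (hS : S ≠ pinf) (hRS : R ≠ S) : {v | dlt Ab t x₀ x₁ v R S ≠ 1}.Finite := by
  obtain ⟨i₀, hi₀⟩ := s0 R S hR hS hRS
  set c : Fin n₀ → K := fun i => pval S (x₀ i) - pval R (x₀ i) with hc
  have hc0 : c i₀ ≠ 0 := sub_ne_zero.mpr (Ne.symm hi₀)
  have hfin : ({v | 1 < Ab.abv v (pval R t)} ∪ {v | 1 < Ab.abv v (pval S t)} ∪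
      (⋃ i, {v | 1 < Ab.abv v (c i)}) ∪ {v | 1 < Ab.abv v (c i₀)⁻¹}).Finite :=
    (((Ab.finite_gt_one _).union (Ab.finite_gt_one _)).union
      (Set.finite_iUnion fun i => Ab.finite_gt_one _)).union (Ab.finite_gt_one _)
  refine hfin.subset ?_
  intro v hv
  by_contra hcon
  simp only [Set.mem_union, Set.mem_ofPred_eq, Set.mem_iUnion, not_or, not_lt, not_exists] at hcon
  obtain ⟨⟨⟨hRt, hSt⟩, hci⟩, hci₀⟩ := hcon
  apply hv
  have hρ := one_le_rho Ab v
  have hr0 : tabs Ab t v R ≤ rho Ab v ∧ tabs Ab t v S ≤ rho Ab v := ⟨hRt.trans hρ, hSt.trans hρ⟩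
  rw [dlt_of_both0 Ab t x₀ x₁ v R S hr0]
  have h1 : pdist Ab x₀ v R S ≤ 1 := Real.iSup_le hci zero_le_one
  have h2 : 1 ≤ pdist Ab x₀ v R S := by
    refine le_trans ?_ (le_pdist Ab x₀ v R S i₀)
    rw [map_inv₀] at hci₀
    exact (inv_le_one₀ ((Ab.abv v).pos hc0)).mp hci₀
  rw [le_antisymm h1 h2]
  exact min_self 1

/-- The points of the fibre of `τ` have value `τ`. -/
theorem pval_eq_of_mem_support {τ : K} {Z : Place K F →₀ ℕ} (hZinf : Z pinf = 0)
    (hZ : ∀ P, P ≠ pinf → (Z P : ℤ) = P.ord (t - algebraMap K F τ)) {S : Place K F}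
    (hS : S ∈ Z.support) : pval S t = τ := by
  have hS0 : Z S ≠ 0 := Finsupp.mem_support_iff.mp hS
  have hSinf : S ≠ pinf := fun h => hS0 (by rw [h]; exact hZinf)
  have hpos : 0 < S.ord (t - algebraMap K F τ) := by
    rw [← hZ S hSinf]
    exact_mod_cast Nat.pos_of_ne_zero hS0
  have hne : t - algebraMap K F τ ≠ 0 := by
    intro h
    rw [h] at hpos
    simp at hpos
  refine pval_eq S ?_
  rw [S.adicValuation_eq_exp_neg_ord hne, ← WithZero.exp_zero, WithZero.exp_lt_exp]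
  omega

/-- Far apart in value: `|a| ≤ ρ · |a - b|` when `ρ < |a|` and `|b| < ρ⁻¹`. -/
theorem abv_le_rho_mul_sub (v : V) (a b : K) (ha : rho Ab v < Ab.abv v a)
    (hb : Ab.abv v b < (rho Ab v)⁻¹) : Ab.abv v a ≤ rho Ab v * Ab.abv v (a - b) := by
  refine far_lemma Ab v ?_
  have h1 : rho Ab v * Ab.abv v b < rho Ab v * (rho Ab v)⁻¹ :=
    mul_lt_mul_of_pos_left hb (rho_pos Ab v)
  rw [mul_inv_cancel₀ (rho_pos Ab v).ne'] at h1
  have h2 := one_le_rho Ab v
  linarith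

/-- **The field `lip` of `LocalHt`** for the two-chart distance, from the fibre Lipschitz bounds
on the two charts. -/
theorem lip_two (_hres : ∀ P : Place K F, RR.ResK P)
    (_ht_reg : ∀ P : Place K F, P ≠ pinf → 0 ≤ P.ord t)
    (l0 : FibLip0 Ab t pinf x₀) (l1 : FibLip1 Ab t pinf x₁) :
    ∃ C : V → ℝ, Tame C ∧ ∀ (v : V) (R : Place K F), R ≠ pinf →
      ∀ (τ : K) (Z : Place K F →₀ ℕ), Z pinf = 0 →
        (∀ P, P ≠ pinf → (Z P : ℤ) = P.ord (t - algebraMap K F τ)) →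
        (Z.prod fun S n => dlt Ab t x₀ x₁ v R S ^ n) *
            (max 1 (Ab.abv v (pval R t)) * max 1 (Ab.abv v τ)) ≤
          C v * Ab.abv v (pval R t - τ) := by
  obtain ⟨C0, hC0, h0⟩ := l0
  obtain ⟨C1, hC1, h1⟩ := l1
  have hρt := tame_rho Ab
  refine ⟨fun v => rho Ab v ^ 2 * (C0 v * C1 v), (hρt.pow 2).mul (hC0.mul hC1), ?_⟩
  intro v R hR τ Z hZinf hZ
  have hρ1 : 1 ≤ rho Ab v := one_le_rho Ab v
  have hρ0 : 0 < rho Ab v := rho_pos Ab v
  have hρinv : (rho Ab v)⁻¹ ≤ 1 := rho_inv_le_one Ab v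
  have hC0v : 1 ≤ C0 v := hC0.1 v
  have hC1v : 1 ≤ C1 v := hC1.1 v
  have hX : 0 ≤ Ab.abv v (pval R t - τ) := (Ab.abv v).nonneg _
  have hfib : ∀ S ∈ Z.support, tabs Ab t v S = Ab.abv v τ := fun S hS => by
    unfold tabs
    rw [pval_eq_of_mem_support hZinf hZ hS]
  have hδ0 : ∀ S, 0 ≤ dlt Ab t x₀ x₁ v R S := fun S => dlt_nonneg Ab t x₀ x₁ v R S
  have hmaxa : 0 ≤ max 1 (Ab.abv v (pval R t)) := le_trans zero_le_one (le_max_left _ _)
  have hmaxτ : 0 ≤ max 1 (Ab.abv v τ) := le_trans zero_le_one (le_max_left _ _)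
  by_cases hA : Ab.abv v (pval R t) ≤ rho Ab v ∧ Ab.abv v τ ≤ rho Ab v
  · -- both in the region of chart 0
    have hδ : ∀ S ∈ Z.support, dlt Ab t x₀ x₁ v R S ≤ pdist Ab x₀ v S R := by
      intro S hS
      have hS0 : tabs Ab t v R ≤ rho Ab v ∧ tabs Ab t v S ≤ rho Ab v :=
        ⟨hA.1, by rw [hfib S hS]; exact hA.2⟩
      rw [dlt_of_both0 Ab t x₀ x₁ v R S hS0, pdist_comm]
      exact min_le_right _ _
    have hprod : (Z.prod fun S n => dlt Ab t x₀ x₁ v R S ^ n) ≤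
        Z.prod fun S n => pdist Ab x₀ v S R ^ n :=
      Finset.prod_le_prod (fun S _ => pow_nonneg (hδ0 S) _)
        (fun S hS => pow_le_pow_left₀ (hδ0 S) (hδ S hS) _)
    have hL := h0 v R hR hA.1 τ hA.2 Z hZinf hZ
    have hmax : max 1 (Ab.abv v (pval R t)) * max 1 (Ab.abv v τ) ≤ rho Ab v ^ 2 := by
      rw [pow_two]
      exact mul_le_mul (max_le hρ1 hA.1) (max_le hρ1 hA.2) hmaxτ hρ0.le
    calc (Z.prod fun S n => dlt Ab t x₀ x₁ v R S ^ n) *
          (max 1 (Ab.abv v (pval R t)) * max 1 (Ab.abv v τ))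
        ≤ (C0 v * Ab.abv v (pval R t - τ)) * rho Ab v ^ 2 :=
          mul_le_mul (hprod.trans hL) hmax (mul_nonneg hmaxa hmaxτ)
            (mul_nonneg (by linarith) hX)
      _ = rho Ab v ^ 2 * (C0 v * 1) * Ab.abv v (pval R t - τ) := by ring
      _ ≤ rho Ab v ^ 2 * (C0 v * C1 v) * Ab.abv v (pval R t - τ) := by
          refine mul_le_mul_of_nonneg_right ?_ hX
          refine mul_le_mul_of_nonneg_left ?_ (by positivity)
          exact mul_le_mul_of_nonneg_left hC1v (by linarith)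
  by_cases hB : (rho Ab v)⁻¹ ≤ Ab.abv v (pval R t) ∧ (rho Ab v)⁻¹ ≤ Ab.abv v τ
  · -- both in the region of chart 1
    have hδ : ∀ S ∈ Z.support, dlt Ab t x₀ x₁ v R S ≤ pdist Ab x₁ v S R := by
      intro S hS
      have hS0 : ¬ (tabs Ab t v R ≤ rho Ab v ∧ tabs Ab t v S ≤ rho Ab v) := by
        rintro ⟨hr, hs⟩
        rw [hfib S hS] at hs
        exact hA ⟨hr, hs⟩
      have hS1 : (rho Ab v)⁻¹ ≤ tabs Ab t v R ∧ (rho Ab v)⁻¹ ≤ tabs Ab t v S :=
        ⟨hB.1, by rw [hfib S hS]; exact hB.2⟩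
      rw [dlt_of_both1 Ab t x₀ x₁ v R S hS0 hS1, pdist_comm]
      exact min_le_right _ _
    have hprod : (Z.prod fun S n => dlt Ab t x₀ x₁ v R S ^ n) ≤
        Z.prod fun S n => pdist Ab x₁ v S R ^ n :=
      Finset.prod_le_prod (fun S _ => pow_nonneg (hδ0 S) _)
        (fun S hS => pow_le_pow_left₀ (hδ0 S) (hδ S hS) _)
    have hL := h1 v R hR hB.1 τ hB.2 Z hZinf hZ
    have hinvpos : 0 < (rho Ab v)⁻¹ := inv_pos.mpr hρ0
    have ha0 : 0 < Ab.abv v (pval R t) := lt_of_lt_of_le hinvpos hB.1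
    have hτ0 : 0 < Ab.abv v τ := lt_of_lt_of_le hinvpos hB.2
    have hane : pval R t ≠ 0 := (Ab.abv v).pos_iff.mp ha0
    have hτne : τ ≠ 0 := (Ab.abv v).pos_iff.mp hτ0
    have hinv : Ab.abv v ((pval R t)⁻¹ - τ⁻¹) =
        Ab.abv v (pval R t - τ) / (Ab.abv v (pval R t) * Ab.abv v τ) := by
      have e : (pval R t)⁻¹ - τ⁻¹ = (τ - pval R t) / (pval R t * τ) := by
        field_simp
      rw [e, map_div₀, map_mul, (Ab.abv v).map_sub τ (pval R t)]
    have hma : max 1 (Ab.abv v (pval R t)) ≤ rho Ab v * Ab.abv v (pval R t) := by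
      refine max_le ?_ (le_mul_of_one_le_left ha0.le hρ1)
      have := mul_le_mul_of_nonneg_left hB.1 hρ0.le
      rwa [mul_inv_cancel₀ hρ0.ne'] at this
    have hmτ : max 1 (Ab.abv v τ) ≤ rho Ab v * Ab.abv v τ := by
      refine max_le ?_ (le_mul_of_one_le_left hτ0.le hρ1)
      have := mul_le_mul_of_nonneg_left hB.2 hρ0.le
      rwa [mul_inv_cancel₀ hρ0.ne'] at this
    have hmax : max 1 (Ab.abv v (pval R t)) * max 1 (Ab.abv v τ) ≤
        (rho Ab v * Ab.abv v (pval R t)) * (rho Ab v * Ab.abv v τ) :=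
      mul_le_mul hma hmτ hmaxτ (mul_nonneg hρ0.le ha0.le)
    rw [hinv] at hL
    calc (Z.prod fun S n => dlt Ab t x₀ x₁ v R S ^ n) *
          (max 1 (Ab.abv v (pval R t)) * max 1 (Ab.abv v τ))
        ≤ (C1 v * (Ab.abv v (pval R t - τ) / (Ab.abv v (pval R t) * Ab.abv v τ))) *
            ((rho Ab v * Ab.abv v (pval R t)) * (rho Ab v * Ab.abv v τ)) :=
          mul_le_mul (hprod.trans hL) hmax (mul_nonneg hmaxa hmaxτ)
            (mul_nonneg (by linarith) (div_nonneg hX (mul_nonneg ha0.le hτ0.le)))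
      _ = rho Ab v ^ 2 * (1 * C1 v) * Ab.abv v (pval R t - τ) := by
          field_simp
      _ ≤ rho Ab v ^ 2 * (C0 v * C1 v) * Ab.abv v (pval R t - τ) := by
          refine mul_le_mul_of_nonneg_right ?_ hX
          refine mul_le_mul_of_nonneg_left ?_ (by positivity)
          exact mul_le_mul_of_nonneg_right hC0v (by linarith)
  · -- across: `dlt = 1` on the whole fibre
    have hδ : ∀ S ∈ Z.support, dlt Ab t x₀ x₁ v R S = 1 := by
      intro S hS
      have hS0 : ¬ (tabs Ab t v R ≤ rho Ab v ∧ tabs Ab t v S ≤ rho Ab v) := by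
        rintro ⟨hr, hs⟩
        rw [hfib S hS] at hs
        exact hA ⟨hr, hs⟩
      have hS1 : ¬ ((rho Ab v)⁻¹ ≤ tabs Ab t v R ∧ (rho Ab v)⁻¹ ≤ tabs Ab t v S) := by
        rintro ⟨hr, hs⟩
        rw [hfib S hS] at hs
        exact hB ⟨hr, hs⟩
      exact dlt_of_neither Ab t x₀ x₁ v R S hS0 hS1
    have hprod : (Z.prod fun S n => dlt Ab t x₀ x₁ v R S ^ n) = 1 :=
      Finset.prod_eq_one fun S hS => by
        show dlt Ab t x₀ x₁ v R S ^ Z S = 1
        rw [hδ S hS, one_pow]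
    rw [hprod, one_mul]
    have hkey : max 1 (Ab.abv v (pval R t)) * max 1 (Ab.abv v τ) ≤
        rho Ab v * Ab.abv v (pval R t - τ) := by
      by_cases ha : Ab.abv v (pval R t) ≤ rho Ab v
      · -- then `|τ| > ρ` and `|t(R)| < ρ⁻¹`
        have hτ : rho Ab v < Ab.abv v τ := not_le.mp fun h => hA ⟨ha, h⟩
        have ha' : Ab.abv v (pval R t) < (rho Ab v)⁻¹ := by
          by_contra hcon
          exact hB ⟨not_lt.mp hcon, by linarith⟩
        rw [max_eq_left (by linarith), max_eq_right (by linarith), one_mul,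
          (Ab.abv v).map_sub (pval R t) τ]
        exact abv_le_rho_mul_sub v τ (pval R t) hτ ha'
      · have ha1 : rho Ab v < Ab.abv v (pval R t) := not_le.mp ha
        have hτ' : Ab.abv v τ < (rho Ab v)⁻¹ := by
          by_contra hcon
          exact hB ⟨by linarith, not_lt.mp hcon⟩
        rw [max_eq_right (by linarith), max_eq_left (by linarith), mul_one]
        exact abv_le_rho_mul_sub v (pval R t) τ ha1 hτ'
    calc max 1 (Ab.abv v (pval R t)) * max 1 (Ab.abv v τ)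
        ≤ rho Ab v * Ab.abv v (pval R t - τ) := hkey
      _ ≤ rho Ab v ^ 2 * (C0 v * C1 v) * Ab.abv v (pval R t - τ) := by
          refine mul_le_mul_of_nonneg_right ?_ hX
          have h2 : rho Ab v ≤ rho Ab v ^ 2 := by nlinarith
          have h3 : 1 ≤ C0 v * C1 v := one_le_mul_of_one_le_of_one_le hC0v hC1v
          nlinarith

end Fermat.Agent.MW.HtM.TwoChartLip
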